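/-
PROJECT F (S28, Igusa), tool file (helper25): the substitution `q ↦ u q` (`u` a unit) on Laurent
series over a commutative ring, as a ring / algebra automorphism `rescaleU u`, `rescaleA u`:

* `coeff_rescaleU : (rescaleU u f).coeff n = u ^ n * f.coeff n` (`n : ℤ`);
* group action: `rescaleU_mul`, `rescaleU_one`, `rescaleU_pow`; `rescaleU_single`, `rescaleU_C`,
  `rescaleU_ofPowerSeries` (`= PowerSeries.rescale`), `order_rescaleU`, `coeffMap_rescaleU`;
* interplay with `q ↦ q^N` (`ModularCurve.qExpand`): `rescaleU_qExpand`,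
  `rescaleU_qExpand_of_pow_eq_one`; the contraction `qContract N` (`coeff k = f.coeff (N k)`),
  `mem_range_qExpand_iff`;
* over a domain, for `ζ` of exact order `N`: `rescaleU_eq_self_iff : rescaleU ζ f = f ↔
  f ∈ range (qExpand R N)` (the fixed ring of `q ↦ ζ q` is the ring of series in `q^N`);
* `eq_of_rescaleU_eq`: the series `rescaleU u f` (`f` with a nonzero coefficient at `q⁻¹`)
  determine `u`.
-/
import Mathlib
import Fermat.Prelude.Def_ModularCurve_X0
import Fermat.Prelude.Def_ModularCurve_LaurentCoeff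

set_option autoImplicit false

noncomputable section

namespace Fermat.Agent.S28.LaurentRescale

open HahnSeries ModularCurve

variable {R : Type*} [CommRing R]

/-- The underlying function of the substitution `q ↦ u q`. -/
def rescaleFun (u : Rˣ) (f : LaurentSeries R) : LaurentSeries R where
  coeff n := ((u ^ n : Rˣ) : R) * f.coeff n
  isPWO_support' := f.isPWO_support.mono (fun n hn => by
    simp only [Function.mem_support, ne_eq] at hn ⊢
    intro h
    exact hn (by rw [h, mul_zero]))

@[simp] theorem coeff_rescaleFun (u : Rˣ) (f : LaurentSeries R) (n : ℤ) :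
    (rescaleFun u f).coeff n = ((u ^ n : Rˣ) : R) * f.coeff n := rfl

theorem support_rescaleFun (u : Rˣ) (f : LaurentSeries R) :
    (rescaleFun u f).support = f.support := by
  ext n
  simp only [mem_support, coeff_rescaleFun, ne_eq]
  exact not_congr (Units.mul_right_eq_zero _)

theorem rescaleFun_mul (u : Rˣ) (f g : LaurentSeries R) :
    rescaleFun u (f * g) = rescaleFun u f * rescaleFun u g := by
  ext n
  rw [coeff_rescaleFun, coeff_mul, coeff_mul, Finset.mul_sum]
  have hs : Finset.antidiagonal (rescaleFun u f).isPWO_support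
      (rescaleFun u g).isPWO_support n =
      Finset.antidiagonal f.isPWO_support g.isPWO_support n := by
    ext ij
    simp only [Finset.mem_antidiagonal, support_rescaleFun]
  rw [hs]
  refine Finset.sum_congr rfl fun ij hij => ?_
  obtain ⟨_, _, h⟩ := Finset.mem_antidiagonal.mp hij
  simp only [coeff_rescaleFun]
  rw [← h, zpow_add]
  push_cast
  ring

theorem rescaleFun_add (u : Rˣ) (f g : LaurentSeries R) :
    rescaleFun u (f + g) = rescaleFun u f + rescaleFun u g := by
  ext n
  simp [mul_add]

theorem rescaleFun_single (u : Rˣ) (n : ℤ) (r : R) :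
    rescaleFun u (single n r) = single n (((u ^ n : Rˣ) : R) * r) := by
  ext m
  by_cases h : m = n
  · subst h
    simp
  · simp [coeff_single_of_ne h]

theorem rescaleFun_one_arg (u : Rˣ) : rescaleFun u (1 : LaurentSeries R) = 1 := by
  have : (1 : LaurentSeries R) = single 0 1 := rfl
  rw [this, rescaleFun_single]
  simp

theorem rescaleFun_zero (u : Rˣ) : rescaleFun u (0 : LaurentSeries R) = 0 := by
  ext n
  simp

/-- The substitution `q ↦ u q` on Laurent series, as a ring homomorphism. -/
def rescaleHom (u : Rˣ) : LaurentSeries R →+* LaurentSeries R where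
  toFun := rescaleFun u
  map_one' := rescaleFun_one_arg u
  map_mul' := rescaleFun_mul u
  map_zero' := rescaleFun_zero u
  map_add' := rescaleFun_add u

@[simp] theorem coeff_rescaleHom (u : Rˣ) (f : LaurentSeries R) (n : ℤ) :
    (rescaleHom u f).coeff n = ((u ^ n : Rˣ) : R) * f.coeff n := rfl

theorem rescaleHom_mul (u v : Rˣ) (f : LaurentSeries R) :
    rescaleHom (u * v) f = rescaleHom u (rescaleHom v f) := by
  ext n
  simp only [coeff_rescaleHom, mul_zpow, Units.val_mul]
  ring

@[simp] theorem rescaleHom_one (f : LaurentSeries R) : rescaleHom (1 : Rˣ) f = f := by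
  ext n
  simp

/-- The substitution `q ↦ u q` as a ring automorphism. -/
def rescaleU (u : Rˣ) : LaurentSeries R ≃+* LaurentSeries R :=
  { rescaleHom u with
    invFun := rescaleHom u⁻¹
    left_inv := fun f => by
      show rescaleHom u⁻¹ (rescaleHom u f) = f
      rw [← rescaleHom_mul, inv_mul_cancel, rescaleHom_one]
    right_inv := fun f => by
      show rescaleHom u (rescaleHom u⁻¹ f) = f
      rw [← rescaleHom_mul, mul_inv_cancel, rescaleHom_one] }

@[simp] theorem coeff_rescaleU (u : Rˣ) (f : LaurentSeries R) (n : ℤ) :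
    (rescaleU u f).coeff n = ((u ^ n : Rˣ) : R) * f.coeff n := rfl

theorem rescaleU_apply (u : Rˣ) (f : LaurentSeries R) : rescaleU u f = rescaleHom u f := rfl

theorem rescaleU_symm_apply (u : Rˣ) (f : LaurentSeries R) :
    (rescaleU u).symm f = rescaleU u⁻¹ f := rfl

theorem rescaleU_mul (u v : Rˣ) (f : LaurentSeries R) :
    rescaleU (u * v) f = rescaleU u (rescaleU v f) := rescaleHom_mul u v f

@[simp] theorem rescaleU_one (f : LaurentSeries R) : rescaleU (1 : Rˣ) f = f := rescaleHom_one f

theorem rescaleU_pow (u : Rˣ) (n : ℕ) (f : LaurentSeries R) :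
    rescaleU (u ^ n) f = (rescaleU u)^[n] f := by
  induction n generalizing f with
  | zero => simp
  | succ n ih =>
    rw [pow_succ, rescaleU_mul, ih, Function.iterate_succ_apply]

@[simp] theorem rescaleU_single (u : Rˣ) (n : ℤ) (r : R) :
    rescaleU u (single n r) = single n (((u ^ n : Rˣ) : R) * r) := rescaleFun_single u n r

@[simp] theorem rescaleU_C (u : Rˣ) (r : R) : rescaleU u (C r) = C r := by
  have : (C r : LaurentSeries R) = single 0 r := rfl
  rw [this, rescaleU_single]
  simp

theorem support_rescaleU (u : Rˣ) (f : LaurentSeries R) :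
    (rescaleU u f).support = f.support := support_rescaleFun u f

theorem order_rescaleU (u : Rˣ) (f : LaurentSeries R) : (rescaleU u f).order = f.order := by
  by_cases hf : f = 0
  · subst hf
    simp
  · have hf' : rescaleU u f ≠ 0 := fun h => hf ((rescaleU u).injective (by rw [h, map_zero]))
    rw [order_of_ne hf', order_of_ne hf]
    congr 1
    exact support_rescaleU u f

theorem algebraMap_eq_single (r : R) :
    algebraMap R (LaurentSeries R) r = single 0 r := by
  have h1 : algebraMap R (PowerSeries R) r = PowerSeries.C r := by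
    simp
  rw [HahnSeries.algebraMap_apply', h1, HahnSeries.ofPowerSeries_C]
  rfl

/-- The substitution `q ↦ u q` as an `R`-algebra automorphism. -/
def rescaleA (u : Rˣ) : LaurentSeries R ≃ₐ[R] LaurentSeries R :=
  { rescaleU u with
    commutes' := fun r => by
      show rescaleU u (algebraMap R (LaurentSeries R) r) = algebraMap R (LaurentSeries R) r
      rw [algebraMap_eq_single, rescaleU_single]
      simp }

@[simp] theorem rescaleA_apply (u : Rˣ) (f : LaurentSeries R) : rescaleA u f = rescaleU u f := rfl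

/-- On power series, `q ↦ u q` is `PowerSeries.rescale`. -/
theorem rescaleU_ofPowerSeries (u : Rˣ) (f : PowerSeries R) :
    rescaleU u (ofPowerSeries ℤ R f) = ofPowerSeries ℤ R (PowerSeries.rescale (u : R) f) := by
  ext n
  rw [coeff_rescaleU]
  rcases lt_or_ge n 0 with hn | hn
  · rw [ModularCurve.ofPowerSeries_coeff_of_neg _ hn, ModularCurve.ofPowerSeries_coeff_of_neg _ hn,
      mul_zero]
  · obtain ⟨m, rfl⟩ := Int.eq_ofNat_of_zero_le hn
    rw [ofPowerSeries_apply_coeff, ofPowerSeries_apply_coeff, PowerSeries.coeff_rescale,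
      zpow_natCast, Units.val_pow_eq_pow_val]

/-- Compatibility with coefficientwise ring homomorphisms. -/
theorem coeffMap_rescaleU {S : Type*} [CommRing S] (φ : R →+* S) (u : Rˣ)
    (f : LaurentSeries R) :
    coeffMap φ (rescaleU u f) = rescaleU (Units.map φ.toMonoidHom u) (coeffMap φ f) := by
  ext n
  show φ (((u ^ n : Rˣ) : R) * f.coeff n) =
    (((Units.map φ.toMonoidHom u) ^ n : Sˣ) : S) * φ (f.coeff n)
  rw [map_mul, ← map_zpow]
  rfl

section QExpand

variable (N : ℕ) [NeZero N]

/-- `(q ↦ u q) ∘ (q ↦ q^N) = (q ↦ q^N) ∘ (q ↦ u^N q)`. -/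
theorem rescaleU_qExpand (u : Rˣ) (f : LaurentSeries R) :
    rescaleU u (qExpand R N f) = qExpand R N (rescaleU (u ^ N) f) := by
  ext k
  by_cases hk : (N : ℤ) ∣ k
  · obtain ⟨m, rfl⟩ := hk
    rw [coeff_rescaleU, qExpand_coeff_mul, qExpand_coeff_mul, coeff_rescaleU, zpow_mul,
      zpow_natCast]
  · rw [coeff_rescaleU, qExpand_coeff_of_not_dvd N _ hk, qExpand_coeff_of_not_dvd N _ hk,
      mul_zero]

/-- `q ↦ u q` fixes the series in `q^N` when `u^N = 1`. -/
theorem rescaleU_qExpand_of_pow_eq_one {u : Rˣ} (hu : u ^ N = 1) (f : LaurentSeries R) :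
    rescaleU u (qExpand R N f) = qExpand R N f := by
  rw [rescaleU_qExpand, hu, rescaleU_one]

/-- The coefficients `k ↦ f.coeff (N k)`: a left inverse of `q ↦ q^N`. -/
theorem bddBelow_support_contract (f : LaurentSeries R) :
    BddBelow (Function.support fun k : ℤ => f.coeff ((N : ℤ) * k)) := by
  refine ⟨min f.order 0, fun k hk => ?_⟩
  by_contra hlt
  rw [not_le] at hlt
  have hN : (1 : ℤ) ≤ N := by exact_mod_cast Nat.pos_of_ne_zero (NeZero.ne N)
  have hk0 : k < 0 := lt_of_lt_of_le hlt (min_le_right _ _)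
  have hkb : k < f.order := lt_of_lt_of_le hlt (min_le_left _ _)
  refine hk (coeff_eq_zero_of_lt_order (lt_of_le_of_lt ?_ hkb))
  nlinarith

def qContract (f : LaurentSeries R) : LaurentSeries R :=
  ofSuppBddBelow (fun k : ℤ => f.coeff ((N : ℤ) * k)) (bddBelow_support_contract N f)

@[simp] theorem coeff_qContract (f : LaurentSeries R) (k : ℤ) :
    (qContract N f).coeff k = f.coeff ((N : ℤ) * k) := by
  rw [qContract, coeff_ofSuppBddBelow]

@[simp] theorem qContract_qExpand (f : LaurentSeries R) : qContract N (qExpand R N f) = f := by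
  ext k
  simp

theorem qExpand_qContract {f : LaurentSeries R}
    (hf : ∀ k : ℤ, ¬ (N : ℤ) ∣ k → f.coeff k = 0) : qExpand R N (qContract N f) = f := by
  ext k
  by_cases hk : (N : ℤ) ∣ k
  · obtain ⟨m, rfl⟩ := hk
    simp
  · rw [qExpand_coeff_of_not_dvd N _ hk, hf k hk]

theorem mem_range_qExpand_iff (f : LaurentSeries R) :
    f ∈ Set.range (qExpand R N) ↔ ∀ k : ℤ, ¬ (N : ℤ) ∣ k → f.coeff k = 0 := by
  constructor
  · rintro ⟨g, rfl⟩ k hk
    exact qExpand_coeff_of_not_dvd N g hk
  · intro hf
    exact ⟨qContract N f, qExpand_qContract N hf⟩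

end QExpand

section Fixed

variable [IsDomain R]

/-- **The fixed ring of `q ↦ ζ q`** for `ζ` of exact order `N` is the ring of series in `q^N`. -/
theorem rescaleU_eq_self_iff (N : ℕ) [NeZero N] {ζ : Rˣ} (hζ : orderOf ζ = N)
    (f : LaurentSeries R) :
    rescaleU ζ f = f ↔ f ∈ Set.range (qExpand R N) := by
  rw [mem_range_qExpand_iff]
  constructor
  · intro h k hk
    have hc := congrArg (fun g : LaurentSeries R => g.coeff k) h
    simp only [coeff_rescaleU] at hc
    by_contra hne
    have h1 : ((ζ ^ k : Rˣ) : R) = 1 := by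
      have : (((ζ ^ k : Rˣ) : R) - 1) * f.coeff k = 0 := by rw [sub_mul, hc, one_mul, sub_self]
      rcases mul_eq_zero.mp this with h0 | h0
      · exact sub_eq_zero.mp h0
      · exact absurd h0 hne
    have h2 : ζ ^ k = 1 := Units.ext h1
    rw [← hζ] at hk
    exact hk (orderOf_dvd_iff_zpow_eq_one.mpr h2)
  · intro hf
    obtain ⟨g, rfl⟩ := (mem_range_qExpand_iff N f).mpr hf
    exact rescaleU_qExpand_of_pow_eq_one N (by rw [← hζ, pow_orderOf_eq_one]) g

/-- Two substitutions `q ↦ u q`, `q ↦ v q` agree on a series with a nonzero coefficient at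
`q⁻¹` only if `u = v`. -/
theorem eq_of_rescaleU_eq {u v : Rˣ} {f : LaurentSeries R} (hf : f.coeff (-1) ≠ 0)
    (h : rescaleU u f = rescaleU v f) : u = v := by
  have hc := congrArg (fun g : LaurentSeries R => g.coeff (-1)) h
  simp only [coeff_rescaleU] at hc
  have h1 : ((u ^ (-1 : ℤ) : Rˣ) : R) = ((v ^ (-1 : ℤ) : Rˣ) : R) := mul_right_cancel₀ hf hc
  have h2 : u ^ (-1 : ℤ) = v ^ (-1 : ℤ) := Units.ext h1
  simpa using h2

end Fixed

end Fermat.Agent.S28.LaurentRescale
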