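import Mathlib
import Fermat.Prelude.Def_ModularCurve_LaurentCoeff

/-!
# S28 (Igusa), step (II)(d): `B ⊗[R] K` is a domain

`R → k` a surjection onto a field (`R = ℤ_(ℓ)`, `k = 𝔽_ℓ`), `K` a field extension of `k`,
`B` an `R`-algebra with a ring homomorphism `ρ : B → k((q))` (the reduction of `q`-expansions)
compatible with `R → k` and with kernel `𝔪 B` (`𝔪 = ker (R → k)`).  Then `B ⊗[R] K` embeds into
`K((q))`, hence is a domain.
-/

set_option autoImplicit false

noncomputable section

namespace Fermat.Agent.S28.TensorDomain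

open TensorProduct

variable {R k K B : Type*} [CommRing R] [Field k] [Field K] [CommRing B]
  [Algebra R k] [Algebra R K] [Algebra k K] [IsScalarTower R k K] [Algebra R B]

/-- the elements of `𝔪 B` die in `B ⊗[R] K` -/
theorem tmul_eq_zero_of_mem (y : B)
    (hy : y ∈ Ideal.map (algebraMap R B) (RingHom.ker (algebraMap R k))) (c : K) :
    y ⊗ₜ[R] c = 0 := by
  rw [Ideal.map] at hy
  induction hy using Submodule.span_induction with
  | mem y hy =>
    obtain ⟨m, hm, rfl⟩ := hy
    have hm' : algebraMap R k m = 0 := hm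
    have h1 : m • c = 0 := by
      rw [Algebra.smul_def, IsScalarTower.algebraMap_apply R k K, hm', map_zero, zero_mul]
    rw [Algebra.algebraMap_eq_smul_one, TensorProduct.smul_tmul, h1, tmul_zero]
  | zero => exact zero_tmul _ _
  | add y z _ _ hy hz => rw [add_tmul, hy, hz, add_zero]
  | smul a y _ hy =>
    rw [smul_eq_mul]
    have : (a * y) ⊗ₜ[R] c = a • (y ⊗ₜ[R] c) := by
      rw [TensorProduct.smul_tmul', smul_eq_mul]
    rw [this, hy, smul_zero]

variable (K) in
/-- the `R`-algebra structure on `K((q))` through `R → K` -/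
abbrev laurentAlgebra : Algebra R (LaurentSeries K) :=
  ((HahnSeries.C : K →+* LaurentSeries K).comp (algebraMap R K)).toAlgebra

section Phi

variable (ρ : B →+* LaurentSeries k)
  (hρR : ∀ r : R, ρ (algebraMap R B r) = HahnSeries.C (algebraMap R k r))

/-- `b ↦ ρ b` with coefficients pushed to `K`, as an `R`-algebra map -/
def fB : letI := laurentAlgebra (R := R) K; B →ₐ[R] LaurentSeries K :=
  letI := laurentAlgebra (R := R) K
  { (ModularCurve.coeffMap (algebraMap k K)).comp ρ with
    commutes' := fun r => by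
      show ModularCurve.coeffMap (algebraMap k K) (ρ (algebraMap R B r)) =
        HahnSeries.C (algebraMap R K r)
      rw [hρR r, IsScalarTower.algebraMap_apply R k K, HahnSeries.C_apply,
        ModularCurve.coeffMap_single, ← HahnSeries.C_apply] }

/-- the constants `K → K((q))`, as an `R`-algebra map -/
def gK : letI := laurentAlgebra (R := R) K; K →ₐ[R] LaurentSeries K :=
  letI := laurentAlgebra (R := R) K
  { (HahnSeries.C : K →+* LaurentSeries K) with
    commutes' := fun _ => rfl }

/-- `Φ (b ⊗ c) = ρ_K(b) * c` -/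
def Phi : letI := laurentAlgebra (R := R) K; B ⊗[R] K →ₐ[R] LaurentSeries K :=
  letI := laurentAlgebra (R := R) K
  Algebra.TensorProduct.productMap (fB ρ hρR) (gK (R := R) (K := K))

theorem Phi_tmul (b : B) (c : K) :
    Phi (R := R) ρ hρR (b ⊗ₜ[R] c) =
      ModularCurve.coeffMap (algebraMap k K) (ρ b) * HahnSeries.C c := by
  letI := laurentAlgebra (R := R) K
  rw [Phi, Algebra.TensorProduct.productMap_apply_tmul]
  rfl

theorem coeff_Phi_tmul (b : B) (c : K) (n : ℤ) :
    (Phi (R := R) ρ hρR (b ⊗ₜ[R] c)).coeff n = (ρ b).coeff n • c := by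
  rw [Phi_tmul, mul_comm, HahnSeries.C_mul_eq_smul, HahnSeries.coeff_smul,
    ModularCurve.coeffMap_coeff, smul_eq_mul, Algebra.smul_def, mul_comm]

end Phi

section Repr

/-- every element of `B ⊗[R] K` is a finite sum `∑ x_i ⊗ β_i` on a `k`-basis `β` of `K` -/
theorem exists_finsupp_repr (hk : Function.Surjective (algebraMap R k)) {I : Type*}
    (β : Module.Basis I k K) (z : B ⊗[R] K) :
    ∃ f : I →₀ B, z = f.sum (fun i x => x ⊗ₜ[R] β i) := by
  have hadd : ∀ z₁ z₂ : B ⊗[R] K,
      (∃ f : I →₀ B, z₁ = f.sum (fun i x => x ⊗ₜ[R] β i)) →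
      (∃ f : I →₀ B, z₂ = f.sum (fun i x => x ⊗ₜ[R] β i)) →
      ∃ f : I →₀ B, z₁ + z₂ = f.sum (fun i x => x ⊗ₜ[R] β i) := by
    rintro z₁ z₂ ⟨f₁, rfl⟩ ⟨f₂, rfl⟩
    refine ⟨f₁ + f₂, ?_⟩
    rw [Finsupp.sum_add_index']
    · intro i; exact zero_tmul _ _
    · intro i x y; exact add_tmul _ _ _
  have hsmul : ∀ (r : R) (z₁ : B ⊗[R] K),
      (∃ f : I →₀ B, z₁ = f.sum (fun i x => x ⊗ₜ[R] β i)) →
      ∃ f : I →₀ B, r • z₁ = f.sum (fun i x => x ⊗ₜ[R] β i) := by
    rintro r z₁ ⟨f₁, rfl⟩
    refine ⟨r • f₁, ?_⟩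
    rw [Finsupp.sum_smul_index' (h := fun i x => x ⊗ₜ[R] β i) (fun i => zero_tmul _ _),
      Finsupp.smul_sum]
    refine Finsupp.sum_congr fun i _ => ?_
    rw [TensorProduct.smul_tmul']
  induction z using TensorProduct.induction_on with
  | zero => exact ⟨0, by rw [Finsupp.sum_zero_index]⟩
  | add z₁ z₂ h₁ h₂ => exact hadd z₁ z₂ h₁ h₂
  | tmul b c =>
    have hc : c ∈ Submodule.span k (Set.range β) := by
      rw [β.span_eq]; exact Submodule.mem_top
    induction hc using Submodule.span_induction with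
    | mem c hc =>
      obtain ⟨i, rfl⟩ := hc
      exact ⟨Finsupp.single i b, by
        rw [Finsupp.sum_single_index (h := fun i x => x ⊗ₜ[R] β i) (zero_tmul _ _)]⟩
    | zero => exact ⟨0, by rw [tmul_zero, Finsupp.sum_zero_index]⟩
    | add c₁ c₂ _ _ h₁ h₂ =>
      rw [tmul_add]
      exact hadd _ _ h₁ h₂
    | smul a c _ h =>
      obtain ⟨r, rfl⟩ := hk a
      rw [IsScalarTower.algebraMap_smul, tmul_smul]
      exact hsmul r _ h

end Repr

section Main

variable (ρ : B →+* LaurentSeries k)
  (hρR : ∀ r : R, ρ (algebraMap R B r) = HahnSeries.C (algebraMap R k r))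

include hρR in
theorem Phi_injective (hk : Function.Surjective (algebraMap R k))
    (hker : ∀ b : B, ρ b = 0 →
      b ∈ Ideal.map (algebraMap R B) (RingHom.ker (algebraMap R k))) :
    Function.Injective (Phi (R := R) (K := K) ρ hρR) := by
  rw [injective_iff_map_eq_zero]
  intro z hz
  set β := Module.Basis.ofVectorSpace k K with hβ
  obtain ⟨f, rfl⟩ := exists_finsupp_repr (R := R) (B := B) hk β z
  rw [Finsupp.sum, map_sum] at hz
  have h1 : ∀ i ∈ f.support, ρ (f i) = 0 := by
    intro i hi
    ext n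
    have h2 := congrArg (fun x : LaurentSeries K => x.coeff n) hz
    simp only [HahnSeries.coeff_sum, HahnSeries.coeff_zero] at h2
    have h3 : ∑ j ∈ f.support, (ρ (f j)).coeff n • β j = 0 := by
      rw [← h2]
      exact Finset.sum_congr rfl fun j _ => (coeff_Phi_tmul ρ hρR (f j) (β j) n).symm
    exact linearIndependent_iff'.mp β.linearIndependent f.support
      (fun j => (ρ (f j)).coeff n) h3 i hi
  rw [Finsupp.sum]
  exact Finset.sum_eq_zero fun i hi => tmul_eq_zero_of_mem (f i) (hker _ (h1 i hi)) (β i)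

include hρR in
/-- **(II)(d)**: `B ⊗[R] K` is a domain. -/
theorem isDomain_tensor (hk : Function.Surjective (algebraMap R k))
    (hker : ∀ b : B, ρ b = 0 →
      b ∈ Ideal.map (algebraMap R B) (RingHom.ker (algebraMap R k))) :
    IsDomain (B ⊗[R] K) :=
  letI := laurentAlgebra (R := R) K
  Function.Injective.isDomain (Phi (R := R) (K := K) ρ hρR : B ⊗[R] K →+* LaurentSeries K)
    (Phi_injective ρ hρR hk hker)

include hρR in
/-- the same with the factors swapped: `K ⊗[R] B` is a domain. -/
theorem isDomain_tensor' (hk : Function.Surjective (algebraMap R k))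
    (hker : ∀ b : B, ρ b = 0 →
      b ∈ Ideal.map (algebraMap R B) (RingHom.ker (algebraMap R k))) :
    IsDomain (K ⊗[R] B) :=
  haveI := isDomain_tensor (R := R) (K := K) ρ hρR hk hker
  (Algebra.TensorProduct.comm R K B).toMulEquiv.isDomain

end Main

end Fermat.Agent.S28.TensorDomain
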