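import Mathlib
import Fermat.Prelude.Def_GaloisRep_Flat
import Fermat.Agent.S28.TensorDomain

/-!
# S28 (Igusa): reduction `ℤ_(ℓ) → 𝔽_ℓ` for the prelude's `GaloisRep.ratLocalizedAt ℓ`

* `castK ℓ K : ↥(ratLocalizedAt ℓ) →+* K` for any field `K` of characteristic `ℓ` (`x ↦ num / den`),
  `red ℓ := castK ℓ (ZMod ℓ)`, `red_surjective`, `ker_red : ker (red ℓ) = span {ℓ}`;
* `ringHom_ext_charP`: ring homomorphisms `ℤ_(ℓ) → K` (char `ℓ`) are unique;
* `isDomain_tensor_charP`: `TensorDomain.isDomain_tensor` for `R = ℤ_(ℓ)`, `k = ZMod ℓ` and ANY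
  `ℤ_(ℓ)`-algebra `K` that is a field of characteristic `ℓ` - the shape of the frozen S28.
-/

set_option autoImplicit false

noncomputable section

namespace Fermat.Agent.S28.RedZl

open GaloisRep TensorProduct

variable (ℓ : ℕ) [hℓ : Fact ℓ.Prime]

theorem den_ne_zero (K : Type*) [Field K] [CharP K ℓ] (x : ratLocalizedAt ℓ) :
    (((x : ℚ).den : ℕ) : K) ≠ 0 := by
  intro h
  have h1 : ℓ ∣ (x : ℚ).den := (CharP.cast_eq_zero_iff K ℓ _).mp h
  have h2 : (x : ℚ).den.Coprime ℓ := x.2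
  have h3 : ℓ ∣ 1 := by
    have := Nat.dvd_gcd h1 (dvd_refl ℓ)
    rwa [h2] at this
  exact hℓ.out.one_lt.ne' (Nat.dvd_one.mp h3)

/-- `x ↦ num x / den x`, a ring homomorphism `ℤ_(ℓ) → K` for `K` a field of characteristic `ℓ` -/
def castK (K : Type*) [Field K] [CharP K ℓ] : ratLocalizedAt ℓ →+* K where
  toFun x := ((x : ℚ) : K)
  map_one' := by simp
  map_mul' x y := by
    show (((x * y : ratLocalizedAt ℓ) : ℚ) : K) = _
    rw [Subring.coe_mul]
    exact Rat.cast_mul_of_ne_zero (den_ne_zero ℓ K x) (den_ne_zero ℓ K y)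
  map_zero' := by simp
  map_add' x y := by
    show (((x + y : ratLocalizedAt ℓ) : ℚ) : K) = _
    rw [Subring.coe_add]
    exact Rat.cast_add_of_ne_zero (den_ne_zero ℓ K x) (den_ne_zero ℓ K y)

theorem castK_apply (K : Type*) [Field K] [CharP K ℓ] (x : ratLocalizedAt ℓ) :
    castK ℓ K x = ((x : ℚ) : K) := rfl

/-- ring homomorphisms from `ℤ_(ℓ)` to a field of characteristic `ℓ` are unique -/
theorem ringHom_ext_charP (K : Type*) [Field K] [CharP K ℓ] (f g : ratLocalizedAt ℓ →+* K) :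
    f = g := by
  ext x
  -- `x * den = num` in `ℤ_(ℓ)`
  set d : ratLocalizedAt ℓ := (((x : ℚ).den : ℕ) : ratLocalizedAt ℓ) with hd
  set n : ratLocalizedAt ℓ := (((x : ℚ).num : ℤ) : ratLocalizedAt ℓ) with hn
  have h1 : x * d = n := by
    apply Subtype.ext
    rw [Subring.coe_mul, hd, hn, Subring.coe_natCast, Subring.coe_intCast]
    exact Rat.mul_den_eq_num _
  have hfd : f d = (((x : ℚ).den : ℕ) : K) := by rw [hd, map_natCast]
  have hgd : g d = (((x : ℚ).den : ℕ) : K) := by rw [hd, map_natCast]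
  have hfn : f n = g n := by rw [hn, map_intCast, map_intCast]
  have h2 : f x * f d = g x * g d := by
    rw [← map_mul, ← map_mul, h1, hfn]
  rw [hfd, hgd] at h2
  exact mul_right_cancel₀ (den_ne_zero ℓ K x) h2

/-- reduction modulo `ℓ` -/
def red : ratLocalizedAt ℓ →+* ZMod ℓ := castK ℓ (ZMod ℓ)

theorem red_surjective : Function.Surjective (red ℓ) := by
  intro c
  obtain ⟨n, rfl⟩ := ZMod.natCast_zmod_surjective c
  exact ⟨(n : ratLocalizedAt ℓ), by rw [map_natCast]⟩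

theorem red_natCast_self : red ℓ (ℓ : ratLocalizedAt ℓ) = 0 := by
  rw [map_natCast]; exact ZMod.natCast_self ℓ

/-- the kernel of the reduction is generated by `ℓ` -/
theorem exists_eq_mul_of_red_eq_zero (x : ratLocalizedAt ℓ) (hx : red ℓ x = 0) :
    ∃ y : ratLocalizedAt ℓ, x = (ℓ : ratLocalizedAt ℓ) * y := by
  have hd := den_ne_zero ℓ (ZMod ℓ) x
  have h1 : (((x : ℚ).num : ℤ) : ZMod ℓ) = 0 := by
    have h2 : red ℓ x = (((x : ℚ).num : ℤ) : ZMod ℓ) / (((x : ℚ).den : ℕ) : ZMod ℓ) := by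
      rw [red, castK_apply, Rat.cast_def]
    rw [h2, div_eq_zero_iff] at hx
    exact hx.resolve_right hd
  obtain ⟨a', ha'⟩ := (ZMod.intCast_zmod_eq_zero_iff_dvd _ ℓ).mp h1
  have hl0 : (ℓ : ℚ) ≠ 0 := by exact_mod_cast hℓ.out.ne_zero
  have hden0 : (((x : ℚ).den : ℕ) : ℚ) ≠ 0 := by exact_mod_cast (x : ℚ).den_ne_zero
  have hxq : (x : ℚ) = (ℓ : ℚ) * ((a' : ℚ) / (((x : ℚ).den : ℤ) : ℚ)) := by
    have h3 : (x : ℚ) * (((x : ℚ).den : ℕ) : ℚ) = (((x : ℚ).num : ℤ) : ℚ) :=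
      Rat.mul_den_eq_num _
    have h6 : (((x : ℚ).num : ℤ) : ℚ) = (ℓ : ℚ) * (a' : ℚ) := by
      rw [ha']; push_cast; ring
    rw [Int.cast_natCast, ← mul_div_assoc, ← h6, ← h3, mul_div_assoc, div_self hden0, mul_one]
  have hy : ((a' : ℚ) / (((x : ℚ).den : ℤ) : ℚ)) ∈ ratLocalizedAt ℓ := by
    show ((a' : ℚ) / (((x : ℚ).den : ℤ) : ℚ)).den.Coprime ℓ
    have h4 : (((a' : ℚ) / (((x : ℚ).den : ℤ) : ℚ)).den : ℤ) ∣ ((x : ℚ).den : ℤ) := by
      have := Rat.den_dvd a' ((x : ℚ).den : ℤ)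
      rwa [Rat.divInt_eq_div] at this
    have h5 : ((a' : ℚ) / (((x : ℚ).den : ℤ) : ℚ)).den ∣ (x : ℚ).den :=
      Int.natCast_dvd_natCast.mp h4
    exact Nat.Coprime.coprime_dvd_left h5 x.2
  refine ⟨⟨_, hy⟩, Subtype.ext ?_⟩
  rw [Subring.coe_mul, Subring.coe_natCast]
  exact hxq

section Tensor

variable (K : Type*) [Field K] [CharP K ℓ] [Algebra (ratLocalizedAt ℓ) K]
  {B : Type*} [CommRing B] [Algebra (ratLocalizedAt ℓ) B]

/-- **(II)(d) for the frozen S28**: if the reduction `ρ : B → 𝔽_ℓ((q))` of `q`-expansions has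
kernel `ℓ B`, then `B ⊗[ℤ_(ℓ)] K` is a domain for every field `K` of characteristic `ℓ`. -/
theorem isDomain_tensor_charP (ρ : B →+* LaurentSeries (ZMod ℓ))
    (hρR : ∀ r : ratLocalizedAt ℓ,
      ρ (algebraMap (ratLocalizedAt ℓ) B r) = HahnSeries.C (red ℓ r))
    (hker : ∀ b : B, ρ b = 0 → ∃ b' : B, b = (ℓ : B) * b') :
    IsDomain (B ⊗[ratLocalizedAt ℓ] K) := by
  letI : Algebra (ratLocalizedAt ℓ) (ZMod ℓ) := (red ℓ).toAlgebra
  letI : Algebra (ZMod ℓ) K := ZMod.algebra K ℓ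
  haveI : IsScalarTower (ratLocalizedAt ℓ) (ZMod ℓ) K :=
    IsScalarTower.of_algebraMap_eq' (ringHom_ext_charP ℓ K _ _)
  refine TensorDomain.isDomain_tensor (R := ratLocalizedAt ℓ) (k := ZMod ℓ) (K := K) ρ hρR
    (red_surjective ℓ) ?_
  intro b hb
  obtain ⟨b', rfl⟩ := hker b hb
  refine Ideal.mul_mem_right _ _ ?_
  have h1 : (ℓ : B) = algebraMap (ratLocalizedAt ℓ) B (ℓ : ratLocalizedAt ℓ) := by
    rw [map_natCast]
  rw [h1]
  exact Ideal.mem_map_of_mem _ (red_natCast_self ℓ)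

/-- the same with the factors swapped (the order of `pullbackSpecIso` for `Spec K ⟶ Spec ℤ_(ℓ) ⟵ Spec B`
read from the left). -/
theorem isDomain_tensor_charP' (ρ : B →+* LaurentSeries (ZMod ℓ))
    (hρR : ∀ r : ratLocalizedAt ℓ,
      ρ (algebraMap (ratLocalizedAt ℓ) B r) = HahnSeries.C (red ℓ r))
    (hker : ∀ b : B, ρ b = 0 → ∃ b' : B, b = (ℓ : B) * b') :
    IsDomain (K ⊗[ratLocalizedAt ℓ] B) :=
  haveI := isDomain_tensor_charP ℓ K ρ hρR hker
  (Algebra.TensorProduct.comm (ratLocalizedAt ℓ) K B).toMulEquiv.isDomain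

end Tensor

end Fermat.Agent.S28.RedZl
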