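/-
PROJECT F (S28, Igusa) - INTERFACE DEFINITIONS (architect file, helper17).

The few `Prop`s through which the slices of PROJECT F talk to each other.  Producers CONCLUDE
these, consumers ASSUME them, so that no two files restate an interface differently.

* `HasModPoly k p`     : (F') the prime-level modular equation over a field `k`, after `q ↦ q^p`
                         (producer: `S28/ModPoly`, consumers: `S28/Step*`).
* `PrimeNotMem k p`    : (P) `J(q^p) ∉ k(J)` (producer: `S28/PrimeCase`, consumers: `S28/Step*`).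
* `PsiLeRelrank k N`   : (STEP) `ψ(N) ≤ [k(J(q^d) : d ∣ N) : k(J)]` (producer: `S28/Step`).
* `IgusaBound ℓ N n`   : `n` elements of `𝔽_ℓ(J(q^d) : d ∣ N)` linearly independent over `𝔽_ℓ(J)`
                         (producer: `S28/IgusaDegree`, consumer: `S28/DimCount`).
* `ChartRed N ℓ S`     : the chart algebra `chartAlg N ℓ S` has a reduction map to `𝔽_ℓ((q))`
                         with kernel `ℓ · chartAlg N ℓ S` (producer: `S28/Assembly`, consumer:
                         the final `S28.lean` through `RedZl.isDomain_tensor_charP`).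
-/
import Mathlib
import Fermat.Prelude.Def_ModularCurve_X0ModL
import Fermat.Prelude.Def_ModularCurve_IgusaScheme
import Fermat.Agent.S28.LaurentRescale
import Fermat.Agent.S28.RedZl

set_option autoImplicit false

noncomputable section

namespace Fermat.Agent.S28.Defs

open ModularCurve ModularCurve.IgusaScheme Polynomial Fermat.Agent.S28.LaurentRescale

/-- **(F') Prime-level modular equation over `k`, after the substitution `q ↦ q^p`**, entirely
inside `k((q))`: a monic `Φ ∈ k[Y][X]` of `X`-degree `p + 1` with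
`Φ(X, J(q^p)) = (X - J(q^(p^2))) ∏_{b < p} (X - J(ζ^b q))` for every primitive `p`-th root of
unity `ζ` of `k`. -/
def HasModPoly (k : Type*) [Field k] (p : ℕ) [NeZero p] : Prop :=
  ∃ Φ : Polynomial (Polynomial k), Φ.Monic ∧ Φ.natDegree = p + 1 ∧
    ∀ ζ : kˣ, IsPrimitiveRoot ζ p →
      Φ.map ((Polynomial.aeval (qExpand k p (jqModC k))).toRingHom) =
        (X - C (qExpand k (p ^ 2) (jqModC k))) *
          ∏ b ∈ Finset.range p, (X - C (rescaleU (ζ ^ b) (jqModC k)))

/-- **(P) Prime case**: `J(q^p) ∉ k(J)`. -/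
def PrimeNotMem (k : Type*) [Field k] (p : ℕ) [NeZero p] : Prop :=
  qExpand k p (jqModC k) ∉ IntermediateField.adjoin k {jqModC k}

/-- **(STEP) conclusion**: `ψ(N) ≤ [k(J(q^d) : d ∣ N) : k(J)]` (cardinal valued, so that no
finiteness side condition is needed). -/
def PsiLeRelrank (k : Type*) [Field k] (N : ℕ) [NeZero N] : Prop :=
  (dedekindPsi N : Cardinal) ≤
    IntermediateField.relrank (IntermediateField.adjoin k {jqModC k}) (modularFunctionFieldFullC k N)

/-- **Igusa's degree bound over the prime field**, in the shape consumed by the dimension count: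
`n` elements of `𝔽_ℓ(J(q^d) : d ∣ N)` that are linearly independent over `𝔽_ℓ(J)`. -/
def IgusaBound (ℓ : ℕ) [Fact ℓ.Prime] (N : ℕ) (n : ℕ) : Prop :=
  ∃ e : Fin n → LaurentSeries (ZMod ℓ),
    (∀ i, e i ∈ Subfield.closure (divisorExpansionsC (ZMod ℓ) N)) ∧
      LinearIndependent ↥(Subfield.closure {jqModC (ZMod ℓ)}) e

/-- **Chart reduction**: a ring hom `ρ : chartAlg N ℓ S → 𝔽_ℓ((q))` extending the reduction of the
constants, with kernel `ℓ · chartAlg N ℓ S`. -/
def ChartRed (N : ℕ) [NeZero N] (ℓ : ℕ) [Fact ℓ.Prime] (S : Set ↥(modularFunctionFieldFull N)) :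
    Prop :=
  ∃ ρ : ↥(chartAlg N ℓ S) →+* LaurentSeries (ZMod ℓ),
    (∀ r : ↥(GaloisRep.ratLocalizedAt ℓ),
      ρ (algebraMap ↥(GaloisRep.ratLocalizedAt ℓ) ↥(chartAlg N ℓ S) r) =
        HahnSeries.C (RedZl.red ℓ r)) ∧
    ∀ b : ↥(chartAlg N ℓ S), ρ b = 0 → ∃ b' : ↥(chartAlg N ℓ S), b = (ℓ : ↥(chartAlg N ℓ S)) * b'

end Fermat.Agent.S28.Defs
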