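/-
PROJECT F (S28), helper4: THE DERIVATION `θ = q d/dq` ON LAURENT SERIES.

`thetaL f = ∑ n aₙ qⁿ` for `f = ∑ aₙ qⁿ ∈ R((q))`: additive, Leibniz rule, quotient rule, compatible
with the coefficient maps `coeffMap φ` and with the substitutions `q ↦ q^N` (`qExpand`):
`θ (f(q^N)) = N (θ f)(q^N)`.
-/
import Mathlib
import Fermat.Prelude.Def_ModularCurve_LaurentCoeff
import Fermat.Prelude.Def_ModularCurve_X0

set_option autoImplicit false

namespace Fermat.Agent.S28.ThetaL

open HahnSeries ModularCurve

variable {R : Type*} [CommRing R]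

/-- `θ = q d/dq` on Laurent series. -/
noncomputable def thetaL (f : LaurentSeries R) : LaurentSeries R where
  coeff n := (n : R) * f.coeff n
  isPWO_support' := f.isPWO_support.mono (by
    intro n hn
    rw [Function.mem_support] at hn
    rw [HahnSeries.mem_support]
    intro h
    exact hn (by rw [h, mul_zero]))

@[simp] theorem coeff_thetaL (f : LaurentSeries R) (n : ℤ) :
    (thetaL f).coeff n = (n : R) * f.coeff n := rfl

theorem support_thetaL_subset (f : LaurentSeries R) : (thetaL f).support ⊆ f.support := by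
  intro n hn
  rw [HahnSeries.mem_support] at hn ⊢
  intro h
  exact hn (by rw [coeff_thetaL, h, mul_zero])

theorem thetaL_add (f g : LaurentSeries R) : thetaL (f + g) = thetaL f + thetaL g := by
  ext n
  simp [mul_add]

theorem thetaL_zero : thetaL (0 : LaurentSeries R) = 0 := by
  ext n
  simp

theorem thetaL_neg (f : LaurentSeries R) : thetaL (-f) = -thetaL f := by
  ext n
  simp

theorem thetaL_sub (f g : LaurentSeries R) : thetaL (f - g) = thetaL f - thetaL g := by
  ext n
  simp [mul_sub]

/-- **Leibniz rule.** -/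
theorem thetaL_mul (f g : LaurentSeries R) : thetaL (f * g) = thetaL f * g + f * thetaL g := by
  ext n
  rw [coeff_thetaL, HahnSeries.coeff_add, HahnSeries.coeff_mul,
    HahnSeries.coeff_mul_left' f.isPWO_support (support_thetaL_subset f),
    HahnSeries.coeff_mul_right' g.isPWO_support (support_thetaL_subset g), Finset.mul_sum,
    ← Finset.sum_add_distrib]
  refine Finset.sum_congr rfl fun ij hij => ?_
  rw [Finset.mem_antidiagonal] at hij
  rw [coeff_thetaL, coeff_thetaL, ← hij.2.2]
  push_cast
  ring

theorem thetaL_single (n : ℤ) (r : R) : thetaL (single n r) = single n ((n : R) * r) := by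
  ext m
  rw [coeff_thetaL]
  rcases eq_or_ne m n with rfl | h
  · rw [coeff_single_same, coeff_single_same]
  · rw [coeff_single_of_ne h, coeff_single_of_ne h, mul_zero]

theorem thetaL_one : thetaL (1 : LaurentSeries R) = 0 := by
  have h : (1 : LaurentSeries R) = single 0 1 := rfl
  rw [h, thetaL_single]
  simp

theorem thetaL_C (r : R) : thetaL (C r : LaurentSeries R) = 0 := by
  have h : (C r : LaurentSeries R) = single 0 r := rfl
  rw [h, thetaL_single]
  simp

theorem thetaL_C_mul (r : R) (f : LaurentSeries R) : thetaL (C r * f) = C r * thetaL f := by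
  rw [thetaL_mul, thetaL_C, zero_mul, zero_add]

theorem thetaL_pow (f : LaurentSeries R) (n : ℕ) :
    thetaL (f ^ (n + 1)) = ((n + 1 : ℕ) : LaurentSeries R) * f ^ n * thetaL f := by
  induction n with
  | zero => simp
  | succ n ih =>
    rw [pow_succ, thetaL_mul, ih]
    push_cast
    ring

/-- Compatibility with coefficient maps. -/
theorem coeffMap_thetaL {S : Type*} [CommRing S] (φ : R →+* S) (f : LaurentSeries R) :
    coeffMap φ (thetaL f) = thetaL (coeffMap φ f) := by
  ext n
  simp

/-- `θ (f(q^N)) = N (θ f)(q^N)`. -/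
theorem thetaL_qExpand (N : ℕ) [NeZero N] (f : LaurentSeries R) :
    thetaL (qExpand R N f) = (N : LaurentSeries R) * qExpand R N (thetaL f) := by
  have hN : (N : LaurentSeries R) = C (N : R) := by simp
  rw [hN]
  ext m
  rw [coeff_thetaL, HahnSeries.C_mul_eq_smul, HahnSeries.coeff_smul, smul_eq_mul]
  by_cases hm : (N : ℤ) ∣ m
  · obtain ⟨k, rfl⟩ := hm
    rw [qExpand_coeff_mul, qExpand_coeff_mul, coeff_thetaL]
    push_cast
    ring
  · rw [qExpand_coeff_of_not_dvd N f hm, qExpand_coeff_of_not_dvd N _ hm, mul_zero, mul_zero]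

section Field

variable {k : Type*} [Field k]

/-- Quotient rule (in the form `θ (f⁻¹) = - θ f / f²`). -/
theorem thetaL_inv (f : LaurentSeries k) (hf : f ≠ 0) :
    thetaL f⁻¹ = -(thetaL f) * (f⁻¹) ^ 2 := by
  have h1 : thetaL (f * f⁻¹) = 0 := by
    rw [mul_inv_cancel₀ hf, thetaL_one]
  rw [thetaL_mul] at h1
  have h2 : f * thetaL f⁻¹ = -(thetaL f * f⁻¹) := by
    rw [eq_neg_iff_add_eq_zero, add_comm]
    exact h1
  have h3 : thetaL f⁻¹ = f⁻¹ * (f * thetaL f⁻¹) := by
    rw [← mul_assoc, inv_mul_cancel₀ hf, one_mul]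
  rw [h3, h2]
  ring

theorem thetaL_div (f g : LaurentSeries k) (hg : g ≠ 0) :
    thetaL (f / g) = (thetaL f * g - f * thetaL g) / g ^ 2 := by
  rw [div_eq_mul_inv, thetaL_mul, thetaL_inv g hg]
  field_simp
  ring

end Field

end Fermat.Agent.S28.ThetaL
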