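/-
PROJECT F (S28), helper4: FORMAL IDENTITIES FOR `j` AND `Δ` IN `ℤ((q))`.

Objects in `L = LaurentSeries ℤ`: `QL, RL, PL` (images of the integral `q`-expansions of
`E₄, E₆, E₂`), `DeltaL = q ∏ (1 - qⁿ)^24`, its inverse `DeltaInvL`, and
`jZ = q⁻¹ * jNum = QL³ * DeltaInvL` (whose image in `ℚ((q))` is the prelude's `jq`).

* `thetaL_DeltaL : θ Δ = P Δ`;
* `thetaL_jZ : θ j = -Q² R / Δ`, `jZ_sub : j - 1728 = R² / Δ`;
* **`delta_mul_eq : Δ j⁴ (j - 1728)³ = (θ j)⁶`**.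
-/
import Mathlib
import Fermat.Agent.S16.WT.Defs
import Fermat.Agent.S16.WT.QExpD
import Fermat.Agent.S16.UB3.LevelOneMod3
import Fermat.Agent.S24.QBridge
import Fermat.Agent.S28.ThetaL
import Fermat.Prelude.Def_ModularCurve_X0ModL

set_option autoImplicit false

namespace Fermat.Agent.S28.FormalJ

open HahnSeries ModularCurve PowerSeries
open Fermat.Agent.S16.WT Fermat.Agent.S16.UB3.LevelOneMod3 Fermat.Agent.S28.ThetaL
open scoped ArithmeticFunction.sigma

/-! ### Power series level -/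

theorem eisenstein4_eq : eisenstein4 = Qz := by
  ext n
  rw [eisenstein4, coeff_mk, coeff_Qz]
  split_ifs with h
  · rfl
  · rw [ArithmeticFunction.sigma_apply]
    push_cast
    rfl

theorem X_mul_eta_eq : (PowerSeries.X : ℤ⟦X⟧) * dedekindEtaUnit = DeltaZ := by
  apply map_intCast_injective
  rw [map_DeltaZ, Fermat.Agent.S24.QBridge.qExpansion_discriminant, map_mul, PowerSeries.map_X]

theorem delta_spec : (1728 : ℤ⟦X⟧) * (PowerSeries.X * dedekindEtaUnit) = Qz ^ 3 - Rz ^ 2 := by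
  rw [X_mul_eta_eq, DeltaZ_spec]

/-- `θ Δ = P Δ` on integral power series. -/
theorem theta_DeltaZ : theta ℤ DeltaZ = Pz * DeltaZ := by
  have h1 : theta ℤ ((1728 : ℤ⟦X⟧) * DeltaZ) = (1728 : ℤ⟦X⟧) * (Pz * DeltaZ) := by
    rw [DeltaZ_spec]
    have hQ := QExpD.ramanujan_Qz
    have hR := QExpD.ramanujan_Rz
    have e1 : theta ℤ (Qz ^ 3 - Rz ^ 2) + theta ℤ (Rz ^ 2) = theta ℤ (Qz ^ 3) := by
      rw [← theta_add, sub_add_cancel]
    have e2 : theta ℤ (Qz ^ 3) = 3 * Qz ^ 2 * theta ℤ Qz := by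
      rw [pow_succ, theta_mul, pow_succ, theta_mul, pow_one]
      ring
    have e3 : theta ℤ (Rz ^ 2) = 2 * Rz * theta ℤ Rz := by
      rw [pow_succ, theta_mul, pow_one]
      ring
    have e4 : theta ℤ (Qz ^ 3 - Rz ^ 2) = 3 * Qz ^ 2 * theta ℤ Qz - 2 * Rz * theta ℤ Rz := by
      rw [← e2, ← e3, ← e1]
      ring
    rw [e4]
    linear_combination Qz ^ 2 * hQ - Rz * hR - Pz * DeltaZ_spec
  have h2 : theta ℤ ((1728 : ℤ⟦X⟧) * DeltaZ) = (1728 : ℤ⟦X⟧) * theta ℤ DeltaZ := by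
    have : (1728 : ℤ⟦X⟧) = PowerSeries.C (1728 : ℤ) := by rw [map_ofNat]
    rw [this, theta_mul, theta_C]
    ring
  rw [h2] at h1
  have h0 : (1728 : ℤ⟦X⟧) ≠ 0 := by
    intro h
    have := congrArg (PowerSeries.constantCoeff (R := ℤ)) h
    rw [map_ofNat, map_zero] at this
    norm_num at this
  exact mul_left_cancel₀ h0 h1

/-! ### Laurent series level -/

/-- the embedding `ℤ⟦X⟧ → ℤ((q))` -/
noncomputable abbrev toL : ℤ⟦X⟧ →+* LaurentSeries ℤ := HahnSeries.ofPowerSeries ℤ ℤ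

theorem thetaL_toL (f : ℤ⟦X⟧) : thetaL (toL f) = toL (theta ℤ f) := by
  ext n
  rw [coeff_thetaL]
  rcases lt_or_ge n 0 with hn | hn
  · rw [ofPowerSeries_coeff_of_neg _ hn, ofPowerSeries_coeff_of_neg _ hn, mul_zero]
  · obtain ⟨m, rfl⟩ := Int.eq_ofNat_of_zero_le hn
    rw [HahnSeries.ofPowerSeries_apply_coeff, HahnSeries.ofPowerSeries_apply_coeff, coeff_theta]
    simp

noncomputable def QL : LaurentSeries ℤ := toL Qz
noncomputable def RL : LaurentSeries ℤ := toL Rz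
noncomputable def PL : LaurentSeries ℤ := toL Pz
noncomputable def DeltaL : LaurentSeries ℤ := toL DeltaZ
noncomputable def DeltaInvL : LaurentSeries ℤ :=
  HahnSeries.single (-1 : ℤ) 1 * toL dedekindEtaUnitInv

/-- the integral `j`-function `q⁻¹ + 744 + …` -/
noncomputable def jZ : LaurentSeries ℤ := HahnSeries.single (-1 : ℤ) 1 * toL jNum

theorem DeltaL_eq : DeltaL = HahnSeries.single (1 : ℤ) 1 * toL dedekindEtaUnit := by
  rw [DeltaL, ← X_mul_eta_eq, map_mul, HahnSeries.ofPowerSeries_X]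

theorem DeltaL_mul_inv : DeltaL * DeltaInvL = 1 := by
  rw [DeltaL_eq, DeltaInvL]
  have h1 : toL dedekindEtaUnit * toL dedekindEtaUnitInv = 1 := by
    rw [← map_mul, dedekindEtaUnit_mul_inv, map_one]
  have h2 : (HahnSeries.single (1 : ℤ) (1 : ℤ)) * HahnSeries.single (-1 : ℤ) 1 = 1 := by
    rw [HahnSeries.single_mul_single]
    simp
  calc HahnSeries.single (1 : ℤ) 1 * toL dedekindEtaUnit *
        (HahnSeries.single (-1 : ℤ) 1 * toL dedekindEtaUnitInv)
      = (HahnSeries.single (1 : ℤ) (1 : ℤ) * HahnSeries.single (-1 : ℤ) 1) *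
        (toL dedekindEtaUnit * toL dedekindEtaUnitInv) := by ring
    _ = 1 := by rw [h1, h2, one_mul]

theorem jZ_eq : jZ = QL ^ 3 * DeltaInvL := by
  rw [jZ, jNum, map_mul, map_pow, eisenstein4_eq, QL, DeltaInvL]
  ring

theorem spec_L : (1728 : LaurentSeries ℤ) * DeltaL = QL ^ 3 - RL ^ 2 := by
  have h := congrArg toL DeltaZ_spec
  rw [map_mul, map_sub, map_pow, map_pow, map_ofNat] at h
  exact h

theorem thetaL_QL : 3 * thetaL QL = PL * QL - RL := by
  have h := congrArg toL QExpD.ramanujan_Qz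
  rw [map_mul, map_sub, map_mul, map_ofNat, ← thetaL_toL] at h
  exact h

theorem thetaL_RL : 2 * thetaL RL = PL * RL - QL ^ 2 := by
  have h := congrArg toL QExpD.ramanujan_Rz
  rw [map_mul, map_sub, map_mul, map_pow, map_ofNat, ← thetaL_toL] at h
  exact h

theorem thetaL_DeltaL : thetaL DeltaL = PL * DeltaL := by
  rw [DeltaL, thetaL_toL, theta_DeltaZ, map_mul]
  rfl

/-- `j Δ = Q³` -/
theorem jZ_mul_DeltaL : jZ * DeltaL = QL ^ 3 := by
  rw [jZ_eq, mul_assoc, mul_comm DeltaInvL, DeltaL_mul_inv, mul_one]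

/-- `θ j = - Q² R / Δ` -/
theorem thetaL_jZ : thetaL jZ = -(QL ^ 2 * RL) * DeltaInvL := by
  have h1 : thetaL (jZ * DeltaL) = thetaL (QL ^ 3) := by rw [jZ_mul_DeltaL]
  rw [thetaL_mul, thetaL_DeltaL, show (3 : ℕ) = 2 + 1 from rfl, thetaL_pow] at h1
  have h2 : thetaL jZ * DeltaL = -(QL ^ 2 * RL) := by
    have hj := jZ_mul_DeltaL
    have hQ := thetaL_QL
    push_cast at h1
    linear_combination h1 - PL * hj + QL ^ 2 * hQ
  calc thetaL jZ = thetaL jZ * (DeltaL * DeltaInvL) := by rw [DeltaL_mul_inv, mul_one]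
    _ = (thetaL jZ * DeltaL) * DeltaInvL := by ring
    _ = _ := by rw [h2]

/-- `j - 1728 = R² / Δ` -/
theorem jZ_sub : jZ - 1728 = RL ^ 2 * DeltaInvL := by
  have h := spec_L
  have hd := DeltaL_mul_inv
  rw [jZ_eq]
  linear_combination (-DeltaInvL) * h + (1728 : LaurentSeries ℤ) * hd

/-- **`Δ j⁴ (j - 1728)³ = (θ j)⁶`** in `ℤ((q))`. -/
theorem delta_mul_eq : DeltaL * jZ ^ 4 * (jZ - 1728) ^ 3 = (thetaL jZ) ^ 6 := by
  rw [jZ_sub, thetaL_jZ, jZ_eq]
  have hd := DeltaL_mul_inv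
  linear_combination (QL ^ 12 * RL ^ 6 * DeltaInvL ^ 6) * hd

/-! ### Comparison with the prelude's `jqModC` and base change -/

theorem jZ_eq_jqModC : jZ = jqModC ℤ := by
  rw [jZ, jqModC]
  congr 2

section BaseChange

variable (R : Type*) [CommRing R]

/-- `Δ` over `R` -/
noncomputable def DeltaR : LaurentSeries R := coeffMap (Int.castRingHom R) DeltaL

/-- `Δ⁻¹` over `R` -/
noncomputable def DeltaInvR : LaurentSeries R := coeffMap (Int.castRingHom R) DeltaInvL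

theorem DeltaR_mul_inv : DeltaR R * DeltaInvR R = 1 := by
  rw [DeltaR, DeltaInvR, ← map_mul, DeltaL_mul_inv, map_one]

theorem coeffMap_jZ : coeffMap (Int.castRingHom R) jZ = jqModC R := by
  rw [jZ_eq_jqModC, coeffMap_jqModC]

theorem coeffMap_ofNat (n : ℕ) [n.AtLeastTwo] :
    coeffMap (Int.castRingHom R) (OfNat.ofNat n : LaurentSeries ℤ) = (OfNat.ofNat n) :=
  map_ofNat _ n

/-- **`Δ j⁴ (j - 1728)³ = (θ j)⁶`** over any commutative ring. -/
theorem delta_mul_eq_R :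
    DeltaR R * jqModC R ^ 4 * (jqModC R - 1728) ^ 3 = (thetaL (jqModC R)) ^ 6 := by
  have h := congrArg (coeffMap (Int.castRingHom R)) delta_mul_eq
  rw [map_mul, map_mul, map_pow, map_pow, map_pow, map_sub, coeffMap_thetaL, coeffMap_jZ,
    coeffMap_ofNat] at h
  exact h

/-- coefficients of `Δ` over `R`: `Δ = q - 24 q² + …` -/
theorem coeff_DeltaR_of_lt {n : ℤ} (hn : n < 1) : (DeltaR R).coeff n = 0 := by
  rw [DeltaR, coeffMap_coeff, DeltaL]
  rcases lt_or_ge n 0 with h | h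
  · rw [ofPowerSeries_coeff_of_neg _ h, map_zero]
  · have h0 : n = ((0 : ℕ) : ℤ) := by omega
    rw [h0]
    change (Int.castRingHom R) ((HahnSeries.ofPowerSeries ℤ ℤ DeltaZ).coeff ((0 : ℕ) : ℤ)) = 0
    rw [HahnSeries.ofPowerSeries_apply_coeff, PowerSeries.coeff_zero_eq_constantCoeff_apply,
      constantCoeff_DeltaZ, map_zero]

theorem coeff_DeltaR_one : (DeltaR R).coeff 1 = 1 := by
  rw [DeltaR, coeffMap_coeff, DeltaL]
  change (Int.castRingHom R) ((HahnSeries.ofPowerSeries ℤ ℤ DeltaZ).coeff ((1 : ℕ) : ℤ)) = 1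
  rw [HahnSeries.ofPowerSeries_apply_coeff, coeff_one_DeltaZ, map_one]

end BaseChange

end Fermat.Agent.S28.FormalJ
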