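/-
PROJECT F (S28, Igusa): LEVEL-ONE FORMS OF WEIGHT `12 i` WITH INTEGER `q`-EXPANSION ARE
`Δ ^ i` TIMES AN INTEGER POLYNOMIAL IN `j` (helper24).

* `exists_coeffs` : the power-series form, `f = ∑_{m ≤ i} c_m Qz^(3m) DeltaZ^(i-m)`, `c_m ∈ ℤ`
  (induction on `i` with the integral division step `LevelOneMod3.exists_div_DeltaZ`);
* `exists_poly` : for ANY commutative ring `A`, ring hom `φ : ℤ⟦X⟧ →+* A` and `jA : A` with
  `jA * φ DeltaZ = φ (Qz ^ 3)`: `φ f = φ DeltaZ ^ i * aeval jA P`, `P ∈ ℤ[X]`, `deg P ≤ i`;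
* `exists_poly_laurent` : `toL f = DeltaL ^ i * aeval jZ P` in `ℤ((q))` (notation of `S28/FormalJ`);
* `exists_poly_R` : `coeffMap (toL f) = DeltaR R ^ i * aeval (jqModC R) P` in `R((q))`, any `R`.
-/
import Fermat.Agent.S16.UB3.LevelOneMod3
import Fermat.Agent.S28.FormalJ

set_option autoImplicit false

open UpperHalfPlane ModularForm ModularFormClass MatrixGroups
open scoped ArithmeticFunction.sigma

namespace Fermat.Agent.S28.LevelOnePolyJ

open PowerSeries Fermat.Agent.S16.WT Fermat.Agent.S16.UB3.LevelOneMod3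

/-! ### The power-series form -/

/-- A level-one form of negative weight with integer `q`-expansion `f` has `f = 0`. -/
theorem eq_zero_of_neg_weight {k : ℤ} (hk : k < 0) (F : ModularForm 𝒮ℒ k) (f : ℤ⟦X⟧)
    (hf : f.map (Int.castRingHom ℂ) = qExpansion 1 F) : f = 0 := by
  have hrank := levelOne_neg_weight_rank_zero hk
  have hF : F = 0 := by
    have : Subsingleton (ModularForm 𝒮ℒ k) := by
      have hfin : Module.Finite ℂ (ModularForm 𝒮ℒ k) := Module.finite_of_rank_eq_zero hrank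
      exact (Module.finrank_zero_iff (R := ℂ)).mp
        (by rw [Module.finrank, hrank]; simp)
    exact Subsingleton.elim _ _
  exact eq_zero_of_coe_eq_zero F f hf (by rw [hF]; rfl)

/-- **Integer level-one forms of weight `12 i`** are `ℤ`-combinations of the monomials
`E₄^(3m) Δ^(i-m)`, `0 ≤ m ≤ i`. -/
theorem exists_coeffs : ∀ (i : ℕ) {k : ℤ} (_ : k = 12 * (i : ℤ)) (F : ModularForm 𝒮ℒ k)
    (f : ℤ⟦X⟧) (_ : f.map (Int.castRingHom ℂ) = qExpansion 1 F),
    ∃ c : ℕ → ℤ, f = ∑ m ∈ Finset.range (i + 1), C (c m) * (Qz ^ (3 * m) * DeltaZ ^ (i - m)) := by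
  intro i
  induction i with
  | zero =>
    intro k hk F f hf
    obtain ⟨H, h, hh, hfh⟩ := exists_div_DeltaZ (k := k) 0 0 (by simpa using hk) F f hf
    have h0 : h = 0 := eq_zero_of_neg_weight (by rw [hk]; norm_num) H h hh
    refine ⟨fun _ => constantCoeff f, ?_⟩
    rw [hfh, h0]
    simp
  | succ i ih =>
    intro k hk F f hf
    obtain ⟨H, h, hh, hfh⟩ := exists_div_DeltaZ (k := k) (3 * (i + 1)) 0
      (by rw [hk]; push_cast; ring) F f hf
    obtain ⟨c, hc⟩ := ih (k := k - 12) (by rw [hk]; push_cast; ring) H h hh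
    refine ⟨fun m => if m = i + 1 then constantCoeff f else c m, ?_⟩
    rw [Finset.sum_range_succ]
    simp only [if_true, Nat.sub_self, pow_zero, mul_one]
    have hsum : ∑ m ∈ Finset.range (i + 1),
        C (if m = i + 1 then constantCoeff f else c m) * (Qz ^ (3 * m) * DeltaZ ^ (i + 1 - m))
        = DeltaZ * h := by
      rw [hc, Finset.mul_sum]
      refine Finset.sum_congr rfl fun m hm => ?_
      have hm' : m < i + 1 := Finset.mem_range.mp hm
      rw [if_neg (by omega), show i + 1 - m = (i - m) + 1 by omega, pow_succ]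
      ring
    rw [hsum]
    conv_lhs => rw [hfh]
    ring

/-! ### The generic form: `Δ ^ i` times a polynomial in `j` -/

/-- **`f = Δ^i P(j)`** in any commutative ring `A` receiving `ℤ⟦X⟧` in which `j Δ = E₄³`. -/
theorem exists_poly {A : Type*} [CommRing A] [Algebra ℤ A] (φ : ℤ⟦X⟧ →+* A) (jA : A)
    (hj : jA * φ DeltaZ = φ (Qz ^ 3)) (i : ℕ) {k : ℤ} (hk : k = 12 * (i : ℤ))
    (F : ModularForm 𝒮ℒ k) (f : ℤ⟦X⟧) (hf : f.map (Int.castRingHom ℂ) = qExpansion 1 F) :
    ∃ P : Polynomial ℤ, P.natDegree ≤ i ∧ φ f = φ DeltaZ ^ i * Polynomial.aeval jA P := by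
  obtain ⟨c, hc⟩ := exists_coeffs i hk F f hf
  refine ⟨∑ m ∈ Finset.range (i + 1), Polynomial.C (c m) * Polynomial.X ^ m, ?_, ?_⟩
  · refine Polynomial.natDegree_sum_le_of_forall_le _ _ fun m hm => ?_
    have hm' : m < i + 1 := Finset.mem_range.mp hm
    exact (Polynomial.natDegree_C_mul_X_pow_le (c m) m).trans (by omega)
  · rw [hc, map_sum, map_sum, Finset.mul_sum]
    refine Finset.sum_congr rfl fun m hm => ?_
    have hm' : m < i + 1 := Finset.mem_range.mp hm
    have hpow : φ (Qz ^ (3 * m)) = jA ^ m * φ DeltaZ ^ m := by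
      rw [pow_mul, map_pow, ← hj, mul_pow]
    have hsplit : φ DeltaZ ^ i = φ DeltaZ ^ m * φ DeltaZ ^ (i - m) := by
      rw [← pow_add]; congr 1; omega
    have hC : φ (C (c m)) = algebraMap ℤ A (c m) := by
      have : (C (c m) : ℤ⟦X⟧) = ((c m : ℤ) : ℤ⟦X⟧) := by
        rw [← map_intCast (C (R := ℤ))]; simp
      rw [this, map_intCast, eq_intCast]
    rw [map_mul, map_mul, hpow, map_pow, hC, map_mul, map_pow, Polynomial.aeval_C,
      Polynomial.aeval_X, hsplit]
    ring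

/-- The same with `Polynomial.eval₂ (Int.castRingHom A)` (no `Algebra ℤ A` instance involved). -/
theorem exists_poly_eval₂ {A : Type*} [CommRing A] (φ : ℤ⟦X⟧ →+* A) (jA : A)
    (hj : jA * φ DeltaZ = φ (Qz ^ 3)) (i : ℕ) {k : ℤ} (hk : k = 12 * (i : ℤ))
    (F : ModularForm 𝒮ℒ k) (f : ℤ⟦X⟧) (hf : f.map (Int.castRingHom ℂ) = qExpansion 1 F) :
    ∃ P : Polynomial ℤ, P.natDegree ≤ i ∧
      φ f = φ DeltaZ ^ i * P.eval₂ (Int.castRingHom A) jA := by
  obtain ⟨P, hP, h⟩ := exists_poly φ jA hj i hk F f hf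
  refine ⟨P, hP, ?_⟩
  rw [h, Polynomial.aeval_def, algebraMap_int_eq]

/-! ### The Laurent forms, in the notation of `S28/FormalJ` and of the prelude (`jqModC`) -/

open Fermat.Agent.S28.FormalJ in
/-- **Laurent form over `ℤ`**: `f = Δ^i P(j)` in `ℤ((q))`, `P ∈ ℤ[X]` of degree `≤ i`
(`jZ`, `DeltaL`, `toL` of `S28/FormalJ`). -/
theorem exists_poly_laurent (i : ℕ) {k : ℤ} (hk : k = 12 * (i : ℤ)) (F : ModularForm 𝒮ℒ k)
    (f : ℤ⟦X⟧) (hf : f.map (Int.castRingHom ℂ) = qExpansion 1 F) :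
    ∃ P : Polynomial ℤ, P.natDegree ≤ i ∧ toL f = DeltaL ^ i * Polynomial.aeval jZ P := by
  refine exists_poly toL jZ ?_ i hk F f hf
  rw [map_pow]
  exact jZ_mul_DeltaL

open Fermat.Agent.S28.FormalJ in
/-- **Laurent form over any commutative ring `R`**: `f̄ = Δ̄^i P(j̄)` in `R((q))` with
`j̄ = jqModC R` (prelude) and `Δ̄ = DeltaR R` (`S28/FormalJ`). -/
theorem exists_poly_R (R : Type*) [CommRing R] (i : ℕ) {k : ℤ} (hk : k = 12 * (i : ℤ))
    (F : ModularForm 𝒮ℒ k) (f : ℤ⟦X⟧) (hf : f.map (Int.castRingHom ℂ) = qExpansion 1 F) :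
    ∃ P : Polynomial ℤ, P.natDegree ≤ i ∧
      ModularCurve.coeffMap (Int.castRingHom R) (toL f) =
        DeltaR R ^ i * Polynomial.aeval (ModularCurve.jqModC R) P := by
  refine exists_poly ((ModularCurve.coeffMap (Int.castRingHom R)).comp toL)
    (ModularCurve.jqModC R) ?_ i hk F f hf
  rw [RingHom.comp_apply, RingHom.comp_apply, map_pow, ← coeffMap_jZ R]
  have h := congrArg (ModularCurve.coeffMap (Int.castRingHom R)) jZ_mul_DeltaL
  rw [map_mul] at h
  exact h

end Fermat.Agent.S28.LevelOnePolyJ
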