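/-
PROJECT F (S28), slice (III-F-mod) (helper23): THE PRIME-LEVEL MODULAR EQUATION, MODULAR HALF.

For a prime `p` and every INTEGER `x` there is an integer polynomial `P_x` of degree `≤ p + 1` with

  `P_x(j) = (x - j(q^p)) · q⁻¹ · normP p (x t - jNum(t))`        in `ℤ((q))`,

`normP` the formal norm of `S16/PowerSeriesNorm` (the product over the `p` conjugates
`x - j(ζ^b q^{1/p})`, up to the factor `q⁻¹`), `jNum = q · j`.  This is `hmod`, the one input of the
formal half (`S28/ModPoly`, helper28).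

Route: the weight 12 form `F_x = p^12 • (x Δ(p·) - E₄³(p·))` on `Γ₀(p)` has conjugate expansion
`ψ = x Δ - E₄³` (`WpLevelOne.wp_raise`); its level-one norm `N_x ∈ M_{12(p+1)}(SL₂ℤ)` has the
integral `q`-expansion `p^12 · ψ(q^p) · normP p ψ` (`ConjExpansion.qx_esymmForm_map`), hence equals
`Δ^(p+1) · P(j)` with `P ∈ ℤ[X]`, `deg P ≤ p + 1` (`PolyJHyp`, supplied by `S28/PolyJ`).  The same for
`Δ` alone gives `U(q^p) · normP p U = U^(p+1)` (`U = ∏ (1 - qⁿ)^24`), and dividing yields `hmod`.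
-/
import Mathlib
import Fermat.Agent.S16.ConjExpansion
import Fermat.Agent.S16.WpLevelOne
import Fermat.Agent.S16.PowerSeriesNorm
import Fermat.Agent.S16.Conjugates
import Fermat.Agent.S28.FormalJ
import Fermat.Agent.S28.LevelOnePolyJ
import Fermat.Prelude.Def_ModularCurve_X0ModL

set_option autoImplicit false

noncomputable section

namespace Fermat.Agent.S28.ModEqForm

/-! ## Formal part -/

section FormalPart

open HahnSeries ModularCurve
open Fermat.Agent.S16.PowerSeriesNorm Fermat.Agent.S16.WT Fermat.Agent.S16.UB3.LevelOneMod3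
open Fermat.Agent.S28.FormalJ

/-! ### Leading coefficient of a polynomial in `j` -/

section LeadingCoeff

variable (R : Type*) [CommRing R]

theorem coeff_eval₂_jqModC {A : Type*} [CommRing A] (φ : A →+* LaurentSeries R)
    (c : A → R) (hφ : ∀ a, φ a = HahnSeries.C (c a)) (P : Polynomial A) :
    (P.eval₂ φ (jqModC R)).coeff (-(P.natDegree : ℤ)) = c P.leadingCoeff := by
  rw [Polynomial.eval₂_eq_sum_range, HahnSeries.coeff_sum]
  rw [Finset.sum_eq_single_of_mem P.natDegree (Finset.self_mem_range_succ _)]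
  · rw [hφ, HahnSeries.C_mul_eq_smul, HahnSeries.coeff_smul, coeff_jqModC_pow_self, smul_eq_mul,
      mul_one, Polynomial.leadingCoeff]
  · intro i hi hne
    have hlt : i < P.natDegree := lt_of_le_of_ne (Nat.lt_succ_iff.mp (Finset.mem_range.mp hi)) hne
    rw [hφ, HahnSeries.C_mul_eq_smul, HahnSeries.coeff_smul,
      coeff_jqModC_pow_of_lt R (by exact_mod_cast neg_lt_neg (by exact_mod_cast hlt)), smul_zero]

theorem eval₂_C_jqModC_eq_zero [Nontrivial R] (P : Polynomial R)
    (h : P.eval₂ (HahnSeries.C : R →+* LaurentSeries R) (jqModC R) = 0) : P = 0 := by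
  by_contra hP
  have h1 := coeff_eval₂_jqModC R (HahnSeries.C : R →+* LaurentSeries R) id (fun _ => rfl) P
  rw [h, HahnSeries.coeff_zero] at h1
  exact hP (Polynomial.leadingCoeff_eq_zero.mp h1.symm)

end LeadingCoeff

/-- the embedding `ℤ⟦X⟧ → ℤ((q))` -/
local notation "tL" => HahnSeries.ofPowerSeries ℤ ℤ

theorem algebraMap_int_eq_C (a : ℤ) :
    algebraMap ℤ (LaurentSeries ℤ) a = HahnSeries.C a :=
  (eq_intCast (algebraMap ℤ (LaurentSeries ℤ)) a).trans
    (eq_intCast (HahnSeries.C : ℤ →+* LaurentSeries ℤ) a).symm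

/-- the coefficient of `q^(-deg P)` in `P(j)` is the leading coefficient of `P` -/
theorem coeff_aeval_jZ (P : Polynomial ℤ) :
    (Polynomial.aeval (jqModC ℤ) P).coeff (-(P.natDegree : ℤ)) = P.leadingCoeff := by
  rw [Polynomial.aeval_def]
  exact coeff_eval₂_jqModC ℤ _ id algebraMap_int_eq_C P

/-- a polynomial in `j` without pole is constant -/
theorem natDegree_eq_zero_of_aeval_eq_tL (P : Polynomial ℤ) (f : PowerSeries ℤ)
    (h : Polynomial.aeval (jqModC ℤ) P = tL f) : P.natDegree = 0 := by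
  by_contra hd
  have h1 := coeff_aeval_jZ P
  rw [h, ofPowerSeries_coeff_of_neg _ (by
    have : 0 < P.natDegree := Nat.pos_of_ne_zero hd
    exact_mod_cast neg_neg_of_pos (by exact_mod_cast this : (0 : ℤ) < P.natDegree))] at h1
  have : P = 0 := Polynomial.leadingCoeff_eq_zero.mp h1.symm
  rw [this] at hd
  simp at hd

/-- divisibility of a polynomial in `j` is tested on its `q`-expansion -/
theorem exists_eq_C_mul_of_aeval (M : ℕ) (hM : 1 < M) (P : Polynomial ℤ) (S : LaurentSeries ℤ)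
    (h : Polynomial.aeval (jqModC ℤ) P = HahnSeries.C (M : ℤ) * S) :
    ∃ P' : Polynomial ℤ, P = Polynomial.C (M : ℤ) * P' := by
  have : Fact (1 < M) := ⟨hM⟩
  set f : ℤ →+* ZMod M := Int.castRingHom (ZMod M)
  have h1 : (P.map f).eval₂ (HahnSeries.C : ZMod M →+* LaurentSeries (ZMod M)) (jqModC (ZMod M))
      = 0 := by
    rw [Polynomial.eval₂_map]
    have h2 : (HahnSeries.C : ZMod M →+* LaurentSeries (ZMod M)).comp f
        = (coeffMap f).comp (algebraMap ℤ (LaurentSeries ℤ)) := RingHom.ext_int _ _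
    rw [h2, ← coeffMap_jqModC f, ← Polynomial.hom_eval₂, ← Polynomial.aeval_def, h, map_mul]
    have h3 : coeffMap f (HahnSeries.C (M : ℤ)) = 0 := by
      change coeffMap f (HahnSeries.single 0 (M : ℤ)) = 0
      rw [coeffMap_single]
      have : f (M : ℤ) = 0 := by
        simp [f]
      rw [this, HahnSeries.single_eq_zero]
    rw [h3, zero_mul]
  have h4 := eval₂_C_jqModC_eq_zero (ZMod M) _ h1
  have h5 : ∀ i, (M : ℤ) ∣ P.coeff i := by
    intro i
    have := congrArg (fun Q : Polynomial (ZMod M) => Q.coeff i) h4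
    simp only [Polynomial.coeff_map, Polynomial.coeff_zero] at this
    exact (ZMod.intCast_zmod_eq_zero_iff_dvd _ _).mp this
  exact (Polynomial.C_dvd_iff_dvd_coeff _ _).mpr h5



/-! ### The norm of the variable -/

section NormX

open PowerSeries

variable (p : ℕ) (hp : p ≠ 0)

include hp in
theorem normP_X_complex : ∃ c : ℂ, c ≠ 0 ∧ c * c = 1 ∧
    normP p (PowerSeries.X : PowerSeries ℂ) = PowerSeries.C c * PowerSeries.X := by
  have hζ : IsPrimitiveRoot (Complex.exp (2 * Real.pi * Complex.I / p)) p :=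
    Complex.isPrimitiveRoot_exp p hp
  set ζ := Complex.exp (2 * Real.pi * Complex.I / p) with hζdef
  refine ⟨∏ j : Fin p, ζ ^ (j : ℕ), ?_, ?_, ?_⟩
  · exact Finset.prod_ne_zero_iff.mpr fun j _ => pow_ne_zero _ (hζ.ne_zero hp)
  · rw [Finset.prod_pow_eq_pow_sum, ← _root_.pow_add, Fin.sum_univ_eq_sum_range (fun i => i) p, ← two_mul,
      mul_comm, Finset.sum_range_id_mul_two, pow_mul, hζ.pow_eq_one, one_pow]
  · have h1 := prod_rescale_eq p hp hζ (PowerSeries.X : PowerSeries ℂ)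
    have h2 : ∏ j : Fin p, rescale (ζ ^ (j : ℕ)) (PowerSeries.X : PowerSeries ℂ)
        = PowerSeries.expand p hp (PowerSeries.C (∏ j : Fin p, ζ ^ (j : ℕ)) * PowerSeries.X) := by
      rw [map_mul, PowerSeries.expand_C, PowerSeries.expand_X, map_prod]
      simp only [rescale_X]
      rw [Finset.prod_mul_distrib, Finset.prod_const, Finset.card_univ, Fintype.card_fin]
    rw [h2] at h1
    exact (Fermat.Agent.S16.Conjugates.expand_injective hp h1).symm

include hp in
theorem normP_X_int : ∃ e : ℤ, e ≠ 0 ∧ e * e = 1 ∧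
    normP p (PowerSeries.X : PowerSeries ℤ) = PowerSeries.C e * PowerSeries.X := by
  obtain ⟨c, hc, hcc, h⟩ := normP_X_complex p hp
  have h1 : (normP p (PowerSeries.X : PowerSeries ℤ)).map (Int.castRingHom ℂ)
      = PowerSeries.C c * PowerSeries.X := by
    rw [← normP_map, PowerSeries.map_X, h]
  have hco : ∀ n, ((PowerSeries.coeff n (normP p (PowerSeries.X : PowerSeries ℤ)) : ℤ) : ℂ)
      = if n = 1 then c else 0 := by
    intro n
    have := congrArg (PowerSeries.coeff n) h1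
    rw [PowerSeries.coeff_map, eq_intCast, PowerSeries.coeff_C_mul, PowerSeries.coeff_X] at this
    rw [this]
    split_ifs <;> simp
  refine ⟨PowerSeries.coeff 1 (normP p (PowerSeries.X : PowerSeries ℤ)), ?_, ?_, ?_⟩
  · intro h0
    have := hco 1
    rw [h0, if_pos rfl] at this
    exact hc (by simpa using this.symm)
  · have := hco 1
    rw [if_pos rfl] at this
    have h2 : (((PowerSeries.coeff 1 (normP p (PowerSeries.X : PowerSeries ℤ)) *
        PowerSeries.coeff 1 (normP p (PowerSeries.X : PowerSeries ℤ)) : ℤ)) : ℂ) = ((1 : ℤ) : ℂ) := by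
      rw [Int.cast_mul, this, hcc, Int.cast_one]
    exact_mod_cast h2
  · ext n
    rw [PowerSeries.coeff_C_mul, PowerSeries.coeff_X]
    split_ifs with hn
    · rw [hn, mul_one]
    · have := hco n
      rw [if_neg hn] at this
      rw [mul_zero]
      exact_mod_cast this

end NormX


/-! ### `q ↦ q^p` on Laurent series coming from power series -/

theorem qExpand_ofPowerSeries {R : Type*} [CommRing R] (N : ℕ) [NeZero N] (f : PowerSeries R) :
    qExpand R N (HahnSeries.ofPowerSeries ℤ R f)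
      = HahnSeries.ofPowerSeries ℤ R (PowerSeries.expand N (NeZero.ne N) f) := by
  ext k
  by_cases hk : (N : ℤ) ∣ k
  · obtain ⟨m, rfl⟩ := hk
    rw [qExpand_coeff_mul]
    rcases lt_or_ge m 0 with hm | hm
    · have hN : (0 : ℤ) < N := by exact_mod_cast Nat.pos_of_ne_zero (NeZero.ne N)
      rw [ofPowerSeries_coeff_of_neg _ hm, ofPowerSeries_coeff_of_neg _ (mul_neg_of_pos_of_neg hN hm)]
    · obtain ⟨n, rfl⟩ := Int.eq_ofNat_of_zero_le hm
      rw [HahnSeries.ofPowerSeries_apply_coeff, show ((N : ℤ) * (n : ℤ)) = ((N * n : ℕ) : ℤ) by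
        push_cast; ring, HahnSeries.ofPowerSeries_apply_coeff, PowerSeries.coeff_expand_mul]
  · rw [qExpand_coeff_of_not_dvd N _ hk]
    rcases lt_or_ge k 0 with hk0 | hk0
    · rw [ofPowerSeries_coeff_of_neg _ hk0]
    · obtain ⟨n, rfl⟩ := Int.eq_ofNat_of_zero_le hk0
      rw [HahnSeries.ofPowerSeries_apply_coeff, PowerSeries.coeff_expand, if_neg]
      exact fun h => hk (by exact_mod_cast h)


/-! ### The formal core -/

section Core

open PowerSeries

variable (p : ℕ) [hp : Fact p.Prime]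

theorem Qz_cube_eq : Qz ^ 3 = jNum * dedekindEtaUnit := by
  rw [jNum, ← eisenstein4_eq, mul_assoc, mul_comm dedekindEtaUnitInv, dedekindEtaUnit_mul_inv,
    mul_one]

theorem psi_eq (x : ℤ) :
    PowerSeries.C x * DeltaZ - Qz ^ 3 = dedekindEtaUnit * (PowerSeries.C x * X - jNum) := by
  rw [← X_mul_eta_eq, Qz_cube_eq]
  ring

/-- `W = U(q^p) · N(U)`; the norm of `Δ` shows `W = U^(p+1)`. -/
def Wser : ℤ⟦X⟧ := expand p hp.out.ne_zero dedekindEtaUnit * normP p dedekindEtaUnit

theorem constantCoeff_Wser : constantCoeff (Wser p) = 1 := by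
  rw [Wser, map_mul, constantCoeff_expand, constantCoeff_normP p,
    constantCoeff_dedekindEtaUnit]
  simp

/-- the integral `q`-expansion of the norm form of `x Δ - E₄³` -/
def Aser (x : ℤ) : ℤ⟦X⟧ :=
  PowerSeries.C ((p : ℤ) ^ 12) * expand p hp.out.ne_zero (PowerSeries.C x * DeltaZ - Qz ^ 3) *
    normP p (PowerSeries.C x * DeltaZ - Qz ^ 3)

/-- the integral `q`-expansion of the norm form of `Δ` -/
def ADser : ℤ⟦X⟧ :=
  PowerSeries.C ((p : ℤ) ^ 12) * expand p hp.out.ne_zero DeltaZ * normP p DeltaZ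

theorem Aser_eq (x : ℤ) :
    Aser p x = PowerSeries.C ((p : ℤ) ^ 12) * Wser p *
      ((PowerSeries.C x * X ^ p - expand p hp.out.ne_zero jNum) * normP p (PowerSeries.C x * X - jNum)) := by
  rw [Aser, psi_eq, map_mul, normP_mul p hp.out.ne_zero, map_sub, map_mul, expand_C, expand_X,
    Wser]
  ring

theorem ADser_eq (e : ℤ) (he : normP p (X : ℤ⟦X⟧) = PowerSeries.C e * X) :
    ADser p = PowerSeries.C ((p : ℤ) ^ 12 * e) * X ^ (p + 1) * Wser p := by
  rw [ADser, ← X_mul_eta_eq, map_mul, normP_mul p hp.out.ne_zero, expand_X, he, Wser, map_mul,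
    pow_succ]
  ring

theorem tL_ne_zero {f : ℤ⟦X⟧} (hf : f ≠ 0) : tL f ≠ 0 := fun h =>
  hf (HahnSeries.ofPowerSeries_injective (by rw [h, map_zero]))

theorem Ui_mul_U_pow (n : ℕ) : dedekindEtaUnitInv ^ n * dedekindEtaUnit ^ n = 1 := by
  rw [← mul_pow, mul_comm, dedekindEtaUnit_mul_inv, one_pow]

theorem Wser_eq (e : ℤ) (he0 : e ≠ 0) (he : normP p (X : ℤ⟦X⟧) = PowerSeries.C e * X)
    (P1 : Polynomial ℤ)
    (h : tL (ADser p) = tL DeltaZ ^ (p + 1) * Polynomial.aeval (jqModC ℤ) P1) :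
    Wser p = dedekindEtaUnit ^ (p + 1) := by
  set c0 : ℤ := (p : ℤ) ^ 12 * e with hc0def
  have hp0 : (p : ℤ) ≠ 0 := by exact_mod_cast hp.out.ne_zero
  have hc0 : c0 ≠ 0 := mul_ne_zero (pow_ne_zero _ hp0) he0
  have hX : tL ((X : ℤ⟦X⟧) ^ (p + 1)) ≠ 0 := tL_ne_zero (pow_ne_zero _ X_ne_zero)
  have h1 : Polynomial.aeval (jqModC ℤ) P1
      = tL (PowerSeries.C c0 * Wser p * dedekindEtaUnitInv ^ (p + 1)) := by
    rw [ADser_eq p e he, ← X_mul_eta_eq, ← map_pow, mul_pow] at h
    have h2 : tL ((X : ℤ⟦X⟧) ^ (p + 1)) * tL (PowerSeries.C c0 * Wser p)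
        = tL ((X : ℤ⟦X⟧) ^ (p + 1)) *
          (tL (dedekindEtaUnit ^ (p + 1)) * Polynomial.aeval (jqModC ℤ) P1) := by
      rw [← mul_assoc, ← map_mul, ← map_mul, ← h]
      congr 1
      ring
    have h3 := mul_left_cancel₀ hX h2
    calc Polynomial.aeval (jqModC ℤ) P1
        = tL (dedekindEtaUnitInv ^ (p + 1) * dedekindEtaUnit ^ (p + 1)) *
            Polynomial.aeval (jqModC ℤ) P1 := by rw [Ui_mul_U_pow, map_one, one_mul]
      _ = tL (dedekindEtaUnitInv ^ (p + 1)) *
            (tL (dedekindEtaUnit ^ (p + 1)) * Polynomial.aeval (jqModC ℤ) P1) := by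
          rw [map_mul, mul_assoc]
      _ = tL (dedekindEtaUnitInv ^ (p + 1)) * tL (PowerSeries.C c0 * Wser p) := by rw [h3]
      _ = _ := by
          rw [← map_mul]
          congr 1
          ring
  have hdeg := natDegree_eq_zero_of_aeval_eq_tL P1 _ h1
  obtain ⟨c, rfl⟩ : ∃ c, P1 = Polynomial.C c := ⟨_, Polynomial.eq_C_of_natDegree_eq_zero hdeg⟩
  rw [Polynomial.aeval_C, algebraMap_int_eq_C, ← HahnSeries.ofPowerSeries_C] at h1
  have h4 := HahnSeries.ofPowerSeries_injective h1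
  have h5 : PowerSeries.C c * dedekindEtaUnit ^ (p + 1) = PowerSeries.C c0 * Wser p := by
    rw [h4]
    calc PowerSeries.C c0 * Wser p * dedekindEtaUnitInv ^ (p + 1) * dedekindEtaUnit ^ (p + 1)
        = PowerSeries.C c0 * Wser p *
            (dedekindEtaUnitInv ^ (p + 1) * dedekindEtaUnit ^ (p + 1)) := by ring
      _ = _ := by rw [Ui_mul_U_pow, mul_one]
  have hc : c = c0 := by
    have := congrArg (constantCoeff (R := ℤ)) h5
    simpa [constantCoeff_Wser, constantCoeff_dedekindEtaUnit] using this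
  rw [hc] at h5
  have hC : (PowerSeries.C c0 : ℤ⟦X⟧) ≠ 0 := by
    rw [Ne, map_eq_zero_iff _ PowerSeries.C_injective]
    exact hc0
  exact (mul_left_cancel₀ hC h5).symm

theorem qExpand_jqModC_int :
    qExpand ℤ p (jqModC ℤ)
      = HahnSeries.single (-(p : ℤ)) (1 : ℤ) * tL (expand p hp.out.ne_zero jNum) := by
  have : NeZero p := ⟨hp.out.ne_zero⟩
  rw [← jZ_eq_jqModC, jZ, map_mul, qExpand_single, qExpand_ofPowerSeries, mul_neg_one]

theorem tL_sub_expand (x : ℤ) :
    tL (PowerSeries.C x * X ^ p - expand p hp.out.ne_zero jNum)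
      = HahnSeries.single (p : ℤ) (1 : ℤ) * (HahnSeries.C x - qExpand ℤ p (jqModC ℤ)) := by
  rw [qExpand_jqModC_int, mul_sub, ← mul_assoc, HahnSeries.single_mul_single, add_neg_cancel,
    mul_one, map_sub, map_mul, HahnSeries.ofPowerSeries_X_pow, HahnSeries.ofPowerSeries_C,
    mul_comm (HahnSeries.C x)]
  congr 1
  change _ = (1 : LaurentSeries ℤ) * _
  rw [one_mul]

theorem hmod_core (x : ℤ) (hW : Wser p = dedekindEtaUnit ^ (p + 1)) (P0 : Polynomial ℤ)
    (hP0 : P0.natDegree ≤ p + 1)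
    (h : tL (Aser p x) = tL DeltaZ ^ (p + 1) * Polynomial.aeval (jqModC ℤ) P0) :
    ∃ P : Polynomial ℤ, P.natDegree ≤ p + 1 ∧
      Polynomial.aeval (jqModC ℤ) P =
        (HahnSeries.C x - qExpand ℤ p (jqModC ℤ)) *
          (HahnSeries.single (-1) (1 : ℤ) * tL (normP p (PowerSeries.C x * X - jNum))) := by
  set N : ℤ⟦X⟧ := normP p (PowerSeries.C x * X - jNum) with hN
  set V : LaurentSeries ℤ := qExpand ℤ p (jqModC ℤ) with hV
  have hp0 : (p : ℤ) ≠ 0 := by exact_mod_cast hp.out.ne_zero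
  have hU : tL (dedekindEtaUnit ^ (p + 1)) ≠ 0 := by
    refine tL_ne_zero (pow_ne_zero _ ?_)
    intro h0
    have := constantCoeff_dedekindEtaUnit
    rw [h0, map_zero] at this
    exact zero_ne_one this
  -- cancel `U^(p+1)`
  have h3 : tL (PowerSeries.C ((p : ℤ) ^ 12) *
      ((PowerSeries.C x * X ^ p - expand p hp.out.ne_zero jNum) * N))
      = tL ((X : ℤ⟦X⟧) ^ (p + 1)) * Polynomial.aeval (jqModC ℤ) P0 := by
    rw [Aser_eq, hW, ← X_mul_eta_eq, ← map_pow, mul_pow] at h
    have h2 : tL (dedekindEtaUnit ^ (p + 1)) * tL (PowerSeries.C ((p : ℤ) ^ 12) *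
        ((PowerSeries.C x * X ^ p - expand p hp.out.ne_zero jNum) * N))
        = tL (dedekindEtaUnit ^ (p + 1)) *
          (tL ((X : ℤ⟦X⟧) ^ (p + 1)) * Polynomial.aeval (jqModC ℤ) P0) := by
      calc tL (dedekindEtaUnit ^ (p + 1)) * tL (PowerSeries.C ((p : ℤ) ^ 12) *
            ((PowerSeries.C x * X ^ p - expand p hp.out.ne_zero jNum) * N))
          = tL (dedekindEtaUnit ^ (p + 1) * (PowerSeries.C ((p : ℤ) ^ 12) *
            ((PowerSeries.C x * X ^ p - expand p hp.out.ne_zero jNum) * N))) :=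
            (map_mul _ _ _).symm
        _ = tL (PowerSeries.C ((p : ℤ) ^ 12) * dedekindEtaUnit ^ (p + 1) *
            ((PowerSeries.C x * X ^ p - expand p hp.out.ne_zero jNum) * N)) := by
            congr 1
            ring
        _ = tL ((X : ℤ⟦X⟧) ^ (p + 1) * dedekindEtaUnit ^ (p + 1)) *
            Polynomial.aeval (jqModC ℤ) P0 := h
        _ = _ := by
            rw [map_mul]
            ring
    exact mul_left_cancel₀ hU h2
  -- the key identity
  set S : LaurentSeries ℤ :=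
    (HahnSeries.C x - V) * (HahnSeries.single (-1) (1 : ℤ) * tL N) with hS
  have h4 : Polynomial.aeval (jqModC ℤ) P0 = HahnSeries.C (((p ^ 12 : ℕ) : ℤ)) * S := by
    rw [map_mul, map_mul, tL_sub_expand, HahnSeries.ofPowerSeries_C,
      HahnSeries.ofPowerSeries_X_pow] at h3
    have h5 : HahnSeries.single (-((p + 1 : ℕ) : ℤ)) (1 : ℤ) *
        HahnSeries.single ((p + 1 : ℕ) : ℤ) (1 : ℤ) = 1 := by
      rw [HahnSeries.single_mul_single, neg_add_cancel, mul_one]
      rfl
    have h6 : HahnSeries.single (-((p + 1 : ℕ) : ℤ)) (1 : ℤ) * HahnSeries.single (p : ℤ) (1 : ℤ)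
        = HahnSeries.single (-1) (1 : ℤ) := by
      rw [HahnSeries.single_mul_single, mul_one]
      congr 1
      push_cast
      ring_nf
    calc Polynomial.aeval (jqModC ℤ) P0
        = (HahnSeries.single (-((p + 1 : ℕ) : ℤ)) (1 : ℤ) *
            HahnSeries.single ((p + 1 : ℕ) : ℤ) (1 : ℤ)) * Polynomial.aeval (jqModC ℤ) P0 := by
          rw [h5, one_mul]
      _ = HahnSeries.single (-((p + 1 : ℕ) : ℤ)) (1 : ℤ) *
            (HahnSeries.single ((p + 1 : ℕ) : ℤ) (1 : ℤ) * Polynomial.aeval (jqModC ℤ) P0) := by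
          rw [mul_assoc]
      _ = HahnSeries.single (-((p + 1 : ℕ) : ℤ)) (1 : ℤ) *
            (HahnSeries.C ((p : ℤ) ^ 12) *
              (HahnSeries.single (p : ℤ) (1 : ℤ) * (HahnSeries.C x - V) * tL N)) := by rw [h3]
      _ = HahnSeries.C ((p : ℤ) ^ 12) * ((HahnSeries.C x - V) *
            ((HahnSeries.single (-((p + 1 : ℕ) : ℤ)) (1 : ℤ) * HahnSeries.single (p : ℤ) (1 : ℤ))
              * tL N)) := by ring
      _ = _ := by
          rw [h6, hS]
          push_cast
          rfl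
  have hM : 1 < p ^ 12 := Nat.one_lt_pow (by norm_num) hp.out.one_lt
  obtain ⟨P, rfl⟩ := exists_eq_C_mul_of_aeval (p ^ 12) hM P0 S h4
  have hMz : (((p ^ 12 : ℕ) : ℤ)) ≠ 0 := by
    push_cast
    exact pow_ne_zero _ hp0
  refine ⟨P, ?_, ?_⟩
  · rwa [Polynomial.natDegree_C_mul hMz] at hP0
  · rw [map_mul, Polynomial.aeval_C, algebraMap_int_eq_C] at h4
    have hC : (HahnSeries.C (((p ^ 12 : ℕ) : ℤ)) : LaurentSeries ℤ) ≠ 0 := by
      rw [Ne, map_eq_zero_iff _ HahnSeries.C_injective]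
      exact hMz
    exact mul_left_cancel₀ hC h4

end Core


end FormalPart

/-! ## Modular part -/

section ModularPart

open UpperHalfPlane SlashInvariantForm CongruenceSubgroup ModularGroup ModularForm
  ModularFormClass EisensteinSeries
open Fermat.Agent.S20 Fermat.Agent.S23.QRing Fermat.Agent.S16.Trace Fermat.Agent.S23.CharPoly
open Fermat.Agent.S24.LevelRaise Fermat.Agent.S16.WpLevelOne Fermat.Agent.S16.WT
open Fermat.Agent.S16.PowerSeriesNorm Fermat.Agent.S16.ConjExpansion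
open Fermat.Agent.S16.UB3.LevelOneMod3

open scoped ModularForm Manifold MatrixGroups

variable (p : ℕ) [hp : Fact p.Prime]

/-- the level-`p` form `p^12 • G(p·)` attached to a level-one form `G` of weight `12` -/
def raised (G : ModularForm 𝒮ℒ 12) : ModularForm (G0 p) 12 :=
  ((p : ℂ) ^ 12) • raise p p dvd_rfl G

theorem coe_raised (G : ModularForm 𝒮ℒ 12) :
    ⇑(raised p G) = ((p : ℂ) ^ 12) • ⇑(raise p p dvd_rfl G) := rfl

theorem qx_raised (G : ModularForm 𝒮ℒ 12) (gz : PowerSeries ℤ)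
    (hg : gz.map (Int.castRingHom ℂ) = qExpansion 1 ⇑G) :
    (PowerSeries.C ((p : ℤ) ^ 12) * PowerSeries.expand p hp.out.ne_zero gz).map
      (Int.castRingHom ℂ) = qx ⇑(raised p G) := by
  have hQ : IsQ ⇑(raise p p dvd_rfl G) := isQ_of_modularForm (raise p p dvd_rfl G)
  rw [coe_raised, qx_smul _ hQ, qx, qx_raise p G, ← hg, map_mul, PowerSeries.map_C,
    PowerSeries.map_expand, PowerSeries.smul_eq_C_mul]
  simp

theorem psiOf_raised (G : ModularForm 𝒮ℒ 12) (gz : PowerSeries ℤ)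
    (hg : gz.map (Int.castRingHom ℂ) = qExpansion 1 ⇑G) :
    gz.map (Int.castRingHom ℂ) = psiOf 12 p ⇑(raised p G) := by
  have hp0 : p ≠ 0 := hp.out.ne_zero
  have hpC : (p : ℂ) ≠ 0 := by exact_mod_cast hp0
  rw [psiOf_eq (IsMF.coe (raised p G)), coe_raised, wp_smul 12 hp0, wp_raise p G,
    smul_smul, qx_smul _ (isQ_of_levelOne G), smul_smul, hg]
  have : (p : ℂ) ^ (1 - 12 : ℤ) * ((p : ℂ) ^ 12 * ((p : ℂ)⁻¹ * (-1) ^ (12 : ℤ))) = 1 := by
    rw [show (1 - 12 : ℤ) = -11 by norm_num, zpow_neg]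
    have h11 : (p : ℂ) ^ (11 : ℤ) = (p : ℂ) ^ (11 : ℕ) := by norm_cast
    rw [h11]
    field_simp
  rw [this, one_smul]
  rfl


/-- the level-one norm of `p^12 • G(p·)` -/
def normForm (G : ModularForm 𝒮ℒ 12) : ModularForm 𝒮ℒ (12 * ((p + 1 : ℕ) : ℤ)) :=
  esymmForm 𝒮ℒ (raised p G) (p + 1)

/-- **the `q`-expansion of the level-one norm**, over `ℤ`. -/
theorem qx_normForm (G : ModularForm 𝒮ℒ 12) (gz : PowerSeries ℤ)
    (hg : gz.map (Int.castRingHom ℂ) = qExpansion 1 ⇑G) :
    (PowerSeries.C ((p : ℤ) ^ 12) * PowerSeries.expand p hp.out.ne_zero gz * normP p gz).map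
      (Int.castRingHom ℂ) = qExpansion 1 ⇑(normForm p G) := by
  have h1 := qx_esymmForm_map (Int.castRingHom ℂ) (raised p G)
    (PowerSeries.C ((p : ℤ) ^ 12) * PowerSeries.expand p hp.out.ne_zero gz) gz
    (qx_raised p G gz hg) (psiOf_raised p G gz hg) (le_refl (p + 1))
  rw [normForm]
  change _ = qx _
  rw [h1]
  congr 1
  have hdet : normP p gz = (-1) ^ p * (mulMatrix p gz).charpoly.coeff 0 := by
    rw [normP, Matrix.det_eq_sign_charpoly_coeff, Fintype.card_fin]
  have hsq : ((-1 : PowerSeries ℤ) ^ p) * (-1) ^ p = 1 := by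
    rw [← pow_add, ← two_mul, pow_mul]
    simp
  have hsucc : ((-1 : PowerSeries ℤ) ^ (p + 1)) = -((-1) ^ p) := by
    rw [pow_succ]
    ring
  rw [Nat.sub_self, Polynomial.mul_coeff_zero, Polynomial.coeff_sub, Polynomial.coeff_X_zero,
    Polynomial.coeff_C_zero, zero_sub, hdet, hsucc]
  generalize ((-1 : PowerSeries ℤ) ^ p) = e at hsq ⊢
  generalize (mulMatrix p gz).charpoly.coeff 0 = c
  generalize PowerSeries.C ((p : ℤ) ^ 12) * PowerSeries.expand p hp.out.ne_zero gz = a
  ring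


/-! ### The level-one forms `Δ`, `E₄³`, `x Δ - E₄³` -/

/-- `Δ` as a level-one modular form -/
def DeltaMF : ModularForm 𝒮ℒ 12 := CuspForm.toModularFormₗ CuspForm.discriminant

theorem map_DeltaZ_MF : DeltaZ.map (Int.castRingHom ℂ) = qExpansion 1 ⇑DeltaMF :=
  map_DeltaZ

/-- `E₄³` as a level-one modular form -/
def E43 : ModularForm 𝒮ℒ 12 := eisMono 3 0 12 (by norm_num)

theorem map_Qz_cube : (Qz ^ 3).map (Int.castRingHom ℂ) = qExpansion 1 ⇑E43 := by
  have h := map_eisMono 3 0 12 (by norm_num)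
  rw [pow_zero, mul_one] at h
  exact h

/-- `x Δ - E₄³` -/
def Gx (x : ℤ) : ModularForm 𝒮ℒ 12 := (x : ℂ) • DeltaMF - E43

theorem map_psi (x : ℤ) :
    (PowerSeries.C x * DeltaZ - Qz ^ 3).map (Int.castRingHom ℂ) = qExpansion 1 ⇑(Gx x) := by
  have h1 : ⇑(Gx x) = (x : ℂ) • ⇑DeltaMF - ⇑E43 := rfl
  have hD : IsQ ⇑DeltaMF := isQ_of_levelOne DeltaMF
  have hE : IsQ ⇑E43 := isQ_of_levelOne E43
  have e1 := qx_sub (hD.smul (x : ℂ)) hE
  have e2 := qx_smul (x : ℂ) hD
  simp only [qx] at e1 e2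
  rw [h1, e1, e2, ← map_DeltaZ_MF, ← map_Qz_cube, map_sub, map_mul, PowerSeries.map_C,
    PowerSeries.smul_eq_C_mul]
  simp

/-! ### The main statement -/

/-- the structure theorem for level-one forms of weight `12 i` with integral `q`-expansion, in
Laurent form (supplied by `S28/PolyJ`) -/
def PolyJHyp : Prop :=
  ∀ (i : ℕ) (G : ModularForm 𝒮ℒ (12 * (i : ℤ))) (g : PowerSeries ℤ),
    g.map (Int.castRingHom ℂ) = qExpansion 1 ⇑G →
    ∃ P : Polynomial ℤ, P.natDegree ≤ i ∧
      HahnSeries.ofPowerSeries ℤ ℤ g =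
        HahnSeries.ofPowerSeries ℤ ℤ DeltaZ ^ i * Polynomial.aeval (ModularCurve.jqModC ℤ) P

/-- **(F-mod)**: for every integer `x`, `(x - j(q^p)) · q⁻¹ normP p (x t - jNum)` is an integer
polynomial of degree `≤ p + 1` in `j`. -/
theorem hmod_of (H : PolyJHyp) (x : ℤ) :
    ∃ P : Polynomial ℤ, P.natDegree ≤ p + 1 ∧
      Polynomial.aeval (ModularCurve.jqModC ℤ) P =
        (HahnSeries.C x - ModularCurve.qExpand ℤ p (ModularCurve.jqModC ℤ)) *
          (HahnSeries.single (-1) (1 : ℤ) *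
            HahnSeries.ofPowerSeries ℤ ℤ
              (normP p (PowerSeries.C x * PowerSeries.X - ModularCurve.jNum))) := by
  obtain ⟨e, he0, -, he⟩ := normP_X_int p hp.out.ne_zero
  obtain ⟨P1, -, h1⟩ := H (p + 1) (normForm p DeltaMF) (ADser p)
    (qx_normForm p DeltaMF DeltaZ map_DeltaZ_MF)
  have hW := Wser_eq p e he0 he P1 h1
  obtain ⟨P0, hP0, h0⟩ := H (p + 1) (normForm p (Gx x)) (Aser p x)
    (qx_normForm p (Gx x) _ (map_psi x))
  exact hmod_core p x hW P0 hP0 h0

/-- the structure theorem holds (`S28/LevelOnePolyJ.exists_poly_laurent`) -/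
theorem polyJHyp : PolyJHyp := by
  intro i G g hg
  obtain ⟨P, hP, h⟩ := Fermat.Agent.S28.LevelOnePolyJ.exists_poly_laurent i rfl G g hg
  refine ⟨P, hP, ?_⟩
  rw [Fermat.Agent.S28.FormalJ.jZ_eq_jqModC] at h
  exact h

/-- **(F-mod), unconditional**: for every integer `x`, the Laurent series
`(x - j(q^p)) · q⁻¹ normP p (x t - jNum)` is `P(j)` for an integer polynomial `P` of degree
`≤ p + 1`. -/
theorem hmod (x : ℤ) :
    ∃ P : Polynomial ℤ, P.natDegree ≤ p + 1 ∧
      Polynomial.aeval (ModularCurve.jqModC ℤ) P =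
        (HahnSeries.C x - ModularCurve.qExpand ℤ p (ModularCurve.jqModC ℤ)) *
          (HahnSeries.single (-1) (1 : ℤ) *
            HahnSeries.ofPowerSeries ℤ ℤ
              (normP p (PowerSeries.C x * PowerSeries.X - ModularCurve.jNum))) :=
  hmod_of p polyJHyp x

/-- the same with an extra integer constant `e` -/
theorem hmod_eps (e x : ℤ) :
    ∃ P : Polynomial ℤ, P.natDegree ≤ p + 1 ∧
      Polynomial.aeval (ModularCurve.jqModC ℤ) P =
        (HahnSeries.C x - ModularCurve.qExpand ℤ p (ModularCurve.jqModC ℤ)) *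
          (HahnSeries.C e * HahnSeries.single (-1) (1 : ℤ) *
            HahnSeries.ofPowerSeries ℤ ℤ
              (normP p (PowerSeries.C x * PowerSeries.X - ModularCurve.jNum))) := by
  obtain ⟨P, hP, h⟩ := hmod p x
  refine ⟨Polynomial.C e * P, (Polynomial.natDegree_C_mul_le e P).trans hP, ?_⟩
  rw [map_mul, Polynomial.aeval_C, h, algebraMap_int_eq_C]
  ring

/-- the norm of the variable: `normP p t = e t` with `e = ± 1` -/
theorem normP_X : ∃ e : ℤ, e ≠ 0 ∧ e * e = 1 ∧
    normP p (PowerSeries.X : PowerSeries ℤ) = PowerSeries.C e * PowerSeries.X :=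
  normP_X_int p hp.out.ne_zero

end ModularPart

end Fermat.Agent.S28.ModEqForm
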