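/-
PROJECT F (S28), helper7: `PowerSeries.expand` versus the prelude's `qExpand` on Laurent series.
-/
import Mathlib
import Fermat.Prelude.Def_ModularCurve_X0

set_option autoImplicit false

namespace Fermat.Agent.S28.ExpandQ

open ModularCurve

variable {R : Type*} [CommRing R]

/-- `f(q^p)` as a power series, viewed as a Laurent series, is `qExpand` of `f`. -/
theorem ofPowerSeries_expand (p : ℕ) [NeZero p] (f : PowerSeries R) :
    HahnSeries.ofPowerSeries ℤ R (PowerSeries.expand p (NeZero.ne p) f) =
      qExpand R p (HahnSeries.ofPowerSeries ℤ R f) := by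
  ext n
  rcases lt_or_ge n 0 with hn | hn
  · rw [ofPowerSeries_coeff_of_neg _ hn]
    by_cases hd : (p : ℤ) ∣ n
    · obtain ⟨m, rfl⟩ := hd
      rw [qExpand_coeff_mul]
      have hp : (0 : ℤ) < p := by exact_mod_cast Nat.pos_of_ne_zero (NeZero.ne p)
      have hm : m < 0 := by
        by_contra h
        rw [not_lt] at h
        have := mul_nonneg hp.le h
        omega
      rw [ofPowerSeries_coeff_of_neg _ hm]
    · rw [qExpand_coeff_of_not_dvd p _ hd]
  · lift n to ℕ using hn
    rw [HahnSeries.ofPowerSeries_apply_coeff, PowerSeries.coeff_expand]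
    split_ifs with hd
    · obtain ⟨m, rfl⟩ := hd
      rw [Nat.mul_div_cancel_left _ (Nat.pos_of_ne_zero (NeZero.ne p))]
      push_cast
      rw [qExpand_coeff_mul]
      exact (HahnSeries.ofPowerSeries_apply_coeff _ _).symm
    · have hd' : ¬ (p : ℤ) ∣ (n : ℤ) := by
        intro h
        exact hd (by exact_mod_cast h)
      rw [qExpand_coeff_of_not_dvd p _ hd']

/-- Variant with an explicit proof of `p ≠ 0`. -/
theorem ofPowerSeries_expand' (p : ℕ) (hp : p ≠ 0) (f : PowerSeries R) :
    HahnSeries.ofPowerSeries ℤ R (PowerSeries.expand p hp f) =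
      @qExpand R _ p ⟨hp⟩ (HahnSeries.ofPowerSeries ℤ R f) :=
  @ofPowerSeries_expand R _ p ⟨hp⟩ f

end Fermat.Agent.S28.ExpandQ
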