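import Mathlib
import Fermat.Agent.S16.PowerSeriesNorm
import Fermat.Prelude.Def_ModularCurve_X0ModL
import Fermat.Agent.S28.Defs
import Fermat.Agent.S28.ExpandQ

/-!
# S28 (III-F), formal half: the modular polynomial of prime level from its integer specialisations

PROJECT F (S28, Igusa), slice (III-F) formal half (helper28).  `p ≠ 0` throughout (primality is
only used by the producer of the hypothesis `hmod`, `S28/ModEqForm`).

Over any commutative ring `R`, with `jN R = q · j(q) ∈ R⟦q⟧` and `t = q^(1/p)`: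

* `pencil p R = det (Y • M_t - M_{jN}) ∈ R⟦q⟧[Y]` (`M_h = PowerSeriesNorm.mulMatrix p h`), of
  degree `≤ p` with `Y ^ p`-coefficient `ε q`, `ε = (-1)^(p-1)`; its value at a constant `x` is
  `normP p (x t - jN)` (`eval_pencil`), and over a domain containing a primitive `p`-th root of
  unity `ζ` it becomes `∏_b (ζ^b t Y - jN(ζ^b t))` after `q = t^p` (`map_expand_pencil`).
* `gPoly p R = ε q⁻¹ pencil`, monic of degree `p` over `R((q))`; `rPoly p R = (Y - j(q^p)) gPoly`.
* `exists_PhiZ` (interpolation + integrality): if for every INTEGER `x` the value `rPoly(x)` is an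
  integral polynomial in `j` (hypothesis `hmod`), then `rPoly p ℤ = Φ(Y, j)` for some
  `Φ ∈ ℤ[j][Y]`; `exists_PhiZ_spec`: `Φ` is monic of degree `p + 1`.
* `map_qExpand_gPoly`: over a field `k`, after `q ↦ q^p`, `gPoly = ∏_{b<p} (Y - j(ζ^b q))`.
* **`hasModPoly`**: `hmod` implies `Defs.HasModPoly k p` for every field `k`.
-/
set_option autoImplicit false
set_option linter.unusedSectionVars false

namespace Fermat.Agent.S28.ModPoly

open Fermat.Agent.S16.PowerSeriesNorm ModularCurve

/-! ### Part A: power series level -/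

section PartA

variable (p : ℕ) (R : Type*) [CommRing R]

/-- `q · j(q)` with coefficients in `R`. -/
noncomputable def jN : PowerSeries R := ModularCurve.jNum.map (Int.castRingHom R)

theorem map_jN {S : Type*} [CommRing S] (φ : R →+* S) : (jN R).map φ = jN S := by
  rw [jN, jN]
  ext n
  rw [PowerSeries.coeff_map, PowerSeries.coeff_map, PowerSeries.coeff_map]
  simp

/-- The pencil `det (Y • M_t - M_{jN})` as a polynomial over `R⟦q⟧`. -/
noncomputable def pencil : Polynomial (PowerSeries R) :=
  ((Polynomial.X : Polynomial (PowerSeries R)) •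
      (mulMatrix p (PowerSeries.X : PowerSeries R)).map Polynomial.C +
    (-(mulMatrix p (jN R))).map Polynomial.C).det

theorem natDegree_pencil_le : (pencil p R).natDegree ≤ p := by
  have := Polynomial.natDegree_det_X_add_C_le (mulMatrix p (PowerSeries.X : PowerSeries R))
    (-(mulMatrix p (jN R)))
  rwa [Fintype.card_fin] at this

theorem coeff_pencil_card : (pencil p R).coeff p = normP p (PowerSeries.X : PowerSeries R) := by
  have := Polynomial.coeff_det_X_add_C_card (mulMatrix p (PowerSeries.X : PowerSeries R))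
    (-(mulMatrix p (jN R)))
  rwa [Fintype.card_fin] at this

theorem mulMatrix_zero : mulMatrix p (0 : PowerSeries R) = 0 := by
  ext k i : 1
  change sect p (k : ℕ) (PowerSeries.X ^ (i : ℕ) * (0 : PowerSeries R)) = 0
  rw [mul_zero]
  ext n
  rw [coeff_sect]
  simp

theorem mulMatrix_neg (h : PowerSeries R) : mulMatrix p (-h) = -mulMatrix p h := by
  have h0 : mulMatrix p (-h) + mulMatrix p h = 0 := by
    rw [← mulMatrix_add, neg_add_cancel, mulMatrix_zero]
  exact eq_neg_of_add_eq_zero_left h0

variable {p} in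
theorem eval_pencil (hp : p ≠ 0) (x : R) :
    (pencil p R).eval (PowerSeries.C x) =
      normP p (PowerSeries.C x * PowerSeries.X - jN R) := by
  rw [pencil, ← Polynomial.coe_evalRingHom, RingHom.map_det, normP]
  congr 1
  rw [sub_eq_add_neg, mulMatrix_add, mulMatrix_C_mul p hp, mulMatrix_neg]
  ext k i : 1
  simp only [RingHom.mapMatrix_apply, Matrix.map_apply, Matrix.add_apply, Matrix.smul_apply,
    Polynomial.coe_evalRingHom, Polynomial.eval_add, Polynomial.eval_C,
    Polynomial.eval_X, smul_eq_mul, Matrix.neg_apply, Polynomial.eval_mul]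

theorem map_pencil {S : Type*} [CommRing S] (φ : R →+* S) :
    (pencil p R).map (PowerSeries.map φ) = pencil p S := by
  rw [pencil, pencil, ← Polynomial.coe_mapRingHom, RingHom.map_det]
  congr 1
  ext k i : 1
  simp only [RingHom.mapMatrix_apply, Matrix.map_apply, Matrix.add_apply, Matrix.smul_apply,
    Polynomial.coe_mapRingHom, Polynomial.map_add, Polynomial.map_C,
    Polynomial.map_X, smul_eq_mul, Matrix.neg_apply, Polynomial.map_mul]
  have h1 : PowerSeries.map φ (mulMatrix p (PowerSeries.X : PowerSeries R) k i)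
      = mulMatrix p (PowerSeries.X : PowerSeries S) k i := by
    have := congrFun (congrFun (mulMatrix_map p φ (PowerSeries.X : PowerSeries R)) k) i
    rw [PowerSeries.map_X] at this
    rw [this, Matrix.map_apply]
  have h2 : PowerSeries.map φ (mulMatrix p (jN R) k i) = mulMatrix p (jN S) k i := by
    have := congrFun (congrFun (mulMatrix_map p φ (jN R)) k) i
    rw [map_jN] at this
    rw [this, Matrix.map_apply]
  rw [h1, map_neg, h2]

variable {p} in
/-- The norm of `t`: `N(t) = (-1)^(p-1) q`. -/
theorem normP_X (hp : p ≠ 0) :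
    normP p (PowerSeries.X : PowerSeries R)
      = PowerSeries.C ((-1 : R) ^ (p - 1)) * PowerSeries.X := by
  obtain ⟨n, rfl⟩ := Nat.exists_eq_succ_of_ne_zero hp
  rw [normP]
  set w : Fin (n + 1) → PowerSeries R :=
    fun i => if i = Fin.last n then PowerSeries.X else 1 with hw
  have hT : mulMatrix (n + 1) (PowerSeries.X : PowerSeries R)
      = (Matrix.diagonal w).submatrix ((finRotate (n + 1))⁻¹ : Equiv.Perm (Fin (n + 1))) id := by
    ext k i m
    rw [Matrix.submatrix_apply, id, Matrix.diagonal_apply]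
    change PowerSeries.coeff m (sect (n + 1) (k : ℕ)
      (PowerSeries.X ^ (i : ℕ) * (PowerSeries.X : PowerSeries R))) = _
    rw [coeff_sect, ← pow_succ, PowerSeries.coeff_X_pow]
    have hki : ((finRotate (n + 1))⁻¹ : Equiv.Perm (Fin (n + 1))) k = i ↔
        k = finRotate (n + 1) i := by
      rw [Equiv.Perm.inv_eq_iff_eq]
    have key : (if ((finRotate (n + 1))⁻¹ : Equiv.Perm (Fin (n + 1))) k = i then
        w (((finRotate (n + 1))⁻¹ : Equiv.Perm (Fin (n + 1))) k) else 0)
        = if k = finRotate (n + 1) i then w i else 0 := by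
      by_cases h : ((finRotate (n + 1))⁻¹ : Equiv.Perm (Fin (n + 1))) k = i
      · rw [if_pos h, if_pos (hki.mp h), h]
      · rw [if_neg h, if_neg (fun h' => h (hki.mpr h'))]
    rw [key]
    have hk' := k.2
    by_cases hi : i = Fin.last n
    · subst hi
      have hk0 : k = finRotate (n + 1) (Fin.last n) ↔ (k : ℕ) = 0 := by
        rw [finRotate_last, Fin.ext_iff]; rfl
      have hwl : w (Fin.last n) = PowerSeries.X := by simp [hw]
      by_cases hk : (k : ℕ) = 0
      · rw [if_pos (hk0.mpr hk), hwl, PowerSeries.coeff_X, Fin.val_last, hk, add_zero]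
        by_cases hm : m = 1
        · subst hm; simp
        · rw [if_neg hm, if_neg]
          intro h
          apply hm
          have : (n + 1) * m = (n + 1) * 1 := by omega
          exact Nat.eq_of_mul_eq_mul_left (Nat.succ_pos n) this
      · rw [if_neg (fun h => hk (hk0.mp h)), map_zero, Fin.val_last, if_neg]
        intro h
        rcases m with _ | m
        · omega
        · have : (n + 1) * (m + 1) ≥ n + 1 := Nat.le_mul_of_pos_right _ (Nat.succ_pos m)
          omega
    · have hilt : (i : ℕ) < n := Fin.val_lt_last hi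
      have hk0 : k = finRotate (n + 1) i ↔ (k : ℕ) = i + 1 := by
        rw [Fin.ext_iff, coe_finRotate_of_ne_last hi]
      have hwi : w i = 1 := by simp [hw, hi]
      by_cases hk : (k : ℕ) = i + 1
      · rw [if_pos (hk0.mpr hk), hwi, PowerSeries.coeff_one, hk]
        by_cases hm : m = 0
        · subst hm; simp
        · rw [if_neg hm, if_neg]
          intro h
          have : (n + 1) * m ≥ n + 1 := Nat.le_mul_of_pos_right _ (Nat.pos_of_ne_zero hm)
          omega
      · rw [if_neg (fun h => hk (hk0.mp h)), map_zero, if_neg]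
        intro h
        rcases m with _ | m
        · omega
        · have : (n + 1) * (m + 1) ≥ n + 1 := Nat.le_mul_of_pos_right _ (Nat.succ_pos m)
          omega
  rw [hT, Matrix.det_permute, Matrix.det_diagonal, Equiv.Perm.sign_inv, sign_finRotate]
  have hprod : ∏ i, w i = PowerSeries.X := by
    rw [Finset.prod_eq_single (Fin.last n)]
    · simp [hw]
    · intro b _ hb; simp [hw, hb]
    · intro h; exact absurd (Finset.mem_univ _) h
  rw [hprod]
  simp

/-- Over a domain containing a primitive `p`-th root of unity the pencil splits after `q = t ^ p`: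
`det (Y M_t - M_{jN})(t ^ p) = ∏_b (ζ^b t · Y - jN(ζ^b t))`. -/
theorem map_expand_pencil {k : Type*} [CommRing k] [IsDomain k] (hp : p ≠ 0) {ζ : k}
    (hζ : IsPrimitiveRoot ζ p) :
    (pencil p k).map (PowerSeries.expand p hp (R := k)).toRingHom =
      ∏ b : Fin p, (Polynomial.C (PowerSeries.rescale (ζ ^ (b : ℕ)) (PowerSeries.X : PowerSeries k))
          * Polynomial.X
        - Polynomial.C (PowerSeries.rescale (ζ ^ (b : ℕ)) (jN k))) := by
  set E : PowerSeries k →+* PowerSeries k := (PowerSeries.expand p hp (R := k)).toRingHom with hE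
  set T := mulMatrix p (PowerSeries.X : PowerSeries k) with hT
  set J := mulMatrix p (jN k) with hJ
  set V := vand p ζ with hV
  set DT : Matrix (Fin p) (Fin p) (PowerSeries k) :=
    Matrix.diagonal (fun j : Fin p => PowerSeries.rescale (ζ ^ (j : ℕ)) (PowerSeries.X : PowerSeries k))
    with hDT
  set DJ : Matrix (Fin p) (Fin p) (PowerSeries k) :=
    Matrix.diagonal (fun j : Fin p => PowerSeries.rescale (ζ ^ (j : ℕ)) (jN k)) with hDJ
  have h1 : V * T.map E = DT * V := vand_mul p hp hζ _
  have h2 : V * J.map E = DJ * V := vand_mul p hp hζ _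
  -- the mapped pencil matrix
  have hmap : (pencil p k).map E =
      ((Polynomial.X : Polynomial (PowerSeries k)) • (T.map E).map Polynomial.C +
        (-(J.map E)).map Polynomial.C).det := by
    rw [pencil, ← Polynomial.coe_mapRingHom, RingHom.map_det]
    congr 1
    ext a b : 1
    simp only [RingHom.mapMatrix_apply, Matrix.map_apply, Matrix.add_apply, Matrix.smul_apply,
      Polynomial.coe_mapRingHom, Polynomial.map_add, Polynomial.map_C,
      Polynomial.map_X, smul_eq_mul, Matrix.neg_apply, Polynomial.map_mul, map_neg,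
      Polynomial.map_neg, hT, hJ]
  have hcomm : V.map Polynomial.C *
      ((Polynomial.X : Polynomial (PowerSeries k)) • (T.map E).map Polynomial.C +
        (-(J.map E)).map Polynomial.C)
      = ((Polynomial.X : Polynomial (PowerSeries k)) • DT.map Polynomial.C +
        (-DJ).map Polynomial.C) * V.map Polynomial.C := by
    have e1 : V.map Polynomial.C * (T.map E).map Polynomial.C
        = DT.map Polynomial.C * V.map Polynomial.C := by
      rw [← Matrix.map_mul, ← Matrix.map_mul, h1]
    have e2 : V.map Polynomial.C * (J.map E).map Polynomial.C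
        = DJ.map Polynomial.C * V.map Polynomial.C := by
      rw [← Matrix.map_mul, ← Matrix.map_mul, h2]
    have n1 : (-(J.map E)).map (Polynomial.C : PowerSeries k →+* _) = -((J.map E).map Polynomial.C) := by
      ext a b; simp
    have n2 : (-DJ).map (Polynomial.C : PowerSeries k →+* _) = -(DJ.map Polynomial.C) := by
      ext a b; simp
    rw [n1, n2, Matrix.mul_add, Matrix.add_mul, Matrix.mul_smul, Matrix.smul_mul, e1,
      Matrix.mul_neg, Matrix.neg_mul, e2]
  have hdet := congrArg Matrix.det hcomm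
  rw [Matrix.det_mul, Matrix.det_mul, mul_comm] at hdet
  have hV0 : (V.map (Polynomial.C : PowerSeries k →+* _)).det ≠ 0 := by
    have : (V.map (Polynomial.C : PowerSeries k →+* _)).det = Polynomial.C V.det := by
      rw [← RingHom.mapMatrix_apply, ← RingHom.map_det]
    rw [this]
    exact (map_ne_zero_iff _ Polynomial.C_injective).mpr (det_vand_ne_zero p hζ)
  have hfin := mul_right_cancel₀ hV0 hdet
  rw [hmap, hfin]
  have hdiag : ((Polynomial.X : Polynomial (PowerSeries k)) • DT.map Polynomial.C +
        (-DJ).map Polynomial.C)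
      = Matrix.diagonal (fun b : Fin p =>
          Polynomial.C (PowerSeries.rescale (ζ ^ (b : ℕ)) (PowerSeries.X : PowerSeries k))
            * Polynomial.X
          - Polynomial.C (PowerSeries.rescale (ζ ^ (b : ℕ)) (jN k))) := by
    ext a b
    by_cases hab : a = b
    · subst hab
      simp [hDT, hDJ, mul_comm, sub_eq_add_neg]
    · simp [hDT, hDJ, hab]
  rw [hdiag, Matrix.det_diagonal]

end PartA

/-! ### Part B: polynomials in `j` inside Laurent series -/

section EvalJ

variable (R : Type*) [CommRing R]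

/-- Evaluation `P ↦ P(x)` of a polynomial with constant coefficients at a Laurent series. -/
noncomputable def evalL (x : LaurentSeries R) : Polynomial R →+* LaurentSeries R :=
  Polynomial.eval₂RingHom HahnSeries.C x

theorem evalL_apply (x : LaurentSeries R) (Q : Polynomial R) :
    evalL R x Q = Polynomial.eval₂ HahnSeries.C x Q := rfl

theorem evalL_C (x : LaurentSeries R) (r : R) : evalL R x (Polynomial.C r) = HahnSeries.C r := by
  rw [evalL_apply, Polynomial.eval₂_C]

theorem evalL_X (x : LaurentSeries R) : evalL R x Polynomial.X = x := by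
  rw [evalL_apply, Polynomial.eval₂_X]

theorem coeff_C_mul' (r : R) (x : LaurentSeries R) (n : ℤ) :
    (HahnSeries.C r * x).coeff n = r * x.coeff n := by
  rw [HahnSeries.C_mul_eq_smul, HahnSeries.coeff_smul, smul_eq_mul]

/-- The coefficient of `q ^ (-n)` in `Q(j)` for `deg Q ≤ n` is the `n`-th coefficient of `Q`. -/
theorem coeff_evalL_jq (Q : Polynomial R) (n : ℕ) (hn : Q.natDegree ≤ n) :
    (evalL R (jqModC R) Q).coeff (-(n : ℤ)) = Q.coeff n := by
  rw [evalL_apply, Polynomial.eval₂_eq_sum_range' HahnSeries.C (Nat.lt_succ_of_le hn) (jqModC R),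
    HahnSeries.coeff_sum]
  rw [Finset.sum_eq_single n]
  · rw [coeff_C_mul', coeff_jqModC_pow_self, mul_one]
  · intro i hi hin
    rw [coeff_C_mul', coeff_jqModC_pow_of_lt, mul_zero]
    have : i < n := lt_of_le_of_ne (Nat.lt_succ_iff.mp (Finset.mem_range.mp hi)) hin
    omega
  · intro h
    exact absurd (Finset.mem_range.mpr (Nat.lt_succ_self n)) h

theorem evalL_jq_injective [Nontrivial R] : Function.Injective (evalL R (jqModC R)) := by
  rw [injective_iff_map_eq_zero]
  intro Q hQ
  by_contra h0
  have := coeff_evalL_jq R Q Q.natDegree le_rfl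
  rw [hQ, HahnSeries.coeff_zero] at this
  exact h0 (Polynomial.leadingCoeff_eq_zero.mp this.symm)

/-- `coeffMap` commutes with evaluation at `j`. -/
theorem coeffMap_evalL_jq {S : Type*} [CommRing S] (φ : R →+* S) (Q : Polynomial R) :
    coeffMap φ (evalL R (jqModC R) Q) = evalL S (jqModC S) (Q.map φ) := by
  rw [evalL_apply, evalL_apply, Polynomial.hom_eval₂, Polynomial.eval₂_map, coeffMap_jqModC]
  congr 1
  ext r : 1
  change coeffMap φ (HahnSeries.single 0 r) = HahnSeries.single 0 (φ r)
  rw [coeffMap_single]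

end EvalJ

/-- **Integrality**: a rational polynomial in `j` with integral `q`-coefficients is an integral
polynomial in `j`. -/
theorem exists_int_poly_of_coeffMap (n : ℕ) : ∀ (Q : Polynomial ℚ), Q.natDegree ≤ n →
    ∀ (a : LaurentSeries ℤ), evalL ℚ (jqModC ℚ) Q = coeffMap (Int.castRingHom ℚ) a →
    ∃ P : Polynomial ℤ, Q = P.map (Int.castRingHom ℚ) ∧ a = evalL ℤ (jqModC ℤ) P := by
  have hinj : Function.Injective (coeffMap (Int.castRingHom ℚ)) := by
    intro x y hxy
    ext k
    have := congrArg (fun z => z.coeff k) hxy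
    simp only [coeffMap_coeff, eq_intCast] at this
    exact_mod_cast this
  induction n with
  | zero =>
    intro Q hQ a ha
    have hQc : Q = Polynomial.C (Q.coeff 0) := Polynomial.eq_C_of_natDegree_le_zero hQ
    have h0 := coeff_evalL_jq ℚ Q 0 hQ
    rw [ha] at h0
    simp only [Nat.cast_zero, neg_zero, coeffMap_coeff, eq_intCast] at h0
    refine ⟨Polynomial.C (a.coeff 0), ?_, ?_⟩
    · rw [Polynomial.map_C, eq_intCast, h0]
      exact hQc
    · apply hinj
      rw [← ha, coeffMap_evalL_jq, Polynomial.map_C, eq_intCast, h0, ← hQc]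
  | succ n ih =>
    intro Q hQ a ha
    have h0 := coeff_evalL_jq ℚ Q (n + 1) hQ
    rw [ha] at h0
    simp only [coeffMap_coeff, eq_intCast] at h0
    set c : ℤ := a.coeff (-((n + 1 : ℕ) : ℤ)) with hc
    set Q' : Polynomial ℚ := Q - Polynomial.C (c : ℚ) * Polynomial.X ^ (n + 1) with hQ'
    have hQ'deg : Q'.natDegree ≤ n := by
      rw [Polynomial.natDegree_le_iff_coeff_eq_zero]
      intro N hN
      rw [hQ', Polynomial.coeff_sub, Polynomial.coeff_C_mul, Polynomial.coeff_X_pow]
      by_cases hN1 : N = n + 1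
      · subst hN1
        rw [if_pos rfl, mul_one, h0, sub_self]
      · rw [if_neg hN1, mul_zero, sub_zero]
        exact Polynomial.coeff_eq_zero_of_natDegree_lt (by omega)
    set a' : LaurentSeries ℤ := a - HahnSeries.C c * jqModC ℤ ^ (n + 1) with ha'
    have hev : evalL ℚ (jqModC ℚ) Q' = coeffMap (Int.castRingHom ℚ) a' := by
      rw [hQ', ha', map_sub, map_sub, map_mul, map_mul, map_pow, map_pow, evalL_C, evalL_X, ha,
        coeffMap_jqModC]
      congr 2
      change HahnSeries.single 0 (c : ℚ) = coeffMap (Int.castRingHom ℚ) (HahnSeries.single 0 c)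
      rw [coeffMap_single, eq_intCast]
    obtain ⟨P', hP'1, hP'2⟩ := ih Q' hQ'deg a' hev
    refine ⟨P' + Polynomial.C c * Polynomial.X ^ (n + 1), ?_, ?_⟩
    · rw [Polynomial.map_add, Polynomial.map_mul, Polynomial.map_pow, Polynomial.map_C,
        Polynomial.map_X, eq_intCast, ← hP'1, hQ']
      ring
    · rw [map_add, map_mul, map_pow, evalL_C, evalL_X, ← hP'2, ha']
      ring

/-! ### Part C: the polynomial `(Y - j(q^p)) · ε q⁻¹ det (Y M_t - M_{jN})` over Laurent series -/

section Laurent

variable (p : ℕ) [NeZero p] (R : Type*) [CommRing R]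

/-- `ε q⁻¹`, `ε = (-1)^(p-1)`. -/
noncomputable def unitL : LaurentSeries R :=
  HahnSeries.C ((-1 : R) ^ (p - 1)) * HahnSeries.single (-1 : ℤ) 1

/-- `ε q⁻¹ det (Y M_t - M_{jN})`, a polynomial over Laurent series; after `q = t^p` it is
`∏_b (Y - j(ζ^b t))`. -/
noncomputable def gPoly : Polynomial (LaurentSeries R) :=
  Polynomial.C (unitL p R) * (pencil p R).map (HahnSeries.ofPowerSeries ℤ R)

/-- `(Y - j(q^p)) · gPoly`: the modular polynomial `Φ_p(Y, j(q))` in factored form. -/
noncomputable def rPoly : Polynomial (LaurentSeries R) :=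
  (Polynomial.X - Polynomial.C (qExpand R p (jqModC R))) * gPoly p R

theorem natDegree_gPoly_le : (gPoly p R).natDegree ≤ p :=
  (Polynomial.natDegree_C_mul_le _ _).trans
    ((Polynomial.natDegree_map_le).trans (natDegree_pencil_le p R))

theorem coeff_gPoly_card : (gPoly p R).coeff p = 1 := by
  rw [gPoly, Polynomial.coeff_C_mul, Polynomial.coeff_map, coeff_pencil_card,
    normP_X R (NeZero.ne p), map_mul, HahnSeries.ofPowerSeries_C, HahnSeries.ofPowerSeries_X, unitL]
  have h1 : HahnSeries.C ((-1 : R) ^ (p - 1)) * HahnSeries.C ((-1 : R) ^ (p - 1))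
      = (1 : LaurentSeries R) := by
    rw [← map_mul, ← pow_add, ← two_mul, pow_mul]
    simp
  have h2 : HahnSeries.single (-1 : ℤ) (1 : R) * HahnSeries.single (1 : ℤ) 1
      = (1 : LaurentSeries R) := by
    rw [HahnSeries.single_mul_single]
    simp
  calc HahnSeries.C ((-1 : R) ^ (p - 1)) * HahnSeries.single (-1 : ℤ) 1 *
        (HahnSeries.C ((-1 : R) ^ (p - 1)) * HahnSeries.single (1 : ℤ) 1)
      = (HahnSeries.C ((-1 : R) ^ (p - 1)) * HahnSeries.C ((-1 : R) ^ (p - 1))) *
        (HahnSeries.single (-1 : ℤ) 1 * HahnSeries.single (1 : ℤ) 1) := by ring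
    _ = 1 := by rw [h1, h2, mul_one]

theorem monic_gPoly : (gPoly p R).Monic :=
  Polynomial.monic_of_natDegree_le_of_coeff_eq_one p (natDegree_gPoly_le p R)
    (coeff_gPoly_card p R)

theorem monic_rPoly : (rPoly p R).Monic :=
  (Polynomial.monic_X_sub_C _).mul (monic_gPoly p R)

theorem natDegree_gPoly [Nontrivial R] : (gPoly p R).natDegree = p :=
  Polynomial.natDegree_eq_of_le_of_coeff_ne_zero (natDegree_gPoly_le p R)
    (by rw [coeff_gPoly_card]; exact one_ne_zero)

theorem natDegree_rPoly [Nontrivial R] : (rPoly p R).natDegree = p + 1 := by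
  rw [rPoly, (Polynomial.monic_X_sub_C _).natDegree_mul (monic_gPoly p R),
    Polynomial.natDegree_X_sub_C, natDegree_gPoly, add_comm]

theorem natDegree_rPoly_lt : (rPoly p R).natDegree < p + 2 := by
  rcases subsingleton_or_nontrivial R with h | h
  · have : (rPoly p R) = 0 := Subsingleton.elim _ _
    rw [this, Polynomial.natDegree_zero]
    omega
  · rw [natDegree_rPoly]
    omega

theorem coeffMap_unitL {S : Type*} [CommRing S] (φ : R →+* S) :
    coeffMap φ (unitL p R) = unitL p S := by
  rw [unitL, unitL, map_mul, coeffMap_single, map_one]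
  congr 1
  change coeffMap φ (HahnSeries.single 0 _) = HahnSeries.single 0 _
  rw [coeffMap_single, map_pow, map_neg, map_one]

theorem map_gPoly {S : Type*} [CommRing S] (φ : R →+* S) :
    (gPoly p R).map (coeffMap φ) = gPoly p S := by
  rw [gPoly, gPoly, Polynomial.map_mul, Polynomial.map_C, coeffMap_unitL, Polynomial.map_map,
    ← map_pencil p R φ, Polynomial.map_map]
  congr 2
  ext f : 1
  exact coeffMap_ofPowerSeries φ f

theorem map_rPoly {S : Type*} [CommRing S] (φ : R →+* S) :
    (rPoly p R).map (coeffMap φ) = rPoly p S := by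
  rw [rPoly, rPoly, Polynomial.map_mul, Polynomial.map_sub, Polynomial.map_X, Polynomial.map_C,
    map_gPoly, coeffMap_qExpand, coeffMap_jqModC]

theorem eval_gPoly (x : R) :
    (gPoly p R).eval (HahnSeries.C x) =
      unitL p R * HahnSeries.ofPowerSeries ℤ R
        (normP p (PowerSeries.C x * PowerSeries.X - jN R)) := by
  rw [gPoly, Polynomial.eval_mul, Polynomial.eval_C, ← eval_pencil R (NeZero.ne p) x,
    ← HahnSeries.ofPowerSeries_C, Polynomial.eval_map, Polynomial.eval₂_at_apply]

theorem eval_rPoly (x : R) :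
    (rPoly p R).eval (HahnSeries.C x) =
      (HahnSeries.C x - qExpand R p (jqModC R)) *
        (unitL p R * HahnSeries.ofPowerSeries ℤ R
          (normP p (PowerSeries.C x * PowerSeries.X - jN R))) := by
  rw [rPoly, Polynomial.eval_mul, eval_gPoly, Polynomial.eval_sub, Polynomial.eval_X,
    Polynomial.eval_C]

end Laurent

/-! ### Part D: the integral modular polynomial from its integer specialisations -/

section Interpolation

variable (p : ℕ) [NeZero p]

/-- The `ℚ`-subspace `ℚ[j]` of `ℚ((q))`. -/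
noncomputable def polyJ : Submodule ℚ (LaurentSeries ℚ) where
  carrier := Set.range (evalL ℚ (jqModC ℚ))
  add_mem' := by
    rintro _ _ ⟨Q₁, rfl⟩ ⟨Q₂, rfl⟩
    exact ⟨Q₁ + Q₂, map_add _ _ _⟩
  zero_mem' := ⟨0, map_zero _⟩
  smul_mem' := by
    rintro c _ ⟨Q, rfl⟩
    refine ⟨Polynomial.C c * Q, ?_⟩
    rw [map_mul, evalL_C, HahnSeries.C_mul_eq_smul]

theorem mem_polyJ {x : LaurentSeries ℚ} : x ∈ polyJ ↔ ∃ Q, evalL ℚ (jqModC ℚ) Q = x := Iff.rfl

/-- **Interpolation**: if every integer specialisation of `rPoly` is an integral polynomial in `j`,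
then `rPoly` itself comes from a polynomial with coefficients in `ℤ[j]`. -/
theorem exists_PhiZ
    (hmod : ∀ x : ℤ, ∃ P : Polynomial ℤ,
      evalL ℤ (jqModC ℤ) P = (rPoly p ℤ).eval (HahnSeries.C x)) :
    ∃ Φ : Polynomial (Polynomial ℤ), Φ.map (evalL ℤ (jqModC ℤ)) = rPoly p ℤ := by
  classical
  set c : ℤ →+* ℚ := Int.castRingHom ℚ with hc
  set N : ℕ := p + 2 with hN
  set a : ℕ → LaurentSeries ℤ := fun i => (rPoly p ℤ).coeff i with ha
  set aQ : ℕ → LaurentSeries ℚ := fun i => coeffMap c (a i) with haQ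
  -- the specialisations lie in `ℚ[j]`
  have hv : ∀ x : ℤ, ∑ i ∈ Finset.range N, ((x : ℚ) ^ i) • aQ i ∈ polyJ := by
    intro x
    obtain ⟨P, hP⟩ := hmod x
    refine ⟨P.map c, ?_⟩
    rw [← coeffMap_evalL_jq, hP, Polynomial.eval_eq_sum_range' (natDegree_rPoly_lt p ℤ), map_sum]
    refine Finset.sum_congr rfl fun i _ => ?_
    rw [map_mul, map_pow]
    have : coeffMap c (HahnSeries.C x) = HahnSeries.C (x : ℚ) := by
      change coeffMap c (HahnSeries.single 0 x) = HahnSeries.single 0 (x : ℚ)
      rw [coeffMap_single, hc, eq_intCast]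
    rw [this, ← map_pow, mul_comm, HahnSeries.C_mul_eq_smul]
  -- hence every coefficient lies in `ℚ[j]`
  have hcoef : ∀ i ∈ Finset.range N, aQ i ∈ polyJ := by
    intro i₀ hi₀
    by_contra hnot
    obtain ⟨f, hf, hfW⟩ := Submodule.exists_dual_map_eq_bot_of_notMem hnot inferInstance
    set g : Polynomial ℚ :=
      ∑ i ∈ Finset.range N, Polynomial.C (f (aQ i)) * Polynomial.X ^ i with hg
    have hroot : ∀ x : ℤ, g.IsRoot (x : ℚ) := by
      intro x
      have h1 : f (∑ i ∈ Finset.range N, ((x : ℚ) ^ i) • aQ i) = 0 := by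
        have : f (∑ i ∈ Finset.range N, ((x : ℚ) ^ i) • aQ i) ∈ Submodule.map f polyJ :=
          Submodule.mem_map_of_mem (hv x)
        rw [hfW] at this
        exact (Submodule.mem_bot ℚ).mp this
      rw [Polynomial.IsRoot, hg, Polynomial.eval_finsetSum]
      rw [map_sum] at h1
      rw [← h1]
      refine Finset.sum_congr rfl fun i _ => ?_
      rw [Polynomial.eval_mul, Polynomial.eval_C, Polynomial.eval_pow, Polynomial.eval_X,
        map_smul, smul_eq_mul, mul_comm]
    have hg0 : g = 0 := by
      apply Polynomial.eq_zero_of_infinite_isRoot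
      refine Set.Infinite.mono ?_ (Set.infinite_range_of_injective (Int.cast_injective (α := ℚ)))
      rintro _ ⟨x, rfl⟩
      exact hroot x
    have hcoeff : g.coeff i₀ = f (aQ i₀) := by
      rw [hg, Polynomial.finsetSum_coeff, Finset.sum_eq_single i₀]
      · rw [Polynomial.coeff_C_mul, Polynomial.coeff_X_pow, if_pos rfl, mul_one]
      · intro b _ hb
        rw [Polynomial.coeff_C_mul, Polynomial.coeff_X_pow, if_neg (Ne.symm hb), mul_zero]
      · intro h; exact absurd hi₀ h
    rw [hg0, Polynomial.coeff_zero] at hcoeff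
    exact hf hcoeff.symm
  -- integrality
  have hint : ∀ i ∈ Finset.range N, ∃ P : Polynomial ℤ, a i = evalL ℤ (jqModC ℤ) P := by
    intro i hi
    obtain ⟨Q, hQ⟩ := hcoef i hi
    obtain ⟨P, -, hP⟩ := exists_int_poly_of_coeffMap Q.natDegree Q le_rfl (a i) hQ
    exact ⟨P, hP⟩
  choose! P hP using hint
  refine ⟨∑ i ∈ Finset.range N, Polynomial.C (P i) * Polynomial.X ^ i, ?_⟩
  rw [Polynomial.map_sum]
  conv_rhs => rw [Polynomial.as_sum_range' (rPoly p ℤ) N (natDegree_rPoly_lt p ℤ)]
  refine Finset.sum_congr rfl fun i hi => ?_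
  rw [Polynomial.map_mul, Polynomial.map_pow, Polynomial.map_C, Polynomial.map_X, ← hP i hi,
    ← Polynomial.C_mul_X_pow_eq_monomial]

end Interpolation

/-! ### Part E: the integral modular polynomial -/

section PartE

open Fermat.Agent.S28.LaurentRescale

variable (p : ℕ) [NeZero p]

theorem exists_PhiZ_spec
    (hmod : ∀ x : ℤ, ∃ P : Polynomial ℤ,
      evalL ℤ (jqModC ℤ) P = (rPoly p ℤ).eval (HahnSeries.C x)) :
    ∃ Φ : Polynomial (Polynomial ℤ), Φ.Monic ∧ Φ.natDegree = p + 1 ∧
      Φ.map (evalL ℤ (jqModC ℤ)) = rPoly p ℤ := by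
  obtain ⟨Φ, hΦ⟩ := exists_PhiZ p hmod
  have hinj := evalL_jq_injective ℤ
  refine ⟨Φ, ?_, ?_, hΦ⟩
  · exact Polynomial.monic_of_injective hinj (by rw [hΦ]; exact monic_rPoly p ℤ)
  · rw [← Polynomial.natDegree_map_eq_of_injective hinj, hΦ, natDegree_rPoly]

theorem jN_int : jN ℤ = jNum := by
  ext n
  simp [jN]

/-- `aeval` (for any `ℤ`-algebra structure) agrees with `evalL`. -/
theorem aeval_eq_evalL_int [Algebra ℤ (LaurentSeries ℤ)] (x : LaurentSeries ℤ) (P : Polynomial ℤ) :
    Polynomial.aeval x P = evalL ℤ x P := by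
  rw [Polynomial.aeval_def, evalL_apply]
  congr 1
  exact RingHom.ext_int _ _

end PartE

/-! ### Part F: base change to a field and factorisation -/

section PartF

open Fermat.Agent.S28.LaurentRescale

variable (p : ℕ) [NeZero p] (k : Type*) [Field k]

theorem aeval_toRingHom_eq_evalL (y : LaurentSeries k) :
    (Polynomial.aeval y).toRingHom = evalL k y := by
  apply Polynomial.ringHom_ext
  · intro a
    rw [evalL_C]
    change Polynomial.aeval y (Polynomial.C a) = _
    rw [Polynomial.aeval_C, algebraMap_eq_single]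
    rfl
  · rw [evalL_X]
    change Polynomial.aeval y Polynomial.X = _
    rw [Polynomial.aeval_X]

theorem qExpand_comp_evalL (y : LaurentSeries k) :
    (qExpand k p).comp (evalL k y) = evalL k (qExpand k p y) := by
  apply Polynomial.ringHom_ext
  · intro a
    rw [RingHom.comp_apply, evalL_C, evalL_C, qExpand_C]
  · rw [RingHom.comp_apply, evalL_X, evalL_X]

/-- Base change of the integral relation to `k`. -/
theorem map_map_evalL (Φ : Polynomial (Polynomial ℤ))
    (hΦ : Φ.map (evalL ℤ (jqModC ℤ)) = rPoly p ℤ) :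
    (Φ.map (Polynomial.mapRingHom (Int.castRingHom k))).map (evalL k (jqModC k)) = rPoly p k := by
  rw [Polynomial.map_map]
  have h : (evalL k (jqModC k)).comp (Polynomial.mapRingHom (Int.castRingHom k))
      = (coeffMap (Int.castRingHom k)).comp (evalL ℤ (jqModC ℤ)) := by
    refine RingHom.ext fun Q => ?_
    rw [RingHom.comp_apply, RingHom.comp_apply, coeffMap_evalL_jq, Polynomial.coe_mapRingHom]
  rw [h, ← Polynomial.map_map, hΦ, map_rPoly]

/-- After `q ↦ q^p` the polynomial `gPoly` splits into the conjugates `j(ζ^b q)`. -/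
theorem map_qExpand_gPoly {ζ : kˣ} (hζ : IsPrimitiveRoot ζ p) :
    (gPoly p k).map (qExpand k p) =
      ∏ b ∈ Finset.range p,
        (Polynomial.X - Polynomial.C (rescaleU (ζ ^ b) (jqModC k))) := by
  have hp : p ≠ 0 := NeZero.ne p
  have hζ' : IsPrimitiveRoot (ζ : k) p := IsPrimitiveRoot.coe_units_iff.mpr hζ
  have hcomp : (qExpand k p).comp (HahnSeries.ofPowerSeries ℤ k)
      = (HahnSeries.ofPowerSeries ℤ k).comp (PowerSeries.expand p hp (R := k)).toRingHom := by
    refine RingHom.ext fun f => ?_
    exact (ExpandQ.ofPowerSeries_expand p f).symm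
  have hresc : ∀ (b : ℕ) (f : PowerSeries k),
      HahnSeries.ofPowerSeries ℤ k (PowerSeries.rescale ((ζ : k) ^ b) f)
        = rescaleU (ζ ^ b) (HahnSeries.ofPowerSeries ℤ k f) := by
    intro b f
    rw [rescaleU_ofPowerSeries, Units.val_pow_eq_pow_val]
  have hone : ∀ v : kˣ, rescaleU v (HahnSeries.ofPowerSeries ℤ k PowerSeries.X)
      * rescaleU v (HahnSeries.single (-1 : ℤ) (1 : k)) = 1 := by
    intro v
    rw [← map_mul, HahnSeries.ofPowerSeries_X, HahnSeries.single_mul_single]
    simp
  have hfac : ∀ b : ℕ,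
      Polynomial.C (HahnSeries.ofPowerSeries ℤ k
          (PowerSeries.rescale ((ζ : k) ^ b) (PowerSeries.X : PowerSeries k))) * Polynomial.X
        - Polynomial.C (HahnSeries.ofPowerSeries ℤ k (PowerSeries.rescale ((ζ : k) ^ b) (jN k)))
      = Polynomial.C (rescaleU (ζ ^ b) (HahnSeries.ofPowerSeries ℤ k PowerSeries.X))
        * (Polynomial.X - Polynomial.C (rescaleU (ζ ^ b) (jqModC k))) := by
    intro b
    rw [hresc, hresc, mul_sub, ← Polynomial.C_mul]
    congr 2
    rw [jqModC, map_mul, ← mul_assoc, hone, one_mul]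
    rfl
  have hL : (gPoly p k).map (qExpand k p) =
      Polynomial.C (qExpand k p (unitL p k) *
          ∏ b : Fin p, rescaleU (ζ ^ (b : ℕ)) (HahnSeries.ofPowerSeries ℤ k PowerSeries.X))
        * ∏ b : Fin p, (Polynomial.X - Polynomial.C (rescaleU (ζ ^ (b : ℕ)) (jqModC k))) := by
    rw [gPoly, Polynomial.map_mul, Polynomial.map_C, Polynomial.map_map, hcomp,
      ← Polynomial.map_map, map_expand_pencil p hp hζ', Polynomial.map_prod]
    have : ∀ b : Fin p, Polynomial.map (HahnSeries.ofPowerSeries ℤ k)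
        (Polynomial.C (PowerSeries.rescale ((ζ : k) ^ (b : ℕ)) (PowerSeries.X : PowerSeries k))
          * Polynomial.X - Polynomial.C (PowerSeries.rescale ((ζ : k) ^ (b : ℕ)) (jN k)))
        = Polynomial.C (rescaleU (ζ ^ (b : ℕ)) (HahnSeries.ofPowerSeries ℤ k PowerSeries.X))
          * (Polynomial.X - Polynomial.C (rescaleU (ζ ^ (b : ℕ)) (jqModC k))) := by
      intro b
      rw [Polynomial.map_sub, Polynomial.map_mul, Polynomial.map_C, Polynomial.map_C,
        Polynomial.map_X, hfac]
    rw [Finset.prod_congr rfl (fun b _ => this b), Finset.prod_mul_distrib, ← map_prod,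
      ← mul_assoc, ← Polynomial.C_mul]
  have hML : ((gPoly p k).map (qExpand k p)).Monic := (monic_gPoly p k).map _
  have hMR : (∏ b : Fin p,
      (Polynomial.X - Polynomial.C (rescaleU (ζ ^ (b : ℕ)) (jqModC k)))).Monic :=
    Polynomial.monic_prod_of_monic _ _ (fun b _ => Polynomial.monic_X_sub_C _)
  have hc : qExpand k p (unitL p k) *
      ∏ b : Fin p, rescaleU (ζ ^ (b : ℕ)) (HahnSeries.ofPowerSeries ℤ k PowerSeries.X) = 1 := by
    have h1 := hML.leadingCoeff
    rw [hL, Polynomial.leadingCoeff_mul_monic hMR, Polynomial.leadingCoeff_C] at h1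
    exact h1
  rw [hL, hc, Polynomial.C_1, one_mul]
  exact Fin.prod_univ_eq_prod_range
    (fun b => (Polynomial.X - Polynomial.C (rescaleU (ζ ^ b) (jqModC k)))) p

/-- **(F') from the `evalL`-form of the integer specialisations.** -/
theorem hasModPoly_of_evalL
    (hmod : ∀ x : ℤ, ∃ P : Polynomial ℤ,
      evalL ℤ (jqModC ℤ) P = (rPoly p ℤ).eval (HahnSeries.C x)) :
    Defs.HasModPoly k p := by
  obtain ⟨Φ, hmonic, hdeg, hΦ⟩ := exists_PhiZ_spec p hmod
  refine ⟨Φ.map (Polynomial.mapRingHom (Int.castRingHom k)), hmonic.map _, ?_, ?_⟩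
  · rw [hmonic.natDegree_map, hdeg]
  · intro ζ hζ
    rw [aeval_toRingHom_eq_evalL, ← qExpand_comp_evalL, ← Polynomial.map_map,
      map_map_evalL p k Φ hΦ, rPoly, Polynomial.map_mul, Polynomial.map_sub, Polynomial.map_X,
      Polynomial.map_C, map_qExpand_gPoly p k hζ, qExpand_qExpand]
    congr 3
    exact qExpand_congr (by ring) _

/-- Adapter: the `aeval`-form of the integer specialisations (the deliverable of
`S28/ModEqForm`) gives the `evalL`-form. -/
theorem hmod_evalL_of_aeval
    (hmod : ∀ x : ℤ, ∃ P : Polynomial ℤ,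
      Polynomial.aeval (jqModC ℤ) P =
        (HahnSeries.C x - qExpand ℤ p (jqModC ℤ)) *
          (HahnSeries.single (-1 : ℤ) (1 : ℤ) * HahnSeries.ofPowerSeries ℤ ℤ
            (normP p (PowerSeries.C x * PowerSeries.X - jNum)))) :
    ∀ x : ℤ, ∃ P : Polynomial ℤ,
      evalL ℤ (jqModC ℤ) P = (rPoly p ℤ).eval (HahnSeries.C x) := by
  intro x
  obtain ⟨P, hP⟩ := hmod x
  refine ⟨Polynomial.C ((-1 : ℤ) ^ (p - 1)) * P, ?_⟩
  rw [map_mul, evalL_C, ← aeval_eq_evalL_int, hP, eval_rPoly, unitL, jN_int]
  ring

/-- **(F') Prime-level modular equation over any field `k`**, from the integer specialisations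
of the level-one norm (`S28/ModEqForm.hmod`). -/
theorem hasModPoly
    (hmod : ∀ x : ℤ, ∃ P : Polynomial ℤ,
      Polynomial.aeval (jqModC ℤ) P =
        (HahnSeries.C x - qExpand ℤ p (jqModC ℤ)) *
          (HahnSeries.single (-1 : ℤ) (1 : ℤ) * HahnSeries.ofPowerSeries ℤ ℤ
            (normP p (PowerSeries.C x * PowerSeries.X - jNum)))) :
    Defs.HasModPoly k p :=
  hasModPoly_of_evalL p k (hmod_evalL_of_aeval p hmod)

end PartF

end Fermat.Agent.S28.ModPoly
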