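import Mathlib
import Fermat.Agent.S28.ModPoly

/-!
# S28 (III-F): the integral relation `Φ_p(j(q^p), j(q)) = 0` over `ℤ`

PROJECT F (S28, Igusa), helper28.  Adapter from `S28/ModPoly.exists_PhiZ_spec` to the shape consumed
by the prime-chain integrality slice (`S28/IntegralChain`, `HasIntRel p`): `j(q^p)` is a root of a
monic polynomial with coefficients in `ℤ[j(q)]`, inside `ℤ((q))`.
-/

set_option autoImplicit false

namespace Fermat.Agent.S28.ModPolyIntRel

open Fermat.Agent.S16.PowerSeriesNorm ModularCurve Fermat.Agent.S28.ModPoly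

variable (p : ℕ) [NeZero p]

/-- The ring hom underlying `aeval jZ` is `evalL ℤ jZ`. -/
theorem aeval_coe_eq_evalL (x : LaurentSeries ℤ) :
    ((Polynomial.aeval x : Polynomial ℤ →ₐ[ℤ] LaurentSeries ℤ) :
      Polynomial ℤ →+* LaurentSeries ℤ) = evalL ℤ x :=
  RingHom.ext fun P => aeval_eq_evalL_int x P

/-- `j(q^p)` is a root of `rPoly p R = (Y - j(q^p)) · gPoly`. -/
theorem eval_rPoly_self (R : Type*) [CommRing R] :
    (rPoly p R).eval (qExpand R p (jqModC R)) = 0 := by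
  rw [rPoly, Polynomial.eval_mul, Polynomial.eval_sub, Polynomial.eval_X, Polynomial.eval_C,
    sub_self, zero_mul]

/-- **Integral relation** (`evalL` form). -/
theorem exists_monic_eval₂_evalL_eq_zero
    (hmod : ∀ x : ℤ, ∃ P : Polynomial ℤ,
      evalL ℤ (jqModC ℤ) P = (rPoly p ℤ).eval (HahnSeries.C x)) :
    ∃ Φ : Polynomial (Polynomial ℤ), Φ.Monic ∧ Φ.natDegree = p + 1 ∧
      Φ.eval₂ (evalL ℤ (jqModC ℤ)) (qExpand ℤ p (jqModC ℤ)) = 0 := by
  obtain ⟨Φ, hmonic, hdeg, hΦ⟩ := exists_PhiZ_spec p hmod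
  refine ⟨Φ, hmonic, hdeg, ?_⟩
  rw [← Polynomial.eval_map, hΦ, eval_rPoly_self]

/-- **Integral relation** in the shape of `IntegralChain.HasIntRel p`: `j(q^p)` is a root of a monic
polynomial over `ℤ[j(q)]`, from the integer specialisations `hmod` (`S28/ModEqForm`). -/
theorem exists_monic_eval₂_eq_zero
    (hmod : ∀ x : ℤ, ∃ P : Polynomial ℤ,
      Polynomial.aeval (jqModC ℤ) P =
        (HahnSeries.C x - qExpand ℤ p (jqModC ℤ)) *
          (HahnSeries.single (-1 : ℤ) (1 : ℤ) * HahnSeries.ofPowerSeries ℤ ℤ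
            (normP p (PowerSeries.C x * PowerSeries.X - jNum)))) :
    ∃ Φ : Polynomial (Polynomial ℤ), Φ.Monic ∧
      Φ.eval₂ ((Polynomial.aeval (jqModC ℤ) : Polynomial ℤ →ₐ[ℤ] LaurentSeries ℤ) :
        Polynomial ℤ →+* LaurentSeries ℤ) (qExpand ℤ p (jqModC ℤ)) = 0 := by
  obtain ⟨Φ, hmonic, -, hΦ⟩ :=
    exists_monic_eval₂_evalL_eq_zero p (hmod_evalL_of_aeval p hmod)
  exact ⟨Φ, hmonic, by rw [aeval_coe_eq_evalL]; exact hΦ⟩

end Fermat.Agent.S28.ModPolyIntRel
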