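/-
PROJECT F (S28, Igusa), slice (III-F): the prime-level modular equation over any field,
UNCONDITIONAL (helper23).  One-line glue of the two halves:

* `S28/ModEqForm.hmod` (modular half: every integer specialisation of the level-one norm is an
  integer polynomial in `j`), and
* `S28/ModPoly.hasModPoly` (formal half: interpolation, integrality, base change, factorisation).
-/
import Fermat.Agent.S28.ModPoly
import Fermat.Agent.S28.ModPolyIntRel
import Fermat.Agent.S28.ModEqForm

set_option autoImplicit false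

namespace Fermat.Agent.S28.ModPolyPrime

/-- **(F') Prime-level modular equation over any field `k`** (any `NeZero p` instance). -/
theorem hasModPoly (k : Type*) [Field k] (p : ℕ) [NeZero p] (hp : p.Prime) :
    Fermat.Agent.S28.Defs.HasModPoly k p := by
  haveI : Fact p.Prime := ⟨hp⟩
  exact Fermat.Agent.S28.ModPoly.hasModPoly p k
    (fun x => let ⟨P, _, h⟩ := Fermat.Agent.S28.ModEqForm.hmod p x; ⟨P, h⟩)

/-- The `Fact` form. -/
theorem hasModPoly_fact (k : Type*) [Field k] (p : ℕ) [hp : Fact p.Prime] :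
    Fermat.Agent.S28.Defs.HasModPoly k p :=
  hasModPoly k p hp.out

/-- The integral relation: `Φ ∈ ℤ[j][Y]` monic of degree `p + 1` with
`Φ(Y, j) = (Y - j(q^p)) · gPoly` over `ℤ((q))`. -/
theorem exists_PhiZ (p : ℕ) [NeZero p] (hp : p.Prime) :
    ∃ Φ : Polynomial (Polynomial ℤ), Φ.Monic ∧ Φ.natDegree = p + 1 ∧
      Φ.map (Fermat.Agent.S28.ModPoly.evalL ℤ (ModularCurve.jqModC ℤ))
        = Fermat.Agent.S28.ModPoly.rPoly p ℤ := by
  haveI : Fact p.Prime := ⟨hp⟩
  exact Fermat.Agent.S28.ModPoly.exists_PhiZ_spec p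
    (Fermat.Agent.S28.ModPoly.hmod_evalL_of_aeval p
      (fun x => let ⟨P, _, h⟩ := Fermat.Agent.S28.ModEqForm.hmod p x; ⟨P, h⟩))

/-- **Integral relation, unconditional** (the shape of `IntegralChain.HasIntRel p`): `j(q^p)` is
a root of a monic polynomial over `ℤ[j(q)]`, inside `ℤ((q))`. -/
theorem exists_monic_eval₂_eq_zero (p : ℕ) [NeZero p] (hp : p.Prime) :
    ∃ Φ : Polynomial (Polynomial ℤ), Φ.Monic ∧
      Φ.eval₂ ((Polynomial.aeval (ModularCurve.jqModC ℤ) :
          Polynomial ℤ →ₐ[ℤ] LaurentSeries ℤ) : Polynomial ℤ →+* LaurentSeries ℤ)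
        (ModularCurve.qExpand ℤ p (ModularCurve.jqModC ℤ)) = 0 := by
  haveI : Fact p.Prime := ⟨hp⟩
  exact Fermat.Agent.S28.ModPolyIntRel.exists_monic_eval₂_eq_zero p
    (fun x => let ⟨P, _, h⟩ := Fermat.Agent.S28.ModEqForm.hmod p x; ⟨P, h⟩)

end Fermat.Agent.S28.ModPolyPrime
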