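/-
PROJECT F (S28), slice (III-P) (helper4): THE PRIME CASE `j(qᵖ) ∉ k(j)`.

`k` a field, `p` a prime invertible in `k`, `J = jqModC k ∈ k((q))`.  If `J(qᵖ)` were a rational
function of `J`, then `u := p¹² Δ(qᵖ)/Δ(q)` would lie in `k(J)` as well (from
`Δ J⁴ (J - 1728)³ = (θ J)⁶` and the stability of `k(J)` under `x ↦ θ x / θ J`).  But `u` is integral
over `k[J]` (input `hint`, proved in `PrimeCaseForm` from the level-one characteristic polynomial
of `p¹² Δ(pz)`), hence a polynomial in `J`; a non-zero polynomial in `J` has `q`-order `≤ 0`, whereas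
`u = p¹² q^(p-1) (1 + …)` has positive order.
-/
import Mathlib
import Fermat.Agent.S28.ThetaL
import Fermat.Agent.S28.FormalJ

set_option autoImplicit false

namespace Fermat.Agent.S28.PrimeCase

open HahnSeries ModularCurve Polynomial
open Fermat.Agent.S28.ThetaL Fermat.Agent.S28.FormalJ

variable (k : Type*) [Field k]

local notation "L" => LaurentSeries k

/-! ### Polynomials in `J` -/

theorem algebraMap_eq_single (c : k) : algebraMap k L c = HahnSeries.single 0 c :=
  algebraMap_laurentSeries_eq_single k c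

theorem thetaL_algebraMap (c : k) : thetaL (algebraMap k L c) = 0 := by
  rw [algebraMap_eq_single, thetaL_single]
  simp

/-- coefficients of `P(J)` below `-deg P` vanish -/
theorem coeff_aeval_of_lt (P : k[X]) {n : ℤ} (hn : n < -(P.natDegree : ℤ)) :
    (aeval (jqModC k) P).coeff n = 0 := by
  rw [aeval_eq_sum_range, HahnSeries.coeff_sum]
  refine Finset.sum_eq_zero fun m hm => ?_
  rw [Finset.mem_range] at hm
  rw [Algebra.smul_def, algebraMap_eq_single, HahnSeries.coeff_single_zero_mul,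
    coeff_jqModC_pow_of_lt k (by omega), mul_zero]

/-- the coefficient of `q^(-deg P)` in `P(J)` is the leading coefficient of `P` -/
theorem coeff_aeval_neg_natDegree (P : k[X]) :
    (aeval (jqModC k) P).coeff (-(P.natDegree : ℤ)) = P.leadingCoeff := by
  rw [aeval_eq_sum_range, HahnSeries.coeff_sum, Finset.sum_eq_single P.natDegree]
  · rw [Algebra.smul_def, algebraMap_eq_single, HahnSeries.coeff_single_zero_mul,
      coeff_jqModC_pow_self, mul_one]
    rfl
  · intro m hm hne
    rw [Finset.mem_range] at hm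
    rw [Algebra.smul_def, algebraMap_eq_single, HahnSeries.coeff_single_zero_mul,
      coeff_jqModC_pow_of_lt k (by omega), mul_zero]
  · intro h
    exact absurd (Finset.mem_range.2 (Nat.lt_succ_self _)) h

/-- `J` is transcendental over `k`. -/
theorem aeval_injective : Function.Injective (aeval (jqModC k) : k[X] →ₐ[k] L) := by
  rw [injective_iff_map_eq_zero]
  intro P hP
  by_contra hne
  have h := coeff_aeval_neg_natDegree k P
  rw [hP, HahnSeries.coeff_zero] at h
  exact hne (leadingCoeff_eq_zero.1 h.symm)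

/-! ### `k(J)` is stable under `x ↦ θ x / θ J` -/

theorem thetaL_mem_adjoin {x : L} (hx : x ∈ IntermediateField.adjoin k {jqModC k}) :
    ∃ y ∈ IntermediateField.adjoin k {jqModC k}, thetaL x = y * thetaL (jqModC k) := by
  induction hx using IntermediateField.adjoin_induction with
  | mem x hx =>
    rw [Set.mem_singleton_iff] at hx
    subst hx
    exact ⟨1, one_mem _, (one_mul _).symm⟩
  | algebraMap c =>
    exact ⟨0, zero_mem _, by rw [thetaL_algebraMap, zero_mul]⟩
  | add x y hx hy ihx ihy =>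
    obtain ⟨a, ha, hxa⟩ := ihx
    obtain ⟨b, hb, hyb⟩ := ihy
    exact ⟨a + b, add_mem ha hb, by rw [thetaL_add, hxa, hyb, add_mul]⟩
  | inv x hx ihx =>
    obtain ⟨a, ha, hxa⟩ := ihx
    by_cases h0 : x = 0
    · subst h0
      exact ⟨0, zero_mem _, by rw [inv_zero, thetaL_zero, zero_mul]⟩
    · refine ⟨-a * (x⁻¹) ^ 2, mul_mem (neg_mem ha) (pow_mem (inv_mem hx) 2), ?_⟩
      rw [thetaL_inv x h0, hxa]
      ring
  | mul x y hx hy ihx ihy =>
    obtain ⟨a, ha, hxa⟩ := ihx
    obtain ⟨b, hb, hyb⟩ := ihy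
    refine ⟨a * y + x * b, add_mem (mul_mem ha hy) (mul_mem hx hb), ?_⟩
    rw [thetaL_mul, hxa, hyb]
    ring

/-! ### The function `u = p¹² Δ(qᵖ)/Δ(q)` -/

variable (p : ℕ) [hp : Fact p.Prime]

/-- `u = p¹² Δ(qᵖ)/Δ(q)` -/
noncomputable def uK : L := (p : L) ^ 12 * qExpand k p (DeltaR k) * DeltaInvR k

theorem natCast_eq_C (n : ℕ) : (n : L) = HahnSeries.C (n : k) := by
  rw [map_natCast]

omit hp in
theorem natCast_ne_zero (hpk : (p : k) ≠ 0) : (p : L) ≠ 0 := by
  rw [natCast_eq_C]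
  intro h
  exact hpk (HahnSeries.C_injective (by rw [h, map_zero]))

theorem coeff_ofNat_of_ne (n : ℕ) [n.AtLeastTwo] {m : ℤ} (hm : m ≠ 0) :
    (OfNat.ofNat n : L).coeff m = 0 := by
  have h : (OfNat.ofNat n : L) = HahnSeries.C (OfNat.ofNat n : k) := by
    rw [map_ofNat]
  rw [h]
  exact HahnSeries.coeff_single_of_ne hm

theorem coeff_qExpand_jqModC : (qExpand k p (jqModC k)).coeff (-(p : ℤ)) = 1 := by
  have h := qExpand_coeff_mul (R := k) p (jqModC k) (-1)
  rw [mul_neg_one] at h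
  rw [h, coeff_jqModC_neg_one]

theorem qExpand_jqModC_ne_zero : qExpand k p (jqModC k) ≠ 0 := by
  intro h
  have h1 := coeff_qExpand_jqModC k p
  rw [h, HahnSeries.coeff_zero] at h1
  exact zero_ne_one h1

theorem qExpand_jqModC_sub_ne_zero : qExpand k p (jqModC k) - 1728 ≠ 0 := by
  intro h
  have h1 := coeff_qExpand_jqModC k p
  have hp0 : (-(p : ℤ)) ≠ 0 := by
    have := hp.out.pos
    omega
  have h2 : (qExpand k p (jqModC k) - 1728).coeff (-(p : ℤ)) = 1 := by
    rw [HahnSeries.coeff_sub, h1, coeff_ofNat_of_ne k 1728 hp0, sub_zero]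
  rw [h, HahnSeries.coeff_zero] at h2
  exact zero_ne_one h2

/-- If `J(qᵖ) ∈ k(J)` then `u ∈ k(J)`. -/
theorem uK_mem (hpk : (p : k) ≠ 0)
    (h : qExpand k p (jqModC k) ∈ IntermediateField.adjoin k {jqModC k}) :
    uK k p ∈ IntermediateField.adjoin k {jqModC k} := by
  set M := IntermediateField.adjoin k {jqModC k} with hM
  set J := jqModC k with hJ
  set Jp := qExpand k p J with hJp
  have hJM : J ∈ M := IntermediateField.subset_adjoin k _ (Set.mem_singleton _)
  obtain ⟨y, hyM, hy⟩ := thetaL_mem_adjoin k h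
  have h1 := delta_mul_eq_R k
  have h2 := congrArg (qExpand k p) h1
  rw [map_mul, map_mul, map_pow, map_pow, map_pow, map_sub, map_ofNat] at h2
  have h3 := thetaL_qExpand p (jqModC k)
  rw [hy] at h3
  have hD := DeltaR_mul_inv k
  -- the key relation
  have key : uK k p * ((p : L) ^ 6 * Jp ^ 4 * (Jp - 1728) ^ 3) =
      (p : L) ^ 12 * y ^ 6 * J ^ 4 * (J - 1728) ^ 3 := by
    have e1 : (y * thetaL J) ^ 6 = ((p : L) * qExpand k p (thetaL J)) ^ 6 := by rw [h3]
    rw [uK]
    linear_combination ((p : L) ^ 12 * y ^ 6 * J ^ 4 * (J - 1728) ^ 3) * hD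
      + ((p : L) ^ 18 * DeltaInvR k) * h2 - ((p : L) ^ 12 * DeltaInvR k) * e1
      - ((p : L) ^ 12 * DeltaInvR k * y ^ 6) * h1
  have hw : (p : L) ^ 6 * Jp ^ 4 * (Jp - 1728) ^ 3 ≠ 0 :=
    mul_ne_zero (mul_ne_zero (pow_ne_zero _ (natCast_ne_zero k p hpk))
      (pow_ne_zero _ (qExpand_jqModC_ne_zero k p))) (pow_ne_zero _ (qExpand_jqModC_sub_ne_zero k p))
  have hu : uK k p = ((p : L) ^ 12 * y ^ 6 * J ^ 4 * (J - 1728) ^ 3) /
      ((p : L) ^ 6 * Jp ^ 4 * (Jp - 1728) ^ 3) := by
    rw [eq_div_iff hw, key]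
  rw [hu]
  have hpM : (p : L) ∈ M := natCast_mem M p
  have h1728 : (1728 : L) ∈ M := by
    have : (1728 : L) = ((1728 : ℕ) : L) := by norm_num
    rw [this]
    exact natCast_mem M 1728
  exact div_mem
    (mul_mem (mul_mem (mul_mem (pow_mem hpM _) (pow_mem hyM _)) (pow_mem hJM _))
      (pow_mem (sub_mem hJM h1728) _))
    (mul_mem (mul_mem (pow_mem hpM _) (pow_mem h _)) (pow_mem (sub_mem h h1728) _))

/-! ### Orders -/

omit hp in
/-- lower bounds for the support add up under multiplication -/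
theorem coeff_mul_of_lt {f g : L} {a b : ℤ} (hf : ∀ n, n < a → f.coeff n = 0)
    (hg : ∀ n, n < b → g.coeff n = 0) {n : ℤ} (hn : n < a + b) : (f * g).coeff n = 0 := by
  rw [HahnSeries.coeff_mul]
  refine Finset.sum_eq_zero fun ij hij => ?_
  rw [Finset.mem_antidiagonal] at hij
  by_cases h1 : ij.1 < a
  · rw [hf _ h1, zero_mul]
  · rw [hg _ (by omega), mul_zero]

theorem coeff_qExpand_DeltaR_of_lt {n : ℤ} (hn : n < (p : ℤ)) :
    (qExpand k p (DeltaR k)).coeff n = 0 := by
  by_cases hd : (p : ℤ) ∣ n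
  · obtain ⟨m, rfl⟩ := hd
    rw [qExpand_coeff_mul]
    apply coeff_DeltaR_of_lt
    have hp0 : (0 : ℤ) < p := by exact_mod_cast hp.out.pos
    by_contra hm
    have : (p : ℤ) * 1 ≤ p * m := mul_le_mul_of_nonneg_left (by omega) hp0.le
    omega
  · exact qExpand_coeff_of_not_dvd p _ hd

omit hp in
theorem coeff_DeltaInvR_of_lt {n : ℤ} (hn : n < -1) : (DeltaInvR k).coeff n = 0 := by
  rw [DeltaInvR, coeffMap_coeff, DeltaInvL, HahnSeries.coeff_single_mul,
    ofPowerSeries_coeff_of_neg _ (by omega), mul_zero, map_zero]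

omit hp in
theorem coeff_natCast_pow_of_lt (m : ℕ) {n : ℤ} (hn : n < 0) : (((p : L)) ^ m).coeff n = 0 := by
  have h : ((p : L)) ^ m = HahnSeries.C ((p : k) ^ m) := by
    rw [natCast_eq_C, map_pow]
  rw [h]
  exact HahnSeries.coeff_single_of_ne hn.ne

/-- the coefficients of `u` below `q^(p-1)` vanish -/
theorem coeff_uK_of_lt {n : ℤ} (hn : n < (p : ℤ) - 1) : (uK k p).coeff n = 0 := by
  rw [uK]
  have h1 : ∀ n : ℤ, n < 0 + (p : ℤ) →
      (((p : L)) ^ 12 * qExpand k p (DeltaR k)).coeff n = 0 := fun n hn =>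
    coeff_mul_of_lt k (fun m hm => coeff_natCast_pow_of_lt k p 12 hm)
      (fun m hm => coeff_qExpand_DeltaR_of_lt k p hm) hn
  exact coeff_mul_of_lt k h1 (fun m hm => coeff_DeltaInvR_of_lt k hm) (by omega)

theorem uK_ne_zero (hpk : (p : k) ≠ 0) : uK k p ≠ 0 := by
  have hD := DeltaR_mul_inv k
  have hD1 : DeltaR k ≠ 0 := fun h => by rw [h, zero_mul] at hD; exact zero_ne_one hD
  have hD2 : DeltaInvR k ≠ 0 := fun h => by rw [h, mul_zero] at hD; exact zero_ne_one hD
  have hV : qExpand k p (DeltaR k) ≠ 0 := fun h =>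
    hD1 (qExpand_injective (R := k) p (by rw [h, map_zero]))
  exact mul_ne_zero (mul_ne_zero (pow_ne_zero _ (natCast_ne_zero k p hpk)) hV) hD2

/-! ### The prime case -/

/-- **(III-P), modulo the integrality of `u`**: `J(qᵖ) ∉ k(J)`. -/
theorem qExpand_jqModC_not_mem_of_integral (hpk : (p : k) ≠ 0)
    (hint : ∃ P : Polynomial (Polynomial k), P.Monic ∧
      P.eval₂ ((aeval (jqModC k) : k[X] →ₐ[k] L) : k[X] →+* L) (uK k p) = 0) :
    qExpand k p (jqModC k) ∉ IntermediateField.adjoin k {jqModC k} := by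
  intro hmem
  have hu := uK_mem k p hpk hmem
  obtain ⟨r, s, hrs⟩ := (IntermediateField.mem_adjoin_simple_iff k (uK k p)).1 hu
  obtain ⟨P, hPm, hP⟩ := hint
  -- the embedding `k(X) → k((q))`, `X ↦ J`
  let ψ : RatFunc k →ₐ[k] L := RatFunc.liftAlgHom (aeval (jqModC k))
    (nonZeroDivisors_le_comap_nonZeroDivisors_of_injective _ (aeval_injective k))
  have hψinj : Function.Injective ψ := RatFunc.liftAlgHom_injective _ (aeval_injective k)
  have hψpoly : ∀ a : k[X], ψ (algebraMap k[X] (RatFunc k) a) = aeval (jqModC k) a := by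
    intro a
    have h := RatFunc.liftAlgHom_apply_div (aeval (jqModC k))
      (nonZeroDivisors_le_comap_nonZeroDivisors_of_injective _ (aeval_injective k)) a 1
    rw [map_one, div_one, map_one, div_one] at h
    exact h
  set ρ : RatFunc k := algebraMap k[X] (RatFunc k) r / algebraMap k[X] (RatFunc k) s with hρ
  have hψρ : ψ ρ = uK k p := by
    rw [hρ, map_div₀, hψpoly, hψpoly, hrs]
  -- `ρ` is integral over `k[X]`
  have hint' : IsIntegral k[X] ρ := by
    refine ⟨P, hPm, ?_⟩
    apply hψinj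
    have hcomp : (ψ : RatFunc k →+* L).comp (algebraMap k[X] (RatFunc k)) =
        ((aeval (jqModC k) : k[X] →ₐ[k] L) : k[X] →+* L) := by
      refine RingHom.ext fun a => ?_
      exact hψpoly a
    have h1 := Polynomial.hom_eval₂ P (algebraMap k[X] (RatFunc k)) (ψ : RatFunc k →+* L) ρ
    rw [hcomp] at h1
    rw [map_zero]
    refine h1.trans ?_
    change Polynomial.eval₂ _ (ψ ρ) P = 0
    rw [hψρ, hP]
  obtain ⟨a, ha⟩ := IsIntegrallyClosed.isIntegral_iff.1 hint'
  have hua : uK k p = aeval (jqModC k) a := by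
    rw [← hψρ, ← ha, hψpoly]
  have ha0 : a ≠ 0 := by
    rintro rfl
    rw [map_zero] at hua
    exact uK_ne_zero k p hpk hua
  have h1 := coeff_aeval_neg_natDegree k a
  rw [← hua, coeff_uK_of_lt k p (by have := hp.out.two_le; omega)] at h1
  exact ha0 (leadingCoeff_eq_zero.1 h1.symm)

end Fermat.Agent.S28.PrimeCase
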