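/-
PROJECT F (S28, Igusa), slice (III-P) part 3 (helper4): THE MONIC RELATION FOR
`u = p^12 Δ(q^p)/Δ` OVER `k[J]`, AND THE PRIME CASE `J(q^p) ∉ k(J)`.

`F := p^12 • Δ(p·) ∈ M_12(Γ₀(p))` has `q`-expansion `p^12 Δ(q^p)` and `ψ`-series
(`p^(1-12) • qx (w_p F)`) equal to `Δ`.  The level-one characteristic polynomial of `F`
(`S16/ConjExpansion`) is therefore the image of the FORMAL polynomial
`χ := (X - p^12 Δ(q^p)) * charpoly (mulMatrix p Δ)` over `ℤ⟦q⟧`, its coefficient of `X^(p+1-i)`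
is (up to sign) the integer `q`-expansion of a level-one form of weight `12 i`, hence
`Δ^i * P_i(j)` with `P_i ∈ ℤ[X]` (`S28/LevelOnePolyJ`).  Dividing `χ(p^12 Δ(q^p)) = 0` by
`Δ^(p+1)` gives a monic relation for `u` over `ℤ[j]`, which we reduce to any field `k`.
Together with `S28/PrimeCase` this proves `(P)`.
-/
import Mathlib
import Fermat.Agent.S16.ConjExpansion
import Fermat.Agent.S16.WpLevelOne
import Fermat.Agent.S28.LevelOnePolyJ
import Fermat.Agent.S28.PrimeCase

set_option autoImplicit false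

noncomputable section

namespace Fermat.Agent.S28.PrimeCaseForm

open ModularCurve Polynomial

/-! ### Formal glue -/

/-- `ofPowerSeries` turns `PowerSeries.expand` into the prelude `qExpand`. -/
theorem ofPowerSeries_expand {R : Type*} [CommRing R] (p : ℕ) [NeZero p] (h : p ≠ 0)
    (f : PowerSeries R) :
    HahnSeries.ofPowerSeries ℤ R (PowerSeries.expand p h f) =
      qExpand R p (HahnSeries.ofPowerSeries ℤ R f) := by
  ext m
  rcases lt_or_ge m 0 with hm | hm
  · rw [ofPowerSeries_coeff_of_neg _ hm]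
    by_cases hdm : (p : ℤ) ∣ m
    · obtain ⟨c, rfl⟩ := hdm
      rw [qExpand_coeff_mul]
      have hc : c < 0 := by
        by_contra hc
        have : 0 ≤ (p : ℤ) * c := mul_nonneg (by positivity) (not_lt.mp hc)
        omega
      rw [ofPowerSeries_coeff_of_neg _ hc]
    · rw [qExpand_coeff_of_not_dvd p _ hdm]
  · obtain ⟨n, rfl⟩ := Int.eq_ofNat_of_zero_le hm
    rw [HahnSeries.ofPowerSeries_apply_coeff, PowerSeries.coeff_expand]
    by_cases hdn : p ∣ n
    · rw [if_pos hdn]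
      obtain ⟨c, rfl⟩ := hdn
      rw [Nat.mul_div_cancel_left _ (Nat.pos_of_ne_zero (NeZero.ne p))]
      push_cast
      rw [qExpand_coeff_mul, HahnSeries.ofPowerSeries_apply_coeff]
    · rw [if_neg hdn, qExpand_coeff_of_not_dvd p _ (by rwa [Int.natCast_dvd_natCast])]

/-- `coeffMap` commutes with `qExpand`. -/
theorem coeffMap_qExpand {R S : Type*} [CommRing R] [CommRing S] (f : R →+* S) (n : ℕ)
    [NeZero n] (x : LaurentSeries R) : coeffMap f (qExpand R n x) = qExpand S n (coeffMap f x) := by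
  ext k
  by_cases hk : (n : ℤ) ∣ k
  · obtain ⟨m, rfl⟩ := hk
    rw [coeffMap_coeff, qExpand_coeff_mul, qExpand_coeff_mul, coeffMap_coeff]
  · rw [coeffMap_coeff, qExpand_coeff_of_not_dvd n _ hk, qExpand_coeff_of_not_dvd n _ hk,
      map_zero]

/-! ### The abstract bookkeeping lemma -/

/-- If `χ` is monic with root `f`, and the image of its coefficient of `X^j` is
`D^(deg χ - j) * ψ (Q j)` with `D` invertible, then `φ f / D` is a root of a monic polynomial
with coefficients `Q j`. -/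
theorem exists_monic_of_root {A B K : Type*} [CommRing A] [CommRing B] [CommRing K]
    (φ : A →+* B) (ψ : K →+* B) (χ : Polynomial A) (hχ : χ.Monic) (f : A)
    (hroot : χ.eval f = 0) (D Dinv : B) (hD : D * Dinv = 1)
    (hcoef : ∀ j < χ.natDegree, ∃ Q : K, φ (χ.coeff j) = D ^ (χ.natDegree - j) * ψ Q) :
    ∃ P : Polynomial K, P.Monic ∧ P.eval₂ ψ (φ f * Dinv) = 0 := by
  classical
  set n := χ.natDegree with hn
  let Q : ℕ → K := fun j => if h : j < n then (hcoef j h).choose else 0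
  have hQ : ∀ j < n, φ (χ.coeff j) = D ^ (n - j) * ψ (Q j) := by
    intro j hj
    simp only [Q, dif_pos hj]
    exact (hcoef j hj).choose_spec
  refine ⟨X ^ n + ∑ j ∈ Finset.range n, C (Q j) * X ^ j, ?_, ?_⟩
  · apply Polynomial.monic_X_pow_add
    rw [Polynomial.degree_lt_iff_coeff_zero]
    intro m hm
    rw [Polynomial.finsetSum_coeff]
    refine Finset.sum_eq_zero fun j hj => ?_
    rw [Polynomial.coeff_C_mul_X_pow, if_neg]
    have := Finset.mem_range.1 hj
    omega
  · have h1 : φ (χ.eval f) = 0 := by rw [hroot, map_zero]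
    rw [hχ.as_sum, Polynomial.eval_add, Polynomial.eval_pow, Polynomial.eval_X,
      Polynomial.eval_finsetSum, map_add, map_pow, map_sum] at h1
    have hpow : ∀ m : ℕ, D ^ m * Dinv ^ m = 1 := fun m => by rw [← mul_pow, hD, one_pow]
    rw [Polynomial.eval₂_add, Polynomial.eval₂_pow, Polynomial.eval₂_X,
      Polynomial.eval₂_finsetSum]
    have h2 : (φ f * Dinv) ^ n + ∑ j ∈ Finset.range n, (C (Q j) * X ^ j).eval₂ ψ (φ f * Dinv)
        = (φ f ^ n + ∑ j ∈ Finset.range n, φ ((C (χ.coeff j) * X ^ j).eval f)) * Dinv ^ n := by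
      rw [add_mul, mul_pow, Finset.sum_mul]
      congr 1
      refine Finset.sum_congr rfl fun j hj => ?_
      have hj' := Finset.mem_range.1 hj
      rw [Polynomial.eval₂_mul, Polynomial.eval₂_C, Polynomial.eval₂_pow, Polynomial.eval₂_X,
        Polynomial.eval_mul, Polynomial.eval_C, Polynomial.eval_pow, Polynomial.eval_X, map_mul,
        map_pow, hQ j hj', show Dinv ^ n = Dinv ^ (n - j) * Dinv ^ j by
          rw [← pow_add]; congr 1; omega, mul_pow]
      calc ψ (Q j) * (φ f ^ j * Dinv ^ j)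
          = (D ^ (n - j) * Dinv ^ (n - j)) * (ψ (Q j) * (φ f ^ j * Dinv ^ j)) := by
            rw [hpow, one_mul]
        _ = _ := by ring
    rw [h2, h1, zero_mul]

/-! ### The modular input -/

section Modular

open UpperHalfPlane ModularForm CongruenceSubgroup
open Fermat.Agent.S20 Fermat.Agent.S23.QRing Fermat.Agent.S16.Trace
open Fermat.Agent.S16.ConjExpansion Fermat.Agent.S16.PowerSeriesNorm Fermat.Agent.S23.CharPoly
open Fermat.Agent.S24.LevelRaise Fermat.Agent.S16.WpLevelOne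
open Fermat.Agent.S16.WT Fermat.Agent.S16.UB3.LevelOneMod3
open Fermat.Agent.S28.FormalJ Fermat.Agent.S28.LevelOnePolyJ Fermat.Agent.S28.PrimeCase

open scoped ModularForm MatrixGroups

variable (p : ℕ) [hp : Fact p.Prime]

local notation "ι" => Int.castRingHom ℂ

/-- the `q`-expansion of `Δ` as a level-one modular form is `DeltaZ` -/
theorem qx_DeltaMF : qx ⇑DeltaMF = DeltaZ.map ι := by
  rw [map_DeltaZ]
  rfl

/-- `p^12 • Δ(p·) ∈ M_12(Γ₀(p))` -/
def F12 : ModularForm (G0 p) 12 :=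
  haveI : NeZero p := ⟨hp.out.ne_zero⟩
  ((p : ℂ) ^ 12) • raise p p dvd_rfl DeltaMF

/-- its integer `q`-expansion `p^12 Δ(q^p)` -/
def fZ : PowerSeries ℤ :=
  PowerSeries.C ((p : ℤ) ^ 12) * PowerSeries.expand p hp.out.ne_zero DeltaZ

theorem coe_F12 :
    haveI : NeZero p := ⟨hp.out.ne_zero⟩
    ⇑(F12 p) = ((p : ℂ) ^ 12) • ⇑(raise p p dvd_rfl DeltaMF) := rfl

theorem map_fZ : (fZ p).map ι = qx ⇑(F12 p) := by
  have : NeZero p := ⟨hp.out.ne_zero⟩
  rw [coe_F12, qx_smul _ (isQ_of_isMF (IsMF.coe (raise p p dvd_rfl DeltaMF))), qx, qx_raise,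
    ← qx, qx_DeltaMF, fZ, map_mul, PowerSeries.map_C, PowerSeries.map_expand]
  ext n
  rw [PowerSeries.coeff_C_mul, PowerSeries.coeff_smul, smul_eq_mul]
  simp

theorem map_DeltaZ_eq_psiOf : DeltaZ.map ι = psiOf 12 p ⇑(F12 p) := by
  have : NeZero p := ⟨hp.out.ne_zero⟩
  have hp' : (p : ℂ) ≠ 0 := by exact_mod_cast hp.out.ne_zero
  rw [psiOf_eq (IsMF.coe (F12 p)), coe_F12, wp_smul 12 hp.out.ne_zero, wp_raise, smul_smul,
    qx_smul _ (isQ_of_levelOne DeltaMF), smul_smul, qx_DeltaMF]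
  have h : (p : ℂ) ^ ((1 : ℤ) - 12) * ((p : ℂ) ^ 12 * ((p : ℂ)⁻¹ * (-1) ^ (12 : ℤ))) = 1 := by
    rw [show ((1 : ℤ) - 12) = -11 by norm_num, zpow_neg]
    have h11 : (p : ℂ) ^ (11 : ℤ) = (p : ℂ) ^ 11 := by norm_cast
    have h12 : ((-1 : ℂ)) ^ (12 : ℤ) = 1 := by norm_num
    rw [h11, h12]
    field_simp
  rw [h, one_smul]

/-- the formal characteristic polynomial `(X - p^12 Δ(q^p)) * charpoly (mulMatrix p Δ)` -/
def chi : Polynomial (PowerSeries ℤ) := (X - C (fZ p)) * (mulMatrix p DeltaZ).charpoly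

theorem chi_monic : (chi p).Monic := (monic_X_sub_C _).mul (Matrix.charpoly_monic _)

theorem natDegree_chi : (chi p).natDegree = p + 1 := by
  rw [chi, Monic.natDegree_mul (monic_X_sub_C _) (Matrix.charpoly_monic _), natDegree_X_sub_C,
    Matrix.charpoly_natDegree_eq_dim, Fintype.card_fin, add_comm]

theorem eval_chi : (chi p).eval (fZ p) = 0 := by
  rw [chi, eval_mul, eval_sub, eval_X, eval_C, sub_self, zero_mul]

/-- every lower coefficient of `chi`, reduced to `k((q))`, is `Δ^(p+1-j)` times a polynomial in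
`J` -/
theorem exists_poly_coeff (k : Type*) [Field k] (j : ℕ) (hj : j < p + 1) :
    ∃ Q : Polynomial k,
      ((coeffMap (Int.castRingHom k)).comp toL) ((chi p).coeff j) =
        DeltaR k ^ (p + 1 - j) *
          ((aeval (jqModC k) : Polynomial k →ₐ[k] LaurentSeries k) : Polynomial k →+* _) Q := by
  obtain ⟨i, hi, rfl⟩ : ∃ i, i ≤ p + 1 ∧ j = p + 1 - i := ⟨p + 1 - j, by omega, by omega⟩
  have hq := qx_esymmForm_map ι (F12 p) (fZ p) DeltaZ (map_fZ p) (map_DeltaZ_eq_psiOf p) hi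
  obtain ⟨E, hE⟩ : ∃ E : ModularForm 𝒮ℒ (12 * (i : ℤ)), E = esymmForm 𝒮ℒ (F12 p) i := ⟨_, rfl⟩
  rw [← hE] at hq
  obtain ⟨P, -, hP⟩ := exists_poly_R k i (k := 12 * (i : ℤ)) rfl E _ hq.symm
  refine ⟨C ((-1 : k) ^ i) * P.map (Int.castRingHom k), ?_⟩
  have h1 : (chi p).coeff (p + 1 - i) = (-1) ^ i *
      ((-1) ^ i * ((X - C (fZ p)) * (mulMatrix p DeltaZ).charpoly).coeff (p + 1 - i)) := by
    rw [← mul_assoc, ← pow_add, ← two_mul, pow_mul]
    simp [chi]
  have h2 : (aeval (jqModC k) : Polynomial k →ₐ[k] LaurentSeries k) (P.map (Int.castRingHom k))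
      = aeval (jqModC k) P := by
    rw [aeval_def, aeval_def, eval₂_map]
    congr 1
    exact RingHom.ext_int _ _
  rw [h1, map_mul, map_pow, map_neg, map_one, RingHom.comp_apply, hP, show p + 1 - (p + 1 - i) = i
    by omega, RingHom.coe_coe, map_mul, h2, aeval_C, map_pow, map_neg, map_one]
  ring

/-- **(P3)** `u = p^12 Δ(q^p)/Δ` is integral over `k[J]`. -/
theorem exists_monic_uK (k : Type*) [Field k] :
    ∃ P : Polynomial (Polynomial k), P.Monic ∧
      P.eval₂ ((aeval (jqModC k) : Polynomial k →ₐ[k] LaurentSeries k) : Polynomial k →+* _)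
        (uK k p) = 0 := by
  have : NeZero p := ⟨hp.out.ne_zero⟩
  obtain ⟨P, hP, h⟩ := exists_monic_of_root ((coeffMap (Int.castRingHom k)).comp toL)
    ((aeval (jqModC k) : Polynomial k →ₐ[k] LaurentSeries k) : Polynomial k →+* _) (chi p)
    (chi_monic p) (fZ p) (eval_chi p) (DeltaR k) (DeltaInvR k) (DeltaR_mul_inv k)
    (by
      rw [natDegree_chi]
      exact fun j hj => exists_poly_coeff p k j hj)
  refine ⟨P, hP, ?_⟩
  have hu : uK k p = ((coeffMap (Int.castRingHom k)).comp toL) (fZ p) * DeltaInvR k := by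
    have h1 : fZ p = (p : PowerSeries ℤ) ^ 12 * PowerSeries.expand p hp.out.ne_zero DeltaZ := by
      rw [fZ]; simp
    rw [uK, h1, map_mul, map_pow, map_natCast, RingHom.comp_apply, ofPowerSeries_expand,
      coeffMap_qExpand]
    rfl
  rw [hu]
  exact h

/-- **(P) The prime case**: `J(q^p) ∉ k(J)` for every field `k` in which `p ≠ 0`. -/
theorem qExpand_jqModC_not_mem (k : Type*) [Field k] (p : ℕ) [Fact p.Prime] (hpk : (p : k) ≠ 0) :
    qExpand k p (jqModC k) ∉ IntermediateField.adjoin k {jqModC k} :=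
  qExpand_jqModC_not_mem_of_integral k p hpk (exists_monic_uK p k)

end Modular

end Fermat.Agent.S28.PrimeCaseForm
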