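/-
PROJECT F (S28), slice (III-STEP) (helper1): the arithmetic of the degree induction `N → N p`:
`ψ(N p) = ψ(N) · (p or p + 1)` for the Dedekind `ψ`-function of the prelude, and the induction
principle "`P 1`, `P N → P (N p)`".
-/
import Mathlib
import Fermat.Agent.S24.Counting.Card

set_option autoImplicit false

namespace Fermat.Agent.S28.PsiRec

open ModularCurve Fermat.Agent.S24.Counting.Card

/-- `ψ(N p) = ψ(N) · p` if `p ∣ N`, `ψ(N) · (p + 1)` otherwise. -/
theorem dedekindPsi_mul_prime {N p : ℕ} (hN : N ≠ 0) (hp : p.Prime) :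
    dedekindPsi (N * p) = dedekindPsi N * (if p ∣ N then p else p + 1) := by
  obtain ⟨a, m, hm, rfl⟩ := Nat.exists_eq_pow_mul_and_not_dvd hN p hp.ne_one
  have hcop : Nat.Coprime (p ^ a) m := Nat.Coprime.pow_left a ((Nat.Prime.coprime_iff_not_dvd hp).mpr hm)
  have hcop' : Nat.Coprime (p ^ (a + 1)) m :=
    Nat.Coprime.pow_left (a + 1) ((Nat.Prime.coprime_iff_not_dvd hp).mpr hm)
  have e1 : p ^ a * m * p = p ^ (a + 1) * m := by ring
  rw [e1, dedekindPsi_mul hcop', dedekindPsi_mul hcop]
  rcases Nat.eq_zero_or_pos a with rfl | ha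
  · have hnd : ¬ p ∣ p ^ 0 * m := by simpa using hm
    have h1 : dedekindPsi (p ^ (0 + 1)) = p + 1 := by
      rw [dedekindPsi_prime_pow hp (Nat.succ_pos 0)]
      simp
    rw [if_neg hnd, h1, pow_zero, dedekindPsi_one, one_mul, mul_comm]
  · have hd : p ∣ p ^ a * m := Dvd.dvd.mul_right (dvd_pow_self p ha.ne') m
    obtain ⟨b, rfl⟩ : ∃ b, a = b + 1 := ⟨a - 1, by omega⟩
    have h1 : dedekindPsi (p ^ (b + 1 + 1)) = p ^ (b + 1 + 1) + p ^ (b + 1) := by
      rw [dedekindPsi_prime_pow hp (Nat.succ_pos (b + 1))]
      simp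
    have h2 : dedekindPsi (p ^ (b + 1)) = p ^ (b + 1) + p ^ b := by
      rw [dedekindPsi_prime_pow hp (Nat.succ_pos b)]
      simp
    rw [if_pos hd, h1, h2]
    ring

/-- Induction along `N → N p`. -/
theorem induction_mul_prime {P : ℕ → Prop} (h1 : P 1)
    (hstep : ∀ N p, N ≠ 0 → p.Prime → P N → P (N * p)) : ∀ N, N ≠ 0 → P N := by
  intro N
  induction N using Nat.strong_induction_on with
  | _ N ih =>
    intro hN
    rcases Nat.lt_or_ge N 2 with h2 | h2
    · have : N = 1 := by omega
      rw [this]
      exact h1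
    · have hp : (Nat.minFac N).Prime := Nat.minFac_prime (by omega)
      obtain ⟨M, hM⟩ := Nat.minFac_dvd N
      have hM0 : M ≠ 0 := by
        rintro rfl
        rw [mul_zero] at hM
        exact hN hM
      have hlt : M < N := by
        rw [hM]
        have := hp.two_le
        nlinarith [Nat.pos_of_ne_zero hM0]
      have := hstep M (Nat.minFac N) hM0 hp (ih M hlt hM0)
      rwa [mul_comm, ← hM] at this

/-- The same, keeping track of the prime divisors: only primes dividing `N` are used. -/
theorem induction_mul_prime_dvd {P : ℕ → Prop} (N : ℕ) (hN : N ≠ 0) (h1 : P 1)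
    (hstep : ∀ M p, M ≠ 0 → p.Prime → M * p ∣ N → P M → P (M * p)) : P N := by
  have key : ∀ M, M ≠ 0 → M ∣ N → P M := by
    intro M
    induction M using Nat.strong_induction_on with
    | _ M ih =>
      intro hM hMN
      rcases Nat.lt_or_ge M 2 with h2 | h2
      · have : M = 1 := by omega
        rw [this]
        exact h1
      · have hp : (Nat.minFac M).Prime := Nat.minFac_prime (by omega)
        obtain ⟨M', hM'⟩ := Nat.minFac_dvd M
        have hM0 : M' ≠ 0 := by
          rintro rfl
          rw [mul_zero] at hM'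
          exact hM hM'
        have hlt : M' < M := by
          rw [hM']
          have := hp.two_le
          nlinarith [Nat.pos_of_ne_zero hM0]
        have hdvd : M' * Nat.minFac M ∣ N := by
          rw [mul_comm, ← hM']
          exact hMN
        have := hstep M' (Nat.minFac M) hM0 hp hdvd
          (ih M' hlt hM0 ((Dvd.intro _ rfl).trans hdvd))
        rwa [mul_comm, ← hM'] at this
  exact key N hN dvd_rfl

end Fermat.Agent.S28.PsiRec
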