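/-
PROJECT F (S28), slice (III-STEP) (helper1): small field-theoretic lemmas used by the degree
induction `N → N p` of `S28/Step.lean`.  Only Mathlib is used.
-/
import Mathlib

set_option autoImplicit false

namespace Fermat.Agent.S28.FieldLemmas

open Polynomial Module

section Roots

variable {R : Type*} [CommRing R] [IsDomain R]

/-- A polynomial with `c` pairwise distinct roots has degree at least `c`. -/
theorem card_le_natDegree_of_roots {ι : Type*} [Fintype ι] {P : R[X]} (hP : P ≠ 0)
    (a : ι → R) (ha : Function.Injective a) (hroot : ∀ i, P.eval (a i) = 0) :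
    Fintype.card ι ≤ P.natDegree := by
  classical
  have hsub : Finset.univ.image a ⊆ P.roots.toFinset := by
    intro x hx
    obtain ⟨i, -, rfl⟩ := Finset.mem_image.mp hx
    rw [Multiset.mem_toFinset, mem_roots hP]
    exact hroot i
  calc Fintype.card ι = (Finset.univ.image a).card := by
        rw [Finset.card_image_of_injective _ ha, Finset.card_univ]
    _ ≤ P.roots.toFinset.card := Finset.card_le_card hsub
    _ ≤ Multiset.card P.roots := Multiset.toFinset_card_le _
    _ ≤ P.natDegree := P.card_roots'

/-- A root of a product of linear factors is one of the `a i`. -/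
theorem exists_eq_of_eval_prod_X_sub_C {ι : Type*} (s : Finset ι) (a : ι → R) (z : R)
    (h : (∏ i ∈ s, (X - C (a i))).eval z = 0) : ∃ i ∈ s, z = a i := by
  rw [eval_prod] at h
  obtain ⟨i, hi, h0⟩ := Finset.prod_eq_zero_iff.mp h
  refine ⟨i, hi, ?_⟩
  rw [eval_sub, eval_X, eval_C, sub_eq_zero] at h0
  exact h0

end Roots

section Conjugates

variable {K L : Type*} [Field K] [Field L] [Algebra K L]

/-- **Counting conjugates.**  If ring endomorphisms `σ i` of `L` fix `K` pointwise and move `x` to
`c` pairwise distinct elements, then the minimal polynomial of `x` over `K` has degree `≥ c`. -/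
theorem card_le_natDegree_minpoly {ι : Type*} [Fintype ι] {x : L} (hx : IsIntegral K x)
    (σ : ι → L →+* L) (hσ : ∀ i (a : K), σ i (algebraMap K L a) = algebraMap K L a)
    (hinj : Function.Injective fun i => σ i x) :
    Fintype.card ι ≤ (minpoly K x).natDegree := by
  have hP : (minpoly K x).map (algebraMap K L) ≠ 0 :=
    (Polynomial.map_ne_zero_iff (algebraMap K L).injective).mpr (minpoly.ne_zero hx)
  have hroot : ∀ i, ((minpoly K x).map (algebraMap K L)).eval (σ i x) = 0 := by
    intro i
    have h0 : ((minpoly K x).map (algebraMap K L)).eval x = 0 := by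
      rw [eval_map_algebraMap, minpoly.aeval]
    have h1 := congrArg (σ i) h0
    rw [map_zero, ← Polynomial.eval_map_apply] at h1
    have hmap : ((minpoly K x).map (algebraMap K L)).map (σ i) =
        (minpoly K x).map (algebraMap K L) := by
      rw [Polynomial.map_map]
      congr 1
      exact RingHom.ext fun a => hσ i a
    rwa [hmap] at h1
  have := card_le_natDegree_of_roots hP (fun i => σ i x) hinj hroot
  rwa [natDegree_map] at this

end Conjugates

section Compositum

variable {L₀ L : Type*} [Field L₀] [Field L]

/-- **Degrees do not grow in a compositum** (linear-independence form).  Let `c : L₀ → L` be a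
field embedding, `A₀ ≤ E₀` subfields of `L₀`, `A` a subfield of `L` containing `c A₀` and `E` a
subfield of `L` generated by `A` and `c E₀`.  If `E` contains `n` elements linearly independent
over `A`, then `E₀` contains `n` elements linearly independent over `A₀`. -/
theorem exists_linearIndependent_of_compositum (c : L₀ →+* L) (A₀ E₀ : Subfield L₀)
    (hAE : A₀ ≤ E₀) (A E : Subfield L) (hA : ∀ a ∈ A₀, c a ∈ A)
    (hE : E ≤ Subfield.closure ((A : Set L) ∪ c '' (E₀ : Set L₀)))
    (n : ℕ) (f : Fin n → L) (hf : ∀ i, f i ∈ E) (hfi : LinearIndependent A f) :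
    ∃ e : Fin n → L₀, (∀ i, e i ∈ E₀) ∧ LinearIndependent A₀ e := by
  classical
  -- `E₀` as an `A₀`-vector space
  let M₀ : Submodule A₀ L₀ :=
    { carrier := E₀
      add_mem' := fun hx hy => E₀.add_mem hx hy
      zero_mem' := E₀.zero_mem
      smul_mem' := fun a x hx => by
        rw [Subfield.smul_def, smul_eq_mul]
        exact E₀.mul_mem (hAE a.2) hx }
  have hM₀ : ∀ x, x ∈ M₀ ↔ x ∈ E₀ := fun x => Iff.rfl
  by_cases hrank : (n : Cardinal) ≤ Module.rank A₀ M₀
  · obtain ⟨s, hs, hli⟩ := le_rank_iff_exists_linearIndependent_finset.mp hrank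
    have e0 : Fin n ≃ s := (Fintype.equivFinOfCardEq (by simpa using hs)).symm
    refine ⟨fun i => ((e0 i : M₀) : L₀), fun i => (hM₀ _).mp (e0 i : M₀).2, ?_⟩
    have h1 : LinearIndependent A₀ (fun i : Fin n => ((e0 i : s) : M₀)) :=
      hli.comp e0 e0.injective
    exact h1.map' M₀.subtype (Submodule.ker_subtype M₀)
  · exfalso
    have hlt : Module.rank A₀ M₀ < (n : Cardinal) := not_le.mp hrank
    have : Module.Finite A₀ M₀ :=
      Module.rank_lt_aleph0_iff.mp (hlt.trans (Cardinal.natCast_lt_aleph0))
    set m := finrank A₀ M₀ with hm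
    have hmn : m < n := by
      have : ((m : ℕ) : Cardinal) < (n : Cardinal) := by
        rw [hm, Module.finrank_eq_rank]
        exact hlt
      exact_mod_cast this
    let b : Basis (Fin m) A₀ M₀ := Module.finBasis A₀ M₀
    -- the `A`-span of the images of the basis
    set W : Submodule A L := Submodule.span A (Set.range fun i => c ((b i : M₀) : L₀)) with hW
    -- images of elements of `E₀` lie in `W`
    have hcE : ∀ x ∈ E₀, c x ∈ W := by
      intro x hx
      set xx : M₀ := ⟨x, (hM₀ x).mpr hx⟩ with hxx
      have hx' : x = ∑ i, ((b.repr xx i : A₀) : L₀) * ((b i : M₀) : L₀) := by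
        have := congrArg (fun y : M₀ => (y : L₀)) (b.sum_repr xx)
        simp only [Submodule.coe_sum, Submodule.coe_smul] at this
        refine this.symm.trans (Finset.sum_congr rfl fun i _ => ?_)
        rw [Subfield.smul_def, smul_eq_mul]
      rw [hx', map_sum]
      refine Submodule.sum_mem _ fun i _ => ?_
      rw [map_mul]
      have hmem : c ((b i : M₀) : L₀) ∈ W := Submodule.subset_span ⟨i, rfl⟩
      have := W.smul_mem (⟨c ((b.repr xx i : A₀) : L₀), hA _ (b.repr xx i).2⟩ : A) hmem
      rwa [Subfield.smul_def, smul_eq_mul] at this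
    have hone : (1 : L) ∈ W := by
      have := hcE 1 E₀.one_mem
      rwa [map_one] at this
    have hmul : ∀ x y : L, x ∈ W → y ∈ W → x * y ∈ W := by
      have hle : W * W ≤ W := by
        rw [hW, Submodule.span_mul_span, Submodule.span_le]
        rintro _ ⟨_, ⟨i, rfl⟩, _, ⟨j, rfl⟩, rfl⟩
        show c ((b i : M₀) : L₀) * c ((b j : M₀) : L₀) ∈ _
        rw [← map_mul]
        exact hcE _ (E₀.mul_mem ((hM₀ _).mp (b i).2) ((hM₀ _).mp (b j).2))
      intro x y hx hy
      exact hle (Submodule.mul_mem_mul hx hy)
    let Ws : Subalgebra A L := W.toSubalgebra hone hmul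
    have hWs : ∀ x, x ∈ Ws ↔ x ∈ W := fun x => Iff.rfl
    have hfin : Module.Finite A W := Module.Finite.span_of_finite A (Set.finite_range _)
    have : Module.Finite A Ws := hfin
    -- `W` is a field
    have hinv : ∀ x ∈ W, x⁻¹ ∈ W := by
      intro x hx
      have hint : IsIntegral A (⟨x, hx⟩ : Ws) := Algebra.IsIntegral.isIntegral _
      have halg : IsAlgebraic A ((⟨x, hx⟩ : Ws) : L) :=
        (hint.map Ws.val).isAlgebraic
      exact Ws.inv_mem_of_algebraic halg
    let Wf : Subfield L :=
      { carrier := W
        mul_mem' := fun hx hy => hmul _ _ hx hy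
        one_mem' := hone
        add_mem' := fun hx hy => W.add_mem hx hy
        zero_mem' := W.zero_mem
        neg_mem' := fun hx => W.neg_mem hx
        inv_mem' := fun x hx => hinv x hx }
    have hEW : E ≤ Wf := by
      refine hE.trans (Subfield.closure_le.mpr ?_)
      rintro x (hx | ⟨y, hy, rfl⟩)
      · have := W.smul_mem (⟨x, hx⟩ : A) hone
        rwa [Subfield.smul_def, smul_eq_mul, mul_one] at this
      · exact hcE y hy
    -- `n` independent vectors in a space of dimension `≤ m`
    let f' : Fin n → W := fun i => ⟨f i, hEW (hf i)⟩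
    have hf' : LinearIndependent A f' := by
      apply LinearIndependent.of_comp W.subtype
      exact hfi
    have h1 : n ≤ finrank A W := by
      simpa using hf'.fintype_card_le_finrank
    have h2 : finrank A W ≤ m := by
      have := finrank_span_le_card (R := A) (Set.range fun i => c ((b i : M₀) : L₀))
      refine this.trans ?_
      rw [Set.toFinset_range]
      exact (Finset.card_image_le).trans (by simp)
    omega

end Compositum

end Fermat.Agent.S28.FieldLemmas
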