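/-
S28 (Igusa), (STEP)(ii), abstract form.

Setting: fields `k ⊆ L`, a family of `k`-algebra endomorphisms `V n` ("`q ↦ q ^ n`") and `sg u`
("`q ↦ u q`") of `L` with the obvious relations, an element `J : L`.  From prime-level modular
equations we show: if `V p J` lies in the field generated over `k` by the `V d J`, `d ∣ N`, then
`V N J` lies in the range of `V p`.  (For Laurent series this is absurd when `p ∤ N`.)
-/
import Mathlib

set_option autoImplicit false

namespace Fermat.Agent.S28.StepCoprime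

open Polynomial IntermediateField

noncomputable section

section BiMap

variable {k : Type*} [CommRing k]

/-- `Φ(X, y)`: the inner variable of `Φ : k[Y][X]` is evaluated at `y`. -/
def biMap {A : Type*} [CommRing A] [Algebra k A] (Φ : k[X][X]) (y : A) : A[X] :=
  Φ.map ((aeval y : k[X] →ₐ[k] A) : k[X] →+* A)

theorem biMap_map_ringHom {A B : Type*} [CommRing A] [CommRing B] [Algebra k A] [Algebra k B]
    (f : A →+* B) (hf : ∀ c : k, f (algebraMap k A c) = algebraMap k B c)
    (Φ : k[X][X]) (y : A) : (biMap Φ y).map f = biMap Φ (f y) := by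
  unfold biMap
  rw [Polynomial.map_map]
  congr 1
  apply Polynomial.ringHom_ext
  · intro c
    simp [hf]
  · simp

theorem biMap_map {A B : Type*} [CommRing A] [CommRing B] [Algebra k A] [Algebra k B]
    (f : A →ₐ[k] B) (Φ : k[X][X]) (y : A) : (biMap Φ y).map (f : A →+* B) = biMap Φ (f y) :=
  biMap_map_ringHom (f : A →+* B) (fun c => f.commutes c) Φ y

theorem eval_biMap_ringHom {A B : Type*} [CommRing A] [CommRing B] [Algebra k A] [Algebra k B]
    (f : A →+* B) (hf : ∀ c : k, f (algebraMap k A c) = algebraMap k B c)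
    (Φ : k[X][X]) (x y : A) : f ((biMap Φ y).eval x) = (biMap Φ (f y)).eval (f x) := by
  rw [← biMap_map_ringHom f hf, Polynomial.eval_map, Polynomial.eval₂_hom]

theorem eval_biMap_algHom {A B : Type*} [CommRing A] [CommRing B] [Algebra k A] [Algebra k B]
    (f : A →ₐ[k] B) (Φ : k[X][X]) (x y : A) :
    f ((biMap Φ y).eval x) = (biMap Φ (f y)).eval (f x) :=
  eval_biMap_ringHom (f : A →+* B) (fun c => f.commutes c) Φ x y

theorem biMap_monic {A : Type*} [CommRing A] [Algebra k A] {Φ : k[X][X]} (hΦ : Φ.Monic) (y : A) :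
    (biMap Φ y).Monic := hΦ.map _

theorem coeff_biMap {A : Type*} [CommRing A] [Algebra k A] (Φ : k[X][X]) (y : A) (i : ℕ) :
    (biMap Φ y).coeff i = aeval y (Φ.coeff i) := by
  unfold biMap
  rw [Polynomial.coeff_map]
  rfl

end BiMap

theorem isIntegral_of_monic_root {R A : Type*} [CommRing R] [CommRing A] [Algebra R A]
    (P : A[X]) (hP : P.Monic) (hcoef : ∀ i, IsIntegral R (P.coeff i)) (x : A)
    (hx : P.eval x = 0) : IsIntegral R x := by
  have hsub : (↑P.coeffs : Set A) ⊆ (integralClosure R A).toSubring := by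
    intro a ha
    obtain ⟨i, -, rfl⟩ := Polynomial.mem_coeffs_iff.mp ha
    exact hcoef i
  have hx' : IsIntegral (integralClosure R A) x :=
    ⟨P.toSubring (integralClosure R A).toSubring hsub, (P.monic_toSubring _ _).mpr hP, by
      have h := P.map_toSubring (integralClosure R A).toSubring hsub
      rw [← Polynomial.eval_map]
      have h2 : (P.toSubring (integralClosure R A).toSubring hsub).map
          (algebraMap (integralClosure R A) A) = P := h
      rw [h2, hx]⟩
  exact isIntegral_trans x hx'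

section Abstract

variable {k L : Type*} [Field k] [Field L] [Algebra k L]

/-- The relations satisfied by the substitutions `V n : q ↦ q ^ n` and `sg u : q ↦ u q`. -/
structure IsSubst (V : ℕ → L →ₐ[k] L) (sg : kˣ → L →ₐ[k] L) : Prop where
  V_one : V 1 = AlgHom.id k L
  V_mul : ∀ m n : ℕ, 0 < m → 0 < n → V (m * n) = (V m).comp (V n)
  sg_one : sg 1 = AlgHom.id k L
  sg_mul : ∀ u v : kˣ, sg (u * v) = (sg u).comp (sg v)
  sg_V : ∀ (u : kˣ) (n : ℕ), 0 < n → (sg u).comp (V n) = (V n).comp (sg (u ^ n))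

/-- Prime-level modular equation at `r`, in the weakest usable shape: `Φ(V r J, J) = 0` and
`Φ(X, V r J)` is a product of linear factors whose roots are `V (r ^ 2) J` or some `sg z J`. -/
def HasModEq (V : ℕ → L →ₐ[k] L) (sg : kˣ → L →ₐ[k] L) (J : L) (r : ℕ) : Prop :=
  ∃ Φ : k[X][X], Φ.Monic ∧ (biMap Φ J).eval (V r J) = 0 ∧
    ∃ s : Multiset L, (∀ a ∈ s, a = V (r ^ 2) J ∨ ∃ z : kˣ, a = sg z J) ∧
      biMap Φ (V r J) = (s.map fun a => X - C a).prod

/-- Minimal equation at `p`: `Φ(J, V p J) = 0` and `Φ(X, J)` divides every polynomial over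
`k(J)` vanishing at `V p J`. -/
def HasMinEq (V : ℕ → L →ₐ[k] L) (J : L) (p : ℕ) : Prop :=
  ∃ Φ : k[X][X], (biMap Φ (V p J)).eval J = 0 ∧
    ∀ g : (k⟮J⟯)[X], aeval (V p J) g = 0 → biMap Φ (AdjoinSimple.gen k J) ∣ g

variable {V : ℕ → L →ₐ[k] L} {sg : kˣ → L →ₐ[k] L}

/-- The substitution `q ↦ ξ q ^ e`. -/
def sub (V : ℕ → L →ₐ[k] L) (sg : kˣ → L →ₐ[k] L) (ξ : kˣ) (e : ℕ) : L →ₐ[k] L :=
  (V e).comp (sg ξ)

theorem sub_apply (ξ : kˣ) (e : ℕ) (x : L) : sub V sg ξ e x = V e (sg ξ x) := rfl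

theorem sub_V (hS : IsSubst V sg) (η : kˣ) {e r : ℕ} (he : 0 < e) (hr : 0 < r) (x : L) :
    sub V sg η e (V r x) = sub V sg (η ^ r) (e * r) x := by
  rw [sub_apply, sub_apply, hS.V_mul e r he hr]
  have h := DFunLike.congr_fun (hS.sg_V η r hr) x
  simp only [AlgHom.comp_apply] at h ⊢
  rw [h]

theorem sub_sg (hS : IsSubst V sg) (η z : kˣ) (e : ℕ) (x : L) :
    sub V sg η e (sg z x) = sub V sg (η * z) e x := by
  rw [sub_apply, sub_apply, hS.sg_mul]
  rfl

theorem isIntegral_aeval_of_isIntegral {F : IntermediateField k L} {y : L} (hy : IsIntegral F y)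
    (q : k[X]) : IsIntegral F (aeval y q) := by
  induction q using Polynomial.induction_on' with
  | add p q hp hq => rw [map_add]; exact hp.add hq
  | monomial n c =>
    rw [aeval_monomial]
    refine IsIntegral.mul ?_ (hy.pow n)
    rw [IsScalarTower.algebraMap_apply k F L]
    exact isIntegral_algebraMap

theorem isIntegral_V (hS : IsSubst V sg) (J : L) {N : ℕ} (hN : 0 < N)
    (hA : ∀ r : ℕ, r.Prime → r ∣ N → HasModEq V sg J r) :
    ∀ d : ℕ, d ∣ N → IsIntegral k⟮J⟯ (V d J) := by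
  intro d
  induction d using Nat.strong_induction_on with
  | _ d ih =>
    intro hd
    have hd0 : 0 < d := Nat.pos_of_dvd_of_pos hd hN
    rcases Nat.eq_or_lt_of_le (Nat.succ_le_of_lt hd0) with h1 | h1
    · -- d = 1
      have : V d J = algebraMap k⟮J⟯ L (AdjoinSimple.gen k J) := by
        rw [← h1, hS.V_one]; rfl
      rw [this]
      exact isIntegral_algebraMap
    · -- d > 1
      have hd1 : d ≠ 1 := by omega
      set r := d.minFac with hr
      have hrp : r.Prime := Nat.minFac_prime hd1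
      obtain ⟨d', hd'⟩ : r ∣ d := Nat.minFac_dvd d
      have hd'0 : 0 < d' := by
        rcases Nat.eq_zero_or_pos d' with h | h
        · rw [h, mul_zero] at hd'; omega
        · exact h
      have hd'lt : d' < d := by
        rw [hd']
        have := hrp.two_le
        nlinarith
      have hd'N : d' ∣ N := Dvd.dvd.trans ⟨r, by rw [hd', mul_comm]⟩ hd
      have hrN : r ∣ N := Dvd.dvd.trans ⟨d', hd'⟩ hd
      have ih' := ih d' hd'lt hd'N
      obtain ⟨Φ, hmon, hB2, -⟩ := hA r hrp hrN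
      -- relation
      have hVV : V d' (V r J) = V d J := by
        rw [hd', mul_comm, hS.V_mul d' r hd'0 hrp.pos]; rfl
      have hrel : (biMap Φ (V d' J)).eval (V d J) = 0 := by
        have h := eval_biMap_algHom (V d') Φ (V r J) J
        rw [hB2, map_zero, hVV] at h
        exact h.symm
      refine isIntegral_of_monic_root (biMap Φ (V d' J)) (biMap_monic hmon _) (fun i => ?_)
        (V d J) hrel
      rw [coeff_biMap]
      exact isIntegral_aeval_of_isIntegral ih' _


theorem mem_range_of_mem_aux {Ω : Type*} [Field Ω] [IsAlgClosed Ω] (ι : L →+* Ω)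
    (hS : IsSubst V sg) (J : L) {N p : ℕ} (hN : 0 < N) (hp : 0 < p)
    (hroots : ∀ r : ℕ, r.Prime → r ∣ N → ∀ ξ : kˣ, ∃ η : kˣ, η ^ r = ξ)
    (hA : ∀ r : ℕ, r.Prime → r ∣ N → HasModEq V sg J r)
    (hP : HasMinEq V J p)
    (hmem : V p J ∈ adjoin k {x : L | ∃ d : ℕ, d ∣ N ∧ x = V d J}) :
    V N J ∈ (V p).range := by
  classical
  set S : Set L := {x : L | ∃ d : ℕ, d ∣ N ∧ x = V d J} with hSdef
  have hNp : 0 < N * p := Nat.mul_pos hN hp
  -- algebra structures on Ω
  let algkΩ : Algebra k Ω := (ι.comp (algebraMap k L)).toAlgebra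
  let algFΩ : Algebra k⟮J⟯ Ω :=
    ((ι.comp (V (N * p) : L →+* L)).comp (algebraMap k⟮J⟯ L)).toAlgebra
  have hkΩ : ∀ c : k, algebraMap k Ω c = ι (algebraMap k L c) := fun c => rfl
  have hFΩ : ∀ x : k⟮J⟯, algebraMap k⟮J⟯ Ω x = ι (V (N * p) (x : L)) := fun x => rfl
  have : IsScalarTower k k⟮J⟯ Ω := IsScalarTower.of_algebraMap_eq (fun c => by
    rw [hkΩ, hFΩ]
    have : ((algebraMap k k⟮J⟯ c : k⟮J⟯) : L) = algebraMap k L c := rfl
    rw [this, AlgHom.commutes])
  let ιa : L →ₐ[k] Ω := { ι with commutes' := fun c => rfl }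
  have hint : ∀ s ∈ S, IsIntegral k⟮J⟯ s := by
    rintro s ⟨d, hd, rfl⟩
    exact isIntegral_V hS J hN hA d hd
  have hK : ∀ s ∈ S, IsIntegral k⟮J⟯ s ∧ ((minpoly k⟮J⟯ s).map (algebraMap k⟮J⟯ Ω)).Splits :=
    fun s hs => ⟨hint s hs, IsAlgClosed.splits _⟩
  have hle : ∀ x, x ∈ adjoin k S → x ∈ adjoin k⟮J⟯ S := by
    intro x hx
    have : adjoin k S ≤ (adjoin k⟮J⟯ S).restrictScalars k :=
      adjoin_le_iff.mpr (subset_adjoin k⟮J⟯ S)
    exact this hx
  have hx : V p J ∈ adjoin k⟮J⟯ S := hle _ hmem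
  have hy : aeval (ι (V N J)) (minpoly k⟮J⟯ (V p J)) = 0 := by
    obtain ⟨Φ, h1, h2⟩ := hP
    obtain ⟨g, hg⟩ := h2 (minpoly k⟮J⟯ (V p J)) (minpoly.aeval k⟮J⟯ _)
    rw [hg, map_mul]
    convert zero_mul _
    rw [Polynomial.aeval_def, ← Polynomial.eval_map,
      biMap_map_ringHom (algebraMap k⟮J⟯ Ω)
        (fun c => (IsScalarTower.algebraMap_apply k k⟮J⟯ Ω c).symm)]
    have h3 := eval_biMap_algHom (ιa.comp (V N)) Φ J (V p J)
    rw [h1, map_zero] at h3
    have h4 : (ιa.comp (V N)) (V p J) = algebraMap k⟮J⟯ Ω (AdjoinSimple.gen k J) := by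
      rw [hFΩ, hS.V_mul N p hN hp]
      rfl
    rw [h4] at h3
    exact h3.symm
  obtain ⟨τ, hτ⟩ := exists_algHom_adjoin_of_splits_of_aeval hK hx hy
  -- `τ` fixes `k`
  have hτk : ∀ c : k, τ (algebraMap k (adjoin k⟮J⟯ S) c) = algebraMap k Ω c := by
    intro c
    have h1 : algebraMap k (adjoin k⟮J⟯ S) c =
        algebraMap k⟮J⟯ (adjoin k⟮J⟯ S) (algebraMap k k⟮J⟯ c) := rfl
    rw [h1, τ.commutes, ← IsScalarTower.algebraMap_apply]
  -- transfer of relations through `τ`
  have htrans : ∀ (Φ : k[X][X]) (x y : adjoin k⟮J⟯ S),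
      (biMap Φ (y : L)).eval (x : L) = 0 → (biMap Φ (τ y)).eval (τ x) = 0 := by
    intro Φ x y h
    have h1 := eval_biMap_ringHom (k := k) (algebraMap (adjoin k⟮J⟯ S) L) (fun c => rfl) Φ x y
    have h2 : (biMap Φ y).eval x = 0 := by
      apply (algebraMap (adjoin k⟮J⟯ S) L).injective
      rw [h1, map_zero]
      exact h
    have h3 := eval_biMap_ringHom (τ : adjoin k⟮J⟯ S →+* Ω) hτk Φ x y
    rw [h2, map_zero] at h3
    exact h3.symm
  -- the invariant
  have inv : ∀ d : ℕ, d ∣ N → ∀ hd : V d J ∈ adjoin k⟮J⟯ S, ∃ (ξ : kˣ) (e : ℕ), 0 < e ∧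
      N * p ∣ e * d ∧ τ ⟨V d J, hd⟩ = ι (sub V sg ξ e J) := by
    intro d
    induction d using Nat.strong_induction_on with
    | _ d ih =>
      intro hdN hd
      have hd0 : 0 < d := Nat.pos_of_dvd_of_pos hdN hN
      rcases Nat.eq_or_lt_of_le (Nat.succ_le_of_lt hd0) with h1 | h1
      · -- d = 1
        subst h1
        refine ⟨1, N * p, hNp, by simp, ?_⟩
        have h2 : (⟨V (Nat.succ 0) J, hd⟩ : adjoin k⟮J⟯ S) =
            algebraMap k⟮J⟯ (adjoin k⟮J⟯ S) (AdjoinSimple.gen k J) := by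
          apply Subtype.ext
          show V 1 J = J
          rw [hS.V_one]; rfl
        rw [h2, τ.commutes, hFΩ, sub_apply, hS.sg_one]
        rfl
      · -- d > 1
        have hd1 : d ≠ 1 := by omega
        have hrp : (d.minFac).Prime := Nat.minFac_prime hd1
        obtain ⟨d', hd'⟩ : d.minFac ∣ d := Nat.minFac_dvd d
        set r := d.minFac with hr
        have hd'0 : 0 < d' := by
          rcases Nat.eq_zero_or_pos d' with h | h
          · rw [h, mul_zero] at hd'; omega
          · exact h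
        have hd'lt : d' < d := by
          have := hrp.two_le
          nlinarith
        have hd'N : d' ∣ N := Dvd.dvd.trans ⟨r, by rw [hd', mul_comm]⟩ hdN
        have hrN : r ∣ N := Dvd.dvd.trans ⟨d', hd'⟩ hdN
        have hd'mem : V d' J ∈ adjoin k⟮J⟯ S := subset_adjoin _ _ ⟨d', hd'N, rfl⟩
        obtain ⟨ξ, e, he0, hdiv, hτd'⟩ := ih d' hd'lt hd'N hd'mem
        obtain ⟨Φ, hmon, hB2, s, hs, hfac⟩ := hA r hrp hrN
        obtain ⟨m, hm⟩ := hdN
        have hre : r ∣ e := by
          have h1 : d' * (r * (m * p)) ∣ d' * e := by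
            have : N * p = d' * (r * (m * p)) := by rw [hm, hd']; ring
            rw [← this, mul_comm d' e]; exact hdiv
          have h2 := Nat.dvd_of_mul_dvd_mul_left hd'0 h1
          exact Dvd.dvd.trans ⟨m * p, rfl⟩ h2
        obtain ⟨e', he'⟩ := hre
        have he'0 : 0 < e' := by
          rcases Nat.eq_zero_or_pos e' with h | h
          · rw [h, mul_zero] at he'; omega
          · exact h
        obtain ⟨η, hη⟩ := hroots r hrp hrN ξ
        have hkey : sub V sg η e' (V r J) = sub V sg ξ e J := by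
          rw [sub_V hS η he'0 hrp.pos, hη, he', mul_comm]
        have hVV : V d' (V r J) = V d J := by
          rw [hd', mul_comm, hS.V_mul d' r hd'0 hrp.pos]; rfl
        have hrel : (biMap Φ (V d' J)).eval (V d J) = 0 := by
          have h := eval_biMap_algHom (V d') Φ (V r J) J
          rw [hB2, map_zero, hVV] at h
          exact h.symm
        have hrelΩ := htrans Φ ⟨V d J, hd⟩ ⟨V d' J, hd'mem⟩ hrel
        rw [hτd', ← hkey] at hrelΩ
        have hfacΩ : biMap Φ (ι (sub V sg η e' (V r J))) =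
            (s.map fun a => X - C (ι (sub V sg η e' a))).prod := by
          have h := biMap_map (ιa.comp (sub V sg η e')) Φ (V r J)
          rw [hfac, Polynomial.map_multiset_prod, Multiset.map_map] at h
          rw [show ι (sub V sg η e' (V r J)) = (ιa.comp (sub V sg η e')) (V r J) from rfl, ← h]
          congr 1
          apply Multiset.map_congr rfl
          intro a _
          simp only [Function.comp_apply, Polynomial.map_sub, Polynomial.map_X, Polynomial.map_C]
          rfl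
        rw [hfacΩ, Polynomial.eval_multiset_prod, Multiset.prod_eq_zero_iff,
          Multiset.map_map] at hrelΩ
        obtain ⟨a, has, ha⟩ := Multiset.mem_map.mp hrelΩ
        simp only [Function.comp_apply, eval_sub, eval_X, eval_C] at ha
        have hτd : τ ⟨V d J, hd⟩ = ι (sub V sg η e' a) := sub_eq_zero.mp ha
        rcases hs a has with rfl | ⟨z, rfl⟩
        · refine ⟨η ^ (r ^ 2), e' * r ^ 2, Nat.mul_pos he'0 (pow_pos hrp.pos 2), ?_, ?_⟩
          · have : e' * r ^ 2 * d = (e * d') * r ^ 2 := by rw [he', hd']; ring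
            rw [this]
            exact Dvd.dvd.mul_right hdiv _
          · rw [hτd, sub_V hS η he'0 (pow_pos hrp.pos 2)]
        · refine ⟨η * z, e', he'0, ?_, ?_⟩
          · have : e' * d = e * d' := by rw [he', hd']; ring
            rw [this]
            exact hdiv
          · rw [hτd, sub_sg hS]
  -- the subfield `ι (range (V p))` of `Ω`
  let K' : Subfield Ω := ((V p : L →+* L).fieldRange).map ι
  have hgen : ∀ d : ℕ, d ∣ N → ∀ hd : V d J ∈ adjoin k⟮J⟯ S, τ ⟨V d J, hd⟩ ∈ K' := by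
    intro d hdN hd
    obtain ⟨ξ, e, he0, hdiv, h⟩ := inv d hdN hd
    have hd0 : 0 < d := Nat.pos_of_dvd_of_pos hdN hN
    obtain ⟨m, hm⟩ := hdN
    have hpe : p ∣ e := by
      have h1 : d * (m * p) ∣ d * e := by
        have : N * p = d * (m * p) := by rw [hm]; ring
        rw [← this, mul_comm d e]; exact hdiv
      exact Dvd.dvd.trans ⟨m, by ring⟩ (Nat.dvd_of_mul_dvd_mul_left hd0 h1)
    obtain ⟨e', he'⟩ := hpe
    have he'0 : 0 < e' := by
      rcases Nat.eq_zero_or_pos e' with h | h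
      · rw [h, mul_zero] at he'; omega
      · exact h
    rw [h, sub_apply, he', hS.V_mul p e' hp he'0]
    exact Subfield.mem_map.mpr ⟨_, ⟨_, rfl⟩, rfl⟩
  have hall : ∀ x (_ : x ∈ adjoin k S), ∀ hx' : x ∈ adjoin k⟮J⟯ S, τ ⟨x, hx'⟩ ∈ K' := by
    intro x hx
    induction hx using IntermediateField.adjoin_induction with
    | mem x hx =>
      obtain ⟨d, hd, rfl⟩ := hx
      intro hx'
      exact hgen d hd hx'
    | algebraMap c =>
      intro hx'
      have : (⟨algebraMap k L c, hx'⟩ : adjoin k⟮J⟯ S) = algebraMap k (adjoin k⟮J⟯ S) c := rfl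
      rw [this, hτk, hkΩ]
      exact Subfield.mem_map.mpr ⟨_, ⟨algebraMap k L c, AlgHom.commutes _ _⟩, rfl⟩
    | add x y hx hy ihx ihy =>
      intro hx'
      have := add_mem (ihx (hle x hx)) (ihy (hle y hy))
      rw [← map_add] at this
      exact this
    | inv x hx ihx =>
      intro hx'
      have := inv_mem (ihx (hle x hx))
      rw [← map_inv₀] at this
      exact this
    | mul x y hx hy ihx ihy =>
      intro hx'
      have := mul_mem (ihx (hle x hx)) (ihy (hle y hy))
      rw [← map_mul] at this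
      exact this
  have hfinal := hall (V p J) hmem hx
  rw [hτ] at hfinal
  obtain ⟨w, ⟨u, rfl⟩, hw⟩ := Subfield.mem_map.mp hfinal
  exact ⟨u, ι.injective hw⟩

/-- **(STEP)(ii), abstract form.** If `V p J` lies in the field generated over `k` by the
`V d J`, `d ∣ N`, then `V N J` lies in the range of `V p`. -/
theorem mem_range_of_mem (hS : IsSubst V sg) (J : L) {N p : ℕ} (hN : 0 < N) (hp : 0 < p)
    (hroots : ∀ r : ℕ, r.Prime → r ∣ N → ∀ ξ : kˣ, ∃ η : kˣ, η ^ r = ξ)
    (hA : ∀ r : ℕ, r.Prime → r ∣ N → HasModEq V sg J r)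
    (hP : HasMinEq V J p)
    (hmem : V p J ∈ adjoin k {x : L | ∃ d : ℕ, d ∣ N ∧ x = V d J}) :
    V N J ∈ (V p).range :=
  mem_range_of_mem_aux (algebraMap L (AlgebraicClosure L)) hS J hN hp hroots hA hP hmem

theorem aeval_biMap_gen (Φ : k[X][X]) (J x : L) :
    aeval x (biMap Φ (AdjoinSimple.gen k J)) = (biMap Φ J).eval x := by
  rw [Polynomial.aeval_def, ← Polynomial.eval_map,
    biMap_map_ringHom (k := k) (algebraMap k⟮J⟯ L) (fun c => rfl) Φ (AdjoinSimple.gen k J)]
  rfl

/-- `HasMinEq` from irreducibility of `Φ(X, J)` over `k(J)`. -/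
theorem hasMinEq_of_irreducible {J : L} {p : ℕ} (Φ : k[X][X]) (hmon : Φ.Monic)
    (h1 : (biMap Φ (V p J)).eval J = 0) (h2 : (biMap Φ J).eval (V p J) = 0)
    (hirr : Irreducible (biMap Φ (AdjoinSimple.gen k J))) : HasMinEq V J p := by
  refine ⟨Φ, h1, fun g hg => ?_⟩
  have h3 : aeval (V p J) (biMap Φ (AdjoinSimple.gen k J)) = 0 := by
    rw [aeval_biMap_gen, h2]
  rw [minpoly.eq_of_irreducible_of_monic hirr h3 (biMap_monic hmon _)]
  exact minpoly.dvd _ _ hg

/-- `HasMinEq` from a degree bound: `deg_X Φ ≤ [k(J, V p J) : k(J)]`. -/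
theorem hasMinEq_of_natDegree_le {J : L} {p : ℕ} (Φ : k[X][X]) (hmon : Φ.Monic)
    (h1 : (biMap Φ (V p J)).eval J = 0) (h2 : (biMap Φ J).eval (V p J) = 0)
    (hint : IsIntegral k⟮J⟯ (V p J))
    (hdeg : Φ.natDegree ≤ (minpoly k⟮J⟯ (V p J)).natDegree) : HasMinEq V J p := by
  refine ⟨Φ, h1, fun g hg => ?_⟩
  have h3 : aeval (V p J) (biMap Φ (AdjoinSimple.gen k J)) = 0 := by
    rw [aeval_biMap_gen, h2]
  have hdvd : minpoly k⟮J⟯ (V p J) ∣ biMap Φ (AdjoinSimple.gen k J) := minpoly.dvd _ _ h3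
  have hdeg' : (biMap Φ (AdjoinSimple.gen k J)).natDegree ≤ (minpoly k⟮J⟯ (V p J)).natDegree := by
    refine le_trans ?_ hdeg
    exact Polynomial.natDegree_map_le
  have heq := Polynomial.eq_of_monic_of_dvd_of_natDegree_le (minpoly.monic hint)
    (biMap_monic hmon _) hdvd hdeg'
  rw [heq]
  exact minpoly.dvd _ _ hg

end Abstract

end

end Fermat.Agent.S28.StepCoprime
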