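/-
S28 (Igusa), (STEP)(ii), Laurent-series instantiation of `S28/StepCoprime`.

Main results, for an algebraically closed field `k`, `J := jqModC k`, `V_n := qExpand k n`:
* `isSubst`: the substitutions `q ↦ q^n` (`Vt`) and `q ↦ u q` (`sgA`) satisfy the abstract relations;
* `hasModEq_of_hasModPoly`: the interface `Defs.HasModPoly k r` gives the abstract `HasModEq`;
* `hasMinEq_of_hasModPoly`: (B1) `Φ_p(X, J)` is the minimal equation of `V_p J` over `k(J)`,
  from `Defs.HasModPoly k p` and `Defs.PrimeNotMem k p`;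
* `qExpand_not_mem_full`: for `p ∤ N`, `V_p J ∉ modularFunctionFieldFullC k N`.
-/
import Fermat.Agent.S28.StepCoprime
import Fermat.Agent.S28.Defs
import Fermat.Agent.S28.FieldLemmas

set_option autoImplicit false

namespace Fermat.Agent.S28.StepCoprimeLaurent

open Polynomial IntermediateField ModularCurve
open Fermat.Agent.S28.LaurentRescale Fermat.Agent.S28.StepCoprime Fermat.Agent.S28.Defs

noncomputable section

variable (k : Type*) [Field k]

/-- Total version of `q ↦ q ^ n` (`n = 0` gives the identity). -/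
def Vt (n : ℕ) : LaurentSeries k →ₐ[k] LaurentSeries k :=
  if h : n = 0 then AlgHom.id k _ else haveI : NeZero n := ⟨h⟩; qExpandAlgHomC k n

theorem Vt_apply (n : ℕ) [NeZero n] (f : LaurentSeries k) : Vt k n f = qExpand k n f := by
  unfold Vt
  rw [dif_neg (NeZero.ne n)]
  rfl

/-- `q ↦ u q` as an algebra endomorphism. -/
def sgA (u : kˣ) : LaurentSeries k →ₐ[k] LaurentSeries k := (rescaleA u : _ ≃ₐ[k] _)

theorem sgA_apply (u : kˣ) (f : LaurentSeries k) : sgA k u f = rescaleU u f := rfl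

theorem isSubst : IsSubst (Vt k) (sgA k) where
  V_one := by
    ext f : 1
    rw [Vt_apply, qExpand_one_apply]; rfl
  V_mul := by
    intro m n hm hn
    have : NeZero m := ⟨hm.ne'⟩
    have : NeZero n := ⟨hn.ne'⟩
    ext f : 1
    rw [AlgHom.comp_apply, Vt_apply, Vt_apply, Vt_apply, qExpand_qExpand]
  sg_one := by
    ext f : 1
    rw [sgA_apply, rescaleU_one]; rfl
  sg_mul := by
    intro u v
    ext f : 1
    rw [AlgHom.comp_apply, sgA_apply, sgA_apply, sgA_apply, rescaleU_mul]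
  sg_V := by
    intro u n hn
    have : NeZero n := ⟨hn.ne'⟩
    ext f : 1
    rw [AlgHom.comp_apply, AlgHom.comp_apply, sgA_apply, sgA_apply, Vt_apply, Vt_apply,
      rescaleU_qExpand]

theorem Vt_injective (n : ℕ) : Function.Injective (Vt k n) := (Vt k n).toRingHom.injective

/-- `HasModEq` (abstract shape) from the interface `HasModPoly`, given a primitive root. -/
theorem hasModEq_of_hasModPoly (r : ℕ) [NeZero r] (hF : HasModPoly k r) (ζ : kˣ)
    (hζ : IsPrimitiveRoot ζ r) : HasModEq (Vt k) (sgA k) (jqModC k) r := by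
  obtain ⟨Φ, hmon, -, hfac⟩ := hF
  have : NeZero (r ^ 2) := ⟨pow_ne_zero 2 (NeZero.ne r)⟩
  have hb : biMap Φ (qExpand k r (jqModC k)) = (X - C (qExpand k (r ^ 2) (jqModC k))) *
      ∏ b ∈ Finset.range r, (X - C (rescaleU (ζ ^ b) (jqModC k))) := hfac ζ hζ
  refine ⟨Φ, hmon, ?_, ?_⟩
  · have h0 : (biMap Φ (qExpand k r (jqModC k))).eval (qExpand k (r ^ 2) (jqModC k)) = 0 := by
      rw [hb]; simp
    have h1 := eval_biMap_algHom (Vt k r) Φ (Vt k r (jqModC k)) (jqModC k)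
    rw [Vt_apply k r (jqModC k), Vt_apply k r (qExpand k r (jqModC k)), qExpand_qExpand,
      qExpand_congr (pow_two r).symm, h0] at h1
    rw [Vt_apply k r (jqModC k)]
    exact (map_eq_zero_iff _ (Vt_injective k r)).mp h1
  · refine ⟨qExpand k (r ^ 2) (jqModC k) ::ₘ
      (Finset.range r).val.map (fun b => rescaleU (ζ ^ b) (jqModC k)), ?_, ?_⟩
    · intro a ha
      rw [Multiset.mem_cons] at ha
      rcases ha with rfl | ha
      · left; rw [Vt_apply]
      · right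
        obtain ⟨b, -, rfl⟩ := Multiset.mem_map.mp ha
        exact ⟨ζ ^ b, rfl⟩
    · rw [Vt_apply, hb, Multiset.map_cons, Multiset.prod_cons, Multiset.map_map]
      rfl

/-- `J(q ^ N)` is not a series in `q ^ p` when `p ∤ N`. -/
theorem Vt_jqModC_not_mem_range {N p : ℕ} [NeZero N] [NeZero p] (hpN : ¬ p ∣ N) :
    Vt k N (jqModC k) ∉ (Vt k p).range := by
  rintro ⟨w, hw⟩
  have hw' : Vt k p w = Vt k N (jqModC k) := hw
  rw [Vt_apply, Vt_apply] at hw'
  have h1 : (qExpand k N (jqModC k)).coeff ((N : ℤ) * (-1)) = 1 := by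
    rw [qExpand_coeff_mul, coeff_jqModC_neg_one]
  have h2 : (qExpand k p w).coeff ((N : ℤ) * (-1)) = 0 := by
    apply qExpand_coeff_of_not_dvd
    rw [mul_neg_one, Int.dvd_neg, Int.natCast_dvd_natCast]
    exact hpN
  rw [hw', h1] at h2
  exact one_ne_zero h2

/-- Elements of `k(J(q^p))` are series in `q ^ p`. -/
theorem mem_range_of_mem_adjoin (p : ℕ) [NeZero p] {a : LaurentSeries k}
    (ha : a ∈ k⟮Vt k p (jqModC k)⟯) : ∃ w, qExpand k p w = a := by
  have hle : k⟮Vt k p (jqModC k)⟯ ≤ (Vt k p).fieldRange := by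
    rw [adjoin_simple_le_iff]
    exact ⟨jqModC k, rfl⟩
  obtain ⟨w, hw⟩ := hle ha
  exact ⟨w, by rw [← Vt_apply]; exact hw⟩

/-- `V_p x ∈ k(V_p J)` implies `x ∈ k(J)`. -/
theorem mem_adjoin_of_Vt_mem (p : ℕ) {x : LaurentSeries k}
    (hx : Vt k p x ∈ k⟮Vt k p (jqModC k)⟯) : x ∈ k⟮jqModC k⟯ := by
  have h : k⟮Vt k p (jqModC k)⟯ = (k⟮jqModC k⟯).map (Vt k p) := by
    rw [adjoin_map, Set.image_singleton]
  rw [h] at hx
  obtain ⟨y, hy, hyx⟩ := hx
  have : y = x := Vt_injective k p hyx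
  rw [← this]
  exact hy

/-- **(B1)**: `HasMinEq` at `p` from the modular equation and the prime case. -/
theorem hasMinEq_of_hasModPoly (p : ℕ) [NeZero p] (hp2 : 2 ≤ p) (hF : HasModPoly k p)
    (hP : PrimeNotMem k p) (ζ : kˣ) (hζ : IsPrimitiveRoot ζ p) :
    HasMinEq (Vt k) (jqModC k) p := by
  classical
  obtain ⟨Φ, hmon, hdeg, hfac⟩ := hF
  have : NeZero (p ^ 2) := ⟨pow_ne_zero 2 (NeZero.ne p)⟩
  set J := jqModC k with hJ
  set Jp := Vt k p J with hJp
  have hJpq : Jp = qExpand k p J := Vt_apply k p J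
  have hb : biMap Φ Jp = (X - C (qExpand k (p ^ 2) J)) *
      ∏ b ∈ Finset.range p, (X - C (rescaleU (ζ ^ b) J)) := by
    rw [hJpq]; exact hfac ζ hζ
  have hp0 : 0 < p := by omega
  -- `J` is a root
  have h1 : (biMap Φ Jp).eval J = 0 := by
    rw [hb, eval_mul, eval_prod]
    refine mul_eq_zero_of_right _ (Finset.prod_eq_zero (Finset.mem_range.mpr hp0) ?_)
    simp
  -- `J(q^(p^2))` is a root
  have h2 : (biMap Φ Jp).eval (qExpand k (p ^ 2) J) = 0 := by
    rw [hb]; simp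
  have hVV : Vt k p Jp = qExpand k (p ^ 2) J := by
    rw [hJpq, Vt_apply, qExpand_qExpand, qExpand_congr (pow_two p).symm]
  -- the polynomial over `K1 = k(Jp)`
  set Ψ : (k⟮Jp⟯)[X] := biMap Φ (AdjoinSimple.gen k Jp) with hΨ
  have hΨmon : Ψ.Monic := biMap_monic hmon _
  have hΨdeg : Ψ.natDegree = p + 1 := by
    rw [hΨ, biMap, hmon.natDegree_map, hdeg]
  have hΨJ : aeval J Ψ = 0 := by rw [hΨ, aeval_biMap_gen, h1]
  have hint : IsIntegral k⟮Jp⟯ J := ⟨Ψ, hΨmon, hΨJ⟩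
  have hdvd : minpoly k⟮Jp⟯ J ∣ Ψ := minpoly.dvd _ _ hΨJ
  -- the substitutions `q ↦ ζ^b q` fix `k(Jp)` pointwise
  have hfix : ∀ (b : ℕ) (a : k⟮Jp⟯), rescaleU (ζ ^ b) (a : LaurentSeries k) = a := by
    intro b a
    obtain ⟨w, hw⟩ := mem_range_of_mem_adjoin k p a.2
    rw [← hw]
    apply rescaleU_qExpand_of_pow_eq_one
    rw [← pow_mul, mul_comm, pow_mul, hζ.pow_eq_one, one_pow]
  have hJm1 : J.coeff (-1) ≠ 0 := by
    rw [hJ, coeff_jqModC_neg_one]; exact one_ne_zero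
  have hle : p ≤ (minpoly k⟮Jp⟯ J).natDegree := by
    have := FieldLemmas.card_le_natDegree_minpoly (ι := Fin p) hint
      (fun b => ((rescaleU (ζ ^ (b : ℕ)) : _ ≃+* _) : LaurentSeries k →+* LaurentSeries k))
      (fun b a => hfix b a)
      (by
        intro b b' h
        have h' : rescaleU (ζ ^ (b : ℕ)) J = rescaleU (ζ ^ (b' : ℕ)) J := h
        have := eq_of_rescaleU_eq hJm1 h'
        exact Fin.ext (hζ.pow_inj b.2 b'.2 this))
    simpa using this
  -- elements of `k(Jp)` have no `q⁻¹` term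
  have hcoeff : ∀ a : k⟮Jp⟯, (a : LaurentSeries k).coeff (-1) = 0 := by
    intro a
    obtain ⟨w, hw⟩ := mem_range_of_mem_adjoin k p a.2
    rw [← hw]
    apply qExpand_coeff_of_not_dvd
    rw [Int.dvd_neg, ← Int.natCast_one, Int.natCast_dvd_natCast, Nat.dvd_one]
    omega
  have hdeg_n : (minpoly k⟮Jp⟯ J).natDegree = p + 1 := by
    by_contra hne
    obtain ⟨h, hh⟩ := hdvd
    have hnmon := minpoly.monic hint
    have hhmon : h.Monic := hnmon.of_mul_monic_left (hh ▸ hΨmon)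
    have hsum : (minpoly k⟮Jp⟯ J).natDegree + h.natDegree = p + 1 := by
      rw [← hnmon.natDegree_mul hhmon, ← hh, hΨdeg]
    have hh1 : h.natDegree = 1 := by omega
    have hc := hhmon.eq_X_add_C hh1
    set c := h.coeff 0 with hcdef
    have hroot : (biMap Φ Jp).eval (-(c : LaurentSeries k)) = 0 := by
      have : aeval (-(c : LaurentSeries k)) Ψ = 0 := by
        rw [hh, map_mul, hc]
        simp
      rwa [hΨ, aeval_biMap_gen] at this
    rw [hb, eval_mul, mul_eq_zero] at hroot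
    rcases hroot with h3 | h3
    · rw [eval_sub, eval_X, eval_C, sub_eq_zero] at h3
      have h4 : Vt k p Jp ∈ k⟮Jp⟯ := by
        rw [hVV, ← h3]
        exact neg_mem c.2
      have h5 : Jp ∈ k⟮J⟯ := mem_adjoin_of_Vt_mem k p h4
      rw [hJpq] at h5
      exact hP h5
    · obtain ⟨b, -, h4⟩ := FieldLemmas.exists_eq_of_eval_prod_X_sub_C _ _ _ h3
      have h5 := hcoeff (-c)
      rw [show ((-c : k⟮Jp⟯) : LaurentSeries k) = -(c : LaurentSeries k) from rfl, h4,
        coeff_rescaleU] at h5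
      rcases mul_eq_zero.mp h5 with h6 | h6
      · exact Units.ne_zero _ h6
      · exact hJm1 h6
  have hΨeq : minpoly k⟮Jp⟯ J = Ψ :=
    (eq_of_monic_of_dvd_of_natDegree_le (minpoly.monic hint) hΨmon hdvd
      (by rw [hΨdeg, hdeg_n])).symm
  have hΨirr : Irreducible Ψ := hΨeq ▸ minpoly.irreducible hint
  have hΨroot : aeval (Vt k p Jp) Ψ = 0 := by rw [hΨ, aeval_biMap_gen, hVV, h2]
  have hΨmin : Ψ = minpoly k⟮Jp⟯ (Vt k p Jp) :=
    minpoly.eq_of_irreducible_of_monic hΨirr hΨroot hΨmon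
  -- transport along `V_p : k(J) ≃ k(Jp)`
  refine ⟨Φ, h1, fun g hg => ?_⟩
  have hmap : ∀ x : k⟮J⟯, ((Vt k p).toRingHom.comp (algebraMap k⟮J⟯ (LaurentSeries k))) x ∈
      k⟮Jp⟯ := by
    intro x
    have h : k⟮Jp⟯ = (k⟮J⟯).map (Vt k p) := by rw [adjoin_map, Set.image_singleton]
    rw [h]
    exact ⟨x, x.2, rfl⟩
  let φ : k⟮J⟯ →+* k⟮Jp⟯ :=
    ((Vt k p).toRingHom.comp (algebraMap k⟮J⟯ (LaurentSeries k))).codRestrict k⟮Jp⟯ hmap
  have hφΨ : (biMap Φ (AdjoinSimple.gen k J)).map φ = Ψ := by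
    rw [biMap_map_ringHom (k := k) φ (fun c => Subtype.ext (by
      show Vt k p (algebraMap k (LaurentSeries k) c) = algebraMap k (LaurentSeries k) c
      exact (Vt k p).commutes c)) Φ (AdjoinSimple.gen k J)]
    rfl
  have hroot : aeval (Vt k p Jp) (g.map φ) = 0 := by
    rw [aeval_def, eval₂_map]
    have : (algebraMap k⟮Jp⟯ (LaurentSeries k)).comp φ =
        (Vt k p).toRingHom.comp (algebraMap k⟮J⟯ (LaurentSeries k)) := rfl
    have hg' : eval₂ (algebraMap k⟮J⟯ (LaurentSeries k)) Jp g = 0 := hg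
    have h6 := Polynomial.hom_eval₂ g (algebraMap k⟮J⟯ (LaurentSeries k)) (Vt k p).toRingHom Jp
    rw [hg', map_zero] at h6
    rw [this]
    exact h6.symm
  have hd := minpoly.dvd k⟮Jp⟯ (Vt k p Jp) hroot
  rw [← hΨmin, ← hφΨ] at hd
  exact (Polynomial.map_dvd_map' φ).mp hd

/-- Primitive roots of unity as units, in an algebraically closed field. -/
theorem exists_primitiveRoot_unit [IsAlgClosed k] (r : ℕ) (hr : (r : k) ≠ 0) :
    ∃ ζ : kˣ, IsPrimitiveRoot ζ r := by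
  have : NeZero (r : k) := ⟨hr⟩
  have hr0 : r ≠ 0 := by
    rintro rfl
    exact hr Nat.cast_zero
  obtain ⟨ζ, hζ⟩ := HasEnoughRootsOfUnity.exists_primitiveRoot k r
  refine ⟨(hζ.isUnit hr0).unit, ?_⟩
  rw [← IsPrimitiveRoot.coe_units_iff]
  exact hζ

theorem exists_unit_pow_eq [IsAlgClosed k] (r : ℕ) (hr : 0 < r) (ξ : kˣ) :
    ∃ η : kˣ, η ^ r = ξ := by
  obtain ⟨z, hz⟩ := IsAlgClosed.exists_pow_nat_eq (ξ : k) hr
  have hz0 : z ≠ 0 := by
    rintro rfl
    rw [zero_pow hr.ne'] at hz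
    exact ξ.ne_zero hz.symm
  exact ⟨Units.mk0 z hz0, Units.ext (by rw [Units.val_pow_eq_pow_val, Units.val_mk0, hz])⟩

/-- **(STEP)(ii), from the abstract minimal equation.** -/
theorem qExpand_not_mem_full_of_hasMinEq [IsAlgClosed k] (N : ℕ) [NeZero N] (p : ℕ) [NeZero p]
    (hpN : ¬ p ∣ N) (hNk : (N : k) ≠ 0)
    (hF : ∀ (r : ℕ) [NeZero r], r.Prime → (r : k) ≠ 0 → HasModPoly k r)
    (hP : HasMinEq (Vt k) (jqModC k) p) :
    qExpand k p (jqModC k) ∉ modularFunctionFieldFullC k N := by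
  intro hmem
  have hrk : ∀ r : ℕ, r ∣ N → (r : k) ≠ 0 := by
    rintro r ⟨m, hm⟩ h0
    apply hNk
    rw [hm, Nat.cast_mul, h0, zero_mul]
  have hsub : divisorExpansionsC k N ⊆ {x | ∃ d : ℕ, d ∣ N ∧ x = Vt k d (jqModC k)} := by
    rintro x ⟨d, hne, hd, rfl⟩
    exact ⟨d, hd, (Vt_apply k d _).symm⟩
  have hmem' : Vt k p (jqModC k) ∈
      adjoin k {x | ∃ d : ℕ, d ∣ N ∧ x = Vt k d (jqModC k)} := by
    rw [Vt_apply]
    exact adjoin.mono k _ _ hsub hmem
  refine Vt_jqModC_not_mem_range k hpN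
    (mem_range_of_mem (isSubst k) (jqModC k) (Nat.pos_of_ne_zero (NeZero.ne N))
      (Nat.pos_of_ne_zero (NeZero.ne p)) ?_ ?_ hP hmem')
  · intro r hr _ ξ
    exact exists_unit_pow_eq k r hr.pos ξ
  · intro r hr hrN
    have : NeZero r := ⟨hr.ne_zero⟩
    obtain ⟨ζ, hζ⟩ := exists_primitiveRoot_unit k r (hrk r hrN)
    exact hasModEq_of_hasModPoly k r (hF r hr (hrk r hrN)) ζ hζ

/-- **(STEP)(ii)**: for `p ∤ N`, `J(q^p) ∉ k(J(q^d) : d ∣ N)`. -/
theorem qExpand_not_mem_full [IsAlgClosed k] (N : ℕ) [NeZero N] (p : ℕ) [NeZero p]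
    (hp : p.Prime) (hpN : ¬ p ∣ N) (hNk : (N : k) ≠ 0) (hpk : (p : k) ≠ 0)
    (hF : ∀ (r : ℕ) [NeZero r], r.Prime → (r : k) ≠ 0 → HasModPoly k r)
    (hP : PrimeNotMem k p) :
    qExpand k p (jqModC k) ∉ modularFunctionFieldFullC k N := by
  obtain ⟨ζ, hζ⟩ := exists_primitiveRoot_unit k p hpk
  exact qExpand_not_mem_full_of_hasMinEq k N p hpN hNk hF
    (hasMinEq_of_hasModPoly k p hp.two_le (hF p hp hpk) hP ζ hζ)

end

end Fermat.Agent.S28.StepCoprimeLaurent
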