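import Fermat.Agent.S28.IgusaCore
import Fermat.Agent.S28.Step.PsiLeRelrank
import Fermat.Agent.S28.ModPolyPrime
import Fermat.Agent.S28.PrimeCaseForm

/-!
# PROJECT F (S28, Igusa), slice F-IG, final file: Igusa's degree bound over `𝔽_ℓ`

For a prime `ℓ ∤ N`:

* `psiLeRelrank_algClosure` : `ψ(N) ≤ [k(J(q^d) : d ∣ N) : k(J)]` for `k = 𝔽̄_ℓ`, unconditionally
  (`Step.psi_le_relrank` fed with `ModPolyPrime.hasModPoly` and
  `PrimeCaseForm.qExpand_jqModC_not_mem`);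
* `psiLeRelrank_of_isAlgClosed` : the same over any algebraically closed field in which `N ≠ 0`;
* `igusaBound` : `Defs.IgusaBound ℓ N (dedekindPsi N)`, i.e. `ψ(N)` elements of
  `𝔽_ℓ(J(q^d) : d ∣ N)` linearly independent over `𝔽_ℓ(J)` (descent `𝔽̄_ℓ → 𝔽_ℓ` of `IgusaCore`);
* `igusaBoundRing` : the same family with denominators cleared (elements of the ring
  `𝔽_ℓ[J(q^d) : d ∣ N]`).
-/

set_option autoImplicit false

namespace Fermat.Agent.S28.IgusaDegree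

open ModularCurve

/-- **(STEP)** made unconditional: over an algebraically closed field `k` in which `N ≠ 0`,
`ψ(N) ≤ [k(J(q^d) : d ∣ N) : k(J)]`. -/
theorem psiLeRelrank_of_isAlgClosed (k : Type*) [Field k] [IsAlgClosed k] (N : ℕ) [NeZero N]
    (hN : (N : k) ≠ 0) : Defs.PsiLeRelrank k N :=
  Step.psi_le_relrank k N hN
    (fun p _ _ => ModPolyPrime.hasModPoly_fact k p)
    (fun p _ hpk => PrimeCaseForm.qExpand_jqModC_not_mem k p hpk)

/-- The case `k = 𝔽̄_ℓ`, `ℓ ∤ N`. -/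
theorem psiLeRelrank_algClosure (ℓ : ℕ) [Fact ℓ.Prime] (N : ℕ) [NeZero N] (h : ¬ ℓ ∣ N) :
    Defs.PsiLeRelrank (AlgebraicClosure (ZMod ℓ)) N :=
  psiLeRelrank_of_isAlgClosed (AlgebraicClosure (ZMod ℓ)) N
    (IgusaCore.natCast_ne_zero_algClosure ℓ N h)

/-- **Igusa's degree bound over the prime field** `𝔽_ℓ`, `ℓ ∤ N`: there are `ψ(N)` elements of
`𝔽_ℓ(J(q^d) : d ∣ N)` which are linearly independent over `𝔽_ℓ(J)`. -/
theorem igusaBound (ℓ : ℕ) [Fact ℓ.Prime] (N : ℕ) [NeZero N] (h : ¬ ℓ ∣ N) :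
    Defs.IgusaBound ℓ N (dedekindPsi N) :=
  IgusaCore.igusaBound_of_psiLeRelrank ℓ N (AlgebraicClosure (ZMod ℓ))
    (psiLeRelrank_algClosure ℓ N h)

/-- Ring form of `igusaBound`: the independent family can be taken in the ring
`𝔽_ℓ[J(q^d) : d ∣ N]`. -/
theorem igusaBoundRing (ℓ : ℕ) [Fact ℓ.Prime] (N : ℕ) [NeZero N] (h : ¬ ℓ ∣ N) :
    IgusaCore.IgusaBoundRing ℓ N (dedekindPsi N) :=
  IgusaCore.IgusaBound.ring (igusaBound ℓ N h)

end Fermat.Agent.S28.IgusaDegree
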