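/-
PROJECT F (S28), slice (III-0) (helper27): the degree of the rational function field
`F = ℚ(j(q^d) : d ∣ N) ⊂ ℚ((q))` over `ℚ(j)` is at most `ψ(N) = [SL₂(ℤ) : Γ₀(N)]`.

Route: the analytic input of S24 (every polynomial in the `j(dτ)` satisfies a monic relation of
degree `ψ(N)` over `ℂ[j]`) gives formal relations over `ℚ̄` (`S24.Degree.exists_relation`), which
descend to `ℚ` by linear disjointness (`S24.LinDisjoint.exists_rel_over_base'`); the abstract
bound `S24.DegreeAlg.finrank_le_of_relations` then gives the degree bound.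
-/
import Fermat.Agent.S24.Degree
import Fermat.Agent.S24.DegreeRel
import Fermat.Agent.S20.CountFinal
import Fermat.Prelude.Def_ModularCurve_IgusaScheme

set_option autoImplicit false

noncomputable section

namespace Fermat.Agent.S28.DegreeQ

open Polynomial IntermediateField ModularCurve ModularCurve.IgusaScheme
open Fermat.Agent.S24.DegreeAlg Fermat.Agent.S24.Degree
open scoped MatrixGroups

local notation "Kb" => AlgebraicClosure ℚ

-- On `↥F` (an intermediate field of `ℚ((q)) / ℚ`) there are two (propositionally equal) `ℚ`-algebra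
-- structures; we work with the one of `IntermediateField` throughout.
attribute [-instance] DivisionRing.toRatAlgebra

variable (N : ℕ) [NeZero N]

/-- The formal series `j(q^d)`, `d ∣ N`, with rational coefficients. -/
def jd (d : {d : ℕ // d ∣ N}) : LaurentSeries ℚ :=
  haveI : NeZero d.1 := neZero_of_dvd d.2
  qExpand ℚ d.1 jq

theorem jd_def (d : ℕ) (hd : d ∣ N) [NeZero d] : jd N ⟨d, hd⟩ = qExpand ℚ d jq := rfl

theorem jd_one : jd N ⟨1, one_dvd N⟩ = jq := by
  rw [jd_def, qExpand_one_apply]

theorem jd_mem (d : {d : ℕ // d ∣ N}) : jd N d ∈ modularFunctionFieldFull N := by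
  have : NeZero d.1 := neZero_of_dvd d.2
  exact jqd_mem_full N d.2

theorem coeffEmb_jd (d : {d : ℕ // d ∣ N}) : coeffEmb Kb (jd N d) = jdiv Kb N d := rfl

theorem range_jd : Set.range (jd N) = divisorExpansions N := by
  ext x
  constructor
  · rintro ⟨d, rfl⟩
    have : NeZero d.1 := neZero_of_dvd d.2
    exact ⟨d.1, this, d.2, rfl⟩
  · rintro ⟨d, hne, hd, rfl⟩
    exact ⟨⟨d, hd⟩, rfl⟩

theorem full_eq_adjoin :
    modularFunctionFieldFull N = IntermediateField.adjoin ℚ (Set.range (jd N)) := by
  rw [range_jd]; rfl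

/-- The generators `j(q^d)` as elements of `F`. -/
def jdF (d : {d : ℕ // d ∣ N}) : ↥(modularFunctionFieldFull N) := ⟨jd N d, jd_mem N d⟩

theorem jdF_one : jdF N ⟨1, one_dvd N⟩ = jFull N := Subtype.ext (jd_one N)

theorem adjoin_range_jdF_eq_top :
    IntermediateField.adjoin ℚ (Set.range (jdF N)) = ⊤ := by
  have h1 : (IntermediateField.adjoin ℚ (Set.range (jdF N))).map (modularFunctionFieldFull N).val
      = modularFunctionFieldFull N := by
    rw [IntermediateField.adjoin_map, ← Set.range_comp]
    exact (full_eq_adjoin N).symm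
  have h2 : (⊤ : IntermediateField ℚ (modularFunctionFieldFull N)).map
      (modularFunctionFieldFull N).val = modularFunctionFieldFull N := by
    rw [← AlgHom.fieldRange_eq_map, IntermediateField.fieldRange_val]
  exact IntermediateField.map_injective _ (h1.trans h2.symm)

theorem jFull_mem_adjoin : jFull N ∈ Algebra.adjoin ℚ (Set.range (jdF N)) :=
  Algebra.subset_adjoin ⟨⟨1, one_dvd N⟩, jdF_one N⟩

theorem coeffEmb_rat (x : LaurentSeries ℚ) : coeffEmb ℚ x = x := by
  rw [coeffEmb]
  have : (algebraMap ℚ ℚ) = RingHom.id ℚ := rfl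
  rw [this, coeffMap_id]

theorem transcendental_jq : Transcendental ℚ jq := by
  have := transcendental_coeffEmb_jq ℚ
  rwa [coeffEmb_rat] at this

theorem transcendental_jFull : Transcendental ℚ (jFull N) := by
  rw [transcendental_iff]
  intro p hp
  apply transcendental_iff.mp transcendental_jq p
  have := congrArg (modularFunctionFieldFull N).val hp
  rw [← Polynomial.aeval_algHom_apply, map_zero] at this
  exact this

omit [NeZero N] in
theorem coe_eval₂ (x r : ↥(modularFunctionFieldFull N)) (P : Polynomial (Polynomial ℚ)) :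
    ((Polynomial.eval₂ (Polynomial.aeval x : Polynomial ℚ →ₐ[ℚ] _).toRingHom r P :
        ↥(modularFunctionFieldFull N)) : LaurentSeries ℚ)
      = Polynomial.eval₂ (Polynomial.aeval (x : LaurentSeries ℚ) :
          Polynomial ℚ →ₐ[ℚ] LaurentSeries ℚ).toRingHom (r : LaurentSeries ℚ) P := by
  have := Polynomial.hom_eval₂ P (Polynomial.aeval x : Polynomial ℚ →ₐ[ℚ] _).toRingHom
    ((modularFunctionFieldFull N).val : _ →+* LaurentSeries ℚ) r
  refine this.trans ?_
  congr 1
  refine RingHom.ext fun s => ?_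
  exact (Polynomial.aeval_algHom_apply (modularFunctionFieldFull N).val x s).symm

theorem coe_mem_adjoin {r : ↥(modularFunctionFieldFull N)}
    (hr : r ∈ Algebra.adjoin ℚ (Set.range (jdF N))) :
    (r : LaurentSeries ℚ) ∈ Algebra.adjoin ℚ (Set.range (jd N)) := by
  have h1 : (Algebra.adjoin ℚ (Set.range (jdF N))).map (modularFunctionFieldFull N).val
      = Algebra.adjoin ℚ (Set.range (jd N)) := by
    rw [AlgHom.map_adjoin, ← Set.range_comp]
    rfl
  rw [← h1]
  exact ⟨r, hr, rfl⟩

/-- `ψ(N)`, as the index of `Γ₀(N)`. -/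
abbrev psi : ℕ := Nat.card (SL(2, ℤ) ⧸ CongruenceSubgroup.Gamma0 N)

theorem psi_eq : psi N = ModularCurve.dedekindPsi N := Fermat.Agent.S20.CountFinal.card_Q N

/-- **Formal relations over `ℚ`**: every element of the `ℚ`-algebra generated by the `j(q^d)`,
`d ∣ N`, satisfies a nonzero two-variable relation over `ℚ[j]` of degree at most `ψ(N)`. -/
theorem exists_relation_rat (r : LaurentSeries ℚ)
    (hr : r ∈ Algebra.adjoin ℚ (Set.range (jd N))) :
    ∃ Q : Polynomial (Polynomial ℚ), Q ≠ 0 ∧ Q.natDegree ≤ psi N ∧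
      Q.eval₂ ((Polynomial.aeval jq : Polynomial ℚ →ₐ[ℚ] LaurentSeries ℚ) :
        Polynomial ℚ →+* LaurentSeries ℚ) r = 0 := by
  obtain ⟨ι⟩ := exists_embedding
  rw [Algebra.adjoin_range_eq_range_aeval] at hr
  obtain ⟨ρ, rfl⟩ := hr
  set ι₀ : ℚ →+* Kb := algebraMap ℚ Kb with hι₀
  -- the base change of `r` lies in the `ℚ̄`-algebra generated by the `j(q^d)`
  have hbar : coeffMap ι₀ (MvPolynomial.aeval (jd N) ρ)
      ∈ Algebra.adjoin Kb (Set.range (jdiv Kb N)) := by
    rw [coeffMap_aeval, Algebra.adjoin_range_eq_range_aeval]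
    exact ⟨MvPolynomial.map ι₀ ρ, rfl⟩
  obtain ⟨P, hP0, hPd, hP⟩ := exists_relation N ι (psi N)
    (fun P => Fermat.Agent.S24.DegreeRel.exists_monic_relation N P) _ hbar
  exact Fermat.Agent.S24.LinDisjoint.exists_rel_over_base' ι₀ jq _ P hP0 hP
    |>.imp fun Q hQ => ⟨hQ.1, hQ.2.1.trans hPd, hQ.2.2⟩

/-- **(III-0)** `[F : ℚ(j)] ≤ ψ(N)` for `F = ℚ(j(q^d) : d ∣ N)`. -/
theorem finrank_full_le :
    FiniteDimensional ℚ⟮jFull N⟯ ↥(modularFunctionFieldFull N) ∧
      Module.finrank ℚ⟮jFull N⟯ ↥(modularFunctionFieldFull N) ≤ psi N := by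
  refine finrank_le_of_relations (jdF N) (adjoin_range_jdF_eq_top N) (jFull N)
    (jFull_mem_adjoin N) (transcendental_jFull N) (psi N) fun r hr => ?_
  obtain ⟨Q, hQ0, hQd, hQ⟩ := exists_relation_rat N r (coe_mem_adjoin N hr)
  refine ⟨Q, hQ0, hQd, Subtype.ext ?_⟩
  rw [coe_eval₂]
  exact hQ

theorem finiteDimensional_full : FiniteDimensional ℚ⟮jFull N⟯ ↥(modularFunctionFieldFull N) :=
  (finrank_full_le N).1

theorem finrank_full_le_dedekindPsi :
    Module.finrank ℚ⟮jFull N⟯ ↥(modularFunctionFieldFull N) ≤ ModularCurve.dedekindPsi N :=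
  psi_eq N ▸ (finrank_full_le N).2

/-- The `ℚ`-algebra structure on `↥F` used in this file (the one of `IntermediateField`). -/
abbrev algF : Algebra ℚ ↥(modularFunctionFieldFull N) := inferInstance

/-- **(III-0), instance-generic form**: the same for ANY `ℚ`-algebra structure on `↥F` (they are
all equal; instance search finds `DivisionRing.toRatAlgebra` or `IntermediateField.algebra'`
depending on the context). -/
theorem finrank_full_le_of_algebra [inst : Algebra ℚ ↥(modularFunctionFieldFull N)] :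
    FiniteDimensional ℚ⟮jFull N⟯ ↥(modularFunctionFieldFull N) ∧
      Module.finrank ℚ⟮jFull N⟯ ↥(modularFunctionFieldFull N) ≤ ModularCurve.dedekindPsi N := by
  obtain rfl : inst = algF N := Subsingleton.elim _ _
  exact ⟨(finrank_full_le N).1, finrank_full_le_dedekindPsi N⟩

theorem transcendental_jFull_of_algebra [inst : Algebra ℚ ↥(modularFunctionFieldFull N)] :
    Transcendental ℚ (jFull N) := by
  obtain rfl : inst = algF N := Subsingleton.elim _ _
  exact transcendental_jFull N

end Fermat.Agent.S28.DegreeQ
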