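/-
PROJECT F (S28) (helper27): THE PRIME CHAIN - `j(q^d)` IS INTEGRAL OVER `ℤ[j]` FOR EVERY `d`.

Input: for every prime `p` a monic relation `Φ_p(j(q^p), j) = 0` with `Φ_p ∈ ℤ[Y][X]` monic in `X`
(the prime-level modular equation).  Applying the ring endomorphism `q ↦ q^d'` of the Laurent
series ring gives `Φ_p(j(q^(p d')), j(q^d')) = 0`; integrality is transitive.

To stay away from the several (propositionally equal) `ℤ`-algebra structures on Laurent series,
the core is stated with `Subring.closure {y}` and `Polynomial.eval₂ (Int.castRingHom _)`; the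
`Algebra.adjoin ℤ {y}` spellings at the end are generic in the `Algebra ℤ _` instance.
-/
import Mathlib
import Fermat.Prelude.Def_ModularCurve_X0ModL
import Fermat.Prelude.Def_ModularCurve_IgusaScheme
import Fermat.Agent.S28.DegreeQ

set_option autoImplicit false

noncomputable section

namespace Fermat.Agent.S28.IntegralChain

open Polynomial ModularCurve

/-! ### Generic algebra: monic two-variable relations and integrality over `ℤ[y]` -/

section Generic

variable {B : Type*} [CommRing B]

/-- evaluation `ℤ[Y] → B`, `Y ↦ y` (instance-free). -/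
def evY (y : B) : Polynomial ℤ →+* B := Polynomial.eval₂RingHom (Int.castRingHom B) y

@[simp] theorem evY_X (y : B) : evY y Polynomial.X = y := by simp [evY]

@[simp] theorem evY_C (y : B) (a : ℤ) : evY y (Polynomial.C a) = (a : B) := by simp [evY]

theorem evY_comp {C : Type*} [CommRing C] (f : B →+* C) (y : B) :
    f.comp (evY y) = evY (f y) :=
  Polynomial.ringHom_ext (fun a => by simp) (by simp)

/-- for any `ℤ`-algebra structure, the ring hom underlying `aeval y` is `evY y`. -/
theorem aeval_coe_eq_evY [inst : Algebra ℤ B] (y : B) :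
    ((Polynomial.aeval y : Polynomial ℤ →ₐ[ℤ] B) : Polynomial ℤ →+* B) = evY y :=
  Polynomial.ringHom_ext (fun a => by simp) (by simp)

/-- `Φ(x, y) = 0` for a two-variable integer polynomial (outer variable `X ↦ x`, inner `Y ↦ y`). -/
def Rel (Φ : Polynomial (Polynomial ℤ)) (x y : B) : Prop :=
  Φ.eval₂ (evY y) x = 0

theorem Rel.map {C : Type*} [CommRing C] (f : B →+* C) {Φ : Polynomial (Polynomial ℤ)} {x y : B}
    (h : Rel Φ x y) : Rel Φ (f x) (f y) := by
  unfold Rel at h ⊢
  have h1 := Polynomial.hom_eval₂ Φ (evY y) f x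
  rw [h, map_zero, evY_comp] at h1
  exact h1.symm

theorem Rel.of_map {C : Type*} [CommRing C] (f : B →+* C) (hf : Function.Injective f)
    {Φ : Polynomial (Polynomial ℤ)} {x y : B} (h : Rel Φ (f x) (f y)) : Rel Φ x y := by
  unfold Rel at h ⊢
  apply hf
  have h1 := Polynomial.hom_eval₂ Φ (evY y) f x
  rw [evY_comp, h] at h1
  rw [h1, map_zero]

/-- `evY` into the subring generated by `y`. -/
def evYc (y : B) : Polynomial ℤ →+* Subring.closure ({y} : Set B) :=
  evY (⟨y, Subring.subset_closure rfl⟩ : Subring.closure ({y} : Set B))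

theorem subtype_comp_evYc (y : B) : (Subring.closure ({y} : Set B)).subtype.comp (evYc y) = evY y := by
  rw [evYc, evY_comp]
  rfl

theorem evYc_surjective (y : B) : Function.Surjective (evYc y) := by
  rintro ⟨z, hz⟩
  induction hz using Subring.closure_induction with
  | mem u hu =>
    rw [Set.mem_singleton_iff] at hu
    subst hu
    exact ⟨Polynomial.X, Subtype.ext (by simp [evYc])⟩
  | zero => exact ⟨0, by simp; rfl⟩
  | one => exact ⟨1, by simp; rfl⟩
  | add u v hu hv ihu ihv =>
    obtain ⟨P, hP⟩ := ihu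
    obtain ⟨Q, hQ⟩ := ihv
    exact ⟨P + Q, by rw [map_add, hP, hQ]; rfl⟩
  | neg u hu ihu =>
    obtain ⟨P, hP⟩ := ihu
    exact ⟨-P, by rw [map_neg, hP]; rfl⟩
  | mul u v hu hv ihu ihv =>
    obtain ⟨P, hP⟩ := ihu
    obtain ⟨Q, hQ⟩ := ihv
    exact ⟨P * Q, by rw [map_mul, hP, hQ]; rfl⟩

/-- a monic relation gives integrality over `ℤ[y]`. -/
theorem isIntegral_of_rel {Φ : Polynomial (Polynomial ℤ)} (hΦ : Φ.Monic) {x y : B}
    (h : Rel Φ x y) : IsIntegral (Subring.closure ({y} : Set B)) x := by
  refine ⟨Φ.map (evYc y), hΦ.map _, ?_⟩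
  rw [Polynomial.eval₂_map]
  unfold Rel at h
  rw [← h, ← subtype_comp_evYc]
  rfl

/-- conversely, integrality over `ℤ[y]` gives a monic relation. -/
theorem exists_rel_of_isIntegral {x y : B} (h : IsIntegral (Subring.closure ({y} : Set B)) x) :
    ∃ Φ : Polynomial (Polynomial ℤ), Φ.Monic ∧ Rel Φ x y := by
  obtain ⟨P, hP, hPx⟩ := h
  have hlifts : P ∈ Polynomial.lifts (evYc y) :=
    (Polynomial.lifts_iff_coeff_lifts P).mpr fun n => evYc_surjective y (P.coeff n)
  obtain ⟨Φ, hΦP, -, hΦm⟩ := Polynomial.lifts_and_natDegree_eq_and_monic hlifts hP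
  refine ⟨Φ, hΦm, ?_⟩
  unfold Rel
  rw [← hΦP, Polynomial.eval₂_map] at hPx
  rw [← hPx, ← subtype_comp_evYc]
  rfl

/-- transitivity of integrality, for subrings. -/
theorem isIntegral_trans_subring (S T : Subring B) (hT : ∀ t ∈ T, IsIntegral S t) {x : B}
    (hx : IsIntegral T x) : IsIntegral S x := by
  let C : Subalgebra S B := integralClosure S B
  let ι : T →+* C :=
    { toFun := fun t => ⟨(t : B), hT t t.2⟩
      map_one' := rfl
      map_mul' := fun _ _ => rfl
      map_zero' := rfl
      map_add' := fun _ _ => rfl }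
  have hxC : IsIntegral C x := by
    have := IsIntegral.map_of_comp_eq (R := T) (S := B) (T := C) (U := B) ι (RingHom.id B)
      (by ext t; rfl) hx
    simpa using this
  exact isIntegral_trans (R := S) (A := C) x hxC

theorem isIntegral_trans_closure {x y z : B} (hxy : IsIntegral (Subring.closure ({y} : Set B)) x)
    (hyz : IsIntegral (Subring.closure ({z} : Set B)) y) :
    IsIntegral (Subring.closure ({z} : Set B)) x := by
  refine isIntegral_trans_subring _ (Subring.closure ({y} : Set B)) ?_ hxy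
  refine IsIntegral.of_mem_closure' ({y} : Set B) ?_
  intro u hu
  rw [Set.mem_singleton_iff] at hu
  rw [hu]; exact hyz

/-- `Algebra.adjoin ℤ {y}` and `Subring.closure {y}` define the same integrality, for any
`ℤ`-algebra structure. -/
theorem isIntegral_adjoin_int_iff [inst : Algebra ℤ B] {x y : B} :
    IsIntegral (Algebra.adjoin ℤ ({y} : Set B)) x ↔ IsIntegral (Subring.closure ({y} : Set B)) x := by
  obtain rfl : inst = Ring.toIntAlgebra B := Subsingleton.elim _ _
  have h : (Algebra.adjoin ℤ ({y} : Set B)).toSubring = Subring.closure ({y} : Set B) := by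
    rw [Algebra.adjoin_int]
    rfl
  constructor
  · intro hx
    exact isIntegral_trans_subring _ (Algebra.adjoin ℤ ({y} : Set B)).toSubring
      (fun t ht => isIntegral_algebraMap (x := (⟨t, h ▸ ht⟩ : Subring.closure ({y} : Set B)))) hx
  · intro hx
    exact isIntegral_trans_subring (Algebra.adjoin ℤ ({y} : Set B)).toSubring _
      (fun t ht => isIntegral_algebraMap
        (x := (⟨t, h.symm ▸ ht⟩ : (Algebra.adjoin ℤ ({y} : Set B)).toSubring))) hx

end Generic

/-! ### The chain -/

section Chain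

variable {R : Type*} [CommRing R]

/-- **The prime chain.** If `j(q^p)` satisfies a monic relation over `ℤ[j]` for every prime `p`,
then `j(q^d)` is integral over `ℤ[j]` for every `d ≥ 1` (any series `J`, any coefficient ring). -/
theorem isIntegral_qExpand (J : LaurentSeries R)
    (h : ∀ p : ℕ, p.Prime → ∀ [NeZero p],
      ∃ Φ : Polynomial (Polynomial ℤ), Φ.Monic ∧ Rel Φ (qExpand R p J) J) :
    ∀ d : ℕ, ∀ [NeZero d],
      IsIntegral (Subring.closure ({J} : Set (LaurentSeries R))) (qExpand R d J) := by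
  intro d
  induction d using Nat.strong_induction_on with
  | _ d ih =>
    intro hd
    by_cases hd1 : d = 1
    · subst hd1
      rw [qExpand_one_apply]
      exact isIntegral_algebraMap
        (x := (⟨J, Subring.subset_closure rfl⟩ : Subring.closure ({J} : Set (LaurentSeries R))))
    have hp : d.minFac.Prime := Nat.minFac_prime hd1
    set p := d.minFac with hpdef
    obtain ⟨d', hd'⟩ : p ∣ d := Nat.minFac_dvd d
    have hd0 : d ≠ 0 := NeZero.ne d
    have hd'0 : d' ≠ 0 := by
      rintro rfl
      exact hd0 (by rw [hd', mul_zero])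
    have : NeZero d' := ⟨hd'0⟩
    have : NeZero p := ⟨hp.ne_zero⟩
    have hlt : d' < d := by
      rw [hd']
      calc d' = 1 * d' := (one_mul _).symm
        _ < p * d' := Nat.mul_lt_mul_of_pos_right hp.one_lt (Nat.pos_of_ne_zero hd'0)
    obtain ⟨Φ, hΦm, hΦ⟩ := h p hp
    have h1 : Rel Φ (qExpand R d' (qExpand R p J)) (qExpand R d' J) := hΦ.map (qExpand R d')
    have h2 : qExpand R d' (qExpand R p J) = qExpand R d J := by
      rw [qExpand_qExpand]
      exact qExpand_congr (by rw [hd', mul_comm]) J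
    rw [h2] at h1
    exact isIntegral_trans_closure (isIntegral_of_rel hΦm h1) (ih d' hlt)

end Chain

/-! ### The rational series `j(q^d)` -/

section Rat

/-- the hypothesis: a prime-level monic integer relation for the integer series `jqModC ℤ`. -/
def HasIntRel (p : ℕ) [NeZero p] : Prop :=
  ∃ Φ : Polynomial (Polynomial ℤ), Φ.Monic ∧ Rel Φ (qExpand ℤ p (jqModC ℤ)) (jqModC ℤ)

/-- `HasIntRel` from the `aeval` spelling (any `ℤ`-algebra structure on `ℤ((q))`); this is the
conclusion of `S28/ModPolyIntRel.exists_monic_eval₂_eq_zero`. -/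
theorem HasIntRel.of_aeval {p : ℕ} [NeZero p] [inst : Algebra ℤ (LaurentSeries ℤ)]
    (h : ∃ Φ : Polynomial (Polynomial ℤ), Φ.Monic ∧
      Φ.eval₂ ((Polynomial.aeval (jqModC ℤ) : Polynomial ℤ →ₐ[ℤ] LaurentSeries ℤ) :
        Polynomial ℤ →+* LaurentSeries ℤ) (qExpand ℤ p (jqModC ℤ)) = 0) : HasIntRel p := by
  obtain ⟨Φ, hm, hΦ⟩ := h
  refine ⟨Φ, hm, ?_⟩
  unfold Rel
  rw [← aeval_coe_eq_evY]
  exact hΦ

theorem HasIntRel.rat {p : ℕ} [NeZero p] (h : HasIntRel p) :
    ∃ Φ : Polynomial (Polynomial ℤ), Φ.Monic ∧ Rel Φ (qExpand ℚ p jq) jq := by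
  obtain ⟨Φ, hm, hΦ⟩ := h
  refine ⟨Φ, hm, ?_⟩
  have := hΦ.map (coeffMap (Int.castRingHom ℚ))
  rw [coeffMap_qExpand, coeffMap_jqModC] at this
  exact this

variable (h : ∀ p : ℕ, p.Prime → ∀ [NeZero p], HasIntRel p)
include h

/-- **`j(q^d)` is integral over `ℤ[j]`** (integer series). -/
theorem isIntegral_qExpand_int (d : ℕ) [NeZero d] :
    IsIntegral (Subring.closure ({jqModC ℤ} : Set (LaurentSeries ℤ))) (qExpand ℤ d (jqModC ℤ)) :=
  isIntegral_qExpand (jqModC ℤ) (fun p hp _ => h p hp) d

/-- **`j(q^d)` is integral over `ℤ[j]`** (rational series, subring spelling). -/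
theorem isIntegral_jq_div_closure (d : ℕ) [NeZero d] :
    IsIntegral (Subring.closure ({jq} : Set (LaurentSeries ℚ))) (qExpand ℚ d jq) :=
  isIntegral_qExpand jq (fun p hp _ => (h p hp).rat) d

/-- **`j(q^d)` is integral over `ℤ[j]`** (rational series; the `hint` of `S28/ChartKernel`),
for any `ℤ`-algebra structure on `ℚ((q))`. -/
theorem isIntegral_jq_div [inst : Algebra ℤ (LaurentSeries ℚ)] (d : ℕ) [NeZero d] :
    IsIntegral (Algebra.adjoin ℤ ({jq} : Set (LaurentSeries ℚ))) (qExpand ℚ d jq) :=
  isIntegral_adjoin_int_iff.mpr (isIntegral_jq_div_closure h d)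

open ModularCurve.IgusaScheme Fermat.Agent.S28.DegreeQ

/-- **`j(q^d)`, `d ∣ N`, is integral over `ℤ[j]` inside `F = ℚ(j(q^d) : d ∣ N)`**
(subring spelling). -/
theorem isIntegral_jdF_closure (N : ℕ) [NeZero N] (d : {d : ℕ // d ∣ N}) :
    IsIntegral (Subring.closure ({jFull N} : Set ↥(modularFunctionFieldFull N))) (jdF N d) := by
  have : NeZero d.1 := Fermat.Agent.S24.DegreeAlg.neZero_of_dvd d.2
  obtain ⟨Φ, hm, hΦ⟩ := exists_rel_of_isIntegral (isIntegral_jq_div_closure h d.1)
  refine isIntegral_of_rel hm ?_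
  exact Rel.of_map ((modularFunctionFieldFull N).val : _ →+* LaurentSeries ℚ)
    (modularFunctionFieldFull N).val.injective hΦ

/-- the same for any `ℤ`-algebra structure on `F`. -/
theorem isIntegral_jdF (N : ℕ) [NeZero N] [inst : Algebra ℤ ↥(modularFunctionFieldFull N)]
    (d : {d : ℕ // d ∣ N}) :
    IsIntegral (Algebra.adjoin ℤ ({jFull N} : Set ↥(modularFunctionFieldFull N))) (jdF N d) :=
  isIntegral_adjoin_int_iff.mpr (isIntegral_jdF_closure h N d)

end Rat

end Fermat.Agent.S28.IntegralChain
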