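/-
PROJECT F (S28), slice (III-P), parts (P2) and (P4) (helper7), on top of helper4's `ThetaL` and
`FormalJ`:

* (P2) `θ = q d/dq` maps `k(j)` into `k(j) · θ j`; hence if `j(q^p) ∈ k(j)` and `p ≠ 0` in `k`,
  then `Δ(q^p) / Δ(q) ∈ k(j)`.
* (P4) an element of `k(j)` which is integral over `k[j]` together with its inverse is a constant;
  `Δ(q^p) / Δ(q)` is not a constant for `p ≥ 2`.
* Combined: if `Δ(q^p) / Δ(q)` and its inverse are integral over `k[j]`, then `j(q^p) ∉ k(j)`.
-/
import Mathlib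
import Fermat.Prelude.Def_ModularCurve_X0ModL
import Fermat.Agent.S28.ThetaL
import Fermat.Agent.S28.FormalJ

set_option autoImplicit false

noncomputable section

namespace Fermat.Agent.S28.ThetaAdjoin

open HahnSeries IntermediateField ModularCurve Fermat.Agent.S28.ThetaL Fermat.Agent.S28.FormalJ

variable (k : Type*) [Field k]

/-! ## (P2) -/

theorem algebraMap_eq_C (c : k) : algebraMap k (LaurentSeries k) c = HahnSeries.C c := by
  rw [algebraMap_laurentSeries_eq_single, HahnSeries.C_apply]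

theorem thetaL_algebraMap (c : k) : thetaL (algebraMap k (LaurentSeries k) c) = 0 := by
  rw [algebraMap_eq_C]
  exact thetaL_C c

/-- `θ` maps `k(j)` into `k(j) · θ j`. -/
theorem thetaL_mem_adjoin {x : LaurentSeries k} (hx : x ∈ k⟮jqModC k⟯) :
    ∃ y ∈ k⟮jqModC k⟯, thetaL x = y * thetaL (jqModC k) := by
  induction hx using IntermediateField.adjoin_induction with
  | mem x hx =>
    rw [Set.mem_singleton_iff] at hx
    subst hx
    exact ⟨1, one_mem _, (one_mul _).symm⟩
  | algebraMap c => exact ⟨0, zero_mem _, by rw [thetaL_algebraMap, zero_mul]⟩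
  | add x y hx hy ihx ihy =>
    obtain ⟨a, ha, hxa⟩ := ihx
    obtain ⟨b, hb, hyb⟩ := ihy
    exact ⟨a + b, add_mem ha hb, by rw [thetaL_add, hxa, hyb, add_mul]⟩
  | inv x hx ihx =>
    obtain ⟨a, ha, hxa⟩ := ihx
    by_cases h0 : x = 0
    · subst h0
      exact ⟨0, zero_mem _, by rw [inv_zero, thetaL_zero, zero_mul]⟩
    · refine ⟨-a * (x⁻¹) ^ 2, mul_mem (neg_mem ha) (pow_mem (inv_mem hx) 2), ?_⟩
      rw [thetaL_inv x h0, hxa]; ring
  | mul x y hx hy ihx ihy =>
    obtain ⟨a, ha, hxa⟩ := ihx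
    obtain ⟨b, hb, hyb⟩ := ihy
    exact ⟨a * y + x * b, add_mem (mul_mem ha hy) (mul_mem hx hb), by
      rw [thetaL_mul, hxa, hyb]; ring⟩

theorem thetaL_jqModC_ne_zero : thetaL (jqModC k) ≠ 0 := by
  intro h
  have := congrArg (fun f => f.coeff (-1)) h
  simp only [coeff_thetaL, coeff_jqModC_neg_one, HahnSeries.coeff_zero] at this
  simp at this

theorem qExpand_jqModC_sub_ne_zero (p : ℕ) [NeZero p] :
    qExpand k p (jqModC k) - 1728 ≠ 0 := by
  intro h
  have := congrArg (fun f => f.coeff ((p : ℤ) * (-1))) h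
  simp only [HahnSeries.coeff_sub, qExpand_coeff_mul, coeff_jqModC_neg_one,
    HahnSeries.coeff_zero] at this
  have hp : ((p : ℤ) * (-1)) ≠ 0 := by
    have := NeZero.ne p
    simp [this]
  have h1728 : (1728 : LaurentSeries k) = HahnSeries.C (1728 : k) := (map_ofNat _ 1728).symm
  rw [h1728, HahnSeries.C_apply, HahnSeries.coeff_single_of_ne hp, sub_zero] at this
  exact one_ne_zero this

theorem DeltaR_ne_zero : DeltaR k ≠ 0 := fun h => by
  have := coeff_DeltaR_one k
  rw [h] at this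
  simp at this

/-- **(P2)**: if `j(q^p)` is a rational function of `j` over `k` and `p ≠ 0` in `k`, then so is
`Δ(q^p) / Δ(q)`. -/
theorem ratio_mem_adjoin (p : ℕ) [NeZero p] (hp : (p : k) ≠ 0)
    (h : qExpand k p (jqModC k) ∈ k⟮jqModC k⟯) :
    qExpand k p (DeltaR k) / DeltaR k ∈ k⟮jqModC k⟯ := by
  set J := jqModC k with hJ
  set Jp := qExpand k p J with hJp
  obtain ⟨y, hy, hθ⟩ := thetaL_mem_adjoin k h
  have hI := delta_mul_eq_R k
  have hIp := congrArg (qExpand k p) hI
  simp only [map_mul, map_pow, map_sub, map_ofNat] at hIp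
  have hpC : ((p : ℕ) : LaurentSeries k) = HahnSeries.C (p : k) := by simp
  have hθp : thetaL Jp = HahnSeries.C (p : k) * qExpand k p (thetaL J) := by
    rw [← hpC]; exact thetaL_qExpand p J
  have hJ0 : J ≠ 0 := jqModC_ne_zero_of_nontrivial k
  have hJp0 : Jp ≠ 0 := fun h0 => hJ0 (qExpand_injective p (by rw [← hJp, h0, map_zero]))
  have hJp1 : Jp - 1728 ≠ 0 := qExpand_jqModC_sub_ne_zero k p
  have hΔ0 : DeltaR k ≠ 0 := DeltaR_ne_zero k
  have hC0 : (HahnSeries.C (p : k) : LaurentSeries k) ≠ 0 := by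
    intro h0
    exact hp (HahnSeries.C_injective (by rw [h0, map_zero]))
  have hCmem : (HahnSeries.C (p : k) : LaurentSeries k) ∈ k⟮J⟯ := by
    rw [← algebraMap_eq_C]; exact IntermediateField.algebraMap_mem _ _
  have h1728mem : (1728 : LaurentSeries k) ∈ k⟮J⟯ := by
    have : (1728 : LaurentSeries k) = algebraMap k (LaurentSeries k) 1728 := (map_ofNat _ 1728).symm
    rw [this]; exact IntermediateField.algebraMap_mem _ _
  have hJmem : J ∈ k⟮J⟯ := mem_adjoin_simple_self k J
  have hrel : HahnSeries.C (p : k) ^ 6 * (qExpand k p (DeltaR k) * Jp ^ 4 * (Jp - 1728) ^ 3) =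
      y ^ 6 * (DeltaR k * J ^ 4 * (J - 1728) ^ 3) := by
    rw [hIp, hI, ← mul_pow, ← hθp, hθ, mul_pow]
  have hden : HahnSeries.C (p : k) ^ 6 * Jp ^ 4 * (Jp - 1728) ^ 3 ≠ 0 :=
    mul_ne_zero (mul_ne_zero (pow_ne_zero _ hC0) (pow_ne_zero _ hJp0)) (pow_ne_zero _ hJp1)
  have heq : qExpand k p (DeltaR k) / DeltaR k =
      y ^ 6 * J ^ 4 * (J - 1728) ^ 3 / (HahnSeries.C (p : k) ^ 6 * Jp ^ 4 * (Jp - 1728) ^ 3) := by
    rw [div_eq_div_iff hΔ0 hden]
    linear_combination (exp := 1) hrel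
  rw [heq]
  exact div_mem (mul_mem (mul_mem (pow_mem hy 6) (pow_mem hJmem 4))
      (pow_mem (sub_mem hJmem h1728mem) 3))
    (mul_mem (mul_mem (pow_mem hCmem 6) (pow_mem h 4)) (pow_mem (sub_mem h h1728mem) 3))


/-! ## (P4) -/

/-- `j` is transcendental over `k` (it has a pole). -/
theorem transcendental_jqModC : Transcendental k (jqModC k) := by
  intro halg
  obtain ⟨P, hP0, hP⟩ := halg
  have hcoeff : (Polynomial.aeval (jqModC k) P).coeff (-(P.natDegree : ℤ)) = P.leadingCoeff := by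
    rw [Polynomial.aeval_eq_sum_range, HahnSeries.coeff_sum, Finset.sum_eq_single P.natDegree]
    · rw [Algebra.smul_def, algebraMap_eq_C, HahnSeries.C_mul_eq_smul, HahnSeries.coeff_smul,
        coeff_jqModC_pow_self, smul_eq_mul, mul_one]
      rfl
    · intro i hi hne
      have hlt : i < P.natDegree := lt_of_le_of_ne (Nat.lt_succ_iff.mp (Finset.mem_range.mp hi)) hne
      rw [Algebra.smul_def, algebraMap_eq_C, HahnSeries.C_mul_eq_smul, HahnSeries.coeff_smul,
        coeff_jqModC_pow_of_lt k (by exact_mod_cast Int.neg_lt_neg (by exact_mod_cast hlt)),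
        smul_zero]
    · intro h
      exact absurd (Finset.mem_range.mpr (Nat.lt_succ_self _)) h
  rw [hP, HahnSeries.coeff_zero] at hcoeff
  exact hP0 (Polynomial.leadingCoeff_eq_zero.mp hcoeff.symm)

open scoped IntermediateField.algebraAdjoinAdjoin in
/-- **(P4)**: an element of `k(j)` which, together with its inverse, is integral over `k[j]` is a
constant. -/
theorem const_of_integral {x : LaurentSeries k} (hx : x ∈ k⟮jqModC k⟯)
    (h1 : IsIntegral (Algebra.adjoin k {jqModC k}) x)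
    (h2 : IsIntegral (Algebra.adjoin k {jqModC k}) x⁻¹) :
    ∃ c : k, x = algebraMap k (LaurentSeries k) c := by
  by_cases hx0 : x = 0
  · exact ⟨0, by rw [hx0, map_zero]⟩
  set J := jqModC k with hJ
  set A := Algebra.adjoin k {J} with hA
  have htr : Transcendental k J := transcendental_jqModC k
  have hinj : Function.Injective (Polynomial.aeval (R := k) J) :=
    transcendental_iff_injective.mp htr
  have hrange : A = (Polynomial.aeval (R := k) J).range := Algebra.adjoin_singleton_eq_range_aeval k J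
  -- `A ≃ k[X]` is integrally closed
  let e : Polynomial k ≃ₐ[k] A :=
    (AlgEquiv.ofInjective (Polynomial.aeval (R := k) J) hinj).trans
      (Subalgebra.equivOfEq _ _ hrange.symm)
  have : IsIntegrallyClosed A := IsIntegrallyClosed.of_equiv e.toRingEquiv
  -- descend integrality to `k(j)`
  have key : ∀ z : LaurentSeries k, z ∈ k⟮J⟯ → IsIntegral A z → ∃ y : A, (y : LaurentSeries k) = z := by
    intro z hz hzint
    have hz' : IsIntegral A (⟨z, hz⟩ : k⟮J⟯) := by
      have hval : Function.Injective (IsScalarTower.toAlgHom A k⟮J⟯ (LaurentSeries k)) :=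
        fun a b hab => Subtype.ext hab
      exact (isIntegral_algHom_iff (IsScalarTower.toAlgHom A k⟮J⟯ (LaurentSeries k)) hval).mp hzint
    obtain ⟨y, hy⟩ := (IsIntegrallyClosed.isIntegral_iff (R := A) (K := k⟮J⟯)).mp hz'
    exact ⟨y, congrArg Subtype.val hy⟩
  obtain ⟨y, hy⟩ := key x hx h1
  obtain ⟨y', hy'⟩ := key x⁻¹ (inv_mem hx) h2
  have hyy' : y * y' = 1 := by
    apply Subtype.ext
    rw [Subalgebra.coe_mul, hy, hy', Subalgebra.coe_one, mul_inv_cancel₀ hx0]
  have hunit : IsUnit (e.symm y) := (IsUnit.of_mul_eq_one _ hyy').map e.symm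
  obtain ⟨c, -, hc⟩ := Polynomial.isUnit_iff.mp hunit
  refine ⟨c, ?_⟩
  have : y = e (Polynomial.C c) := by rw [hc, AlgEquiv.apply_symm_apply]
  rw [← hy, this, ← Polynomial.algebraMap_eq, AlgEquiv.commutes]
  rfl

/-- `Δ(q^p) / Δ(q)` is not a constant for `p ≥ 2`. -/
theorem ratio_not_const (p : ℕ) [NeZero p] (hp2 : 2 ≤ p) (c : k) :
    qExpand k p (DeltaR k) / DeltaR k ≠ algebraMap k (LaurentSeries k) c := by
  intro h
  have hΔ0 : DeltaR k ≠ 0 := DeltaR_ne_zero k
  rw [div_eq_iff hΔ0, algebraMap_eq_C] at h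
  -- coefficient of `q`
  have h1 := congrArg (fun f => f.coeff 1) h
  simp only [HahnSeries.C_mul_eq_smul, HahnSeries.coeff_smul, coeff_DeltaR_one, smul_eq_mul,
    mul_one] at h1
  have hnd : ¬ ((p : ℤ) ∣ 1) := by
    intro hd
    have := Int.le_of_dvd one_pos hd
    omega
  rw [qExpand_coeff_of_not_dvd p _ hnd] at h1
  -- so `c = 0` and `Δ(q^p) = 0`
  rw [← h1, map_zero, zero_mul] at h
  exact hΔ0 (qExpand_injective p (by rw [h, map_zero]))

/-- **(P), conditional form**: if `u = Δ(q^p) / Δ(q)` and `u⁻¹` are integral over `k[j]`, then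
`j(q^p)` is not a rational function of `j` (for `p ≥ 2`, `p ≠ 0` in `k`). -/
theorem not_mem_of_integral (p : ℕ) [NeZero p] (hp2 : 2 ≤ p) (hp : (p : k) ≠ 0)
    (h1 : IsIntegral (Algebra.adjoin k {jqModC k}) (qExpand k p (DeltaR k) / DeltaR k))
    (h2 : IsIntegral (Algebra.adjoin k {jqModC k}) (qExpand k p (DeltaR k) / DeltaR k)⁻¹) :
    qExpand k p (jqModC k) ∉ k⟮jqModC k⟯ := by
  intro h
  obtain ⟨c, hc⟩ := const_of_integral k (ratio_mem_adjoin k p hp h) h1 h2
  exact ratio_not_const k p hp2 c hc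

end Fermat.Agent.S28.ThetaAdjoin
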