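import Mathlib
import Fermat.Prelude.Def_ModularCurve_X0ModL

/-!
# S28 (III-1): descent of the Igusa degree bound along an extension of the constant field

For a homomorphism of fields `ι : k₀ → k` (e.g. `ZMod ℓ → AlgebraicClosure (ZMod ℓ)`), the degree of
`k₀(J(q^d) : d ∣ N)` over `k₀(J)` inside `k₀((q))` is at least the degree of `k(J(q^d) : d ∣ N)` over
`k(J)` inside `k((q))`: base change of the constant field cannot increase the degree.
-/

set_option autoImplicit false

noncomputable section

open Cardinal Module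

namespace Fermat.Agent.S28.BaseFieldDescent

section General

variable {L : Type*} [Field L]

/-- Base change cannot increase the degree: `[K·S : K] ≤ [S : T]` for subfields `T ≤ K`, `T ≤ S`
with `S / T` finite. -/
theorem relrank_sup_le (T K S : Subfield L) (hTK : T ≤ K) (hTS : T ≤ S)
    (hfin : T.relrank S < ℵ₀) : K.relrank (K ⊔ S) ≤ T.relrank S := by
  let _ : Algebra ↥T ↥K := (Subfield.inclusion hTK).toAlgebra
  have : IsScalarTower ↥T ↥K L := IsScalarTower.of_algebraMap_eq (fun x => rfl)
  rw [Subfield.relrank_eq_rank_of_le hTS] at hfin ⊢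
  rw [Subfield.relrank_eq_rank_of_le (le_sup_left : K ≤ K ⊔ S)]
  have : Module.Finite ↥T ↥(Subfield.extendScalars hTS) := Module.rank_lt_aleph0_iff.mp hfin
  have key := IntermediateField.adjoin_rank_le_of_isAlgebraic_right (F := ↥T) ↥K
    (Subfield.extendScalars hTS)
  have heq : IntermediateField.adjoin ↥K
      ((Subfield.extendScalars hTS : IntermediateField ↥T L) : Set L)
      = Subfield.extendScalars (le_sup_left : K ≤ K ⊔ S) := by
    apply IntermediateField.toSubfield_injective
    rw [IntermediateField.adjoin_toSubfield, Subfield.extendScalars_toSubfield,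
      Subfield.coe_extendScalars, Subfield.closure_union, Subfield.closure_eq]
    congr 1
    apply le_antisymm
    · rw [Subfield.closure_le]
      rintro _ ⟨x, rfl⟩
      exact x.2
    · intro x hx
      exact Subfield.subset_closure ⟨⟨x, hx⟩, rfl⟩
  rw [heq] at key
  exact key

/-- Monotonicity of the relative rank in the top field. -/
theorem relrank_le_of_le {A B C : Subfield L} (hAB : A ≤ B) (hBC : B ≤ C) :
    A.relrank B ≤ A.relrank C := by
  rw [← Subfield.relrank_mul_relrank hAB hBC]
  refine Cardinal.le_mul_right ?_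
  rw [Subfield.relrank_eq_rank_of_le hBC]
  exact (rank_pos (R := ↥B) (M := ↥(Subfield.extendScalars hBC))).ne'

/-- The Subfield-level descent: if `E ≤ K ⊔ S`, `T ≤ K ≤ E`, `T ≤ S`, then every natural number
bounded by `[E : K]` is bounded by `[S : T]`. -/
theorem natCast_le_relrank_of_le_sup (T K S E : Subfield L) (hTK : T ≤ K) (hTS : T ≤ S)
    (hKE : K ≤ E) (hE : E ≤ K ⊔ S) (n : ℕ) (h : (n : Cardinal) ≤ K.relrank E) :
    (n : Cardinal) ≤ T.relrank S := by
  rcases lt_or_ge (T.relrank S) ℵ₀ with hfin | hinf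
  · exact h.trans ((relrank_le_of_le hKE hE).trans (relrank_sup_le T K S hTK hTS hfin))
  · exact (Cardinal.natCast_lt_aleph0 (n := n)).le.trans hinf

end General

section Descent

open ModularCurve

universe u v

variable {k₀ : Type u} {k : Type v} [Field k₀] [Field k] (ι : k₀ →+* k) (N : ℕ)

/-- `k(J)` inside `k((q))`. -/
abbrev KJ (k : Type*) [Field k] : IntermediateField k (LaurentSeries k) :=
  IntermediateField.adjoin k {jqModC k}

theorem coeffMap_algebraMap' (c : k₀) :
    coeffMap ι (algebraMap k₀ (LaurentSeries k₀) c) = algebraMap k (LaurentSeries k) (ι c) := by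
  rw [algebraMap_laurentSeries_eq_single, algebraMap_laurentSeries_eq_single, coeffMap_single]

theorem map_KJ_le : (KJ k₀).toSubfield.map (coeffMap ι) ≤ (KJ k).toSubfield := by
  rw [Subfield.map_le_iff_le_comap, KJ, IntermediateField.adjoin_toSubfield, Subfield.closure_le]
  rintro x (⟨c, rfl⟩ | hx)
  · show coeffMap ι _ ∈ (KJ k).toSubfield
    rw [coeffMap_algebraMap']
    exact (KJ k).algebraMap_mem _
  · rw [Set.mem_singleton_iff] at hx
    subst hx
    show coeffMap ι _ ∈ (KJ k).toSubfield
    rw [coeffMap_jqModC]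
    exact IntermediateField.subset_adjoin _ _ rfl

theorem KJ_le_full (k : Type*) [Field k] : KJ k ≤ modularFunctionFieldFullC k N := by
  rw [KJ, IntermediateField.adjoin_le_iff]
  rintro x hx
  rw [Set.mem_singleton_iff] at hx
  subst hx
  exact jqModC_mem_full k N

theorem full_le_sup : (modularFunctionFieldFullC k N).toSubfield ≤
    (KJ k).toSubfield ⊔ (modularFunctionFieldFullC k₀ N).toSubfield.map (coeffMap ι) := by
  rw [modularFunctionFieldFullC, IntermediateField.adjoin_toSubfield, Subfield.closure_le]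
  rintro x (⟨c, rfl⟩ | ⟨d, hd, hdN, rfl⟩)
  · exact (le_sup_left : (KJ k).toSubfield ≤ _) ((KJ k).algebraMap_mem c)
  · refine (le_sup_right : _ ≤ (KJ k).toSubfield ⊔ _) ?_
    refine ⟨qExpand k₀ d (jqModC k₀), jqModCd_mem_full k₀ N hdN, ?_⟩
    show coeffMap ι _ = _
    rw [coeffMap_qExpand, coeffMap_jqModC]

/-- (D1) **Descent of the degree bound** along `ι : k₀ → k`. -/
theorem natCast_le_relrank (ι : k₀ →+* k) (n : ℕ)
    (h : (n : Cardinal) ≤ (KJ k).relrank (modularFunctionFieldFullC k N)) :
    (n : Cardinal) ≤ (KJ k₀).relrank (modularFunctionFieldFullC k₀ N) := by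
  have h1 := natCast_le_relrank_of_le_sup
    ((KJ k₀).toSubfield.map (coeffMap ι)) (KJ k).toSubfield
    ((modularFunctionFieldFullC k₀ N).toSubfield.map (coeffMap ι))
    (modularFunctionFieldFullC k N).toSubfield
    (map_KJ_le ι) ((Subfield.gc_map_comap (coeffMap ι)).monotone_l (KJ_le_full N k₀)) (KJ_le_full N k) (full_le_sup ι N) n h
  have h2 := Subfield.lift_relrank_map_map (KJ k₀).toSubfield
    (modularFunctionFieldFullC k₀ N).toSubfield (coeffMap ι)
  have h3 : Cardinal.lift.{u} (n : Cardinal.{v}) ≤ Cardinal.lift.{u} _ := Cardinal.lift_le.mpr h1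
  rw [h2, Cardinal.lift_natCast, ← Cardinal.lift_natCast.{v}, Cardinal.lift_le] at h3
  exact h3

/-- Cardinal bound from a `toNat` bound. -/
theorem natCast_le_of_le_toNat {n : ℕ} {c : Cardinal} (h : n ≤ Cardinal.toNat c) :
    (n : Cardinal) ≤ c := by
  rcases Nat.eq_zero_or_pos n with rfl | hn
  · simp
  · have hc : c < ℵ₀ := by
      by_contra hc
      rw [Cardinal.toNat_apply_of_aleph0_le (not_lt.mp hc)] at h
      omega
    rw [← Cardinal.cast_toNat_of_lt_aleph0 hc]
    exact_mod_cast h

/-- (D1'), input in `relfinrank` form. -/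
theorem natCast_le_relrank_of_le_relfinrank (ι : k₀ →+* k) (n : ℕ)
    (h : n ≤ (KJ k).relfinrank (modularFunctionFieldFullC k N)) :
    (n : Cardinal) ≤ (KJ k₀).relrank (modularFunctionFieldFullC k₀ N) :=
  natCast_le_relrank N ι n (natCast_le_of_le_toNat h)

/-- (D2) `n` elements of `k₀(J_d : d ∣ N)` that are linearly independent over `k₀(J)`. -/
theorem exists_linearIndependent_of_le_relrank (n : ℕ)
    (h : (n : Cardinal) ≤ (KJ k₀).relrank (modularFunctionFieldFullC k₀ N)) :
    ∃ e : Fin n → LaurentSeries k₀, (∀ i, e i ∈ modularFunctionFieldFullC k₀ N) ∧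
      LinearIndependent ↥(KJ k₀) e := by
  rw [IntermediateField.relrank_eq_rank_of_le (KJ_le_full N k₀)] at h
  obtain ⟨f, hf⟩ := exists_linearIndependent_of_le_rank h
  refine ⟨fun i => (f i : LaurentSeries k₀), fun i => (f i).2, ?_⟩
  exact hf.map' (IntermediateField.extendScalars (KJ_le_full N k₀)).val.toLinearMap
    (LinearMap.ker_eq_bot.mpr Subtype.val_injective)

/-- (D2') the same with the `n` elements in the RING `k₀[J_d : d ∣ N]` (clear denominators). -/
theorem exists_linearIndependent_adjoin_of_le_relrank (n : ℕ)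
    (h : (n : Cardinal) ≤ (KJ k₀).relrank (modularFunctionFieldFullC k₀ N)) :
    ∃ e : Fin n → LaurentSeries k₀,
      (∀ i, e i ∈ Algebra.adjoin k₀ (divisorExpansionsC k₀ N)) ∧
      LinearIndependent ↥(KJ k₀) e := by
  obtain ⟨e, he, hli⟩ := exists_linearIndependent_of_le_relrank N n h
  have hdiv : ∀ i, ∃ r ∈ Algebra.adjoin k₀ (divisorExpansionsC k₀ N),
      ∃ s ∈ Algebra.adjoin k₀ (divisorExpansionsC k₀ N), e i = r / s := fun i =>
    IntermediateField.mem_adjoin_iff_div.mp (he i)
  choose r hr s hs hrs using hdiv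
  have hs0 : ∀ i, s i ≠ 0 := by
    intro i h0
    have := hli.ne_zero i
    rw [hrs i, h0, div_zero] at this
    exact this rfl
  set b : LaurentSeries k₀ := ∏ i, s i with hb
  have hb0 : b ≠ 0 := Finset.prod_ne_zero_iff.mpr fun i _ => hs0 i
  refine ⟨fun i => b * e i, fun i => ?_, ?_⟩
  · have : b * e i = r i * ∏ j ∈ Finset.univ.erase i, s j := by
      rw [hb, ← Finset.mul_prod_erase Finset.univ s (Finset.mem_univ i), hrs i]
      field_simp [hs0 i]
    show b * e i ∈ _
    rw [this]
    exact Subalgebra.mul_mem _ (hr i) (Subalgebra.prod_mem _ fun j _ => hs j)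
  · exact hli.map' (LinearMap.mulLeft ↥(KJ k₀) b)
      (LinearMap.ker_eq_bot.mpr (mul_right_injective₀ hb0))

/-- Linear independence over an intermediate field gives linear independence over every smaller
subfield. -/
theorem linearIndependent_subfield {ι' : Type*} {F : Type*} [Field F] {L : Type*} [Field L]
    [Algebra F L] (K : IntermediateField F L) (k0 : Subfield L) (hk0 : k0 ≤ K.toSubfield)
    {e : ι' → L} (hli : LinearIndependent ↥K e) : LinearIndependent ↥k0 e := by
  rw [linearIndependent_iff'] at hli ⊢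
  intro s g hg i hi
  have := hli s (fun j => ⟨(g j : L), hk0 (g j).2⟩) (by simpa [Subfield.smul_def,
    IntermediateField.smul_def] using hg) i hi
  exact Subtype.ext (congrArg Subtype.val this :)

/-- (D2'') the `n` elements in the ring `k₀[J_d : d ∣ N]`, independent over any subfield
contained in `k₀(J)`. -/
theorem exists_linearIndependent_subfield_of_le_relrank (n : ℕ)
    (h : (n : Cardinal) ≤ (KJ k₀).relrank (modularFunctionFieldFullC k₀ N))
    (k0 : Subfield (LaurentSeries k₀)) (hk0 : k0 ≤ (KJ k₀).toSubfield) :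
    ∃ e : Fin n → LaurentSeries k₀,
      (∀ i, e i ∈ Algebra.adjoin k₀ (divisorExpansionsC k₀ N)) ∧
      LinearIndependent ↥k0 e := by
  obtain ⟨e, he, hli⟩ := exists_linearIndependent_adjoin_of_le_relrank N n h
  exact ⟨e, he, linearIndependent_subfield _ k0 hk0 hli⟩

end Descent

section PrimeField

open ModularCurve

variable (ℓ : ℕ) [Fact ℓ.Prime]

/-- Over the prime field `ZMod ℓ`, adjoining as an intermediate field is the subfield closure. -/
theorem adjoin_toSubfield_zmod {L : Type*} [Field L] [Algebra (ZMod ℓ) L] (S : Set L) :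
    (IntermediateField.adjoin (ZMod ℓ) S).toSubfield = Subfield.closure S := by
  rw [IntermediateField.adjoin_toSubfield]
  apply le_antisymm
  · rw [Subfield.closure_le]
    rintro x (⟨c, rfl⟩ | hx)
    · rw [← ZMod.natCast_zmod_val c, map_natCast]
      exact natCast_mem _ _
    · exact Subfield.subset_closure hx
  · exact Subfield.closure_mono Set.subset_union_right

/-- `Algebra.adjoin` over the prime field lies in the subfield closure. -/
theorem algebra_adjoin_le_closure_zmod {L : Type*} [Field L] [Algebra (ZMod ℓ) L] (S : Set L)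
    {x : L} (hx : x ∈ Algebra.adjoin (ZMod ℓ) S) : x ∈ Subfield.closure S := by
  rw [← adjoin_toSubfield_zmod ℓ S]
  exact IntermediateField.algebra_adjoin_le_adjoin _ _ hx

variable (N : ℕ)

/-- (D3) **The Igusa input over `F_ℓ`** in `Subfield.closure` spelling: from the degree bound over
any field `k` of characteristic `ℓ` (e.g. `AlgebraicClosure (ZMod ℓ)`), `n` elements of the ring
`F_ℓ[J(q^d) : d ∣ N]`, in particular of `Subfield.closure {J(q^d) : d ∣ N}`, linearly independent over
`Subfield.closure {J} = F_ℓ(J)`. -/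
theorem exists_linearIndependent_closure {k : Type*} [Field k] (ι : ZMod ℓ →+* k) (n : ℕ)
    (h : (n : Cardinal) ≤ (KJ k).relrank (modularFunctionFieldFullC k N)) :
    ∃ e : Fin n → LaurentSeries (ZMod ℓ),
      (∀ i, e i ∈ Algebra.adjoin (ZMod ℓ) (divisorExpansionsC (ZMod ℓ) N)) ∧
      (∀ i, e i ∈ Subfield.closure (divisorExpansionsC (ZMod ℓ) N)) ∧
      LinearIndependent ↥(Subfield.closure {jqModC (ZMod ℓ)}) e := by
  obtain ⟨e, he, hli⟩ := exists_linearIndependent_subfield_of_le_relrank N n
    (natCast_le_relrank N ι n h) (Subfield.closure {jqModC (ZMod ℓ)})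
    (by rw [KJ, adjoin_toSubfield_zmod])
  exact ⟨e, he, fun i => algebra_adjoin_le_closure_zmod ℓ _ (he i), hli⟩

/-- (D3') the same with the algebra structure `Algebra (ZMod ℓ) k` as input. -/
theorem exists_linearIndependent_closure' {k : Type*} [Field k] [Algebra (ZMod ℓ) k] (n : ℕ)
    (h : (n : Cardinal) ≤ (KJ k).relrank (modularFunctionFieldFullC k N)) :
    ∃ e : Fin n → LaurentSeries (ZMod ℓ),
      (∀ i, e i ∈ Algebra.adjoin (ZMod ℓ) (divisorExpansionsC (ZMod ℓ) N)) ∧
      (∀ i, e i ∈ Subfield.closure (divisorExpansionsC (ZMod ℓ) N)) ∧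
      LinearIndependent ↥(Subfield.closure {jqModC (ZMod ℓ)}) e :=
  exists_linearIndependent_closure ℓ N (algebraMap (ZMod ℓ) k) n h

end PrimeField

end Fermat.Agent.S28.BaseFieldDescent
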