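import Mathlib
import Fermat.Prelude.Def_GaloisRep_Flat

/-!
# S28 base-ring layer: the ring `ℤ_(ℓ) = ↥(GaloisRep.ratLocalizedAt ℓ)`

Everything the S28 (Igusa) files need about the base ring of the frozen statement:

* `mem_iff`, cast lemmas, `inv_intCast_mem`;
* `isLocalization_atPrime : IsLocalization.AtPrime ↥(ratLocalizedAt ℓ) (span {(ℓ:ℤ)})`, hence the
  instances `IsLocalRing`, `IsDiscreteValuationRing` (so PID, integrally closed, UFD, Dedekind),
  and `isFractionRing : IsFractionRing ↥(ratLocalizedAt ℓ) ℚ`;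
* `red ℓ : ↥(ratLocalizedAt ℓ) →+* ZMod ℓ`, `red_surjective`, `ker_red`, `red_eq_zero_iff`,
  `isUnit_iff`, `prime_ell`, `irreducible_ell`, `red_eq_num_mul_inv_den`, `quotEquiv`;
* `algebraMap_eq_comp_red`: the structure map to any field of characteristic `ℓ` is
  `ZMod.castHom ∘ red` (uniqueness of ring homs out of a localisation of `ℤ`: `zl_ringHom_ext`);
* `exists_unit_mul_pow`, `exists_zpow_mul_unit`, `rat_mem_or_inv_mem`, `isUnit_iff_inv_mem`.
-/

set_option autoImplicit false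

namespace Fermat.Agent.S28.ZlBase

open GaloisRep

variable (ℓ : ℕ) [hℓ : Fact ℓ.Prime]

set_option quotPrecheck false in
local notation "R" => ↥(ratLocalizedAt ℓ)

theorem mem_iff {x : ℚ} : x ∈ ratLocalizedAt ℓ ↔ ¬ ℓ ∣ x.den := by
  show x.den.Coprime ℓ ↔ _
  rw [Nat.coprime_comm, Nat.Prime.coprime_iff_not_dvd hℓ.out]

theorem zl_intCast_mem (n : ℤ) : (n : ℚ) ∈ ratLocalizedAt ℓ := by
  rw [mem_iff]; simpa using hℓ.out.one_lt.ne'

omit hℓ in
@[simp] theorem coe_intCast (n : ℤ) : (((n : ℤ) : R) : ℚ) = n := rfl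

omit hℓ in
@[simp] theorem coe_natCast (n : ℕ) : (((n : ℕ) : R) : ℚ) = n := rfl

omit hℓ in
@[simp] theorem algebraMap_rat_apply (r : R) : algebraMap R ℚ r = (r : ℚ) := rfl

omit hℓ in
theorem coe_algebraMap_int (n : ℤ) : ((algebraMap ℤ R n : R) : ℚ) = n := by
  rw [eq_intCast (algebraMap ℤ R) n]; rfl

/-- The inverse of an integer prime to `ℓ` lies in `ℤ_(ℓ)`. -/
theorem inv_intCast_mem {s : ℤ} (hs : ¬ (ℓ : ℤ) ∣ s) : ((s : ℚ))⁻¹ ∈ ratLocalizedAt ℓ := by
  rw [mem_iff]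
  intro h
  apply hs
  have hden : (((s : ℚ)⁻¹).den : ℤ) ∣ s := by
    have := Rat.den_dvd (1 : ℤ) s
    rwa [Rat.divInt_eq_div, Int.cast_one, one_div] at this
  exact (Int.natCast_dvd_natCast.mpr h).trans hden

theorem ell_ne_zero : ((ℓ : ℕ) : R) ≠ 0 := by
  intro h
  have := congrArg (Subtype.val) h
  simp at this
  exact hℓ.out.ne_zero this

instance isPrime_span : (Ideal.span {(ℓ : ℤ)}).IsPrime :=
  (Ideal.span_singleton_prime (Int.natCast_ne_zero.mpr hℓ.out.ne_zero)).mpr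
    (Nat.prime_iff_prime_int.mp hℓ.out)

theorem mem_primeCompl_iff {s : ℤ} :
    s ∈ (Ideal.span {(ℓ : ℤ)}).primeCompl ↔ ¬ (ℓ : ℤ) ∣ s := by
  rw [Ideal.primeCompl, Submonoid.mem_mk, Subsemigroup.mem_mk]
  simp [Ideal.mem_span_singleton]

/-- `ℤ_(ℓ)` is the localisation of `ℤ` at the prime `(ℓ)`. -/
instance isLocalization_atPrime : IsLocalization.AtPrime R (Ideal.span {(ℓ : ℤ)}) where
  map_units := by
    rintro ⟨s, hs⟩
    rw [mem_primeCompl_iff] at hs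
    have hs0 : (s : ℚ) ≠ 0 := by
      intro h0
      apply hs
      have : s = 0 := by exact_mod_cast h0
      simp [this]
    refine IsUnit.of_mul_eq_one ⟨(s : ℚ)⁻¹, inv_intCast_mem ℓ hs⟩ (Subtype.ext ?_)
    simp only [Subring.coe_mul, coe_algebraMap_int, Subring.coe_one]
    exact mul_inv_cancel₀ hs0
  surj := by
    rintro ⟨x, hx⟩
    have hden : ¬ (ℓ : ℤ) ∣ (x.den : ℤ) := by
      rw [mem_iff] at hx
      exact fun h => hx (by exact_mod_cast h)
    refine ⟨(x.num, ⟨(x.den : ℤ), (mem_primeCompl_iff ℓ).mpr hden⟩), Subtype.ext ?_⟩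
    simp only [Subring.coe_mul, coe_algebraMap_int]
    push_cast
    exact Rat.mul_den_eq_num x
  exists_of_eq := by
    intro x y h
    refine ⟨1, ?_⟩
    have := congrArg (Subtype.val) h
    rw [coe_algebraMap_int, coe_algebraMap_int] at this
    have hxy : x = y := by exact_mod_cast this
    rw [hxy]

theorem span_ne_bot : Ideal.span {(ℓ : ℤ)} ≠ ⊥ := by
  rw [Ne, Ideal.span_singleton_eq_bot]
  exact Int.natCast_ne_zero.mpr hℓ.out.ne_zero

instance isLocalRing : IsLocalRing R :=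
  IsLocalization.AtPrime.isLocalRing R (Ideal.span {(ℓ : ℤ)})

instance isDiscreteValuationRing : IsDiscreteValuationRing R :=
  IsLocalization.AtPrime.isDiscreteValuationRing_of_dedekind_domain ℤ (span_ne_bot ℓ) R

instance isFractionRing : IsFractionRing R ℚ :=
  IsFractionRing.isFractionRing_of_isDomain_of_isLocalization
    (Ideal.span {(ℓ : ℤ)}).primeCompl R ℚ

example : IsPrincipalIdealRing R := inferInstance
example : IsIntegrallyClosed R := inferInstance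
example : UniqueFactorizationMonoid R := inferInstance
example : IsDedekindDomain R := inferInstance
example : IsDomain R := inferInstance

/-- Reduction `ℤ_(ℓ) → 𝔽_ℓ`. -/
noncomputable def red : R →+* ZMod ℓ :=
  IsLocalization.lift (M := (Ideal.span {(ℓ : ℤ)}).primeCompl) (g := Int.castRingHom (ZMod ℓ)) (by
    rintro ⟨s, hs⟩
    rw [mem_primeCompl_iff] at hs
    have h0 : ((s : ℤ) : ZMod ℓ) ≠ 0 := by
      rwa [Ne, ZMod.intCast_zmod_eq_zero_iff_dvd]
    exact h0.isUnit)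

@[simp] theorem red_algebraMap (n : ℤ) : red ℓ (algebraMap ℤ R n) = (n : ZMod ℓ) := by
  unfold red
  rw [IsLocalization.lift_eq]; rfl

@[simp] theorem red_intCast (n : ℤ) : red ℓ ((n : ℤ) : R) = (n : ZMod ℓ) := map_intCast _ n

@[simp] theorem red_natCast (n : ℕ) : red ℓ ((n : ℕ) : R) = (n : ZMod ℓ) := map_natCast _ n

@[simp] theorem red_ell : red ℓ ((ℓ : ℕ) : R) = 0 := by
  rw [red_natCast]; exact ZMod.natCast_self ℓ

theorem red_surjective : Function.Surjective (red ℓ) := by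
  intro z
  refine ⟨((z.val : ℕ) : R), ?_⟩
  rw [red_natCast]
  exact ZMod.natCast_zmod_val z

theorem ker_red_eq_maximalIdeal : RingHom.ker (red ℓ) = IsLocalRing.maximalIdeal R :=
  IsLocalRing.eq_maximalIdeal (RingHom.ker_isMaximal_of_surjective (red ℓ) (red_surjective ℓ))

theorem maximalIdeal_eq_span : IsLocalRing.maximalIdeal R = Ideal.span {((ℓ : ℕ) : R)} := by
  rw [← IsLocalization.AtPrime.map_eq_maximalIdeal (Ideal.span {(ℓ : ℤ)}) R, Ideal.map_span,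
    Set.image_singleton]
  have h : (algebraMap ℤ R) (ℓ : ℤ) = ((ℓ : ℕ) : R) := by
    rw [eq_intCast (algebraMap ℤ R), Int.cast_natCast]
  rw [h]

theorem ker_red : RingHom.ker (red ℓ) = Ideal.span {((ℓ : ℕ) : R)} := by
  rw [ker_red_eq_maximalIdeal, maximalIdeal_eq_span]

theorem red_eq_zero_iff {r : R} : red ℓ r = 0 ↔ ((ℓ : ℕ) : R) ∣ r := by
  rw [← RingHom.mem_ker, ker_red, Ideal.mem_span_singleton]

theorem isUnit_iff {r : R} : IsUnit r ↔ red ℓ r ≠ 0 := by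
  rw [← IsLocalRing.notMem_maximalIdeal, ← ker_red_eq_maximalIdeal, RingHom.mem_ker]

theorem prime_ell : Prime ((ℓ : ℕ) : R) := by
  rw [← Ideal.span_singleton_prime (ell_ne_zero ℓ), ← ker_red]
  exact RingHom.ker_isPrime (red ℓ)

theorem irreducible_ell : Irreducible ((ℓ : ℕ) : R) := (prime_ell ℓ).irreducible

/-- The structure map to any field of characteristic `ℓ` factors through `red`. -/
theorem algebraMap_eq_comp_red (K : Type*) [Field K] [CharP K ℓ] [Algebra R K] :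
    algebraMap R K = (ZMod.castHom (dvd_refl ℓ) K).comp (red ℓ) :=
  IsLocalization.ringHom_ext (Ideal.span {(ℓ : ℤ)}).primeCompl (RingHom.ext_int _ _)

theorem algebraMap_apply_eq (K : Type*) [Field K] [CharP K ℓ] [Algebra R K] (r : R) :
    algebraMap R K r = ZMod.castHom (dvd_refl ℓ) K (red ℓ r) := by
  rw [algebraMap_eq_comp_red ℓ K]; rfl

theorem algebraMap_eq_zero_iff (K : Type*) [Field K] [CharP K ℓ] [Algebra R K] {r : R} :
    algebraMap R K r = 0 ↔ ((ℓ : ℕ) : R) ∣ r := by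
  rw [algebraMap_apply_eq ℓ K, map_eq_zero_iff _ (RingHom.injective _), red_eq_zero_iff]

/-- Any ring hom out of `ℤ_(ℓ)` is determined (there is at most one). -/
theorem zl_ringHom_ext {P : Type*} [Semiring P] (f g : R →+* P) : f = g :=
  IsLocalization.ringHom_ext (Ideal.span {(ℓ : ℤ)}).primeCompl (RingHom.ext_int _ _)

/-- Every nonzero element of `ℤ_(ℓ)` is a unit times a power of `ℓ`. -/
theorem exists_unit_mul_pow {r : R} (hr : r ≠ 0) :
    ∃ (n : ℕ) (u : Rˣ), r = (u : R) * ((ℓ : ℕ) : R) ^ n :=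
  IsDiscreteValuationRing.eq_unit_mul_pow_irreducible hr (irreducible_ell ℓ)

/-- Every nonzero rational is a unit of `ℤ_(ℓ)` times an integral power of `ℓ`. -/
theorem exists_zpow_mul_unit {x : ℚ} (hx : x ≠ 0) :
    ∃ (n : ℤ) (u : Rˣ), x = (ℓ : ℚ) ^ n * ((u : R) : ℚ) := by
  obtain ⟨a, b, hb, hab⟩ := IsFractionRing.div_surjective (A := R) x
  have hb0 : b ≠ 0 := nonZeroDivisors.ne_zero hb
  have ha0 : a ≠ 0 := by
    rintro rfl
    apply hx
    rw [← hab]; simp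
  obtain ⟨n, u, hu⟩ := exists_unit_mul_pow ℓ ha0
  obtain ⟨m, v, hv⟩ := exists_unit_mul_pow ℓ hb0
  have hℓ0 : (ℓ : ℚ) ≠ 0 := Nat.cast_ne_zero.mpr hℓ.out.ne_zero
  have hv0 : (((v : R)) : ℚ) ≠ 0 := by
    intro h
    have : (v : R) = 0 := Subtype.ext h
    exact v.ne_zero this
  refine ⟨(n : ℤ) - m, u * v⁻¹, ?_⟩
  rw [← hab, hu, hv]
  have e1 : algebraMap R ℚ ((u : R) * ((ℓ : ℕ) : R) ^ n) = ((u : R) : ℚ) * (ℓ : ℚ) ^ n := by
    simp
  have e2 : algebraMap R ℚ ((v : R) * ((ℓ : ℕ) : R) ^ m) = ((v : R) : ℚ) * (ℓ : ℚ) ^ m := by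
    simp
  rw [e1, e2, zpow_sub₀ hℓ0, zpow_natCast, zpow_natCast]
  have e3 : (((u * v⁻¹ : Rˣ) : R) : ℚ) = ((u : R) : ℚ) * (((v : R)) : ℚ)⁻¹ := by
    rw [Units.val_mul, Subring.coe_mul]
    congr 1
    have : ((v : R) : ℚ) * (((v⁻¹ : Rˣ) : R) : ℚ) = 1 := by
      rw [← Subring.coe_mul, Units.mul_inv]; rfl
    exact eq_inv_of_mul_eq_one_right this
  rw [e3]
  field_simp

/-- `ℤ_(ℓ)` is a valuation ring of `ℚ`. -/
theorem rat_mem_or_inv_mem (x : ℚ) : x ∈ ratLocalizedAt ℓ ∨ x⁻¹ ∈ ratLocalizedAt ℓ := by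
  by_cases hx : x = 0
  · left; rw [hx]; exact Subring.zero_mem _
  obtain ⟨n, u, hu⟩ := exists_zpow_mul_unit ℓ hx
  have hℓmem : (ℓ : ℚ) ∈ ratLocalizedAt ℓ := by
    have := zl_intCast_mem ℓ (ℓ : ℤ)
    rwa [Int.cast_natCast] at this
  rcases le_total 0 n with hn | hn
  · left
    obtain ⟨k, rfl⟩ := Int.eq_ofNat_of_zero_le hn
    rw [hu, zpow_natCast]
    exact Subring.mul_mem _ (Subring.pow_mem _ hℓmem k) (u : R).2
  · right
    obtain ⟨k, hk⟩ := Int.eq_ofNat_of_zero_le (neg_nonneg.mpr hn)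
    have hinv : (((u : R) : ℚ))⁻¹ = (((u⁻¹ : Rˣ) : R) : ℚ) := by
      have : ((u : R) : ℚ) * (((u⁻¹ : Rˣ) : R) : ℚ) = 1 := by
        rw [← Subring.coe_mul, Units.mul_inv]; rfl
      exact (eq_inv_of_mul_eq_one_right this).symm
    rw [hu, mul_inv, ← zpow_neg, hk, zpow_natCast, hinv]
    exact Subring.mul_mem _ (Subring.pow_mem _ hℓmem k) ((u⁻¹ : Rˣ) : R).2

omit hℓ in
/-- Units of `ℤ_(ℓ)`: the nonzero elements whose rational inverse is again in `ℤ_(ℓ)`. -/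
theorem isUnit_iff_inv_mem {r : R} :
    IsUnit r ↔ r ≠ 0 ∧ ((r : ℚ))⁻¹ ∈ ratLocalizedAt ℓ := by
  constructor
  · rintro ⟨u, rfl⟩
    refine ⟨u.ne_zero, ?_⟩
    have : ((u : R) : ℚ) * (((u⁻¹ : Rˣ) : R) : ℚ) = 1 := by
      rw [← Subring.coe_mul, Units.mul_inv]; rfl
    rw [← eq_inv_of_mul_eq_one_right this]
    exact ((u⁻¹ : Rˣ) : R).2
  · rintro ⟨h0, hinv⟩
    have h0' : (r : ℚ) ≠ 0 := fun h => h0 (Subtype.ext h)
    exact IsUnit.of_mul_eq_one ⟨(r : ℚ)⁻¹, hinv⟩ (Subtype.ext (mul_inv_cancel₀ h0'))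

/-- Explicit formula for `red` on a rational with denominator prime to `ℓ`. -/
theorem red_eq_num_mul_inv_den (r : R) :
    red ℓ r = ((r : ℚ).num : ZMod ℓ) * (((r : ℚ).den : ℕ) : ZMod ℓ)⁻¹ := by
  have hden : (((r : ℚ).den : ℕ) : ZMod ℓ) ≠ 0 := by
    rw [Ne, ZMod.natCast_eq_zero_iff]
    exact (mem_iff ℓ).mp r.2
  rw [eq_mul_inv_iff_mul_eq₀ hden, ← red_natCast, ← red_intCast, ← map_mul]
  congr 1
  apply Subtype.ext
  rw [Subring.coe_mul, coe_natCast, coe_intCast]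
  exact Rat.mul_den_eq_num _

/-- `ℤ_(ℓ) / ℓ ≃ 𝔽_ℓ`. -/
noncomputable def quotEquiv : (R ⧸ Ideal.span {((ℓ : ℕ) : R)}) ≃+* ZMod ℓ :=
  (Ideal.quotEquivOfEq (ker_red ℓ).symm).trans
    (RingHom.quotientKerEquivOfSurjective (red_surjective ℓ))

@[simp] theorem quotEquiv_mk (r : R) : quotEquiv ℓ (Ideal.Quotient.mk _ r) = red ℓ r := rfl

end Fermat.Agent.S28.ZlBase
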