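import Mathlib
import Fermat.Prelude.Def_ModularCurve_IgusaScheme
import Fermat.Prelude.Def_ModularCurve_X0ModL
import Fermat.Agent.S28.ZlBase
import Fermat.Agent.S24.LinDisjoint

/-!
# S28 chart base rings: `A = ℤ_(ℓ)[S] = Algebra.adjoin ℤ_(ℓ) S ⊆ F` for the three Igusa charts

`F = ↥(modularFunctionFieldFull N)`, `ℤ_(ℓ) = ↥(GaloisRep.ratLocalizedAt ℓ)` with the Prelude's scoped
`igusaAlgebra`; `S = {j}`, `{j⁻¹}`, `{j, j⁻¹}` (literally the sets of `chartAlgFin/Inf/Mid`).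

* `coe_algebraMap`, `coe_aeval`: the structure map and `aeval` read inside `ℚ((q))`;
* `transcendental_jFull`, `transcendental_jFull_inv : Transcendental ℤ_(ℓ) _`;
* `isIntegrallyClosed_fin/inf/mid : IsIntegrallyClosed ↥(Algebra.adjoin ℤ_(ℓ) S)`;
* `prime_fin/inf/mid : Prime ((ℓ : ℕ) : ↥(Algebra.adjoin ℤ_(ℓ) S))`;
* `isLocalization_away_mid`: `ℤ_(ℓ)[j, j⁻¹]` is `ℤ_(ℓ)[j]` localised at `j`;
* `K0 = ℚ⟮jFull N⟯`: `toK0`, `algK0` (reducible def, use `letI`), `isScalarTower_K0`,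
  `isFractionRing_fin/inf/mid : IsFractionRing ↥(Algebra.adjoin ℤ_(ℓ) S) ↥ℚ⟮jFull N⟯`.
-/

set_option autoImplicit false
set_option linter.unusedSectionVars false
set_option linter.style.haveILetI false

namespace Fermat.Agent.S28.ChartBase

open ModularCurve ModularCurve.IgusaScheme GaloisRep Polynomial

variable (N : ℕ) [NeZero N] (ℓ : ℕ) [hℓ : Fact ℓ.Prime]

set_option quotPrecheck false in
local notation "ℤℓ" => ↥(GaloisRep.ratLocalizedAt ℓ)

set_option quotPrecheck false in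
local notation "F" => ↥(modularFunctionFieldFull N)

/-- The composite `ℤ_(ℓ) → F → ℚ((q))` is `r ↦ C r`. -/
theorem coe_algebraMap (r : ℤℓ) :
    ((algebraMap ℤℓ F r : F) : LaurentSeries ℚ) = HahnSeries.C ((r : ℚ)) := by
  have h := ZlBase.zl_ringHom_ext ℓ
    (((modularFunctionFieldFull N).val : F →+* LaurentSeries ℚ).comp (algebraMap ℤℓ F))
    ((HahnSeries.C : ℚ →+* LaurentSeries ℚ).comp (algebraMap ℤℓ ℚ))
  exact congrArg (fun f : ℤℓ →+* LaurentSeries ℚ => f r) h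

/-- `aeval` in `F` over `ℤ_(ℓ)`, read in `ℚ((q))`. -/
theorem coe_aeval (x : F) (p : ℤℓ[X]) :
    ((aeval x p : F) : LaurentSeries ℚ) =
      aeval (x : LaurentSeries ℚ) (p.map (algebraMap ℤℓ ℚ)) := by
  rw [aeval_def, aeval_def, eval₂_map]
  have h1 : ((eval₂ (algebraMap ℤℓ F) x p : F) : LaurentSeries ℚ) =
      eval₂ (((modularFunctionFieldFull N).val : F →+* LaurentSeries ℚ).comp (algebraMap ℤℓ F))
        ((modularFunctionFieldFull N).val x) p :=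
    Polynomial.hom_eval₂ p (algebraMap ℤℓ F)
      ((modularFunctionFieldFull N).val : F →+* LaurentSeries ℚ) x
  rw [h1]
  congr 1
  exact ZlBase.zl_ringHom_ext ℓ _ _

/-- Transcendence over `ℤ_(ℓ)` follows from transcendence of the `q`-expansion over `ℚ`. -/
theorem transcendental_of_coe {x : F} (hx : Transcendental ℚ (x : LaurentSeries ℚ)) :
    Transcendental ℤℓ x := by
  rw [transcendental_iff]
  intro p hp
  have h1 : aeval (x : LaurentSeries ℚ) (p.map (algebraMap ℤℓ ℚ)) = 0 := by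
    rw [← coe_aeval, hp]; rfl
  have h2 := transcendental_iff.mp hx _ h1
  exact (Polynomial.map_eq_zero_iff (FaithfulSMul.algebraMap_injective ℤℓ ℚ)).mp h2

theorem transcendental_jq : Transcendental ℚ jq :=
  Fermat.Agent.S24.LinDisjoint.transcendental_of_coeff_neg jq (n := -1) (by norm_num)
    (by rw [coeff_jq_neg_one]; exact one_ne_zero)

theorem transcendental_jq_inv : Transcendental ℚ jq⁻¹ := by
  intro h
  exact transcendental_jq (IsAlgebraic.inv_iff.mp h)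

theorem transcendental_jFull : Transcendental ℤℓ (jFull N) :=
  transcendental_of_coe N ℓ (by rw [coe_jFull]; exact transcendental_jq)

theorem transcendental_jFull_inv : Transcendental ℤℓ (jFull N)⁻¹ :=
  transcendental_of_coe N ℓ (by
    have : (((jFull N)⁻¹ : F) : LaurentSeries ℚ) = jq⁻¹ := rfl
    rw [this]; exact transcendental_jq_inv)

/-! ### One-generator charts: `ℤ_(ℓ)[x] ≃ ℤ_(ℓ)[X]` for transcendental `x` -/

theorem isIntegrallyClosed_adjoin_singleton {x : F} (hx : Transcendental ℤℓ x) :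
    IsIntegrallyClosed ↥(Algebra.adjoin ℤℓ {x}) :=
  IsIntegrallyClosed.of_equiv (Polynomial.algEquivOfTranscendental ℤℓ x hx).toRingEquiv

theorem prime_algebraMap_adjoin_singleton {x : F} (hx : Transcendental ℤℓ x) :
    Prime (algebraMap ℤℓ ↥(Algebra.adjoin ℤℓ {x}) ((ℓ : ℕ) : ℤℓ)) := by
  have h1 : Prime (C ((ℓ : ℕ) : ℤℓ) : ℤℓ[X]) := Polynomial.prime_C_iff.mpr (ZlBase.prime_ell ℓ)
  have h2 := (MulEquiv.prime_iff (Polynomial.algEquivOfTranscendental ℤℓ x hx)).mpr h1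
  have h3 : (Polynomial.algEquivOfTranscendental ℤℓ x hx) (C ((ℓ : ℕ) : ℤℓ)) =
      algebraMap ℤℓ ↥(Algebra.adjoin ℤℓ {x}) ((ℓ : ℕ) : ℤℓ) :=
    (Polynomial.algEquivOfTranscendental ℤℓ x hx).commutes _
  rwa [h3] at h2

theorem prime_natCast_adjoin_singleton {x : F} (hx : Transcendental ℤℓ x) :
    Prime ((ℓ : ℕ) : ↥(Algebra.adjoin ℤℓ {x})) := by
  have := prime_algebraMap_adjoin_singleton N ℓ hx
  rwa [map_natCast] at this

/-! ### The middle chart `ℤ_(ℓ)[j, j⁻¹]` as the localisation of `ℤ_(ℓ)[j]` at `j` -/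

/-- The inclusion `ℤ_(ℓ)[j] → ℤ_(ℓ)[j, j⁻¹]`. -/
noncomputable def finToMid :
    ↥(Algebra.adjoin ℤℓ {jFull N}) →ₐ[ℤℓ] ↥(Algebra.adjoin ℤℓ {jFull N, (jFull N)⁻¹}) :=
  Subalgebra.inclusion (Algebra.adjoin_mono (sFin_subset N))

/-- The inclusion `ℤ_(ℓ)[j⁻¹] → ℤ_(ℓ)[j, j⁻¹]`. -/
noncomputable def infToMid :
    ↥(Algebra.adjoin ℤℓ {(jFull N)⁻¹}) →ₐ[ℤℓ] ↥(Algebra.adjoin ℤℓ {jFull N, (jFull N)⁻¹}) :=
  Subalgebra.inclusion (Algebra.adjoin_mono (sInf_subset N))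

@[simp] theorem coe_finToMid (a : ↥(Algebra.adjoin ℤℓ {jFull N})) :
    ((finToMid N ℓ a : ↥(Algebra.adjoin ℤℓ {jFull N, (jFull N)⁻¹})) : F) = a :=
  Subalgebra.coe_inclusion _ a

@[simp] theorem coe_infToMid (a : ↥(Algebra.adjoin ℤℓ {(jFull N)⁻¹})) :
    ((infToMid N ℓ a : ↥(Algebra.adjoin ℤℓ {jFull N, (jFull N)⁻¹})) : F) = a :=
  Subalgebra.coe_inclusion _ a

theorem finToMid_injective : Function.Injective (finToMid N ℓ) :=
  Subalgebra.inclusion_injective _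

/-- `j` as an element of `ℤ_(ℓ)[j]`. -/
noncomputable def jFin : ↥(Algebra.adjoin ℤℓ {jFull N}) :=
  ⟨jFull N, Algebra.subset_adjoin rfl⟩

@[simp] theorem coe_jFin : ((jFin N ℓ : ↥(Algebra.adjoin ℤℓ {jFull N})) : F) = jFull N := rfl

theorem jFin_ne_zero : jFin N ℓ ≠ 0 := fun h =>
  jFull_ne_zero N (by simpa using congrArg Subtype.val h)

theorem isUnit_finToMid_jFin : IsUnit (finToMid N ℓ (jFin N ℓ)) := by
  refine .of_mul_eq_one ⟨(jFull N)⁻¹, Algebra.subset_adjoin (by simp)⟩ (Subtype.ext ?_)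
  rw [Subalgebra.coe_mul, Subalgebra.coe_one, coe_finToMid, coe_jFin]
  exact mul_inv_cancel₀ (jFull_ne_zero N)

theorem isLocalization_away_mid :
    letI := (finToMid N ℓ).toRingHom.toAlgebra
    IsLocalization.Away (jFin N ℓ) ↥(Algebra.adjoin ℤℓ {jFull N, (jFull N)⁻¹}) := by
  letI := (finToMid N ℓ).toRingHom.toAlgebra
  refine (isLocalization_iff _ _).mpr ⟨?_, ?_, ?_⟩
  · rintro ⟨_, n, rfl⟩
    rw [RingHom.algebraMap_toAlgebra, map_pow]
    exact (isUnit_finToMid_jFin N ℓ).pow n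
  · intro z
    have hz : (z : F) ∈ Algebra.adjoin ℤℓ (insert (jFull N)⁻¹ {jFull N}) := by
      rw [show insert (jFull N)⁻¹ ({jFull N} : Set F) = {jFull N, (jFull N)⁻¹}
        from Set.pair_comm _ _]
      exact z.2
    obtain ⟨n, hn⟩ := exists_pow_mul_mem_adjoin (Set.mem_singleton _) (jFull_ne_zero N) hz
    refine ⟨(⟨(jFull N) ^ n * z, hn⟩, ⟨jFin N ℓ ^ n, n, rfl⟩), Subtype.ext ?_⟩
    simp only [RingHom.algebraMap_toAlgebra, map_pow, Subalgebra.coe_mul, Subalgebra.coe_pow,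
      AlgHom.toRingHom_eq_coe, AlgHom.coe_toRingHom, coe_finToMid, coe_jFin]
    exact mul_comm _ _
  · intro x y h
    refine ⟨1, ?_⟩
    rw [RingHom.algebraMap_toAlgebra] at h
    rw [finToMid_injective N ℓ h]

theorem isIntegrallyClosed_fin : IsIntegrallyClosed ↥(Algebra.adjoin ℤℓ {jFull N}) :=
  isIntegrallyClosed_adjoin_singleton N ℓ (transcendental_jFull N ℓ)

theorem isIntegrallyClosed_inf : IsIntegrallyClosed ↥(Algebra.adjoin ℤℓ {(jFull N)⁻¹}) :=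
  isIntegrallyClosed_adjoin_singleton N ℓ (transcendental_jFull_inv N ℓ)

theorem isIntegrallyClosed_mid :
    IsIntegrallyClosed ↥(Algebra.adjoin ℤℓ {jFull N, (jFull N)⁻¹}) := by
  letI := (finToMid N ℓ).toRingHom.toAlgebra
  haveI := isLocalization_away_mid N ℓ
  haveI := isIntegrallyClosed_fin N ℓ
  exact isIntegrallyClosed_of_isLocalization _ (Submonoid.powers (jFin N ℓ))
    (powers_le_nonZeroDivisors_of_noZeroDivisors (jFin_ne_zero N ℓ))

theorem prime_fin : Prime ((ℓ : ℕ) : ↥(Algebra.adjoin ℤℓ {jFull N})) :=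
  prime_natCast_adjoin_singleton N ℓ (transcendental_jFull N ℓ)

theorem prime_inf : Prime ((ℓ : ℕ) : ↥(Algebra.adjoin ℤℓ {(jFull N)⁻¹})) :=
  prime_natCast_adjoin_singleton N ℓ (transcendental_jFull_inv N ℓ)

theorem not_dvd_jFin_pow (n : ℕ) :
    ¬ ((ℓ : ℕ) : ↥(Algebra.adjoin ℤℓ {jFull N})) ∣ jFin N ℓ ^ n := by
  intro h
  have h1 := (prime_fin N ℓ).dvd_of_dvd_pow h
  obtain ⟨b, hb⟩ := h1
  set e := Polynomial.algEquivOfTranscendental ℤℓ (jFull N) (transcendental_jFull N ℓ) with he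
  have hX : e X = jFin N ℓ := by
    rw [he, Polynomial.algEquivOfTranscendental_apply, aeval_X]; rfl
  have hℓ' : e (C ((ℓ : ℕ) : ℤℓ)) = ((ℓ : ℕ) : ↥(Algebra.adjoin ℤℓ {jFull N})) := by
    exact (e.commutes _).trans (map_natCast _ _)
  have h2 : (X : ℤℓ[X]) = C ((ℓ : ℕ) : ℤℓ) * e.symm b := by
    apply e.injective
    rw [map_mul, e.apply_symm_apply, hX, hℓ', hb]
  have h3 := congrArg (fun p : ℤℓ[X] => p.coeff 1) h2
  simp only [coeff_X_one, coeff_C_mul] at h3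
  exact (ZlBase.prime_ell ℓ).not_isUnit (IsUnit.of_mul_eq_one _ h3.symm)

theorem prime_mid : Prime ((ℓ : ℕ) : ↥(Algebra.adjoin ℤℓ {jFull N, (jFull N)⁻¹})) := by
  letI := (finToMid N ℓ).toRingHom.toAlgebra
  haveI := isLocalization_away_mid N ℓ
  have hne : ((ℓ : ℕ) : ↥(Algebra.adjoin ℤℓ {jFull N, (jFull N)⁻¹})) ≠ 0 := by
    intro h
    have h1 : ((ℓ : ℕ) : F) = 0 := by
      have := congrArg (Subalgebra.val _) h
      simpa using this
    exact hℓ.out.ne_zero (Nat.cast_eq_zero.mp h1)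
  rw [← Ideal.span_singleton_prime hne]
  have hp : (Ideal.span {((ℓ : ℕ) : ↥(Algebra.adjoin ℤℓ {jFull N}))}).IsPrime :=
    (Ideal.span_singleton_prime (prime_fin N ℓ).ne_zero).mpr (prime_fin N ℓ)
  have hd : Disjoint (↑(Submonoid.powers (jFin N ℓ)) : Set ↥(Algebra.adjoin ℤℓ {jFull N}))
      ↑(Ideal.span {((ℓ : ℕ) : ↥(Algebra.adjoin ℤℓ {jFull N}))}) := by
    rw [Set.disjoint_left]
    rintro _ ⟨n, rfl⟩ hmem
    exact not_dvd_jFin_pow N ℓ n (Ideal.mem_span_singleton.mp hmem)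
  have := IsLocalization.isPrime_of_isPrime_disjoint (Submonoid.powers (jFin N ℓ))
    ↥(Algebra.adjoin ℤℓ {jFull N, (jFull N)⁻¹}) _ hp hd
  rwa [Ideal.map_span, Set.image_singleton, map_natCast] at this

/-! ### Fraction fields: `Frac ℤ_(ℓ)[S] = ℚ(j)` inside `F` -/

open IntermediateField in
theorem algebraMap_mem_K0 (r : ℤℓ) : algebraMap ℤℓ F r ∈ ℚ⟮jFull N⟯ := by
  rw [IsScalarTower.algebraMap_apply ℤℓ ℚ F]
  exact IntermediateField.algebraMap_mem _ _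

open IntermediateField in
/-- `ℤ_(ℓ)[S] ⊆ ℚ(j)` as soon as `S ⊆ ℚ(j)`. -/
theorem adjoin_le_K0 {S : Set F} (hS : S ⊆ (ℚ⟮jFull N⟯ : Set F)) {a : F}
    (ha : a ∈ Algebra.adjoin ℤℓ S) : a ∈ ℚ⟮jFull N⟯ := by
  induction ha using Algebra.adjoin_induction with
  | mem y hy => exact hS hy
  | algebraMap r => exact algebraMap_mem_K0 N ℓ r
  | add y z _ _ hy hz => exact add_mem hy hz
  | mul y z _ _ hy hz => exact mul_mem hy hz

open IntermediateField in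
/-- The inclusion `ℤ_(ℓ)[S] → ℚ(j)`. -/
noncomputable def toK0 {S : Set F} (hS : S ⊆ (ℚ⟮jFull N⟯ : Set F)) :
    ↥(Algebra.adjoin ℤℓ S) →+* ↥ℚ⟮jFull N⟯ :=
  ((Algebra.adjoin ℤℓ S).val : ↥(Algebra.adjoin ℤℓ S) →+* F).codRestrict ℚ⟮jFull N⟯
    (fun a => adjoin_le_K0 N ℓ hS a.2)

open IntermediateField in
@[simp] theorem coe_toK0 {S : Set F} (hS : S ⊆ (ℚ⟮jFull N⟯ : Set F))
    (a : ↥(Algebra.adjoin ℤℓ S)) : ((toK0 N ℓ hS a : ↥ℚ⟮jFull N⟯) : F) = a := rfl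

open IntermediateField in
theorem toK0_injective {S : Set F} (hS : S ⊆ (ℚ⟮jFull N⟯ : Set F)) :
    Function.Injective (toK0 N ℓ hS) := by
  intro a b h
  apply Subtype.ext
  have := congrArg (fun z : ↥ℚ⟮jFull N⟯ => (z : F)) h
  simpa using this

open IntermediateField in
/-- The `ℤ_(ℓ)[S]`-algebra structure on `ℚ(j)` (not an instance: use `letI`). -/
@[reducible] noncomputable def algK0 {S : Set F} (hS : S ⊆ (ℚ⟮jFull N⟯ : Set F)) :
    Algebra ↥(Algebra.adjoin ℤℓ S) ↥ℚ⟮jFull N⟯ :=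
  (toK0 N ℓ hS).toAlgebra

open IntermediateField in
/-- The tower `ℤ_(ℓ)[S] → ℚ(j) → F` (explicit instances; `Algebra.toSMul` everywhere). -/
theorem isScalarTower_K0 {S : Set F} (hS : S ⊆ (ℚ⟮jFull N⟯ : Set F)) :
    @IsScalarTower ↥(Algebra.adjoin ℤℓ S) ↥ℚ⟮jFull N⟯ F (algK0 N ℓ hS).toSMul
      Algebra.toSMul Algebra.toSMul :=
  @IsScalarTower.of_algebraMap_eq ↥(Algebra.adjoin ℤℓ S) ↥ℚ⟮jFull N⟯ F _ _ _
    (algK0 N ℓ hS) _ _ (fun _ => rfl)

theorem algebraMap_ne_zero {r : ℤℓ} (hr : r ≠ 0) : algebraMap ℤℓ F r ≠ 0 := by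
  intro h
  have h1 : HahnSeries.C ((r : ℚ)) = (0 : LaurentSeries ℚ) := by
    rw [← coe_algebraMap N ℓ r, h]; rfl
  have h2 : ((r : ℚ)) = 0 := HahnSeries.C_injective (h1.trans (map_zero _).symm)
  exact hr (Subtype.ext h2)

open IntermediateField in
/-- Every element of `ℚ(x)` is a quotient of two elements of `ℤ_(ℓ)[x]`. -/
theorem exists_div_of_mem_adjoin_simple (x : F) {z : F} (hz : z ∈ ℚ⟮x⟯) :
    ∃ a ∈ Algebra.adjoin ℤℓ {x}, ∃ b ∈ Algebra.adjoin ℤℓ {x}, z = a / b := by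
  obtain ⟨r, s, rfl⟩ := (IntermediateField.mem_adjoin_simple_iff ℚ z).mp hz
  obtain ⟨b1, hb1m, hb1⟩ := IsLocalization.integerNormalization_spec (nonZeroDivisors ℤℓ) r
  obtain ⟨b2, hb2m, hb2⟩ := IsLocalization.integerNormalization_spec (nonZeroDivisors ℤℓ) s
  set r' := IsLocalization.integerNormalization (nonZeroDivisors ℤℓ) r
  set s' := IsLocalization.integerNormalization (nonZeroDivisors ℤℓ) s
  have hb1F : algebraMap ℤℓ F b1 ≠ 0 := algebraMap_ne_zero N ℓ (nonZeroDivisors.ne_zero hb1m)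
  have hb2F : algebraMap ℤℓ F b2 ≠ 0 := algebraMap_ne_zero N ℓ (nonZeroDivisors.ne_zero hb2m)
  have hr : aeval x r' = algebraMap ℤℓ F b1 * aeval x r := by
    have := congrArg (aeval x) hb1
    rw [aeval_map_algebraMap] at this
    rw [this, ← algebraMap_smul ℚ b1 r, map_smul, Algebra.smul_def,
      ← IsScalarTower.algebraMap_apply ℤℓ ℚ F]
  have hs : aeval x s' = algebraMap ℤℓ F b2 * aeval x s := by
    have := congrArg (aeval x) hb2
    rw [aeval_map_algebraMap] at this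
    rw [this, ← algebraMap_smul ℚ b2 s, map_smul, Algebra.smul_def,
      ← IsScalarTower.algebraMap_apply ℤℓ ℚ F]
  refine ⟨aeval x r' * algebraMap ℤℓ F b2, ?_, aeval x s' * algebraMap ℤℓ F b1, ?_, ?_⟩
  · refine mul_mem ?_ (Subalgebra.algebraMap_mem _ _)
    rw [Algebra.adjoin_singleton_eq_range_aeval]; exact ⟨r', rfl⟩
  · refine mul_mem ?_ (Subalgebra.algebraMap_mem _ _)
    rw [Algebra.adjoin_singleton_eq_range_aeval]; exact ⟨s', rfl⟩
  · rw [hr, hs]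
    by_cases hs0 : aeval x s = 0
    · simp [hs0]
    · field_simp

open IntermediateField in
/-- `Frac ℤ_(ℓ)[S] = ℚ(j)` as soon as `S ⊆ ℚ(j)` and every element of `ℚ(j)` is a quotient of
elements of `ℤ_(ℓ)[S]`. -/
theorem isFractionRing_of {S : Set F} (hS : S ⊆ (ℚ⟮jFull N⟯ : Set F))
    (hsurj : ∀ z ∈ ℚ⟮jFull N⟯, ∃ a ∈ Algebra.adjoin ℤℓ S, ∃ b ∈ Algebra.adjoin ℤℓ S, z = a / b) :
    @IsFractionRing ↥(Algebra.adjoin ℤℓ S) _ ↥ℚ⟮jFull N⟯ _ (algK0 N ℓ hS) := by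
  letI := algK0 N ℓ hS
  letI : SMul ↥(Algebra.adjoin ℤℓ S) ↥ℚ⟮jFull N⟯ := Algebra.toSMul
  haveI : FaithfulSMul ↥(Algebra.adjoin ℤℓ S) ↥ℚ⟮jFull N⟯ :=
    (faithfulSMul_iff_algebraMap_injective _ _).mpr (toK0_injective N ℓ hS)
  refine IsFractionRing.of_field _ _ ?_
  rintro ⟨z, hz⟩
  obtain ⟨a, ha, b, hb, hab⟩ := hsurj z hz
  refine ⟨⟨a, ha⟩, ⟨b, hb⟩, Subtype.ext ?_⟩
  show z = ((toK0 N ℓ hS ⟨a, ha⟩ / toK0 N ℓ hS ⟨b, hb⟩ : ↥ℚ⟮jFull N⟯) : F)
  rw [IntermediateField.coe_div, coe_toK0, coe_toK0]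
  exact hab

open IntermediateField in
theorem subset_K0_fin : ({jFull N} : Set F) ⊆ (ℚ⟮jFull N⟯ : Set F) :=
  Set.singleton_subset_iff.mpr (IntermediateField.mem_adjoin_simple_self ℚ _)

open IntermediateField in
theorem subset_K0_inf : ({(jFull N)⁻¹} : Set F) ⊆ (ℚ⟮jFull N⟯ : Set F) :=
  Set.singleton_subset_iff.mpr (inv_mem (IntermediateField.mem_adjoin_simple_self ℚ _))

open IntermediateField in
theorem subset_K0_mid : ({jFull N, (jFull N)⁻¹} : Set F) ⊆ (ℚ⟮jFull N⟯ : Set F) := by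
  rintro x (rfl | rfl)
  · exact IntermediateField.mem_adjoin_simple_self ℚ _
  · exact inv_mem (IntermediateField.mem_adjoin_simple_self ℚ _)

open IntermediateField in
theorem adjoin_inv_eq : ℚ⟮(jFull N)⁻¹⟯ = ℚ⟮jFull N⟯ := by
  apply le_antisymm
  · rw [IntermediateField.adjoin_simple_le_iff]
    exact inv_mem (IntermediateField.mem_adjoin_simple_self ℚ _)
  · rw [IntermediateField.adjoin_simple_le_iff]
    have := inv_mem (IntermediateField.mem_adjoin_simple_self ℚ (jFull N)⁻¹)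
    rwa [inv_inv] at this

open IntermediateField in
/-- `Frac ℤ_(ℓ)[j] = ℚ(j)`. -/
theorem isFractionRing_fin :
    @IsFractionRing ↥(Algebra.adjoin ℤℓ {jFull N}) _ ↥ℚ⟮jFull N⟯ _
      (algK0 N ℓ (subset_K0_fin N)) :=
  isFractionRing_of N ℓ (subset_K0_fin N)
    (fun _ hz => exists_div_of_mem_adjoin_simple N ℓ (jFull N) hz)

open IntermediateField in
/-- `Frac ℤ_(ℓ)[j⁻¹] = ℚ(j)`. -/
theorem isFractionRing_inf :
    @IsFractionRing ↥(Algebra.adjoin ℤℓ {(jFull N)⁻¹}) _ ↥ℚ⟮jFull N⟯ _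
      (algK0 N ℓ (subset_K0_inf N)) :=
  isFractionRing_of N ℓ (subset_K0_inf N)
    (fun _ hz => exists_div_of_mem_adjoin_simple N ℓ (jFull N)⁻¹ (by rwa [adjoin_inv_eq]))

open IntermediateField in
/-- `Frac ℤ_(ℓ)[j, j⁻¹] = ℚ(j)`. -/
theorem isFractionRing_mid :
    @IsFractionRing ↥(Algebra.adjoin ℤℓ {jFull N, (jFull N)⁻¹}) _ ↥ℚ⟮jFull N⟯ _
      (algK0 N ℓ (subset_K0_mid N)) :=
  isFractionRing_of N ℓ (subset_K0_mid N) (fun _ hz => by
    obtain ⟨a, ha, b, hb, hab⟩ := exists_div_of_mem_adjoin_simple N ℓ (jFull N) hz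
    exact ⟨a, Algebra.adjoin_mono (sFin_subset N) ha, b, Algebra.adjoin_mono (sFin_subset N) hb,
      hab⟩)

end Fermat.Agent.S28.ChartBase
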