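/-
S28 (Igusa), part (II-bc): the abstract saturation step.

`F` a field with a valuation subring `Ow` whose maximal ideal is generated by `l`;
`A ⊆ Ow` an integrally closed domain with fraction field `K0 ⊆ F` and `A ∩ l·Ow = l·A`;
`e : ι → F` a `K0`-spanning family, integral over `O0 := K0 ∩ Ow`, whose reductions
modulo `l·Ow` are linearly independent over the residue field of `O0`.
Then the integral closure `B` of `A` in `F` satisfies `B ∩ l·Ow = l·B`.
-/
import Mathlib

set_option autoImplicit false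

namespace Fermat.Agent.S28.Saturation

open Polynomial

section Valuation

variable {F : Type*} [Field F]

/-- `x ∈ l · Ow`. -/
def LDvd (Ow : ValuationSubring F) (l x : F) : Prop := ∃ z ∈ Ow, x = l * z

variable {Ow : ValuationSubring F} {l : F}

theorem ldvd_def {x : F} : LDvd Ow l x ↔ ∃ z ∈ Ow, x = l * z := Iff.rfl

theorem LDvd.zero : LDvd Ow l 0 := ⟨0, Ow.zero_mem, by simp⟩

theorem LDvd.add {x y : F} (hx : LDvd Ow l x) (hy : LDvd Ow l y) : LDvd Ow l (x + y) := by
  obtain ⟨a, ha, rfl⟩ := hx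
  obtain ⟨b, hb, rfl⟩ := hy
  exact ⟨a + b, Ow.add_mem _ _ ha hb, by ring⟩

theorem LDvd.mul_mem {x w : F} (hx : LDvd Ow l x) (hw : w ∈ Ow) : LDvd Ow l (w * x) := by
  obtain ⟨a, ha, rfl⟩ := hx
  exact ⟨w * a, Ow.mul_mem _ _ hw ha, by ring⟩

theorem LDvd.mem (hl : l ∈ Ow) {x : F} (hx : LDvd Ow l x) : x ∈ Ow := by
  obtain ⟨a, ha, rfl⟩ := hx
  exact Ow.mul_mem _ _ hl ha

theorem ldvd_iff_inv_mul_mem (hl : l ≠ 0) {x : F} : LDvd Ow l x ↔ l⁻¹ * x ∈ Ow := by
  constructor
  · rintro ⟨z, hz, rfl⟩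
    rwa [inv_mul_cancel_left₀ hl]
  · intro h
    exact ⟨l⁻¹ * x, h, by rw [mul_inv_cancel_left₀ hl]⟩

theorem ldvd_self_mul {z : F} (hz : z ∈ Ow) : LDvd Ow l (l * z) := ⟨z, hz, rfl⟩

end Valuation

section Coefficients

variable {K0 F : Type*} [Field K0] [Field F] [Algebra K0 F]
variable (Ow : ValuationSubring F) (l : F)
variable {ι : Type*} [Fintype ι] (e : ι → F)

/-- The independence hypothesis: the reductions of the `e i` modulo `l·Ow` are linearly
independent over the residue field of `K0 ∩ Ow`. -/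
def RedIndep (K0 : Type*) [Field K0] [Algebra K0 F] (Ow : ValuationSubring F) (l : F)
    {ι : Type*} [Fintype ι] (e : ι → F) : Prop :=
  ∀ c : ι → K0, (∀ i, algebraMap K0 F (c i) ∈ Ow) → LDvd Ow l (∑ i, c i • e i) →
    ∀ i, LDvd Ow l (algebraMap K0 F (c i))

variable {Ow l e}

/-- Normalising a coefficient vector by a coefficient of maximal valuation. -/
theorem exists_normalised (c : ι → K0) (hc : c ≠ 0) :
    ∃ i0, c i0 ≠ 0 ∧ ∀ i, algebraMap K0 F (c i / c i0) ∈ Ow := by
  classical
  have hne : ∃ i, c i ≠ 0 := by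
    by_contra h
    push Not at h
    exact hc (funext h)
  obtain ⟨j, hj⟩ := hne
  obtain ⟨i0, -, hi0⟩ := Finset.exists_max_image Finset.univ
    (fun i => Ow.valuation (algebraMap K0 F (c i))) ⟨j, Finset.mem_univ j⟩
  have hinj : Function.Injective (algebraMap K0 F) := (algebraMap K0 F).injective
  have hi0ne : c i0 ≠ 0 := by
    intro h0
    have := hi0 j (Finset.mem_univ j)
    rw [h0, map_zero, map_zero] at this
    have hz : Ow.valuation (algebraMap K0 F (c j)) = 0 := le_antisymm this zero_le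
    rw [map_eq_zero] at hz
    exact hj (hinj (by rw [hz, map_zero]))
  refine ⟨i0, hi0ne, fun i => ?_⟩
  rw [← Ow.valuation_le_one_iff, map_div₀, map_div₀]
  have hpos : Ow.valuation (algebraMap K0 F (c i0)) ≠ 0 := by
    rw [Ne, map_eq_zero]
    intro h
    exact hi0ne (hinj (by rw [h, map_zero]))
  exact (div_le_one₀ (zero_lt_iff.mpr hpos)).mpr (hi0 i (Finset.mem_univ i))

/-- The key step: if `∑ c i • e i ∈ l·Ow` then every `c i ∈ l·Ow` (no integrality assumption on
the `c i`). -/
theorem coeff_ldvd (hl1 : ¬ LDvd Ow l 1)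
    (hmax : ∀ x ∈ Ow, ¬ LDvd Ow l x → x⁻¹ ∈ Ow)
    (hind : RedIndep K0 Ow l e)
    (c : ι → K0) (hx : LDvd Ow l (∑ i, c i • e i)) :
    ∀ i, LDvd Ow l (algebraMap K0 F (c i)) := by
  classical
  by_cases hc : c = 0
  · intro i
    rw [hc, Pi.zero_apply, map_zero]
    exact LDvd.zero
  obtain ⟨i0, hi0, hdiv⟩ := exists_normalised (Ow := Ow) c hc
  set u : F := algebraMap K0 F (c i0) with hu
  have hu0 : u ≠ 0 := by
    rw [hu, Ne, map_eq_zero]; exact hi0
  by_cases hlu : LDvd Ow l u
  · intro i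
    have : algebraMap K0 F (c i) = algebraMap K0 F (c i / c i0) * u := by
      rw [hu, ← map_mul, div_mul_cancel₀ _ hi0]
    rw [this]
    exact hlu.mul_mem (hdiv i)
  · exfalso
    have huinv : u⁻¹ ∈ Ow := by
      rcases Ow.mem_or_inv_mem u with h | h
      · exact hmax u h hlu
      · exact h
    have hx' : LDvd Ow l (∑ i, (c i / c i0) • e i) := by
      have : ∑ i, (c i / c i0) • e i = u⁻¹ * ∑ i, c i • e i := by
        rw [Finset.mul_sum]
        refine Finset.sum_congr rfl fun i _ => ?_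
        rw [Algebra.smul_def, Algebra.smul_def, map_div₀, ← hu]
        field_simp
      rw [this]
      exact hx.mul_mem huinv
    have := hind (fun i => c i / c i0) hdiv hx' i0
    rw [div_self hi0, map_one] at this
    exact hl1 this

/-- `RedIndep` forces linear independence over `K0`. -/
theorem linearIndependent_of_redIndep (hl1 : ¬ LDvd Ow l 1)
    (hind : RedIndep K0 Ow l e) : LinearIndependent K0 e := by
  classical
  rw [Fintype.linearIndependent_iff]
  intro c hc
  by_contra hne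
  push Not at hne
  have hc0 : c ≠ 0 := by
    obtain ⟨i, hi⟩ := hne
    intro h
    exact hi (by rw [h]; rfl)
  obtain ⟨i0, hi0, hdiv⟩ := exists_normalised (Ow := Ow) c hc0
  have hsum : ∑ i, (c i / c i0) • e i = 0 := by
    have : ∑ i, (c i / c i0) • e i = (c i0)⁻¹ • ∑ i, c i • e i := by
      rw [Finset.smul_sum]
      refine Finset.sum_congr rfl fun i _ => ?_
      rw [smul_smul, div_eq_inv_mul]
    rw [this, hc, smul_zero]
  have := hind (fun i => c i / c i0) hdiv (by rw [hsum]; exact LDvd.zero) i0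
  rw [div_self hi0, map_one] at this
  exact hl1 this

end Coefficients

section Descent

variable {A K0 F : Type*} [CommRing A] [IsDomain A] [IsIntegrallyClosed A] [Field K0] [Field F]
  [Algebra A K0] [IsFractionRing A K0] [Algebra K0 F] [Algebra A F] [IsScalarTower A K0 F]
variable (K0) (Ow : ValuationSubring F) (l : A)

omit [IsIntegrallyClosed A] [IsDomain A] in
include K0 in
theorem algebraMap_injective' : Function.Injective (algebraMap A F) := by
  rw [IsScalarTower.algebraMap_eq A K0 F]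
  exact (algebraMap K0 F).injective.comp (IsFractionRing.injective A K0)

omit [IsIntegrallyClosed A] in
include K0 in
/-- Iterating `A ∩ l·Ow = l·A`. -/
theorem pow_dvd_of_mem (hl0 : l ≠ 0) (hA : ∀ a : A, algebraMap A F a ∈ Ow)
    (hsat : ∀ a : A, LDvd Ow (algebraMap A F l) (algebraMap A F a) → l ∣ a) :
    ∀ (k : ℕ) (a : A), (∃ z ∈ Ow, algebraMap A F a = algebraMap A F l ^ k * z) → l ^ k ∣ a := by
  have hinj : Function.Injective (algebraMap A F) := algebraMap_injective' K0
  have hlF : algebraMap A F l ≠ 0 := fun h => hl0 (hinj (by rw [h, map_zero]))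
  intro k
  induction k with
  | zero => intro a _; simp
  | succ k ih =>
    rintro a ⟨z, hz, hza⟩
    have hmem : algebraMap A F l ^ k * z ∈ Ow :=
      Ow.mul_mem _ _ (pow_mem (hA l) k) hz
    obtain ⟨a', rfl⟩ : l ∣ a :=
      hsat a ⟨algebraMap A F l ^ k * z, hmem, by rw [hza, pow_succ]; ring⟩
    have ha' : algebraMap A F a' = algebraMap A F l ^ k * z := by
      have : algebraMap A F l * algebraMap A F a' = algebraMap A F l * (algebraMap A F l ^ k * z) := by
        rw [← map_mul, hza, pow_succ]; ring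
      exact mul_left_cancel₀ hlF this
    obtain ⟨b, rfl⟩ := ih a' ⟨z, hz, ha'⟩
    exact ⟨b, by rw [pow_succ]; ring⟩

/-- Descent of integrality: `y` integral over `O0 = K0 ∩ Ow` and `l·y` integral over `A`
imply `y` integral over `A`. -/
theorem isIntegral_of_isIntegral_mul (hl0 : l ≠ 0) (hA : ∀ a : A, algebraMap A F a ∈ Ow)
    (hsat : ∀ a : A, LDvd Ow (algebraMap A F l) (algebraMap A F a) → l ∣ a)
    (y : F) (hy : IsIntegral (Ow.comap (algebraMap K0 F)) y)
    (hly : IsIntegral A (algebraMap A F l * y)) : IsIntegral A y := by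
  set lK : K0 := algebraMap A K0 l with hlK
  have hlK0 : lK ≠ 0 := by
    rw [hlK, Ne, map_eq_zero_iff _ (IsFractionRing.injective A K0)]; exact hl0
  have hyK : IsIntegral K0 y := hy.tower_top
  have hsmul : lK • y = algebraMap A F l * y := by
    rw [Algebra.smul_def, hlK, ← IsScalarTower.algebraMap_apply]
  have h1 : minpoly K0 (lK • y) = (minpoly K0 y).scaleRoots lK :=
    IsIntegrallyClosed.minpoly_smul hlK0 hyK
  have h2 : minpoly K0 (lK • y) = (minpoly A (lK • y)).map (algebraMap A K0) := by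
    rw [hsmul]
    exact minpoly.isIntegrallyClosed_eq_field_fractions' K0 hly
  have h3 : minpoly K0 y =
      (minpoly (Ow.comap (algebraMap K0 F)) y).map (algebraMap (Ow.comap (algebraMap K0 F)) K0) :=
    minpoly.isIntegrallyClosed_eq_field_fractions' K0 hy
  -- coefficients of `minpoly K0 y` lie in `A`
  have hcoeff : ∀ i, (minpoly K0 y).coeff i ∈ Set.range (algebraMap A K0) := by
    intro i
    set n := (minpoly K0 y).natDegree with hn
    have hci : algebraMap A K0 ((minpoly A (lK • y)).coeff i) =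
        (minpoly K0 y).coeff i * lK ^ (n - i) := by
      rw [← coeff_map, ← h2, h1, coeff_scaleRoots]
    -- the coefficient lies in `O0`
    have hO : algebraMap K0 F ((minpoly K0 y).coeff i) ∈ Ow := by
      rw [h3, coeff_map]
      exact ((minpoly (Ow.comap (algebraMap K0 F)) y).coeff i).2
    have hdvd : l ^ (n - i) ∣ (minpoly A (lK • y)).coeff i := by
      refine pow_dvd_of_mem K0 Ow l hl0 hA hsat (n - i) _
        ⟨algebraMap K0 F ((minpoly K0 y).coeff i), hO, ?_⟩
      rw [IsScalarTower.algebraMap_apply A K0 F, hci, map_mul, map_pow, mul_comm,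
        ← IsScalarTower.algebraMap_apply A K0 F]
    obtain ⟨b, hb⟩ := hdvd
    refine ⟨b, ?_⟩
    have : lK ^ (n - i) * algebraMap A K0 b = lK ^ (n - i) * (minpoly K0 y).coeff i := by
      rw [mul_comm _ ((minpoly K0 y).coeff i), ← hci, hb, map_mul, map_pow]
    exact mul_left_cancel₀ (pow_ne_zero _ hlK0) this
  have hlifts : minpoly K0 y ∈ Polynomial.lifts (algebraMap A K0) :=
    (Polynomial.lifts_iff_coeff_lifts _).mpr hcoeff
  obtain ⟨Q, hQmap, -, hQmonic⟩ :=
    Polynomial.lifts_and_natDegree_eq_and_monic hlifts (minpoly.monic hyK)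
  refine ⟨Q, hQmonic, ?_⟩
  rw [← aeval_def, ← aeval_map_algebraMap K0, hQmap, minpoly.aeval]

end Descent

section Main

variable {A K0 F : Type*} [CommRing A] [IsDomain A] [IsIntegrallyClosed A] [Field K0] [Field F]
  [Algebra A K0] [IsFractionRing A K0] [Algebra K0 F] [Algebra A F] [IsScalarTower A K0 F]
variable (K0) (Ow : ValuationSubring F) (l : A)
variable {ι : Type*} [Fintype ι] (e : ι → F)

/-- **Saturation.**  The integral closure `B` of `A` in `F` satisfies `B ∩ l·Ow = l·B`. -/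
theorem exists_isIntegral_eq_mul (hl0 : l ≠ 0) (hA : ∀ a : A, algebraMap A F a ∈ Ow)
    (hl1 : ¬ LDvd Ow (algebraMap A F l) 1)
    (hmax : ∀ x ∈ Ow, ¬ LDvd Ow (algebraMap A F l) x → x⁻¹ ∈ Ow)
    (hsat : ∀ a : A, LDvd Ow (algebraMap A F l) (algebraMap A F a) → l ∣ a)
    (hspan : Submodule.span K0 (Set.range e) = ⊤)
    (he : ∀ i, IsIntegral (Ow.comap (algebraMap K0 F)) (e i))
    (hind : RedIndep K0 Ow (algebraMap A F l) e)
    (x : F) (hx : IsIntegral A x) (hxl : LDvd Ow (algebraMap A F l) x) :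
    ∃ y : F, IsIntegral A y ∧ x = algebraMap A F l * y := by
  classical
  have hinj : Function.Injective (algebraMap A F) := algebraMap_injective' K0
  have hlF : algebraMap A F l ≠ 0 := fun h => hl0 (hinj (by rw [h, map_zero]))
  set lK : K0 := algebraMap A K0 l with hlK
  have hlK0 : lK ≠ 0 := by
    rw [hlK, Ne, map_eq_zero_iff _ (IsFractionRing.injective A K0)]; exact hl0
  have hlKF : algebraMap K0 F lK = algebraMap A F l := by
    rw [hlK, ← IsScalarTower.algebraMap_apply]
  obtain ⟨c, hc⟩ : ∃ c : ι → K0, ∑ i, c i • e i = x := by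
    have : x ∈ Submodule.span K0 (Set.range e) := by rw [hspan]; trivial
    exact (Submodule.mem_span_range_iff_exists_fun K0).mp this
  have hcl : ∀ i, LDvd Ow (algebraMap A F l) (algebraMap K0 F (c i)) :=
    coeff_ldvd hl1 hmax hind c (by rw [hc]; exact hxl)
  -- the divided coefficients lie in `O0`
  have hd : ∀ i, c i / lK ∈ Ow.comap (algebraMap K0 F) := by
    intro i
    rw [ValuationSubring.mem_comap, map_div₀, hlKF, div_eq_inv_mul]
    exact (ldvd_iff_inv_mul_mem hlF).mp (hcl i)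
  set y : F := ∑ i, (c i / lK) • e i with hy
  have hxy : x = algebraMap A F l * y := by
    rw [hy, Finset.mul_sum, ← hc]
    refine Finset.sum_congr rfl fun i _ => ?_
    rw [Algebra.smul_def, Algebra.smul_def, map_div₀, hlKF]
    field_simp
  have hyint : IsIntegral (Ow.comap (algebraMap K0 F)) y := by
    rw [hy]
    refine IsIntegral.sum _ fun i _ => ?_
    have : (c i / lK) • e i = (⟨c i / lK, hd i⟩ : Ow.comap (algebraMap K0 F)) • e i := rfl
    rw [this]
    exact (he i).smul _
  refine ⟨y, ?_, hxy⟩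
  exact isIntegral_of_isIntegral_mul K0 Ow l hl0 hA hsat y hyint (hxy ▸ hx)

/-- Variant with `finrank K0 F ≤ card ι` instead of the spanning hypothesis (`RedIndep` already
forces `K0`-linear independence, hence `card ι ≤ finrank K0 F`). -/
theorem exists_isIntegral_eq_mul_of_card [FiniteDimensional K0 F]
    (hl0 : l ≠ 0) (hA : ∀ a : A, algebraMap A F a ∈ Ow)
    (hl1 : ¬ LDvd Ow (algebraMap A F l) 1)
    (hmax : ∀ x ∈ Ow, ¬ LDvd Ow (algebraMap A F l) x → x⁻¹ ∈ Ow)
    (hsat : ∀ a : A, LDvd Ow (algebraMap A F l) (algebraMap A F a) → l ∣ a)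
    (hcard : Module.finrank K0 F ≤ Fintype.card ι)
    (he : ∀ i, IsIntegral (Ow.comap (algebraMap K0 F)) (e i))
    (hind : RedIndep K0 Ow (algebraMap A F l) e)
    (x : F) (hx : IsIntegral A x) (hxl : LDvd Ow (algebraMap A F l) x) :
    ∃ y : F, IsIntegral A y ∧ x = algebraMap A F l * y := by
  have hli : LinearIndependent K0 e := linearIndependent_of_redIndep hl1 hind
  have hspan : Submodule.span K0 (Set.range e) = ⊤ :=
    hli.span_eq_top_of_card_eq_finrank'
      (le_antisymm hli.fintype_card_le_finrank hcard)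
  exact exists_isIntegral_eq_mul K0 Ow l e hl0 hA hl1 hmax hsat hspan he hind x hx hxl

end Main

section Supply

variable {K0 F : Type*} [Field K0] [Field F] [Algebra K0 F]
variable {Ow : ValuationSubring F}

/-- Integrality over a subring of `F` contained in `K0 ∩ Ow` gives integrality over
`O0 = Ow.comap (algebraMap K0 F)`. -/
theorem isIntegral_comap_of_subring (C : Subring F) (hCO : ∀ x ∈ C, x ∈ Ow)
    (hCK : ∀ x ∈ C, x ∈ (algebraMap K0 F).range) {x : F} (hx : IsIntegral C x) :
    IsIntegral (Ow.comap (algebraMap K0 F)) x := by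
  obtain ⟨p, hp, hpx⟩ := hx
  have hlift : p.map C.subtype ∈
      Polynomial.lifts (algebraMap (Ow.comap (algebraMap K0 F)) F) := by
    rw [Polynomial.lifts_iff_coeff_lifts]
    intro n
    rw [coeff_map]
    obtain ⟨c, hc⟩ := hCK _ (p.coeff n).2
    have hcO : c ∈ Ow.comap (algebraMap K0 F) := by
      rw [ValuationSubring.mem_comap, hc]; exact hCO _ (p.coeff n).2
    exact ⟨⟨c, hcO⟩, hc⟩
  obtain ⟨Q, hQ, -, hQm⟩ := Polynomial.lifts_and_natDegree_eq_and_monic hlift (hp.map _)
  refine ⟨Q, hQm, ?_⟩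
  rw [← Polynomial.eval_map, hQ, Polynomial.eval_map]
  exact hpx

/-- `RedIndep` from a residue map `ρ : Ow → κ` with kernel `l·Ow`: it suffices that the `ρ (e i)`
are linearly independent over a subfield `k0 ⊆ κ` containing `ρ (K0 ∩ Ow)`. -/
theorem redIndep_of_residue {κ : Type*} [Field κ] (l : F) (ρ : Ow →+* κ)
    (hker : ∀ z : Ow, ρ z = 0 → LDvd Ow l (z : F))
    (hlρ : ∀ z : Ow, LDvd Ow l (z : F) → ρ z = 0)
    (k0 : Subfield κ)
    (hk0 : ∀ (c : K0) (h : algebraMap K0 F c ∈ Ow), ρ ⟨_, h⟩ ∈ k0)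
    {ι : Type*} [Fintype ι] (e : ι → F) (heO : ∀ i, e i ∈ Ow)
    (hli : LinearIndependent k0 (fun i => ρ ⟨e i, heO i⟩)) :
    RedIndep K0 Ow l e := by
  classical
  intro c hc hsum i
  have hsumO : (∑ i, c i • e i) ∈ Ow := by
    refine Ow.toSubring.sum_mem fun i _ => ?_
    rw [Algebra.smul_def]
    exact Ow.mul_mem _ _ (hc i) (heO i)
  have h0 : ρ ⟨_, hsumO⟩ = 0 := hlρ ⟨_, hsumO⟩ hsum
  have hexp : ρ ⟨_, hsumO⟩ = ∑ i, ρ ⟨_, hc i⟩ * ρ ⟨e i, heO i⟩ := by
    have : (⟨_, hsumO⟩ : Ow) = ∑ i, (⟨_, hc i⟩ : Ow) * ⟨e i, heO i⟩ := by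
      apply Subtype.ext
      rw [AddSubmonoidClass.coe_finsetSum]
      refine Finset.sum_congr rfl fun i _ => ?_
      rw [Algebra.smul_def]
      rfl
    rw [this, map_sum]
    simp only [map_mul]
  rw [hexp] at h0
  have h0' : ∑ i, (⟨ρ ⟨_, hc i⟩, hk0 _ (hc i)⟩ : k0) • ρ ⟨e i, heO i⟩ = 0 := by
    rw [← h0]
    refine Finset.sum_congr rfl fun i _ => ?_
    rfl
  have := Fintype.linearIndependent_iff.mp hli _ h0' i
  have hρ0 : ρ ⟨_, hc i⟩ = 0 := congrArg Subtype.val this
  exact hker _ hρ0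

end Supply


end Fermat.Agent.S28.Saturation
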