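/-
S28 (Igusa), part (II): lifting residue-field elements to the integral closure of
`O0 = K0 ∩ Ow`, the residue field of `O0`, and the master theorem
"Igusa input ⇒ `B ∩ l·Ow = l·B`" in abstract form.
-/
import Fermat.Agent.S28.Saturation

set_option autoImplicit false

namespace Fermat.Agent.S28.SaturationLift

open Polynomial Fermat.Agent.S28.Saturation

section Lift

variable {K0 F κ : Type*} [Field K0] [Field F] [Field κ] [Algebra K0 F]
variable (K0) (Ow : ValuationSubring F) (l : F) (ρ : Ow →+* κ)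

/-- The inclusion `O0 = K0 ∩ Ow → Ow`. -/
def inclO : (Ow.comap (algebraMap K0 F)) →+* Ow where
  toFun c := ⟨algebraMap K0 F c, c.2⟩
  map_one' := Subtype.ext (map_one _)
  map_mul' _ _ := Subtype.ext (map_mul _ _ _)
  map_zero' := Subtype.ext (map_zero _)
  map_add' _ _ := Subtype.ext (map_add _ _ _)

@[simp] theorem coe_inclO (c : Ow.comap (algebraMap K0 F)) :
    ((inclO K0 Ow c : Ow) : F) = algebraMap K0 F c := rfl

theorem subtype_comp_inclO :
    (Ow.subtype).comp (inclO K0 Ow) = algebraMap (Ow.comap (algebraMap K0 F)) F := by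
  ext c; rfl

variable {K0 Ow}

/-- Elements integral over `O0` lie in `Ow` (a valuation ring is integrally closed). -/
theorem mem_of_isIntegral_comap {s : F} (hs : IsIntegral (Ow.comap (algebraMap K0 F)) s) :
    s ∈ Ow := by
  obtain ⟨p, hp, hps⟩ := hs
  have hint : IsIntegral Ow s := by
    refine ⟨p.map (inclO K0 Ow), hp.map _, ?_⟩
    rw [eval₂_map]
    have : (algebraMap Ow F).comp (inclO K0 Ow) = algebraMap (Ow.comap (algebraMap K0 F)) F := by
      ext c; rfl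
    rw [this]; exact hps
  obtain ⟨y, hy⟩ := IsIntegrallyClosed.isIntegral_iff.mp hint
  rw [← hy]; exact y.2

variable (K0 Ow)

/-- The residue field of `O0`, as a subfield of `κ`. -/
def resField (hmax : ∀ x ∈ Ow, ¬ LDvd Ow l x → x⁻¹ ∈ Ow)
    (hlρ : ∀ z : Ow, LDvd Ow l (z : F) → ρ z = 0) : Subfield κ where
  __ := (ρ.comp (inclO K0 Ow)).range
  inv_mem' := by
    rintro _ ⟨c, rfl⟩
    by_cases h0 : (ρ.comp (inclO K0 Ow)) c = 0
    · rw [h0, inv_zero]; exact Subring.zero_mem _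
    · have hnl : ¬ LDvd Ow l (algebraMap K0 F c) := fun h => h0 (hlρ (inclO K0 Ow c) h)
      have hinv : (algebraMap K0 F c)⁻¹ ∈ Ow := hmax _ c.2 hnl
      have hc0 : (c : K0) ≠ 0 := by
        intro h
        apply h0
        have : c = 0 := Subtype.ext h
        rw [this, map_zero]
      have hmem : (c : K0)⁻¹ ∈ Ow.comap (algebraMap K0 F) := by
        rw [ValuationSubring.mem_comap, map_inv₀]; exact hinv
      refine ⟨⟨(c : K0)⁻¹, hmem⟩, ?_⟩
      have hmul : c * ⟨(c : K0)⁻¹, hmem⟩ = 1 := Subtype.ext (mul_inv_cancel₀ hc0)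
      have : (ρ.comp (inclO K0 Ow)) c * (ρ.comp (inclO K0 Ow)) ⟨(c : K0)⁻¹, hmem⟩ = 1 := by
        rw [← map_mul, hmul, map_one]
      exact (eq_inv_of_mul_eq_one_right this)

theorem mem_resField {hmax : ∀ x ∈ Ow, ¬ LDvd Ow l x → x⁻¹ ∈ Ow}
    {hlρ : ∀ z : Ow, LDvd Ow l (z : F) → ρ z = 0} {t : κ} :
    t ∈ resField K0 Ow l ρ hmax hlρ ↔
      ∃ (c : K0) (h : algebraMap K0 F c ∈ Ow), ρ ⟨_, h⟩ = t := by
  constructor
  · rintro ⟨c, rfl⟩
    exact ⟨c, c.2, rfl⟩
  · rintro ⟨c, h, rfl⟩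
    exact ⟨⟨c, h⟩, rfl⟩

/-- The image in `κ` of the integral closure of `O0`, as a subalgebra over the residue field. -/
def imageAlg (hmax : ∀ x ∈ Ow, ¬ LDvd Ow l x → x⁻¹ ∈ Ow)
    (hlρ : ∀ z : Ow, LDvd Ow l (z : F) → ρ z = 0) :
    Subalgebra (resField K0 Ow l ρ hmax hlρ) κ where
  carrier := {t | ∃ z : Ow, IsIntegral (Ow.comap (algebraMap K0 F)) (z : F) ∧ ρ z = t}
  mul_mem' := by
    rintro _ _ ⟨a, ha, rfl⟩ ⟨b, hb, rfl⟩
    exact ⟨a * b, ha.mul hb, map_mul _ _ _⟩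
  one_mem' := ⟨1, isIntegral_one, map_one _⟩
  add_mem' := by
    rintro _ _ ⟨a, ha, rfl⟩ ⟨b, hb, rfl⟩
    exact ⟨a + b, ha.add hb, map_add _ _ _⟩
  zero_mem' := ⟨0, isIntegral_zero, map_zero _⟩
  algebraMap_mem' := by
    rintro ⟨_, c, rfl⟩
    exact ⟨inclO K0 Ow c, isIntegral_algebraMap, rfl⟩

/-- Every element of `imageAlg` is integral over the residue field. -/
theorem isIntegral_of_mem_imageAlg (hmax : ∀ x ∈ Ow, ¬ LDvd Ow l x → x⁻¹ ∈ Ow)
    (hlρ : ∀ z : Ow, LDvd Ow l (z : F) → ρ z = 0) {t : κ}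
    (ht : t ∈ imageAlg K0 Ow l ρ hmax hlρ) :
    IsIntegral (resField K0 Ow l ρ hmax hlρ) t := by
  obtain ⟨z, ⟨p, hp, hpz⟩, rfl⟩ := ht
  -- the relation already holds in `Ow`
  have hOw : p.eval₂ (inclO K0 Ow) z = 0 := by
    apply Subtype.ext
    have := Polynomial.hom_eval₂ p (inclO K0 Ow) Ow.subtype z
    rw [subtype_comp_inclO] at this
    rw [show ((p.eval₂ (inclO K0 Ow) z : Ow) : F) = Ow.subtype (p.eval₂ (inclO K0 Ow) z) from rfl,
      this]
    exact hpz
  have hκ : p.eval₂ (ρ.comp (inclO K0 Ow)) (ρ z) = 0 := by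
    rw [← Polynomial.hom_eval₂, hOw, map_zero]
  let φ : (Ow.comap (algebraMap K0 F)) →+* resField K0 Ow l ρ hmax hlρ :=
    (ρ.comp (inclO K0 Ow)).codRestrict (resField K0 Ow l ρ hmax hlρ).toSubring
      (fun c => ⟨c, rfl⟩)
  refine ⟨p.map φ, hp.map _, ?_⟩
  rw [eval₂_map]
  have : (algebraMap (resField K0 Ow l ρ hmax hlρ) κ).comp φ = ρ.comp (inclO K0 Ow) := by
    ext c; rfl
  rw [this]; exact hκ

/-- **Lifting.** Every element of the subfield of `κ` generated by residues of `O0` and of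
elements integral over `O0` is the residue of an element integral over `O0`. -/
theorem exists_lift (hmax : ∀ x ∈ Ow, ¬ LDvd Ow l x → x⁻¹ ∈ Ow)
    (hlρ : ∀ z : Ow, LDvd Ow l (z : F) → ρ z = 0)
    (G : Set κ)
    (hG : ∀ g ∈ G, ∃ z : Ow, IsIntegral (Ow.comap (algebraMap K0 F)) (z : F) ∧ ρ z = g)
    {e : κ} (he : e ∈ Subfield.closure G) :
    ∃ z : Ow, IsIntegral (Ow.comap (algebraMap K0 F)) (z : F) ∧ ρ z = e := by
  let T := imageAlg K0 Ow l ρ hmax hlρ
  let Tf : Subfield κ :=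
    { T.toSubring with
      inv_mem' := by
        intro t ht
        have hint := isIntegral_of_mem_imageAlg K0 Ow l ρ hmax hlρ ht
        exact Subalgebra.inv_mem_of_algebraic (A := T) (x := ⟨t, ht⟩) hint.isAlgebraic }
  have hle : Subfield.closure G ≤ Tf := Subfield.closure_le.mpr fun g hg => hG g hg
  exact hle he

end Lift

section Fraction

variable {A K0 F κ : Type*} [CommRing A] [IsDomain A] [Field K0] [Field F] [Field κ]
  [Algebra A K0] [IsFractionRing A K0] [Algebra K0 F] [Algebra A F] [IsScalarTower A K0 F]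
variable (Ow : ValuationSubring F) (l : A) (ρ : Ow →+* κ)

/-- The residue of any element of `K0 ∩ Ow` lies in every subfield containing the residues of
`A`, provided every nonzero element of `A` is a power of `l` times an element not divisible by
`l`. -/
theorem residue_mem_of_fraction (hl0 : l ≠ 0) (hA : ∀ a : A, algebraMap A F a ∈ Ow)
    (hmax : ∀ x ∈ Ow, ¬ LDvd Ow (algebraMap A F l) x → x⁻¹ ∈ Ow)
    (hsat : ∀ a : A, LDvd Ow (algebraMap A F l) (algebraMap A F a) → l ∣ a)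
    (hker : ∀ z : Ow, ρ z = 0 → LDvd Ow (algebraMap A F l) (z : F))
    (hlρ : ∀ z : Ow, LDvd Ow (algebraMap A F l) (z : F) → ρ z = 0)
    (hmult : ∀ b : A, b ≠ 0 → ∃ (n : ℕ) (b' : A), ¬ l ∣ b' ∧ b = l ^ n * b')
    (k0 : Subfield κ) (hAk : ∀ a : A, ρ ⟨algebraMap A F a, hA a⟩ ∈ k0)
    (c : K0) (hc : algebraMap K0 F c ∈ Ow) : ρ ⟨_, hc⟩ ∈ k0 := by
  have hinj : Function.Injective (algebraMap A F) := algebraMap_injective' K0
  obtain ⟨a, b, hb, rfl⟩ := IsFractionRing.div_surjective (A := A) c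
  have hb0 : b ≠ 0 := nonZeroDivisors.ne_zero hb
  by_cases ha0 : a = 0
  · have : (⟨_, hc⟩ : Ow) = 0 := by
      apply Subtype.ext
      simp [ha0]
    rw [this, map_zero]; exact k0.zero_mem
  obtain ⟨m, a', ha', rfl⟩ := hmult a ha0
  obtain ⟨k, b', hb', rfl⟩ := hmult b hb0
  set lF : F := algebraMap A F l with hlF
  have hlF0 : lF ≠ 0 := fun h => hl0 (hinj (h.trans (map_zero _).symm))
  have hlO : lF ∈ Ow := hA l
  -- `b'` is a unit of `Ow` with nonzero residue, `a'` has nonzero residue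
  have hnla : ¬ LDvd Ow lF (algebraMap A F a') := fun h => ha' (hsat a' h)
  have hnlb : ¬ LDvd Ow lF (algebraMap A F b') := fun h => hb' (hsat b' h)
  have hρa : ρ ⟨algebraMap A F a', hA a'⟩ ≠ 0 := fun h => hnla (hker _ h)
  have hρb : ρ ⟨algebraMap A F b', hA b'⟩ ≠ 0 := fun h => hnlb (hker _ h)
  have hbinv : (algebraMap A F b')⁻¹ ∈ Ow := hmax _ (hA b') hnlb
  have hb'0 : algebraMap A F b' ≠ 0 := by
    intro h; apply hb'; rw [hinj (h.trans (map_zero _).symm)]; exact dvd_zero _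
  -- the unit `u = a' / b'`
  set u : Ow := ⟨algebraMap A F a', hA a'⟩ * ⟨(algebraMap A F b')⁻¹, hbinv⟩ with hu
  have hρbinv : ρ ⟨(algebraMap A F b')⁻¹, hbinv⟩ = (ρ ⟨algebraMap A F b', hA b'⟩)⁻¹ := by
    have h1 : (⟨algebraMap A F b', hA b'⟩ : Ow) * ⟨(algebraMap A F b')⁻¹, hbinv⟩ = 1 :=
      Subtype.ext (mul_inv_cancel₀ hb'0)
    have : ρ ⟨algebraMap A F b', hA b'⟩ * ρ ⟨(algebraMap A F b')⁻¹, hbinv⟩ = 1 := by
      rw [← map_mul, h1, map_one]
    exact eq_inv_of_mul_eq_one_right this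
  have hρu : ρ u = ρ ⟨algebraMap A F a', hA a'⟩ * (ρ ⟨algebraMap A F b', hA b'⟩)⁻¹ := by
    rw [hu, map_mul, hρbinv]
  have hρu0 : ρ u ≠ 0 := by
    rw [hρu]; exact mul_ne_zero hρa (inv_ne_zero hρb)
  have hρuk : ρ u ∈ k0 := by
    rw [hρu]; exact k0.mul_mem (hAk a') (k0.inv_mem (hAk b'))
  -- the value of `c` in `F`
  have hcF : algebraMap K0 F (algebraMap A K0 (l ^ m * a') / algebraMap A K0 (l ^ k * b')) =
      lF ^ m * algebraMap A F a' / (lF ^ k * algebraMap A F b') := by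
    rw [map_div₀, ← IsScalarTower.algebraMap_apply, ← IsScalarTower.algebraMap_apply, map_mul,
      map_mul, map_pow, map_pow]
  rcases le_or_gt k m with hkm | hkm
  · -- `c = l^(m-k) * u`
    have hceq : (⟨_, hc⟩ : Ow) = ⟨lF, hlO⟩ ^ (m - k) * u := by
      apply Subtype.ext
      show algebraMap K0 F _ = lF ^ (m - k) * (algebraMap A F a' * (algebraMap A F b')⁻¹)
      rw [hcF]
      obtain ⟨d, rfl⟩ := Nat.exists_eq_add_of_le hkm
      rw [Nat.add_sub_cancel_left, pow_add]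
      field_simp
    rw [hceq, map_mul, map_pow]
    exact k0.mul_mem (k0.pow_mem (hAk l) _) hρuk
  · -- impossible: `u ∈ l·Ow`
    exfalso
    apply hρu0
    apply hlρ
    obtain ⟨d, rfl⟩ := Nat.exists_eq_add_of_lt hkm
    refine ⟨lF ^ d * algebraMap K0 F (algebraMap A K0 (l ^ m * a') /
      algebraMap A K0 (l ^ (m + d + 1) * b')), Ow.mul_mem _ _ (pow_mem hlO d) hc, ?_⟩
    show algebraMap A F a' * (algebraMap A F b')⁻¹ = _
    rw [hcF, pow_add, pow_add, pow_one]
    field_simp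

end Fraction

section Master

variable {A K0 F κ : Type*} [CommRing A] [IsDomain A] [IsIntegrallyClosed A] [Field K0] [Field F]
  [Field κ] [Algebra A K0] [IsFractionRing A K0] [Algebra K0 F] [Algebra A F]
  [IsScalarTower A K0 F] [FiniteDimensional K0 F]
variable (K0) (Ow : ValuationSubring F) (l : A) (ρ : Ow →+* κ)

/-- **Master theorem of part (II).**  `ρ : Ow → κ` a residue map with kernel `l·Ow`;
`k0 ⊆ κ` a subfield containing the residues of `K0 ∩ Ow`; `G ⊆ κ` residues of elements integral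
over `K0 ∩ Ow`; if the subfield generated by `G` contains `m ≥ [F : K0]` elements that are
linearly independent over `k0`, then the integral closure `B` of `A` in `F` satisfies
`B ∩ ker ρ = l·B`. -/
theorem exists_isIntegral_eq_mul_of_residue (hl0 : l ≠ 0) (hA : ∀ a : A, algebraMap A F a ∈ Ow)
    (hmax : ∀ x ∈ Ow, ¬ LDvd Ow (algebraMap A F l) x → x⁻¹ ∈ Ow)
    (hsat : ∀ a : A, LDvd Ow (algebraMap A F l) (algebraMap A F a) → l ∣ a)
    (hker : ∀ z : Ow, ρ z = 0 → LDvd Ow (algebraMap A F l) (z : F))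
    (hlρ : ∀ z : Ow, LDvd Ow (algebraMap A F l) (z : F) → ρ z = 0)
    (k0 : Subfield κ)
    (hk0 : ∀ (c : K0) (h : algebraMap K0 F c ∈ Ow), ρ ⟨_, h⟩ ∈ k0)
    (G : Set κ)
    (hG : ∀ g ∈ G, ∃ z : Ow, IsIntegral (Ow.comap (algebraMap K0 F)) (z : F) ∧ ρ z = g)
    {m : ℕ} (e : Fin m → κ) (heG : ∀ i, e i ∈ Subfield.closure G)
    (hli : LinearIndependent k0 e) (hcard : Module.finrank K0 F ≤ m)
    (x : F) (hx : IsIntegral A x) (hxO : x ∈ Ow) (hρx : ρ ⟨x, hxO⟩ = 0) :
    ∃ y : F, IsIntegral A y ∧ x = algebraMap A F l * y := by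
  classical
  have hl1 : ¬ LDvd Ow (algebraMap A F l) 1 := by
    intro h
    have := hlρ 1 h
    rw [map_one] at this
    exact one_ne_zero this
  have hlift : ∀ i, ∃ z : Ow, IsIntegral (Ow.comap (algebraMap K0 F)) (z : F) ∧ ρ z = e i :=
    fun i => exists_lift K0 Ow (algebraMap A F l) ρ hmax hlρ G hG (heG i)
  choose y hyint hyρ using hlift
  have hind : RedIndep K0 Ow (algebraMap A F l) (fun i => (y i : F)) := by
    refine redIndep_of_residue (algebraMap A F l) ρ hker hlρ k0 hk0 (fun i => (y i : F))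
      (fun i => (y i).2) ?_
    have : (fun i => ρ ⟨(y i : F), (y i).2⟩) = e := funext fun i => hyρ i
    rw [this]; exact hli
  exact exists_isIntegral_eq_mul_of_card K0 Ow l (fun i => (y i : F)) hl0 hA hl1 hmax hsat
    (by rw [Fintype.card_fin]; exact hcard) hyint hind x hx (hker ⟨x, hxO⟩ hρx)

end Master

end Fermat.Agent.S28.SaturationLift
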