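/-
S28 (Igusa), slice (F-CK): the chart reduction maps.

Generic part: from a "Gauss valuation" `Ow ⊆ F` with residue map `redw` and the abstract
saturation theorem (`S28/SaturationLift`), produce `Defs.ChartRed N ℓ S` for a chart `S`;
and the middle chart from the finite chart.
-/
import Fermat.Agent.S28.Defs
import Fermat.Agent.S28.SaturationLift

set_option autoImplicit false

noncomputable section

namespace Fermat.Agent.S28.ChartKernelGen

open ModularCurve ModularCurve.IgusaScheme Fermat.Agent.S28.Saturation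
  Fermat.Agent.S28.SaturationLift

/-- `ℤ_(ℓ)` as a type. -/
abbrev Zl (ℓ : ℕ) : Type := ↥(GaloisRep.ratLocalizedAt ℓ)

/-- The function field `ℚ(j(q^d) : d ∣ N)` as a type. -/
abbrev FF (N : ℕ) [NeZero N] : Type := ↥(modularFunctionFieldFull N)

variable (N : ℕ) [NeZero N] (ℓ : ℕ) [Fact ℓ.Prime]

section Generic

variable {N ℓ}
variable (Ow : ValuationSubring (FF N)) (redw : Ow →+* LaurentSeries (ZMod ℓ))

/-- Elements of a chart algebra lie in `Ow` as soon as the generators' algebra does. -/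
theorem mem_Ow_of_mem_chartAlg {S : Set (FF N)}
    (hA : ∀ a : ↥(Algebra.adjoin (Zl ℓ) S), (a : (FF N)) ∈ Ow) {x : FF N} (hx : x ∈ chartAlg N ℓ S) :
    x ∈ Ow := by
  rw [mem_chartAlg_iff] at hx
  obtain ⟨p, hp, hpx⟩ := hx
  -- `x` is integral over `Ow`
  let φ : ↥(Algebra.adjoin (Zl ℓ) S) →+* Ow :=
    { toFun := fun a => ⟨(a : (FF N)), hA a⟩
      map_one' := rfl
      map_mul' := fun _ _ => rfl
      map_zero' := rfl
      map_add' := fun _ _ => rfl }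
  have hint : IsIntegral Ow x := by
    refine ⟨p.map φ, hp.map _, ?_⟩
    rw [Polynomial.eval₂_map]
    have : (algebraMap Ow (FF N)).comp φ = algebraMap ↥(Algebra.adjoin (Zl ℓ) S) (FF N) := by
      ext a; rfl
    rw [this]; exact hpx
  obtain ⟨y, hy⟩ := IsIntegrallyClosed.isIntegral_iff.mp hint
  rw [← hy]; exact y.2

/-- The inclusion of a chart algebra into `Ow`. -/
def chartToOw {S : Set (FF N)} (hA : ∀ a : ↥(Algebra.adjoin (Zl ℓ) S), (a : (FF N)) ∈ Ow) :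
    ↥(chartAlg N ℓ S) →+* Ow where
  toFun b := ⟨(b : (FF N)), mem_Ow_of_mem_chartAlg Ow hA b.2⟩
  map_one' := rfl
  map_mul' _ _ := rfl
  map_zero' := rfl
  map_add' _ _ := rfl

/-- The kernel property of a chart with respect to `redw`. -/
def KernelProp (S : Set (FF N)) : Prop :=
  ∀ (b : FF N) (_ : b ∈ chartAlg N ℓ S) (hbO : b ∈ Ow), redw ⟨b, hbO⟩ = 0 →
    ∃ y ∈ chartAlg N ℓ S, b = ((ℓ : ℕ) : FF N) * y

/-- **Generic kernel computation** (the master theorem of `S28/SaturationLift` applied to a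
chart). -/
theorem kernelProp_of_data {S : Set (FF N)}
    (K0 : Type*) [Field K0] [Algebra K0 (FF N)] [FiniteDimensional K0 (FF N)]
    [Algebra ↥(Algebra.adjoin (Zl ℓ) S) K0] [IsFractionRing ↥(Algebra.adjoin (Zl ℓ) S) K0]
    [IsScalarTower ↥(Algebra.adjoin (Zl ℓ) S) K0 (FF N)]
    [IsIntegrallyClosed ↥(Algebra.adjoin (Zl ℓ) S)]
    (hA : ∀ a : ↥(Algebra.adjoin (Zl ℓ) S), (a : (FF N)) ∈ Ow)
    (hmax : ∀ x ∈ Ow, ¬ LDvd Ow ((ℓ : ℕ) : (FF N)) x → x⁻¹ ∈ Ow)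
    (hsat : ∀ a : ↥(Algebra.adjoin (Zl ℓ) S), LDvd Ow ((ℓ : ℕ) : (FF N)) (a : (FF N)) →
      ((ℓ : ℕ) : ↥(Algebra.adjoin (Zl ℓ) S)) ∣ a)
    (hker : ∀ z : Ow, redw z = 0 → LDvd Ow ((ℓ : ℕ) : (FF N)) (z : (FF N)))
    (hlρ : ∀ z : Ow, LDvd Ow ((ℓ : ℕ) : (FF N)) (z : (FF N)) → redw z = 0)
    (hk0 : ∀ (c : K0) (h : algebraMap K0 (FF N) c ∈ Ow),
      redw ⟨_, h⟩ ∈ Subfield.closure {jqModC (ZMod ℓ)})
    (hG : ∀ g ∈ divisorExpansionsC (ZMod ℓ) N,
      ∃ z : Ow, IsIntegral (Ow.comap (algebraMap K0 (FF N))) (z : (FF N)) ∧ redw z = g)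
    {n : ℕ} (hI : Defs.IgusaBound ℓ N n) (hcard : Module.finrank K0 (FF N) ≤ n) :
    KernelProp Ow redw S := by
  obtain ⟨e, heG, hli⟩ := hI
  have hcoe : algebraMap ↥(Algebra.adjoin (Zl ℓ) S) (FF N)
      ((ℓ : ℕ) : ↥(Algebra.adjoin (Zl ℓ) S)) = ((ℓ : ℕ) : (FF N)) := map_natCast _ _
  have hl0 : ((ℓ : ℕ) : ↥(Algebra.adjoin (Zl ℓ) S)) ≠ 0 := by
    intro h
    have h' := congrArg (algebraMap ↥(Algebra.adjoin (Zl ℓ) S) (FF N)) h
    rw [hcoe, map_zero] at h'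
    have hF : ((ℓ : ℕ) : (FF N)) ≠ 0 := by
      have hp : (ℓ : ℕ) ≠ 0 := (Fact.out : ℓ.Prime).ne_zero
      exact_mod_cast hp
    exact hF h'
  intro b hb hbO hρb
  have hx : IsIntegral ↥(Algebra.adjoin (Zl ℓ) S) b := (mem_chartAlg_iff N ℓ).mp hb
  obtain ⟨y, hy, hxy⟩ := exists_isIntegral_eq_mul_of_residue K0 Ow
    ((ℓ : ℕ) : ↥(Algebra.adjoin (Zl ℓ) S)) redw hl0 (fun a => hA a)
    (by rw [hcoe]; exact hmax) (by rw [hcoe]; exact hsat) (by rw [hcoe]; exact hker)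
    (by rw [hcoe]; exact hlρ) (Subfield.closure {jqModC (ZMod ℓ)}) hk0
    (divisorExpansionsC (ZMod ℓ) N) hG e heG hli hcard b hx hbO hρb
  exact ⟨y, (mem_chartAlg_iff N ℓ).mpr hy, by rw [hxy, hcoe]⟩

/-- `Defs.ChartRed` from the kernel property. -/
theorem chartRed_of_kernelProp {S : Set (FF N)}
    (hA : ∀ a : ↥(Algebra.adjoin (Zl ℓ) S), (a : (FF N)) ∈ Ow)
    (hconst : ∀ (r : (Zl ℓ)) (h : algebraMap (Zl ℓ) (FF N) r ∈ Ow),
      redw ⟨_, h⟩ = HahnSeries.C (RedZl.red ℓ r))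
    (hK : KernelProp Ow redw S) : Defs.ChartRed N ℓ S := by
  refine ⟨redw.comp (chartToOw Ow hA), ?_, ?_⟩
  · intro r
    exact hconst r _
  · intro b hb
    obtain ⟨y, hy, hby⟩ := hK (b : FF N) b.2 (mem_Ow_of_mem_chartAlg Ow hA b.2) hb
    refine ⟨⟨y, hy⟩, Subtype.ext ?_⟩
    rw [hby]
    simp

/-- The generators' algebra of the middle chart lies in `Ow`. -/
theorem adjoin_mid_le (hR : ∀ r : (Zl ℓ), algebraMap (Zl ℓ) (FF N) r ∈ Ow)
    (hj : jFull N ∈ Ow) (hjinv : (jFull N)⁻¹ ∈ Ow) :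
    ∀ a : ↥(Algebra.adjoin (Zl ℓ) ({jFull N, (jFull N)⁻¹} : Set (FF N))), (a : (FF N)) ∈ Ow := by
  rintro ⟨a, ha⟩
  induction ha using Algebra.adjoin_induction with
  | mem x hx =>
    rcases hx with rfl | hx
    · exact hj
    · rw [Set.mem_singleton_iff] at hx; subst hx; exact hjinv
  | algebraMap r => exact hR r
  | add x y _ _ hx hy => exact Ow.add_mem _ _ hx hy
  | mul x y _ _ hx hy => exact Ow.mul_mem _ _ hx hy

/-- **The middle chart from the finite chart.** -/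
theorem kernelProp_mid_of_fin (hj : jFull N ∈ Ow)
    (hfin : KernelProp Ow redw ({jFull N} : Set (FF N))) :
    KernelProp Ow redw ({jFull N, (jFull N)⁻¹} : Set (FF N)) := by
  intro b hb hbO hρb
  have hb' : b ∈ chartAlg N ℓ (insert (jFull N)⁻¹ ({jFull N} : Set (FF N))) := by
    rw [show insert (jFull N)⁻¹ ({jFull N} : Set (FF N)) = {jFull N, (jFull N)⁻¹}
      from Set.pair_comm _ _]
    exact hb
  obtain ⟨n, hn⟩ := exists_pow_mul_mem_chartAlg (Set.mem_singleton _) (jFull_ne_zero N) hb'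
  have hnO : (jFull N) ^ n * b ∈ Ow := Ow.mul_mem _ _ (pow_mem hj n) hbO
  have hρ : redw ⟨(jFull N) ^ n * b, hnO⟩ = 0 := by
    have : (⟨(jFull N) ^ n * b, hnO⟩ : Ow) = ⟨jFull N, hj⟩ ^ n * ⟨b, hbO⟩ := rfl
    rw [this, map_mul, hρb, mul_zero]
  obtain ⟨y, hy, hby⟩ := hfin _ hn hnO hρ
  refine ⟨((jFull N)⁻¹) ^ n * y, ?_, ?_⟩
  · refine (chartAlg N ℓ _).mul_mem ((chartAlg N ℓ _).pow_mem ?_ n) ?_
    · exact subset_chartAlg N ℓ _ (by simp)
    · exact chartAlg_mono N ℓ (sFin_subset N) hy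
  · have hj0 : jFull N ≠ 0 := jFull_ne_zero N
    have : b = ((jFull N)⁻¹) ^ n * ((jFull N) ^ n * b) := by
      rw [← mul_assoc, ← mul_pow, inv_mul_cancel₀ hj0, one_pow, one_mul]
    rw [this, hby]
    ring

end Generic

end Fermat.Agent.S28.ChartKernelGen
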