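import Mathlib
import Fermat.Prelude.Def_ModularCurve_IgusaScheme
import Fermat.Agent.S28.Defs

/-!
# S28 (Igusa), (F-CK) part 2: the three chart reductions from one residue map

`F := ↥(modularFunctionFieldFull N)`, `Ow` a valuation subring of `F` containing `ℤ_(ℓ)`, `j` and
`j⁻¹`, `ρ : Ow → 𝔽_ℓ((q))` a ring homomorphism reducing the constants.  If the integral closures
of `ℤ_(ℓ)[j]` and `ℤ_(ℓ)[j⁻¹]` satisfy `B ∩ ker ρ = ℓ B`, then `Defs.ChartRed N ℓ S` holds for the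
three charts `S = {j}, {j⁻¹}, {j, j⁻¹}` (the middle chart is deduced from the finite one).
-/

set_option autoImplicit false

open ModularCurve ModularCurve.IgusaScheme

noncomputable section

namespace Fermat.Agent.S28.ChartRedOf

variable {N : ℕ} [NeZero N] {ℓ : ℕ} [Fact ℓ.Prime]

/-- the kernel condition for the chart `S`, relative to a residue map on `Ow`:
an element of the chart algebra with zero residue is `ℓ` times an element of the chart algebra -/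
def KerCond (Ow : ValuationSubring ↥(modularFunctionFieldFull N))
    (ρ : ↥Ow →+* LaurentSeries (ZMod ℓ)) (S : Set ↥(modularFunctionFieldFull N)) : Prop :=
  ∀ x : ↥(modularFunctionFieldFull N),
    IsIntegral ↥(Algebra.adjoin ↥(GaloisRep.ratLocalizedAt ℓ) S) x →
    ∀ hxO : x ∈ Ow, ρ ⟨x, hxO⟩ = 0 →
      ∃ y : ↥(modularFunctionFieldFull N),
        IsIntegral ↥(Algebra.adjoin ↥(GaloisRep.ratLocalizedAt ℓ) S) y ∧
          x = (ℓ : ↥(modularFunctionFieldFull N)) * y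

variable (Ow : ValuationSubring ↥(modularFunctionFieldFull N))
  (ρ : ↥Ow →+* LaurentSeries (ZMod ℓ))

omit [NeZero N] [Fact ℓ.Prime] in
/-- `ℤ_(ℓ)[S] ⊆ Ow` as soon as `ℤ_(ℓ) ⊆ Ow` and `S ⊆ Ow`. -/
theorem adjoin_le_of_subset
    (hR : ∀ r : ↥(GaloisRep.ratLocalizedAt ℓ),
      algebraMap ↥(GaloisRep.ratLocalizedAt ℓ) ↥(modularFunctionFieldFull N) r ∈ Ow)
    {S : Set ↥(modularFunctionFieldFull N)} (hS : ∀ s ∈ S, s ∈ Ow)
    {x : ↥(modularFunctionFieldFull N)}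
    (hx : x ∈ Algebra.adjoin ↥(GaloisRep.ratLocalizedAt ℓ) S) : x ∈ Ow := by
  induction hx using Algebra.adjoin_induction with
  | mem y hy => exact hS y hy
  | algebraMap r => exact hR r
  | add y z _ _ hy hz => exact Ow.add_mem _ _ hy hz
  | mul y z _ _ hy hz => exact Ow.mul_mem _ _ hy hz

omit [NeZero N] [Fact ℓ.Prime] in
/-- the chart algebra lies in `Ow`: a valuation ring is integrally closed. -/
theorem chartAlg_le
    (hR : ∀ r : ↥(GaloisRep.ratLocalizedAt ℓ),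
      algebraMap ↥(GaloisRep.ratLocalizedAt ℓ) ↥(modularFunctionFieldFull N) r ∈ Ow)
    {S : Set ↥(modularFunctionFieldFull N)} (hS : ∀ s ∈ S, s ∈ Ow)
    {x : ↥(modularFunctionFieldFull N)} (hx : x ∈ chartAlg N ℓ S) : x ∈ Ow := by
  obtain ⟨p, hp, hpx⟩ :=
    (hx : IsIntegral ↥(Algebra.adjoin ↥(GaloisRep.ratLocalizedAt ℓ) S) x)
  let φ : ↥(Algebra.adjoin ↥(GaloisRep.ratLocalizedAt ℓ) S) →+* ↥Ow :=
    { toFun := fun a => ⟨(a : ↥(modularFunctionFieldFull N)), adjoin_le_of_subset Ow hR hS a.2⟩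
      map_one' := rfl
      map_mul' := fun _ _ => rfl
      map_zero' := rfl
      map_add' := fun _ _ => rfl }
  have hint : IsIntegral ↥Ow x := by
    refine ⟨p.map φ, hp.map _, ?_⟩
    rw [Polynomial.eval₂_map]
    have : (algebraMap ↥Ow ↥(modularFunctionFieldFull N)).comp φ =
        algebraMap ↥(Algebra.adjoin ↥(GaloisRep.ratLocalizedAt ℓ) S)
          ↥(modularFunctionFieldFull N) := by
      ext a; rfl
    rw [this]; exact hpx
  obtain ⟨y, hy⟩ := IsIntegrallyClosed.isIntegral_iff.mp hint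
  rw [← hy]; exact y.2

/-- the inclusion of a chart algebra into `Ow` -/
def toOw {S : Set ↥(modularFunctionFieldFull N)}
    (h : ∀ x ∈ chartAlg N ℓ S, x ∈ Ow) : ↥(chartAlg N ℓ S) →+* ↥Ow where
  toFun b := ⟨(b : ↥(modularFunctionFieldFull N)), h b.1 b.2⟩
  map_one' := rfl
  map_mul' _ _ := rfl
  map_zero' := rfl
  map_add' _ _ := rfl

omit [NeZero N] [Fact ℓ.Prime] in
@[simp] theorem coe_toOw {S : Set ↥(modularFunctionFieldFull N)}
    (h : ∀ x ∈ chartAlg N ℓ S, x ∈ Ow) (b : ↥(chartAlg N ℓ S)) :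
    ((toOw Ow h b : ↥Ow) : ↥(modularFunctionFieldFull N)) = b := rfl

/-- **one chart**: `Defs.ChartRed` from the kernel condition. -/
theorem chartRed_of_kerCond
    (hR : ∀ r : ↥(GaloisRep.ratLocalizedAt ℓ),
      algebraMap ↥(GaloisRep.ratLocalizedAt ℓ) ↥(modularFunctionFieldFull N) r ∈ Ow)
    (hρR : ∀ r : ↥(GaloisRep.ratLocalizedAt ℓ),
      ρ ⟨algebraMap ↥(GaloisRep.ratLocalizedAt ℓ) ↥(modularFunctionFieldFull N) r, hR r⟩ =
        HahnSeries.C (RedZl.red ℓ r))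
    {S : Set ↥(modularFunctionFieldFull N)} (hS : ∀ s ∈ S, s ∈ Ow)
    (hker : KerCond Ow ρ S) : Defs.ChartRed N ℓ S := by
  have hle : ∀ x ∈ chartAlg N ℓ S, x ∈ Ow := fun x hx => chartAlg_le Ow hR hS hx
  refine ⟨ρ.comp (toOw Ow hle), ?_, ?_⟩
  · intro r
    rw [RingHom.comp_apply, ← hρR r]
    rfl
  · intro b hb
    rw [RingHom.comp_apply] at hb
    obtain ⟨y, hy, hxy⟩ := hker (b : ↥(modularFunctionFieldFull N)) b.2 (hle b.1 b.2) hb
    refine ⟨⟨y, hy⟩, Subtype.ext ?_⟩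
    rw [hxy]
    push_cast
    rfl

/-- **the middle chart from the finite chart**: the kernel condition for `{j, j⁻¹}` follows from
the one for `{j}`, because `j` is a unit of `Ow` and `j ^ n * x` lies in the finite chart. -/
theorem kerCond_mid (hj : jFull N ∈ Ow) (hker : KerCond Ow ρ {jFull N}) :
    KerCond Ow ρ {jFull N, (jFull N)⁻¹} := by
  intro x hx hxO hρx
  have hxmem : x ∈ chartAlg N ℓ (insert (jFull N)⁻¹ {jFull N}) := by
    rw [show insert (jFull N)⁻¹ ({jFull N} : Set ↥(modularFunctionFieldFull N)) =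
      {jFull N, (jFull N)⁻¹} from Set.pair_comm _ _]
    exact hx
  obtain ⟨n, hn⟩ := exists_pow_mul_mem_chartAlg (Set.mem_singleton _) (jFull_ne_zero N) hxmem
  have hnO : jFull N ^ n * x ∈ Ow := Ow.mul_mem _ _ (pow_mem hj n) hxO
  have hρ0 : ρ ⟨jFull N ^ n * x, hnO⟩ = 0 := by
    have : (⟨jFull N ^ n * x, hnO⟩ : ↥Ow) = ⟨jFull N, hj⟩ ^ n * ⟨x, hxO⟩ := rfl
    rw [this, map_mul, hρx, mul_zero]
  obtain ⟨y, hy, hxy⟩ := hker _ hn hnO hρ0
  have hj0 := jFull_ne_zero N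
  refine ⟨((jFull N)⁻¹) ^ n * y, ?_, ?_⟩
  · -- `(j⁻¹)^n * y` is in the middle chart
    have h1 : (jFull N)⁻¹ ∈ chartAlg N ℓ {jFull N, (jFull N)⁻¹} :=
      subset_chartAlg N ℓ _ (by simp)
    have h2 : y ∈ chartAlg N ℓ {jFull N, (jFull N)⁻¹} :=
      chartAlg_mono N ℓ (sFin_subset N) hy
    exact (chartAlg N ℓ {jFull N, (jFull N)⁻¹}).mul_mem
      ((chartAlg N ℓ {jFull N, (jFull N)⁻¹}).pow_mem h1 n) h2
  · have : x = ((jFull N)⁻¹) ^ n * (jFull N ^ n * x) := by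
      rw [← mul_assoc, ← mul_pow, inv_mul_cancel₀ hj0, one_pow, one_mul]
    rw [this, hxy]
    ring

/-- **(F-CK), part 2**: the three chart reductions from one residue map on `Ow` and the kernel
conditions of the two affine charts `{j}`, `{j⁻¹}`. -/
theorem chartRed_all
    (hR : ∀ r : ↥(GaloisRep.ratLocalizedAt ℓ),
      algebraMap ↥(GaloisRep.ratLocalizedAt ℓ) ↥(modularFunctionFieldFull N) r ∈ Ow)
    (hρR : ∀ r : ↥(GaloisRep.ratLocalizedAt ℓ),
      ρ ⟨algebraMap ↥(GaloisRep.ratLocalizedAt ℓ) ↥(modularFunctionFieldFull N) r, hR r⟩ =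
        HahnSeries.C (RedZl.red ℓ r))
    (hj : jFull N ∈ Ow) (hj' : (jFull N)⁻¹ ∈ Ow)
    (hFin : KerCond Ow ρ {jFull N}) (hInf : KerCond Ow ρ {(jFull N)⁻¹}) :
    Defs.ChartRed N ℓ {jFull N} ∧ Defs.ChartRed N ℓ {(jFull N)⁻¹} ∧
      Defs.ChartRed N ℓ {jFull N, (jFull N)⁻¹} := by
  refine ⟨chartRed_of_kerCond Ow ρ hR hρR ?_ hFin, chartRed_of_kerCond Ow ρ hR hρR ?_ hInf,
    chartRed_of_kerCond Ow ρ hR hρR ?_ (kerCond_mid Ow ρ hj hFin)⟩
  · rintro s rfl; exact hj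
  · rintro s rfl; exact hj'
  · rintro s (rfl | rfl)
    · exact hj
    · exact hj'

end Fermat.Agent.S28.ChartRedOf
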