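import Mathlib
import Fermat.Prelude.Def_ModularCurve_LaurentCoeff
import Fermat.Prelude.Def_GaloisRep_Flat

/-!
# S28 (Igusa), slice (II-a): the Gauss valuation ring of a field of Laurent series over `ℚ`

`Ol ℓ` is the subring of `ℚ((q))` of series with all coefficients in `ℤ_(ℓ)`; `red` is the
coefficientwise reduction `Ol ℓ → 𝔽_ℓ((q))`.  For an intermediate field `F` of `ℚ((q))/ℚ`, every
element of which is a quotient of elements of `F ∩ Ol ℓ`, the ring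
`Ow = {a / b : a, b ∈ F ∩ Ol ℓ, red b ≠ 0}` is a valuation subring of `F` with uniformiser `ℓ`, and
`red` extends to a ring hom `redw : Ow → 𝔽_ℓ((q))` with kernel `ℓ · Ow`.
-/

set_option autoImplicit false

noncomputable section

namespace Fermat.Agent.S28.GaussVal

open HahnSeries ModularCurve

variable (ℓ : ℕ) [Fact ℓ.Prime]

/-! ### `ℤ_(ℓ)` and its residue map -/

/-- `ℤ_(ℓ)` as a subring of `ℚ` (prelude). -/
abbrev Zl : Subring ℚ := GaloisRep.ratLocalizedAt ℓ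

theorem mem_Zl_iff {x : ℚ} : x ∈ Zl ℓ ↔ x.den.Coprime ℓ := Iff.rfl

theorem den_ne_zero_of_mem {x : ℚ} (hx : x ∈ Zl ℓ) : ((x.den : ℕ) : ZMod ℓ) ≠ 0 := by
  rw [Ne, ZMod.natCast_eq_zero_iff]
  intro h
  have hp : ℓ.Prime := Fact.out
  have h1 : ℓ ∣ Nat.gcd x.den ℓ := Nat.dvd_gcd h dvd_rfl
  rw [(mem_Zl_iff ℓ).mp hx] at h1
  exact hp.one_lt.ne' (Nat.dvd_one.mp h1)

theorem divInt_mem_Zl (a : ℤ) (b : ℕ) (hb : b.Coprime ℓ) : ((a : ℚ) / (b : ℚ)) ∈ Zl ℓ := by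
  rw [mem_Zl_iff]
  have e : (a : ℚ) / (b : ℚ) = Rat.divInt a (b : ℤ) := by
    rw [Rat.divInt_eq_div]
    push_cast
    rfl
  have h1 : (((a : ℚ) / (b : ℚ)).den : ℤ) ∣ (b : ℤ) := by
    rw [e]
    exact Rat.den_dvd a (b : ℤ)
  have h2 : ((a : ℚ) / (b : ℚ)).den ∣ b := by exact_mod_cast h1
  exact Nat.Coprime.coprime_dvd_left h2 hb

theorem intCast_mem_Zl (a : ℤ) : (a : ℚ) ∈ Zl ℓ := by
  rw [mem_Zl_iff]; simp

theorem natCast_mem_Zl (a : ℕ) : (a : ℚ) ∈ Zl ℓ := by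
  rw [mem_Zl_iff]; simp

/-- The residue map `ℤ_(ℓ) → 𝔽_ℓ`, `x ↦ (x : ZMod ℓ)` (the cast of a rational number). -/
def resid : ↥(Zl ℓ) →+* ZMod ℓ where
  toFun x := ((x : ℚ) : ZMod ℓ)
  map_one' := by simp
  map_mul' x y := Rat.cast_mul_of_ne_zero (den_ne_zero_of_mem ℓ x.2) (den_ne_zero_of_mem ℓ y.2)
  map_zero' := by simp
  map_add' x y := Rat.cast_add_of_ne_zero (den_ne_zero_of_mem ℓ x.2) (den_ne_zero_of_mem ℓ y.2)

@[simp] theorem resid_apply (x : ↥(Zl ℓ)) : resid ℓ x = ((x : ℚ) : ZMod ℓ) := rfl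

/-- The kernel of the residue map is `ℓ · ℤ_(ℓ)`. -/
theorem cast_eq_zero_iff {x : ℚ} (hx : x ∈ Zl ℓ) :
    ((x : ℚ) : ZMod ℓ) = 0 ↔ ∃ y ∈ Zl ℓ, x = (ℓ : ℚ) * y := by
  have hp : ℓ.Prime := Fact.out
  have hden := den_ne_zero_of_mem ℓ hx
  constructor
  · intro h
    rw [Rat.cast_def, div_eq_zero_iff] at h
    rcases h with h | h
    · rw [ZMod.intCast_zmod_eq_zero_iff_dvd] at h
      obtain ⟨k, hk⟩ := h
      refine ⟨(k : ℚ) / (x.den : ℚ), divInt_mem_Zl ℓ k x.den ((mem_Zl_iff ℓ).mp hx), ?_⟩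
      have hd : (x.den : ℚ) ≠ 0 := by exact_mod_cast x.den_ne_zero
      have hx' : x = (x.num : ℚ) / (x.den : ℚ) := (Rat.num_div_den x).symm
      have hk' : (x.num : ℚ) = (ℓ : ℚ) * (k : ℚ) := by exact_mod_cast hk
      conv_lhs => rw [hx']
      rw [hk']
      field_simp
    · exact absurd h hden
  · rintro ⟨y, hy, rfl⟩
    have h1 : (((ℓ : ℚ) * y : ℚ) : ZMod ℓ) = (((ℓ : ℚ) : ℚ) : ZMod ℓ) * ((y : ℚ) : ZMod ℓ) :=
      Rat.cast_mul_of_ne_zero (den_ne_zero_of_mem ℓ (natCast_mem_Zl ℓ ℓ))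
        (den_ne_zero_of_mem ℓ hy)
    rw [h1]
    simp

/-! ### Series with `ℓ`-integral coefficients and their reduction -/

/-- The inclusion `ℤ_(ℓ)((q)) → ℚ((q))`. -/
def incl : LaurentSeries ↥(Zl ℓ) →+* LaurentSeries ℚ := coeffMap (Zl ℓ).subtype

omit [Fact ℓ.Prime] in
theorem incl_coeff (f : LaurentSeries ↥(Zl ℓ)) (k : ℤ) : (incl ℓ f).coeff k = (f.coeff k : ℚ) :=
  rfl

omit [Fact ℓ.Prime] in
theorem incl_injective : Function.Injective (incl ℓ) := by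
  intro f g h
  ext k
  have := congrArg (fun x => x.coeff k) h
  simpa [incl_coeff] using this

/-- The subring of `ℚ((q))` of series with coefficients in `ℤ_(ℓ)`. -/
def Ol : Subring (LaurentSeries ℚ) := (incl ℓ).range

theorem mem_Ol_iff {f : LaurentSeries ℚ} : f ∈ Ol ℓ ↔ ∀ k, f.coeff k ∈ Zl ℓ := by
  constructor
  · rintro ⟨g, rfl⟩ k
    rw [incl_coeff]
    exact (g.coeff k).2
  · intro h
    refine ⟨⟨fun k => ⟨f.coeff k, h k⟩, f.isPWO_support.mono ?_⟩, ?_⟩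
    · intro k hk
      simp only [Function.mem_support, ne_eq] at hk
      simp only [HahnSeries.mem_support, ne_eq]
      intro h0
      exact hk (Subtype.ext (by simpa using h0))
    · ext k
      rfl

/-- The isomorphism `Ol ℓ ≃ ℤ_(ℓ)((q))`. -/
def liftEquiv : ↥(Ol ℓ) ≃+* LaurentSeries ↥(Zl ℓ) :=
  (RingEquiv.ofBijective (incl ℓ).rangeRestrict
    ⟨fun _ _ h => incl_injective ℓ (congrArg Subtype.val h),
      (incl ℓ).rangeRestrict_surjective⟩).symm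

theorem incl_liftEquiv (f : ↥(Ol ℓ)) : incl ℓ (liftEquiv ℓ f) = (f : LaurentSeries ℚ) := by
  have h := (RingEquiv.ofBijective (incl ℓ).rangeRestrict
    ⟨fun _ _ h => incl_injective ℓ (congrArg Subtype.val h),
      (incl ℓ).rangeRestrict_surjective⟩).apply_symm_apply f
  exact congrArg Subtype.val h

theorem liftEquiv_coeff (f : ↥(Ol ℓ)) (k : ℤ) :
    ((liftEquiv ℓ f).coeff k : ℚ) = (f : LaurentSeries ℚ).coeff k := by
  rw [← incl_coeff, incl_liftEquiv]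

/-- Coefficientwise reduction mod `ℓ`. -/
def red : ↥(Ol ℓ) →+* LaurentSeries (ZMod ℓ) :=
  (coeffMap (resid ℓ)).comp (liftEquiv ℓ).toRingHom

theorem red_coeff (f : ↥(Ol ℓ)) (k : ℤ) :
    (red ℓ f).coeff k = (((f : LaurentSeries ℚ).coeff k : ℚ) : ZMod ℓ) := by
  simp only [red, RingHom.comp_apply, RingEquiv.toRingHom_eq_coe, RingHom.coe_coe, coeffMap_coeff,
    resid_apply, liftEquiv_coeff]

/-- Constants: `algebraMap ℚ _ c ∈ Ol` for `c ∈ ℤ_(ℓ)`. -/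
theorem algebraMap_mem_Ol {c : ℚ} (hc : c ∈ Zl ℓ) : algebraMap ℚ (LaurentSeries ℚ) c ∈ Ol ℓ := by
  rw [mem_Ol_iff]
  intro k
  rw [algebraMap_laurentSeries_eq_single]
  by_cases hk : k = 0
  · subst hk
    rwa [HahnSeries.coeff_single_same]
  · rw [HahnSeries.coeff_single_of_ne hk]
    exact (Zl ℓ).zero_mem

theorem coeff_algebraMap_mul (c : ℚ) (f : LaurentSeries ℚ) (k : ℤ) :
    (algebraMap ℚ (LaurentSeries ℚ) c * f).coeff k = c * f.coeff k := by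
  rw [algebraMap_laurentSeries_eq_single, ← HahnSeries.C_apply, HahnSeries.C_mul_eq_smul]
  rfl

/-- `ℓ` as an element of `ℚ((q))`. -/
abbrev lL : LaurentSeries ℚ := algebraMap ℚ (LaurentSeries ℚ) (ℓ : ℚ)

theorem lL_ne_zero : lL ℓ ≠ 0 := by
  have hp : ℓ.Prime := Fact.out
  rw [Ne, map_eq_zero]
  exact_mod_cast hp.ne_zero

theorem lL_mem_Ol : lL ℓ ∈ Ol ℓ := algebraMap_mem_Ol ℓ (natCast_mem_Zl ℓ ℓ)

/-- The kernel of `red` is `ℓ · Ol`. -/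
theorem red_eq_zero_iff (f : ↥(Ol ℓ)) :
    red ℓ f = 0 ↔ ∃ g ∈ Ol ℓ, (f : LaurentSeries ℚ) = lL ℓ * g := by
  have hp : ℓ.Prime := Fact.out
  have hl0 : (ℓ : ℚ) ≠ 0 := by exact_mod_cast hp.ne_zero
  constructor
  · intro h
    have hk : ∀ k, ∃ y ∈ Zl ℓ, (f : LaurentSeries ℚ).coeff k = (ℓ : ℚ) * y := by
      intro k
      have h1 := congrArg (fun x => x.coeff k) h
      simp only [red_coeff, HahnSeries.coeff_zero] at h1
      exact (cast_eq_zero_iff ℓ ((mem_Ol_iff ℓ).mp f.2 k)).mp h1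
    refine ⟨algebraMap ℚ (LaurentSeries ℚ) ((ℓ : ℚ)⁻¹) * (f : LaurentSeries ℚ), ?_, ?_⟩
    · rw [mem_Ol_iff]
      intro k
      obtain ⟨y, hy, hyk⟩ := hk k
      rw [coeff_algebraMap_mul, hyk, ← mul_assoc, inv_mul_cancel₀ hl0, one_mul]
      exact hy
    · rw [← mul_assoc, ← map_mul, mul_inv_cancel₀ hl0, map_one, one_mul]
  · rintro ⟨g, hg, hfg⟩
    ext k
    rw [red_coeff, HahnSeries.coeff_zero, hfg, coeff_algebraMap_mul]
    exact (cast_eq_zero_iff ℓ ((Zl ℓ).mul_mem (natCast_mem_Zl ℓ ℓ) ((mem_Ol_iff ℓ).mp hg k))).mpr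
      ⟨_, (mem_Ol_iff ℓ).mp hg k, rfl⟩


/-! ### The total reduction function -/

open Classical in
/-- Reduction as a total function on `ℚ((q))` (junk value `0` outside `Ol`). -/
def redL (f : LaurentSeries ℚ) : LaurentSeries (ZMod ℓ) :=
  if h : f ∈ Ol ℓ then red ℓ ⟨f, h⟩ else 0

theorem redL_of_mem {f : LaurentSeries ℚ} (h : f ∈ Ol ℓ) : redL ℓ f = red ℓ ⟨f, h⟩ := by
  unfold redL
  rw [dif_pos h]

theorem redL_coeff {f : LaurentSeries ℚ} (h : f ∈ Ol ℓ) (k : ℤ) :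
    (redL ℓ f).coeff k = ((f.coeff k : ℚ) : ZMod ℓ) := by
  rw [redL_of_mem ℓ h, red_coeff]

theorem redL_mul {f g : LaurentSeries ℚ} (hf : f ∈ Ol ℓ) (hg : g ∈ Ol ℓ) :
    redL ℓ (f * g) = redL ℓ f * redL ℓ g := by
  rw [redL_of_mem ℓ hf, redL_of_mem ℓ hg, redL_of_mem ℓ ((Ol ℓ).mul_mem hf hg), ← map_mul]
  rfl

theorem redL_add {f g : LaurentSeries ℚ} (hf : f ∈ Ol ℓ) (hg : g ∈ Ol ℓ) :
    redL ℓ (f + g) = redL ℓ f + redL ℓ g := by
  rw [redL_of_mem ℓ hf, redL_of_mem ℓ hg, redL_of_mem ℓ ((Ol ℓ).add_mem hf hg), ← map_add]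
  rfl

theorem redL_neg {f : LaurentSeries ℚ} (hf : f ∈ Ol ℓ) : redL ℓ (-f) = -redL ℓ f := by
  rw [redL_of_mem ℓ hf, redL_of_mem ℓ ((Ol ℓ).neg_mem hf), ← map_neg]
  rfl

@[simp] theorem redL_one : redL ℓ 1 = 1 := by
  rw [redL_of_mem ℓ (Ol ℓ).one_mem]
  exact map_one (red ℓ)

@[simp] theorem redL_zero : redL ℓ 0 = 0 := by
  rw [redL_of_mem ℓ (Ol ℓ).zero_mem]
  exact map_zero (red ℓ)

theorem redL_pow {f : LaurentSeries ℚ} (hf : f ∈ Ol ℓ) (n : ℕ) :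
    redL ℓ (f ^ n) = redL ℓ f ^ n := by
  rw [redL_of_mem ℓ hf, redL_of_mem ℓ ((Ol ℓ).pow_mem hf n), ← map_pow]
  rfl

theorem redL_eq_zero_iff {f : LaurentSeries ℚ} (hf : f ∈ Ol ℓ) :
    redL ℓ f = 0 ↔ ∃ g ∈ Ol ℓ, f = lL ℓ * g := by
  rw [redL_of_mem ℓ hf, red_eq_zero_iff]

theorem redL_lL : redL ℓ (lL ℓ) = 0 :=
  (redL_eq_zero_iff ℓ (lL_mem_Ol ℓ)).mpr ⟨1, (Ol ℓ).one_mem, (mul_one _).symm⟩

theorem redL_lL_mul {g : LaurentSeries ℚ} (hg : g ∈ Ol ℓ) : redL ℓ (lL ℓ * g) = 0 := by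
  rw [redL_mul ℓ (lL_mem_Ol ℓ) hg, redL_lL, zero_mul]

/-- Reduction of integer constants. -/
theorem redL_intCast (a : ℤ) :
    redL ℓ (algebraMap ℚ (LaurentSeries ℚ) (a : ℚ)) = HahnSeries.C ((a : ZMod ℓ)) := by
  ext k
  rw [redL_coeff ℓ (algebraMap_mem_Ol ℓ (intCast_mem_Zl ℓ a)), algebraMap_laurentSeries_eq_single,
    HahnSeries.C_apply]
  by_cases hk : k = 0
  · subst hk
    simp
  · rw [HahnSeries.coeff_single_of_ne hk, HahnSeries.coeff_single_of_ne hk]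
    simp

/-! ### Stripping the `ℓ`-content -/

theorem padicValRat_nonneg_of_mem {x : ℚ} (hx : x ∈ Zl ℓ) : 0 ≤ padicValRat ℓ x := by
  have hp : ℓ.Prime := Fact.out
  have hnd : ¬ ℓ ∣ x.den := by
    intro h
    have h1 : ℓ ∣ Nat.gcd x.den ℓ := Nat.dvd_gcd h dvd_rfl
    rw [(mem_Zl_iff ℓ).mp hx] at h1
    exact hp.one_lt.ne' (Nat.dvd_one.mp h1)
  unfold padicValRat
  rw [padicValNat.eq_zero_of_not_dvd hnd]
  simp

theorem exists_pow_mul_aux (M : ℕ) : ∀ (f : LaurentSeries ℚ), f ∈ Ol ℓ → ∀ k : ℤ, f.coeff k ≠ 0 →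
    padicValRat ℓ (f.coeff k) ≤ M →
    ∃ (r : ℕ) (g : LaurentSeries ℚ), g ∈ Ol ℓ ∧ f = lL ℓ ^ r * g ∧ redL ℓ g ≠ 0 := by
  have hp : ℓ.Prime := Fact.out
  have hl0 : (ℓ : ℚ) ≠ 0 := by exact_mod_cast hp.ne_zero
  induction M with
  | zero =>
    intro f hf k hk hM
    by_cases hred : redL ℓ f = 0
    · exfalso
      obtain ⟨g, hg, hfg⟩ := (redL_eq_zero_iff ℓ hf).mp hred
      have hgk : g.coeff k ≠ 0 := by
        intro h0
        apply hk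
        rw [hfg, coeff_algebraMap_mul, h0, mul_zero]
      have h1 : padicValRat ℓ (f.coeff k) = 1 + padicValRat ℓ (g.coeff k) := by
        rw [hfg, coeff_algebraMap_mul, padicValRat.mul hl0 hgk, padicValRat.self hp.one_lt]
      have h2 := padicValRat_nonneg_of_mem ℓ ((mem_Ol_iff ℓ).mp hg k)
      simp only [Nat.cast_zero] at hM
      omega
    · exact ⟨0, f, hf, by rw [pow_zero, one_mul], hred⟩
  | succ M ih =>
    intro f hf k hk hM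
    by_cases hred : redL ℓ f = 0
    · obtain ⟨g, hg, hfg⟩ := (redL_eq_zero_iff ℓ hf).mp hred
      have hgk : g.coeff k ≠ 0 := by
        intro h0
        apply hk
        rw [hfg, coeff_algebraMap_mul, h0, mul_zero]
      have h1 : padicValRat ℓ (f.coeff k) = 1 + padicValRat ℓ (g.coeff k) := by
        rw [hfg, coeff_algebraMap_mul, padicValRat.mul hl0 hgk, padicValRat.self hp.one_lt]
      have h3 : padicValRat ℓ (g.coeff k) ≤ M := by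
        push_cast at hM
        omega
      obtain ⟨r, g', hg', hgg', hred'⟩ := ih g hg k hgk h3
      exact ⟨r + 1, g', hg', by rw [hfg, hgg', pow_succ]; ring, hred'⟩
    · exact ⟨0, f, hf, by rw [pow_zero, one_mul], hred⟩

/-- Every nonzero `f ∈ Ol` is `ℓ^r · g` with `g ∈ Ol` of nonzero reduction. -/
theorem exists_pow_mul {f : LaurentSeries ℚ} (hf : f ∈ Ol ℓ) (hf0 : f ≠ 0) :
    ∃ (r : ℕ) (g : LaurentSeries ℚ), g ∈ Ol ℓ ∧ f = lL ℓ ^ r * g ∧ redL ℓ g ≠ 0 := by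
  obtain ⟨k, hk⟩ : ∃ k, f.coeff k ≠ 0 := by
    by_contra h
    have h' : ∀ k, f.coeff k = 0 := fun k => by_contra fun hk => h ⟨k, hk⟩
    exact hf0 (HahnSeries.ext (funext h'))
  have h0 := padicValRat_nonneg_of_mem ℓ ((mem_Ol_iff ℓ).mp hf k)
  refine exists_pow_mul_aux ℓ (padicValRat ℓ (f.coeff k)).toNat f hf k hk ?_
  rw [Int.toNat_of_nonneg h0]


/-! ### The valuation ring `Ow` of a field `F ⊆ ℚ((q))` -/

section Field

variable (F : IntermediateField ℚ (LaurentSeries ℚ))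

/-- Every element of `F` is a quotient of `ℓ`-integral elements of `F`. -/
def IsRatio : Prop :=
  ∀ x ∈ F, ∃ a b : LaurentSeries ℚ, a ∈ F ∧ a ∈ Ol ℓ ∧ b ∈ F ∧ b ∈ Ol ℓ ∧ b ≠ 0 ∧ x * b = a

/-- `x = a / b` with `a, b ∈ F ∩ Ol` and `b` of nonzero reduction. -/
def InOw (x : LaurentSeries ℚ) : Prop :=
  ∃ a b : LaurentSeries ℚ, a ∈ F ∧ a ∈ Ol ℓ ∧ b ∈ F ∧ b ∈ Ol ℓ ∧ redL ℓ b ≠ 0 ∧ x * b = a

omit [Fact ℓ.Prime] in
theorem lL_mem_F : lL ℓ ∈ F := F.algebraMap_mem _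

variable {ℓ F}

theorem ne_zero_of_redL_ne_zero {b : LaurentSeries ℚ} (hb : redL ℓ b ≠ 0) : b ≠ 0 := by
  rintro rfl
  exact hb (redL_zero ℓ)

theorem inOw_of_mem {x : LaurentSeries ℚ} (hxF : x ∈ F) (hx : x ∈ Ol ℓ) : InOw ℓ F x :=
  ⟨x, 1, hxF, hx, F.one_mem, (Ol ℓ).one_mem, by rw [redL_one]; exact one_ne_zero, mul_one x⟩

theorem inOw_zero : InOw ℓ F 0 := inOw_of_mem F.zero_mem (Ol ℓ).zero_mem

theorem inOw_one : InOw ℓ F 1 := inOw_of_mem F.one_mem (Ol ℓ).one_mem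

theorem InOw.add {x y : LaurentSeries ℚ} (hx : InOw ℓ F x) (hy : InOw ℓ F y) :
    InOw ℓ F (x + y) := by
  obtain ⟨a, b, haF, ha, hbF, hb, hrb, hab⟩ := hx
  obtain ⟨c, d, hcF, hc, hdF, hd, hrd, hcd⟩ := hy
  refine ⟨a * d + c * b, b * d, F.add_mem (F.mul_mem haF hdF) (F.mul_mem hcF hbF),
    (Ol ℓ).add_mem ((Ol ℓ).mul_mem ha hd) ((Ol ℓ).mul_mem hc hb), F.mul_mem hbF hdF,
    (Ol ℓ).mul_mem hb hd, ?_, ?_⟩
  · rw [redL_mul ℓ hb hd]
    exact mul_ne_zero hrb hrd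
  · rw [← hab, ← hcd]
    ring

theorem InOw.mul {x y : LaurentSeries ℚ} (hx : InOw ℓ F x) (hy : InOw ℓ F y) :
    InOw ℓ F (x * y) := by
  obtain ⟨a, b, haF, ha, hbF, hb, hrb, hab⟩ := hx
  obtain ⟨c, d, hcF, hc, hdF, hd, hrd, hcd⟩ := hy
  refine ⟨a * c, b * d, F.mul_mem haF hcF, (Ol ℓ).mul_mem ha hc, F.mul_mem hbF hdF,
    (Ol ℓ).mul_mem hb hd, ?_, ?_⟩
  · rw [redL_mul ℓ hb hd]
    exact mul_ne_zero hrb hrd
  · rw [← hab, ← hcd]
    ring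

theorem InOw.neg {x : LaurentSeries ℚ} (hx : InOw ℓ F x) : InOw ℓ F (-x) := by
  obtain ⟨a, b, haF, ha, hbF, hb, hrb, hab⟩ := hx
  exact ⟨-a, b, F.neg_mem haF, (Ol ℓ).neg_mem ha, hbF, hb, hrb, by rw [← hab]; ring⟩

theorem InOw.mem {x : LaurentSeries ℚ} (hx : InOw ℓ F x) : x ∈ F := by
  obtain ⟨a, b, haF, ha, hbF, hb, hrb, hab⟩ := hx
  have hb0 := ne_zero_of_redL_ne_zero hrb
  have : x = a * b⁻¹ := by
    rw [← hab, mul_assoc, mul_inv_cancel₀ hb0, mul_one]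
  rw [this]
  exact F.mul_mem haF (F.inv_mem hbF)

theorem lL_pow_mem_Ol (r : ℕ) : lL ℓ ^ r ∈ Ol ℓ := (Ol ℓ).pow_mem (lL_mem_Ol ℓ) r

/-- Division of an element of `F` by a power of `ℓ` stays in `F`. -/
theorem mem_F_of_pow_mul {a g : LaurentSeries ℚ} {r : ℕ} (haF : a ∈ F) (h : a = lL ℓ ^ r * g) :
    g ∈ F := by
  have h0 : lL ℓ ^ r ≠ 0 := pow_ne_zero r (lL_ne_zero ℓ)
  have : g = (lL ℓ ^ r)⁻¹ * a := by
    rw [h, ← mul_assoc, inv_mul_cancel₀ h0, one_mul]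
  rw [this]
  exact F.mul_mem (F.inv_mem (F.pow_mem (lL_mem_F ℓ F) r)) haF

/-- **Gauss decomposition**: every nonzero `x ∈ F` is `ℓ^r u / ℓ^s` with `u` a unit of `Ow`
(`u = a'/b'`, both of nonzero reduction). -/
theorem exists_decomp (hF : IsRatio ℓ F) {x : LaurentSeries ℚ} (hx : x ∈ F) (hx0 : x ≠ 0) :
    ∃ (r s : ℕ) (a' b' : LaurentSeries ℚ), a' ∈ F ∧ a' ∈ Ol ℓ ∧ b' ∈ F ∧ b' ∈ Ol ℓ ∧
      redL ℓ a' ≠ 0 ∧ redL ℓ b' ≠ 0 ∧ x * (lL ℓ ^ s * b') = lL ℓ ^ r * a' := by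
  obtain ⟨a, b, haF, ha, hbF, hb, hb0, hab⟩ := hF x hx
  have ha0 : a ≠ 0 := by
    rw [← hab]
    exact mul_ne_zero hx0 hb0
  obtain ⟨r, a', ha', haa', hra'⟩ := exists_pow_mul ℓ ha ha0
  obtain ⟨s, b', hb', hbb', hrb'⟩ := exists_pow_mul ℓ hb hb0
  exact ⟨r, s, a', b', mem_F_of_pow_mul haF haa', ha', mem_F_of_pow_mul hbF hbb', hb', hra', hrb',
    by rw [← haa', ← hbb', hab]⟩

/-- `Ow` is a valuation ring of `F`. -/
theorem inOw_or_inv (hF : IsRatio ℓ F) {x : LaurentSeries ℚ} (hx : x ∈ F) :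
    InOw ℓ F x ∨ InOw ℓ F x⁻¹ := by
  by_cases hx0 : x = 0
  · left
    rw [hx0]
    exact inOw_zero
  obtain ⟨r, s, a', b', ha'F, ha', hb'F, hb', hra', hrb', h⟩ := exists_decomp hF hx hx0
  have hl0 : lL ℓ ≠ 0 := lL_ne_zero ℓ
  rcases le_total s r with hsr | hrs
  · left
    obtain ⟨t, rfl⟩ := Nat.exists_eq_add_of_le hsr
    refine ⟨lL ℓ ^ t * a', b', F.mul_mem (F.pow_mem (lL_mem_F ℓ F) t) ha'F,
      (Ol ℓ).mul_mem (lL_pow_mem_Ol t) ha', hb'F, hb', hrb', ?_⟩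
    have hs0 : lL ℓ ^ s ≠ 0 := pow_ne_zero s hl0
    apply mul_left_cancel₀ hs0
    rw [← mul_assoc, mul_comm (lL ℓ ^ s) x, mul_assoc, h, _root_.pow_add]
    ring
  · right
    obtain ⟨t, rfl⟩ := Nat.exists_eq_add_of_le hrs
    refine ⟨lL ℓ ^ t * b', a', F.mul_mem (F.pow_mem (lL_mem_F ℓ F) t) hb'F,
      (Ol ℓ).mul_mem (lL_pow_mem_Ol t) hb', ha'F, ha', hra', ?_⟩
    have hr0 : lL ℓ ^ r ≠ 0 := pow_ne_zero r hl0
    apply mul_left_cancel₀ hr0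
    apply mul_left_cancel₀ hx0
    rw [← mul_assoc, ← mul_assoc, mul_comm x, mul_assoc (lL ℓ ^ r), mul_inv_cancel₀ hx0, mul_one,
      ← h, _root_.pow_add]
    ring

/-! ### The reduction map on `Ow` -/

open Classical in
/-- Reduction as a total function: `a / b ↦ red a / red b` (junk value `0` outside `Ow`). -/
def redwL (ℓ : ℕ) [Fact ℓ.Prime] (F : IntermediateField ℚ (LaurentSeries ℚ))
    (x : LaurentSeries ℚ) : LaurentSeries (ZMod ℓ) :=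
  if h : InOw ℓ F x then redL ℓ h.choose / redL ℓ h.choose_spec.choose else 0

theorem redL_div_eq {x a b a0 b0 : LaurentSeries ℚ} (ha : a ∈ Ol ℓ) (hb : b ∈ Ol ℓ)
    (ha0 : a0 ∈ Ol ℓ) (hb0 : b0 ∈ Ol ℓ) (hrb : redL ℓ b ≠ 0) (hrb0 : redL ℓ b0 ≠ 0)
    (hab : x * b = a) (hab0 : x * b0 = a0) :
    redL ℓ a0 / redL ℓ b0 = redL ℓ a / redL ℓ b := by
  rw [div_eq_div_iff hrb0 hrb, ← redL_mul ℓ ha0 hb, ← redL_mul ℓ ha hb0]
  congr 1
  rw [← hab0, ← hab]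
  ring

theorem redwL_eq {x a b : LaurentSeries ℚ} (ha : a ∈ Ol ℓ) (hb : b ∈ Ol ℓ) (haF : a ∈ F)
    (hbF : b ∈ F) (hrb : redL ℓ b ≠ 0) (hab : x * b = a) :
    redwL ℓ F x = redL ℓ a / redL ℓ b := by
  have hx : InOw ℓ F x := ⟨a, b, haF, ha, hbF, hb, hrb, hab⟩
  unfold redwL
  rw [dif_pos hx]
  obtain ⟨-, ha0, -, hb0, hrb0, hab0⟩ := hx.choose_spec.choose_spec
  exact redL_div_eq ha hb ha0 hb0 hrb hrb0 hab hab0

theorem redwL_of_mem {x : LaurentSeries ℚ} (hxF : x ∈ F) (hx : x ∈ Ol ℓ) :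
    redwL ℓ F x = redL ℓ x := by
  rw [redwL_eq hx (Ol ℓ).one_mem hxF F.one_mem (by rw [redL_one]; exact one_ne_zero) (mul_one x),
    redL_one, div_one]

theorem redwL_add {x y : LaurentSeries ℚ} (hx : InOw ℓ F x) (hy : InOw ℓ F y) :
    redwL ℓ F (x + y) = redwL ℓ F x + redwL ℓ F y := by
  obtain ⟨a, b, haF, ha, hbF, hb, hrb, hab⟩ := hx
  obtain ⟨c, d, hcF, hc, hdF, hd, hrd, hcd⟩ := hy
  rw [redwL_eq ha hb haF hbF hrb hab, redwL_eq hc hd hcF hdF hrd hcd,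
    redwL_eq (a := a * d + c * b) (b := b * d)
      ((Ol ℓ).add_mem ((Ol ℓ).mul_mem ha hd) ((Ol ℓ).mul_mem hc hb)) ((Ol ℓ).mul_mem hb hd)
      (F.add_mem (F.mul_mem haF hdF) (F.mul_mem hcF hbF)) (F.mul_mem hbF hdF)
      (by rw [redL_mul ℓ hb hd]; exact mul_ne_zero hrb hrd) (by rw [← hab, ← hcd]; ring),
    redL_add ℓ ((Ol ℓ).mul_mem ha hd) ((Ol ℓ).mul_mem hc hb), redL_mul ℓ ha hd, redL_mul ℓ hc hb,
    redL_mul ℓ hb hd, div_add_div _ _ hrb hrd]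
  ring

theorem redwL_mul {x y : LaurentSeries ℚ} (hx : InOw ℓ F x) (hy : InOw ℓ F y) :
    redwL ℓ F (x * y) = redwL ℓ F x * redwL ℓ F y := by
  obtain ⟨a, b, haF, ha, hbF, hb, hrb, hab⟩ := hx
  obtain ⟨c, d, hcF, hc, hdF, hd, hrd, hcd⟩ := hy
  rw [redwL_eq ha hb haF hbF hrb hab, redwL_eq hc hd hcF hdF hrd hcd,
    redwL_eq (a := a * c) (b := b * d) ((Ol ℓ).mul_mem ha hc) ((Ol ℓ).mul_mem hb hd)
      (F.mul_mem haF hcF) (F.mul_mem hbF hdF)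
      (by rw [redL_mul ℓ hb hd]; exact mul_ne_zero hrb hrd) (by rw [← hab, ← hcd]; ring),
    redL_mul ℓ ha hc, redL_mul ℓ hb hd, div_mul_div_comm]

theorem redwL_one : redwL ℓ F 1 = 1 := by
  rw [redwL_of_mem F.one_mem (Ol ℓ).one_mem, redL_one]

theorem redwL_zero : redwL ℓ F 0 = 0 := by
  rw [redwL_of_mem F.zero_mem (Ol ℓ).zero_mem, redL_zero]

/-- The kernel of the reduction on `Ow` is `ℓ · Ow`. -/
theorem redwL_eq_zero_iff {x : LaurentSeries ℚ} (hx : InOw ℓ F x) :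
    redwL ℓ F x = 0 ↔ ∃ y, InOw ℓ F y ∧ x = lL ℓ * y := by
  obtain ⟨a, b, haF, ha, hbF, hb, hrb, hab⟩ := hx
  have hl0 : lL ℓ ≠ 0 := lL_ne_zero ℓ
  constructor
  · intro h
    rw [redwL_eq ha hb haF hbF hrb hab, div_eq_zero_iff] at h
    rcases h with h | h
    · obtain ⟨a', ha', haa'⟩ := (redL_eq_zero_iff ℓ ha).mp h
      have ha'F : a' ∈ F := mem_F_of_pow_mul (r := 1) haF (by rw [pow_one]; exact haa')
      refine ⟨(lL ℓ)⁻¹ * x, ⟨a', b, ha'F, ha', hbF, hb, hrb, ?_⟩, ?_⟩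
      · rw [mul_assoc, hab, haa', ← mul_assoc, inv_mul_cancel₀ hl0, one_mul]
      · rw [← mul_assoc, mul_inv_cancel₀ hl0, one_mul]
    · exact absurd h hrb
  · rintro ⟨y, ⟨c, d, hcF, hc, hdF, hd, hrd, hcd⟩, rfl⟩
    rw [redwL_eq (a := lL ℓ * c) (b := d) ((Ol ℓ).mul_mem (lL_mem_Ol ℓ) hc) hd
      (F.mul_mem (lL_mem_F ℓ F) hcF) hdF hrd (by rw [← hcd]; ring), redL_lL_mul ℓ hc, zero_div]

/-- Elements of `Ow` with nonzero reduction are units. -/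
theorem inOw_inv_of_redwL_ne_zero {x : LaurentSeries ℚ} (hx : InOw ℓ F x)
    (hr : redwL ℓ F x ≠ 0) : InOw ℓ F x⁻¹ := by
  obtain ⟨a, b, haF, ha, hbF, hb, hrb, hab⟩ := hx
  rw [redwL_eq ha hb haF hbF hrb hab] at hr
  have hra : redL ℓ a ≠ 0 := fun h => hr (by rw [h, zero_div])
  have ha0 := ne_zero_of_redL_ne_zero hra
  have hx0 : x ≠ 0 := by
    rintro rfl
    exact ha0 (by rw [← hab, zero_mul])
  refine ⟨b, a, hbF, hb, haF, ha, hra, ?_⟩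
  rw [← hab, ← mul_assoc, inv_mul_cancel₀ hx0, one_mul]

/-! ### Packaging: `Ow` as a `ValuationSubring` and `redw` as a ring hom -/

variable (hF : IsRatio ℓ F)

/-- The Gauss valuation subring of `F`. -/
def Ow (hF : IsRatio ℓ F) : ValuationSubring ↥F where
  carrier := {x | InOw ℓ F (x : LaurentSeries ℚ)}
  mul_mem' := fun {x y} hx hy => by
    show InOw ℓ F ((x * y : ↥F) : LaurentSeries ℚ)
    rw [MulMemClass.coe_mul]
    exact InOw.mul hx hy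
  one_mem' := by
    show InOw ℓ F ((1 : ↥F) : LaurentSeries ℚ)
    rw [OneMemClass.coe_one]
    exact inOw_one
  add_mem' := fun {x y} hx hy => by
    show InOw ℓ F ((x + y : ↥F) : LaurentSeries ℚ)
    rw [AddMemClass.coe_add]
    exact InOw.add hx hy
  zero_mem' := by
    show InOw ℓ F ((0 : ↥F) : LaurentSeries ℚ)
    rw [ZeroMemClass.coe_zero]
    exact inOw_zero
  neg_mem' := fun {x} hx => by
    show InOw ℓ F ((-x : ↥F) : LaurentSeries ℚ)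
    rw [NegMemClass.coe_neg]
    exact InOw.neg hx
  mem_or_inv_mem' := fun x => by
    have h := inOw_or_inv hF x.2
    rcases h with h | h
    · exact Or.inl h
    · refine Or.inr ?_
      show InOw ℓ F ((x⁻¹ : ↥F) : LaurentSeries ℚ)
      rw [IntermediateField.coe_inv]
      exact h

theorem mem_Ow_iff {x : ↥F} : x ∈ Ow hF ↔ InOw ℓ F (x : LaurentSeries ℚ) := Iff.rfl

/-- The reduction map `Ow → 𝔽_ℓ((q))`. -/
def redw (hF : IsRatio ℓ F) : ↥(Ow hF) →+* LaurentSeries (ZMod ℓ) where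
  toFun x := redwL ℓ F ((x : ↥F) : LaurentSeries ℚ)
  map_one' := redwL_one
  map_mul' x y := redwL_mul x.2 y.2
  map_zero' := redwL_zero
  map_add' x y := redwL_add x.2 y.2

theorem redw_apply (x : ↥(Ow hF)) : redw hF x = redwL ℓ F ((x : ↥F) : LaurentSeries ℚ) := rfl

/-- Elements of `F` with `ℓ`-integral coefficients lie in `Ow`. -/
theorem mem_Ow_of_mem_Ol {x : ↥F} (hx : (x : LaurentSeries ℚ) ∈ Ol ℓ) : x ∈ Ow hF :=
  inOw_of_mem x.2 hx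

/-- On elements with `ℓ`-integral coefficients, `redw` is the coefficientwise reduction. -/
theorem redw_of_mem_Ol {x : ↥F} (hx : (x : LaurentSeries ℚ) ∈ Ol ℓ) :
    redw hF ⟨x, mem_Ow_of_mem_Ol hF hx⟩ = red ℓ ⟨(x : LaurentSeries ℚ), hx⟩ := by
  rw [redw_apply, redwL_of_mem x.2 hx, redL_of_mem ℓ hx]

theorem redw_coeff_of_mem_Ol {x : ↥F} (hx : (x : LaurentSeries ℚ) ∈ Ol ℓ) (k : ℤ) :
    (redw hF ⟨x, mem_Ow_of_mem_Ol hF hx⟩).coeff k =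
      (((x : LaurentSeries ℚ).coeff k : ℚ) : ZMod ℓ) := by
  rw [redw_of_mem_Ol hF hx, red_coeff]

/-- The kernel of `redw` is `ℓ · Ow` (any spelling `l` of the element `ℓ` of `F`). -/
theorem redw_eq_zero_iff' (l : ↥F) (hl : (l : LaurentSeries ℚ) = lL ℓ) (z : ↥(Ow hF)) :
    redw hF z = 0 ↔ ∃ y ∈ Ow hF, (z : ↥F) = l * y := by
  rw [redw_apply, redwL_eq_zero_iff z.2]
  constructor
  · rintro ⟨y, hy, hzy⟩
    refine ⟨⟨y, hy.mem⟩, hy, Subtype.ext ?_⟩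
    rw [MulMemClass.coe_mul, hl]
    exact hzy
  · rintro ⟨y, hy, hzy⟩
    refine ⟨(y : LaurentSeries ℚ), hy, ?_⟩
    rw [hzy, MulMemClass.coe_mul, hl]

omit [Fact ℓ.Prime] in
theorem coe_natCast_eq_lL : (((ℓ : ℕ) : ↥F) : LaurentSeries ℚ) = lL ℓ := by
  rw [lL, map_natCast]
  exact_mod_cast rfl

theorem redw_eq_zero_iff (z : ↥(Ow hF)) :
    redw hF z = 0 ↔ ∃ y ∈ Ow hF, (z : ↥F) = ((ℓ : ℕ) : ↥F) * y :=
  redw_eq_zero_iff' hF _ coe_natCast_eq_lL z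

/-- Elements of `Ow` with nonzero reduction are units of `Ow`. -/
theorem inv_mem_of_redw_ne_zero (z : ↥(Ow hF)) (hz : redw hF z ≠ 0) : ((z : ↥F))⁻¹ ∈ Ow hF := by
  show InOw ℓ F (((z : ↥F)⁻¹ : ↥F) : LaurentSeries ℚ)
  rw [IntermediateField.coe_inv]
  exact inOw_inv_of_redwL_ne_zero z.2 hz

/-! ### Constants -/

omit [Fact ℓ.Prime] in
/-- Whatever `ℚ`-algebra structure is found on `↥F`, its `algebraMap` is the rational cast. -/
theorem coe_algebraMap_F [inst : Algebra ℚ ↥F] (c : ℚ) :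
    ((@algebraMap ℚ ↥F _ _ inst c : ↥F) : LaurentSeries ℚ) =
      algebraMap ℚ (LaurentSeries ℚ) c := by
  rw [eq_ratCast, eq_ratCast]
  rfl

theorem coe_algebraMap_mem_Ol [inst : Algebra ℚ ↥F] {c : ℚ} (hc : c ∈ Zl ℓ) :
    ((@algebraMap ℚ ↥F _ _ inst c : ↥F) : LaurentSeries ℚ) ∈ Ol ℓ := by
  rw [coe_algebraMap_F]
  exact algebraMap_mem_Ol ℓ hc

theorem algebraMap_mem_Ow [inst : Algebra ℚ ↥F] {c : ℚ} (hc : c ∈ Zl ℓ) :
    @algebraMap ℚ ↥F _ _ inst c ∈ Ow hF :=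
  mem_Ow_of_mem_Ol hF (coe_algebraMap_mem_Ol hc)

/-- `redw` of a constant `c ∈ ℤ_(ℓ)` is the constant series `C (c mod ℓ)`. -/
theorem redw_algebraMap [inst : Algebra ℚ ↥F] {c : ℚ} (hc : c ∈ Zl ℓ) :
    redw hF ⟨@algebraMap ℚ ↥F _ _ inst c, algebraMap_mem_Ow hF hc⟩ =
      HahnSeries.C ((c : ℚ) : ZMod ℓ) := by
  ext k
  rw [redw_coeff_of_mem_Ol hF (x := @algebraMap ℚ ↥F _ _ inst c) (coe_algebraMap_mem_Ol hc) k,
    coe_algebraMap_F, algebraMap_laurentSeries_eq_single, HahnSeries.C_apply]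
  by_cases hk : k = 0
  · subst hk
    rw [HahnSeries.coeff_single_same, HahnSeries.coeff_single_same]
  · rw [HahnSeries.coeff_single_of_ne hk, HahnSeries.coeff_single_of_ne hk, Rat.cast_zero]

end Field

/-! ### Fields generated by `ℓ`-integral series are fields of ratios -/

section Adjoin

variable {ℓ}

omit [Fact ℓ.Prime] in
theorem natCast_mem_Ol (m : ℕ) : ((m : ℕ) : LaurentSeries ℚ) ∈ Ol ℓ := natCast_mem (Ol ℓ) m

/-- Every element of the `ℚ`-algebra generated by `ℓ`-integral series has an `ℓ`-integral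
positive integer multiple. -/
theorem exists_nat_mul_mem_Ol {G : Set (LaurentSeries ℚ)} (hG : G ⊆ (Ol ℓ : Set (LaurentSeries ℚ)))
    {r : LaurentSeries ℚ} (hr : r ∈ Algebra.adjoin ℚ G) :
    ∃ m : ℕ, m ≠ 0 ∧ ((m : ℕ) : LaurentSeries ℚ) * r ∈ Ol ℓ := by
  induction hr using Algebra.adjoin_induction with
  | mem x hx => exact ⟨1, one_ne_zero, by rw [Nat.cast_one, one_mul]; exact hG hx⟩
  | algebraMap c =>
    refine ⟨c.den, c.den_ne_zero, ?_⟩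
    have h : ((c.den : ℕ) : LaurentSeries ℚ) * algebraMap ℚ (LaurentSeries ℚ) c =
        algebraMap ℚ (LaurentSeries ℚ) ((c.num : ℤ) : ℚ) := by
      rw [← map_natCast (algebraMap ℚ (LaurentSeries ℚ)), ← map_mul]
      congr 1
      rw [mul_comm]
      exact Rat.mul_den_eq_num c
    rw [h]
    exact algebraMap_mem_Ol ℓ (intCast_mem_Zl ℓ c.num)
  | add x y _ _ hx hy =>
    obtain ⟨m, hm, hmx⟩ := hx
    obtain ⟨n, hn, hny⟩ := hy
    refine ⟨m * n, mul_ne_zero hm hn, ?_⟩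
    have h : ((m * n : ℕ) : LaurentSeries ℚ) * (x + y) =
        (n : LaurentSeries ℚ) * ((m : LaurentSeries ℚ) * x) +
          (m : LaurentSeries ℚ) * ((n : LaurentSeries ℚ) * y) := by
      push_cast
      ring
    rw [h]
    exact (Ol ℓ).add_mem ((Ol ℓ).mul_mem (natCast_mem_Ol n) hmx)
      ((Ol ℓ).mul_mem (natCast_mem_Ol m) hny)
  | mul x y _ _ hx hy =>
    obtain ⟨m, hm, hmx⟩ := hx
    obtain ⟨n, hn, hny⟩ := hy
    refine ⟨m * n, mul_ne_zero hm hn, ?_⟩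
    have h : ((m * n : ℕ) : LaurentSeries ℚ) * (x * y) =
        ((m : LaurentSeries ℚ) * x) * ((n : LaurentSeries ℚ) * y) := by
      push_cast
      ring
    rw [h]
    exact (Ol ℓ).mul_mem hmx hny

theorem natCast_ne_zero_LS {m : ℕ} (hm : m ≠ 0) : ((m : ℕ) : LaurentSeries ℚ) ≠ 0 := by
  rw [← map_natCast (algebraMap ℚ (LaurentSeries ℚ))]
  exact (map_ne_zero _).mpr (Nat.cast_ne_zero.mpr hm)

/-- A subfield of `ℚ((q))` generated over `ℚ` by `ℓ`-integral series consists of quotients of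
`ℓ`-integral elements. -/
theorem isRatio_adjoin {G : Set (LaurentSeries ℚ)} (hG : G ⊆ (Ol ℓ : Set (LaurentSeries ℚ))) :
    IsRatio ℓ (IntermediateField.adjoin ℚ G) := by
  intro x hx
  rw [IntermediateField.mem_adjoin_iff_div] at hx
  obtain ⟨r, hr, s, hs, rfl⟩ := hx
  set F := IntermediateField.adjoin ℚ G with hFdef
  by_cases hs0 : s = 0
  · exact ⟨0, 1, F.zero_mem, (Ol ℓ).zero_mem, F.one_mem, (Ol ℓ).one_mem, one_ne_zero,
      by rw [hs0, div_zero, zero_mul]⟩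
  have hrF : r ∈ F := IntermediateField.algebra_adjoin_le_adjoin ℚ G hr
  have hsF : s ∈ F := IntermediateField.algebra_adjoin_le_adjoin ℚ G hs
  obtain ⟨m, hm, hmr⟩ := exists_nat_mul_mem_Ol hG hr
  obtain ⟨n, hn, hns⟩ := exists_nat_mul_mem_Ol hG hs
  have hmF : ((m : ℕ) : LaurentSeries ℚ) ∈ F := natCast_mem F m
  have hnF : ((n : ℕ) : LaurentSeries ℚ) ∈ F := natCast_mem F n
  refine ⟨(n : LaurentSeries ℚ) * ((m : LaurentSeries ℚ) * r),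
    (m : LaurentSeries ℚ) * ((n : LaurentSeries ℚ) * s),
    F.mul_mem hnF (F.mul_mem hmF hrF), (Ol ℓ).mul_mem (natCast_mem_Ol n) hmr,
    F.mul_mem hmF (F.mul_mem hnF hsF), (Ol ℓ).mul_mem (natCast_mem_Ol m) hns,
    mul_ne_zero (natCast_ne_zero_LS hm) (mul_ne_zero (natCast_ne_zero_LS hn) hs0), ?_⟩
  field_simp

end Adjoin

end Fermat.Agent.S28.GaussVal

end
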