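/-
S28 (Igusa), slice (F-CK): the chart reductions `Defs.ChartRed N ℓ S` for the three charts.

Concrete part: the Gauss valuation ring of `F = ℚ(j(q^d) : d ∣ N)` (from `S28/GaussVal`), its
residue map, and the kernel conditions of the two affine charts from the master theorem of
`S28/SaturationLift`.
-/
import Fermat.Agent.S28.ChartKernelGen
import Fermat.Agent.S28.ChartRedOf
import Fermat.Agent.S28.GaussVal
import Fermat.Agent.S28.DegreeQ
import Fermat.Agent.S28.ThetaAdjoin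
import Fermat.Agent.S28.ChartBase
import Fermat.Agent.S28.SaturationLift

set_option autoImplicit false
set_option linter.unusedSectionVars false
set_option linter.style.haveILetI false

noncomputable section

namespace Fermat.Agent.S28.ChartKernel

open ModularCurve ModularCurve.IgusaScheme Fermat.Agent.S28.Saturation
  Fermat.Agent.S28.SaturationLift Fermat.Agent.S28.GaussVal

variable (N : ℕ) [NeZero N] (ℓ : ℕ) [Fact ℓ.Prime]

/-! ### The Gauss valuation ring of the full function field -/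

/-- `j(q^d)` over `ℤ_(ℓ)`. -/
def jdZl (d : ℕ) [NeZero d] : LaurentSeries ↥(Zl ℓ) := qExpand ↥(Zl ℓ) d (jqModC ↥(Zl ℓ))

omit [Fact ℓ.Prime] in
theorem incl_jdZl (d : ℕ) [NeZero d] : incl ℓ (jdZl ℓ d) = qExpand ℚ d jq := by
  rw [incl, jdZl, coeffMap_qExpand, coeffMap_jqModC, jqModC_rat]

theorem coeffMap_resid_jdZl (d : ℕ) [NeZero d] :
    coeffMap (resid ℓ) (jdZl ℓ d) = qExpand (ZMod ℓ) d (jqModC (ZMod ℓ)) := by
  rw [jdZl, coeffMap_qExpand, coeffMap_jqModC]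

omit [Fact ℓ.Prime] in
theorem qExpand_jq_mem_Ol (d : ℕ) [NeZero d] : qExpand ℚ d jq ∈ Ol ℓ :=
  ⟨jdZl ℓ d, incl_jdZl ℓ d⟩

omit [Fact ℓ.Prime] [NeZero N] in
theorem divisorExpansions_subset_Ol :
    divisorExpansions N ⊆ (Ol ℓ : Set (LaurentSeries ℚ)) := by
  rintro x ⟨d, hd, -, rfl⟩
  exact qExpand_jq_mem_Ol ℓ d

omit [NeZero N] in
theorem isRatio_full : IsRatio ℓ (modularFunctionFieldFull N) :=
  isRatio_adjoin (divisorExpansions_subset_Ol N ℓ)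

/-- The Gauss valuation ring of `F = ℚ(j(q^d) : d ∣ N)`. -/
abbrev OwFull : ValuationSubring ↥(modularFunctionFieldFull N) := Ow (isRatio_full N ℓ)

/-- The residue map of the Gauss valuation ring. -/
abbrev redwFull : ↥(OwFull N ℓ) →+* LaurentSeries (ZMod ℓ) := redw (isRatio_full N ℓ)

/-- `red` of a series coming from `ℤ_(ℓ)((q))`. -/
theorem red_incl (y : LaurentSeries ↥(Zl ℓ)) (h : incl ℓ y ∈ Ol ℓ) :
    red ℓ ⟨incl ℓ y, h⟩ = coeffMap (resid ℓ) y := by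
  have : liftEquiv ℓ ⟨incl ℓ y, h⟩ = y :=
    incl_injective ℓ (incl_liftEquiv ℓ ⟨incl ℓ y, h⟩)
  simp only [red, RingHom.comp_apply, RingEquiv.toRingHom_eq_coe, RingHom.coe_coe, this]

/-- Elements of `F` coming from `ℤ_(ℓ)((q))` lie in `Ow`, with coefficientwise reduction. -/
theorem exists_redw_incl (y : LaurentSeries ↥(Zl ℓ)) (hy : incl ℓ y ∈ modularFunctionFieldFull N) :
    ∃ h : (⟨incl ℓ y, hy⟩ : ↥(modularFunctionFieldFull N)) ∈ OwFull N ℓ,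
      redwFull N ℓ ⟨_, h⟩ = coeffMap (resid ℓ) y := by
  have hOl : ((⟨incl ℓ y, hy⟩ : ↥(modularFunctionFieldFull N)) : LaurentSeries ℚ) ∈ Ol ℓ :=
    ⟨y, rfl⟩
  refine ⟨mem_Ow_of_mem_Ol (isRatio_full N ℓ) hOl, ?_⟩
  rw [redwFull, redw_of_mem_Ol (isRatio_full N ℓ) hOl]
  exact red_incl ℓ y hOl

/-! ### The hypotheses of the master theorem that do not depend on the chart -/

theorem hker_full (z : ↥(OwFull N ℓ)) (hz : redwFull N ℓ z = 0) :
    LDvd (OwFull N ℓ) ((ℓ : ℕ) : ↥(modularFunctionFieldFull N)) (z : ↥(modularFunctionFieldFull N)) :=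
  (redw_eq_zero_iff (isRatio_full N ℓ) z).mp hz

theorem hlρ_full (z : ↥(OwFull N ℓ))
    (hz : LDvd (OwFull N ℓ) ((ℓ : ℕ) : ↥(modularFunctionFieldFull N))
      (z : ↥(modularFunctionFieldFull N))) : redwFull N ℓ z = 0 :=
  (redw_eq_zero_iff (isRatio_full N ℓ) z).mpr hz

theorem hmax_full (x : ↥(modularFunctionFieldFull N)) (hx : x ∈ OwFull N ℓ)
    (hnl : ¬ LDvd (OwFull N ℓ) ((ℓ : ℕ) : ↥(modularFunctionFieldFull N)) x) :
    x⁻¹ ∈ OwFull N ℓ :=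
  inv_mem_of_redw_ne_zero (isRatio_full N ℓ) ⟨x, hx⟩ fun h => hnl (hker_full N ℓ ⟨x, hx⟩ h)

/-- Constants. -/
theorem hR_full (r : ↥(GaloisRep.ratLocalizedAt ℓ)) :
    algebraMap ↥(GaloisRep.ratLocalizedAt ℓ) ↥(modularFunctionFieldFull N) r ∈ OwFull N ℓ :=
  algebraMap_mem_Ow (isRatio_full N ℓ) r.2

theorem hρR_full (r : ↥(GaloisRep.ratLocalizedAt ℓ)) :
    redwFull N ℓ ⟨algebraMap ↥(GaloisRep.ratLocalizedAt ℓ) ↥(modularFunctionFieldFull N) r,
      hR_full N ℓ r⟩ = HahnSeries.C (RedZl.red ℓ r) :=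
  redw_algebraMap (isRatio_full N ℓ) r.2

/-- `j(q^d)` as an element of `F`. -/
def jdFull (d : ℕ) [NeZero d] (hd : d ∣ N) : ↥(modularFunctionFieldFull N) :=
  ⟨qExpand ℚ d jq, jqd_mem_full N hd⟩

theorem jdFull_mem (d : ℕ) [NeZero d] (hd : d ∣ N) : jdFull N d hd ∈ OwFull N ℓ :=
  mem_Ow_of_mem_Ol (isRatio_full N ℓ) (qExpand_jq_mem_Ol ℓ d)

theorem redw_jdFull (d : ℕ) [NeZero d] (hd : d ∣ N) :
    redwFull N ℓ ⟨jdFull N d hd, jdFull_mem N ℓ d hd⟩ =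
      qExpand (ZMod ℓ) d (jqModC (ZMod ℓ)) := by
  have hy : incl ℓ (jdZl ℓ d) ∈ modularFunctionFieldFull N := by
    rw [incl_jdZl]; exact jqd_mem_full N hd
  obtain ⟨h, hred⟩ := exists_redw_incl N ℓ (jdZl ℓ d) hy
  rw [coeffMap_resid_jdZl] at hred
  rw [← hred]
  congr 1
  apply Subtype.ext
  apply Subtype.ext
  exact (incl_jdZl ℓ d).symm

theorem jFull_eq_jdFull : jFull N = jdFull N 1 (one_dvd N) :=
  Subtype.ext (qExpand_one_apply jq).symm

theorem jFull_mem : jFull N ∈ OwFull N ℓ := by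
  rw [jFull_eq_jdFull]; exact jdFull_mem N ℓ 1 (one_dvd N)

theorem redw_jFull : redwFull N ℓ ⟨jFull N, jFull_mem N ℓ⟩ = jqModC (ZMod ℓ) := by
  have := redw_jdFull N ℓ 1 (one_dvd N)
  rw [qExpand_one_apply] at this
  rw [← this]
  congr 1
  exact Subtype.ext (jFull_eq_jdFull N)

theorem jFull_inv_mem : (jFull N)⁻¹ ∈ OwFull N ℓ := by
  refine inv_mem_of_redw_ne_zero (isRatio_full N ℓ) ⟨jFull N, jFull_mem N ℓ⟩ ?_
  show redwFull N ℓ ⟨jFull N, jFull_mem N ℓ⟩ ≠ 0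
  rw [redw_jFull]
  exact jqModC_ne_zero_of_nontrivial (ZMod ℓ)

theorem redw_jFull_inv :
    redwFull N ℓ ⟨(jFull N)⁻¹, jFull_inv_mem N ℓ⟩ = (jqModC (ZMod ℓ))⁻¹ := by
  have h1 : (⟨jFull N, jFull_mem N ℓ⟩ : ↥(OwFull N ℓ)) * ⟨(jFull N)⁻¹, jFull_inv_mem N ℓ⟩ = 1 :=
    Subtype.ext (mul_inv_cancel₀ (jFull_ne_zero N))
  have h2 : redwFull N ℓ ⟨jFull N, jFull_mem N ℓ⟩ *
      redwFull N ℓ ⟨(jFull N)⁻¹, jFull_inv_mem N ℓ⟩ = 1 := by
    rw [← map_mul, h1, map_one]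
  rw [redw_jFull] at h2
  exact eq_inv_of_mul_eq_one_right h2

/-! ### Reduction of polynomial expressions in an element of `Ow` -/

/-- The constants `ℤ_(ℓ) → Ow`. -/
def constOw : ↥(GaloisRep.ratLocalizedAt ℓ) →+* ↥(OwFull N ℓ) where
  toFun r := ⟨algebraMap ↥(GaloisRep.ratLocalizedAt ℓ) ↥(modularFunctionFieldFull N) r,
    hR_full N ℓ r⟩
  map_one' := Subtype.ext (map_one _)
  map_mul' a b := Subtype.ext (map_mul _ a b)
  map_zero' := Subtype.ext (map_zero _)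
  map_add' a b := Subtype.ext (map_add _ a b)

theorem redw_comp_constOw :
    (redwFull N ℓ).comp (constOw N ℓ) =
      (HahnSeries.C : ZMod ℓ →+* LaurentSeries (ZMod ℓ)).comp (RedZl.red ℓ) := by
  ext r : 1
  exact hρR_full N ℓ r

/-- The value in `Ow` of a polynomial over `ℤ_(ℓ)` at an element of `Ow`. -/
def evalOw (s : ↥(OwFull N ℓ)) (P : Polynomial ↥(GaloisRep.ratLocalizedAt ℓ)) : ↥(OwFull N ℓ) :=
  Polynomial.eval₂ (constOw N ℓ) s P

theorem coe_evalOw (s : ↥(OwFull N ℓ)) (P : Polynomial ↥(GaloisRep.ratLocalizedAt ℓ)) :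
    ((evalOw N ℓ s P : ↥(OwFull N ℓ)) : ↥(modularFunctionFieldFull N)) =
      Polynomial.aeval (s : ↥(modularFunctionFieldFull N)) P := by
  have h := Polynomial.hom_eval₂ P (constOw N ℓ) (OwFull N ℓ).subtype s
  rw [Polynomial.aeval_def]
  exact h

theorem redw_evalOw (s : ↥(OwFull N ℓ)) (P : Polynomial ↥(GaloisRep.ratLocalizedAt ℓ)) :
    redwFull N ℓ (evalOw N ℓ s P) =
      Polynomial.aeval (redwFull N ℓ s) (P.map (RedZl.red ℓ)) := by
  have h := Polynomial.hom_eval₂ P (constOw N ℓ) (redwFull N ℓ) s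
  rw [redw_comp_constOw] at h
  have hC : algebraMap (ZMod ℓ) (LaurentSeries (ZMod ℓ)) = HahnSeries.C :=
    RingHom.ext (ThetaAdjoin.algebraMap_eq_C (ZMod ℓ))
  rw [Polynomial.aeval_def, Polynomial.eval₂_map, hC]
  exact h

/-! ### One-generator charts -/

section Chart

open Polynomial

variable {N ℓ}
variable (s : ↥(modularFunctionFieldFull N))

theorem exists_aeval_eq (a : ↥(Algebra.adjoin ↥(GaloisRep.ratLocalizedAt ℓ) {s})) :
    ∃ P : Polynomial ↥(GaloisRep.ratLocalizedAt ℓ),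
      Polynomial.aeval s P = (a : ↥(modularFunctionFieldFull N)) := by
  have h : ∀ x ∈ Algebra.adjoin ↥(GaloisRep.ratLocalizedAt ℓ) {s},
      ∃ P : Polynomial ↥(GaloisRep.ratLocalizedAt ℓ), Polynomial.aeval s P = x := by
    intro x hx
    rw [Algebra.adjoin_singleton_eq_range_aeval] at hx
    exact hx
  exact h _ a.2

/-- `ℤ_(ℓ)[s] ⊆ Ow`. -/
theorem adjoin_mem_Ow (hsO : s ∈ OwFull N ℓ)
    (a : ↥(Algebra.adjoin ↥(GaloisRep.ratLocalizedAt ℓ) {s})) :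
    (a : ↥(modularFunctionFieldFull N)) ∈ OwFull N ℓ :=
  ChartRedOf.adjoin_le_of_subset (OwFull N ℓ) (hR_full N ℓ)
    (fun t ht => by rw [Set.mem_singleton_iff.mp ht]; exact hsO) a.2

/-- **saturation**: an element of `ℤ_(ℓ)[s]` divisible by `ℓ` in `Ow` is divisible by `ℓ` in
`ℤ_(ℓ)[s]`, as soon as the residue of `s` is transcendental over `𝔽_ℓ`. -/
theorem sat_gen (hsO : s ∈ OwFull N ℓ) (hrt : Transcendental (ZMod ℓ) (redwFull N ℓ ⟨s, hsO⟩))
    (a : ↥(Algebra.adjoin ↥(GaloisRep.ratLocalizedAt ℓ) {s}))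
    (ha : LDvd (OwFull N ℓ) ((ℓ : ℕ) : ↥(modularFunctionFieldFull N))
      (a : ↥(modularFunctionFieldFull N))) :
    ((ℓ : ℕ) : ↥(Algebra.adjoin ↥(GaloisRep.ratLocalizedAt ℓ) {s})) ∣ a := by
  obtain ⟨P, hP⟩ := exists_aeval_eq s a
  have h0 : redwFull N ℓ (evalOw N ℓ ⟨s, hsO⟩ P) = 0 := by
    apply hlρ_full
    rw [coe_evalOw, hP]
    exact ha
  rw [redw_evalOw] at h0
  have hP0 : P.map (RedZl.red ℓ) = 0 := transcendental_iff.mp hrt _ h0
  have hdiv : C ((ℓ : ℕ) : ↥(GaloisRep.ratLocalizedAt ℓ)) ∣ P := by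
    rw [Polynomial.C_dvd_iff_dvd_coeff]
    intro i
    have h1 := congrArg (fun Q => Polynomial.coeff Q i) hP0
    simp only [coeff_map, coeff_zero] at h1
    obtain ⟨y, hy⟩ := RedZl.exists_eq_mul_of_red_eq_zero ℓ _ h1
    exact ⟨y, hy⟩
  obtain ⟨Q, hQ⟩ := hdiv
  refine ⟨⟨Polynomial.aeval s Q, ?_⟩, Subtype.ext ?_⟩
  · rw [Algebra.adjoin_singleton_eq_range_aeval]
    exact ⟨Q, rfl⟩
  · rw [← hP, hQ, map_mul, Polynomial.aeval_C, map_natCast]
    push_cast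
    rfl

/-- the residues of `ℤ_(ℓ)[s]` lie in any subfield containing the residue of `s`. -/
theorem residue_adjoin_mem (hsO : s ∈ OwFull N ℓ) (k0 : Subfield (LaurentSeries (ZMod ℓ)))
    (hrk : redwFull N ℓ ⟨s, hsO⟩ ∈ k0)
    (a : ↥(Algebra.adjoin ↥(GaloisRep.ratLocalizedAt ℓ) {s})) :
    redwFull N ℓ ⟨(a : ↥(modularFunctionFieldFull N)), adjoin_mem_Ow s hsO a⟩ ∈ k0 := by
  obtain ⟨P, hP⟩ := exists_aeval_eq s a
  have h1 : (⟨(a : ↥(modularFunctionFieldFull N)), adjoin_mem_Ow s hsO a⟩ : ↥(OwFull N ℓ)) =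
      evalOw N ℓ ⟨s, hsO⟩ P := Subtype.ext (by rw [coe_evalOw, hP])
  rw [h1, redw_evalOw, Polynomial.aeval_eq_sum_range]
  refine sum_mem fun i _ => ?_
  rw [Algebra.smul_def]
  refine mul_mem ?_ (pow_mem hrk i)
  rw [ThetaAdjoin.algebraMap_eq_C]
  obtain ⟨m, hm⟩ := ZMod.natCast_zmod_surjective ((P.map (RedZl.red ℓ)).coeff i)
  rw [← hm, map_natCast]
  exact natCast_mem k0 m

/-- every nonzero element of `ℤ_(ℓ)[s]` is a power of `ℓ` times an element not divisible by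
`ℓ`. -/
theorem mult_gen (hst : Transcendental ↥(GaloisRep.ratLocalizedAt ℓ) s)
    (b : ↥(Algebra.adjoin ↥(GaloisRep.ratLocalizedAt ℓ) {s})) (hb : b ≠ 0) :
    ∃ (n : ℕ) (b' : ↥(Algebra.adjoin ↥(GaloisRep.ratLocalizedAt ℓ) {s})),
      ¬ ((ℓ : ℕ) : ↥(Algebra.adjoin ↥(GaloisRep.ratLocalizedAt ℓ) {s})) ∣ b' ∧
        b = ((ℓ : ℕ) : ↥(Algebra.adjoin ↥(GaloisRep.ratLocalizedAt ℓ) {s})) ^ n * b' := by
  haveI : IsNoetherianRing ↥(Algebra.adjoin ↥(GaloisRep.ratLocalizedAt ℓ) {s}) :=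
    isNoetherianRing_of_ringEquiv _
      (Polynomial.algEquivOfTranscendental ↥(GaloisRep.ratLocalizedAt ℓ) s hst).toRingEquiv
  exact WfDvdMonoid.max_power_factor hb
    (ChartBase.prime_natCast_adjoin_singleton N ℓ hst).irreducible

end Chart

/-! ### Integrality over `K0 ∩ Ow` -/

section Integral

variable {K0 F R : Type*} [Field K0] [Field F] [Algebra K0 F] [CommRing R] [Algebra R F]
variable {Ow : ValuationSubring F}

/-- Integrality over a subalgebra of `F` contained in `K0 ∩ Ow` gives integrality over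
`O0 = Ow.comap (algebraMap K0 F)`. -/
theorem isIntegral_comap_of_subalgebra (B : Subalgebra R F) (hBO : ∀ x ∈ B, x ∈ Ow)
    (hBK : ∀ x ∈ B, x ∈ (algebraMap K0 F).range) {x : F} (hx : IsIntegral B x) :
    IsIntegral (Ow.comap (algebraMap K0 F)) x := by
  obtain ⟨p, hp, hpx⟩ := hx
  have hlift : p.map (algebraMap B F) ∈
      Polynomial.lifts (algebraMap (Ow.comap (algebraMap K0 F)) F) := by
    rw [Polynomial.lifts_iff_coeff_lifts]
    intro n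
    rw [Polynomial.coeff_map]
    obtain ⟨c, hc⟩ := hBK _ (p.coeff n).2
    have hcO : c ∈ Ow.comap (algebraMap K0 F) := by
      rw [ValuationSubring.mem_comap, hc]; exact hBO _ (p.coeff n).2
    exact ⟨⟨c, hcO⟩, hc⟩
  obtain ⟨Q, hQ, -, hQm⟩ := Polynomial.lifts_and_natDegree_eq_and_monic hlift (hp.map _)
  refine ⟨Q, hQm, ?_⟩
  rw [← Polynomial.eval_map, hQ, Polynomial.eval_map]
  exact hpx

end Integral

/-! ### The kernel condition of a one-generator chart -/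

section KerCond

open IntermediateField

variable {N ℓ}

/-- `ℤ[j] ⊆ Ow`. -/
theorem adjoinZ_mem_Ow {x : ↥(modularFunctionFieldFull N)}
    (hx : x ∈ Algebra.adjoin ℤ {jFull N}) : x ∈ OwFull N ℓ := by
  induction hx using Algebra.adjoin_induction with
  | mem y hy => rw [Set.mem_singleton_iff.mp hy]; exact jFull_mem N ℓ
  | algebraMap r => rw [eq_intCast]; exact intCast_mem (OwFull N ℓ) r
  | add y z _ _ hy hz => exact (OwFull N ℓ).add_mem _ _ hy hz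
  | mul y z _ _ hy hz => exact (OwFull N ℓ).mul_mem _ _ hy hz

/-- `ℤ[j] ⊆ ℚ(j)`. -/
theorem adjoinZ_mem_K0 {x : ↥(modularFunctionFieldFull N)}
    (hx : x ∈ Algebra.adjoin ℤ {jFull N}) :
    x ∈ (algebraMap ↥ℚ⟮jFull N⟯ ↥(modularFunctionFieldFull N)).range := by
  induction hx using Algebra.adjoin_induction with
  | mem y hy =>
    rw [Set.mem_singleton_iff.mp hy]
    exact ⟨⟨jFull N, IntermediateField.mem_adjoin_simple_self ℚ _⟩, rfl⟩
  | algebraMap r => rw [eq_intCast]; exact intCast_mem _ r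
  | add y z _ _ hy hz => exact add_mem hy hz
  | mul y z _ _ hy hz => exact mul_mem hy hz

set_option synthInstance.maxHeartbeats 200000 in
/-- **(hG)**: every divisor expansion `J(q^d)`, `d ∣ N`, over `𝔽_ℓ` is the residue of an element
of `Ow` integral over `K0 ∩ Ow`. -/
theorem exists_integral_lift
    (hint : ∀ (d : ℕ) [NeZero d] (hd : d ∣ N),
      IsIntegral ↥(Algebra.adjoin ℤ {jFull N}) (jdFull N d hd))
    (g : LaurentSeries (ZMod ℓ)) (hg : g ∈ divisorExpansionsC (ZMod ℓ) N) :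
    ∃ z : ↥(OwFull N ℓ),
      IsIntegral ↥((OwFull N ℓ).comap
        (algebraMap ↥ℚ⟮jFull N⟯ ↥(modularFunctionFieldFull N)))
        (z : ↥(modularFunctionFieldFull N)) ∧ redwFull N ℓ z = g := by
  obtain ⟨d, hd0, hd, rfl⟩ := hg
  refine ⟨⟨jdFull N d hd, jdFull_mem N ℓ d hd⟩, ?_, redw_jdFull N ℓ d hd⟩
  exact isIntegral_comap_of_subalgebra (Algebra.adjoin ℤ {jFull N})
    (fun x hx => adjoinZ_mem_Ow hx) (fun x hx => adjoinZ_mem_K0 hx) (hint d hd)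

set_option synthInstance.maxHeartbeats 200000 in
set_option maxHeartbeats 1000000 in
/-- **The kernel condition of a one-generator chart `ℤ_(ℓ)[s]`**, `s ∈ ℚ(j) ∩ Ow` transcendental
with transcendental residue in `𝔽_ℓ(J)`, from Igusa's bound and the integrality of the `j(q^d)`
over `ℤ[j]`. -/
theorem kerCond_gen (s : ↥(modularFunctionFieldFull N)) (hsO : s ∈ OwFull N ℓ)
    (hsK : ({s} : Set ↥(modularFunctionFieldFull N)) ⊆
      (ℚ⟮jFull N⟯ : Set ↥(modularFunctionFieldFull N)))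
    (hst : Transcendental ↥(GaloisRep.ratLocalizedAt ℓ) s)
    (hfr : @IsFractionRing ↥(Algebra.adjoin ↥(GaloisRep.ratLocalizedAt ℓ) {s}) _ ↥ℚ⟮jFull N⟯ _
      (ChartBase.algK0 N ℓ hsK))
    (hrt : Transcendental (ZMod ℓ) (redwFull N ℓ ⟨s, hsO⟩))
    (hrk : redwFull N ℓ ⟨s, hsO⟩ ∈ Subfield.closure {jqModC (ZMod ℓ)})
    (hint : ∀ (d : ℕ) [NeZero d] (hd : d ∣ N),
      IsIntegral ↥(Algebra.adjoin ℤ {jFull N}) (jdFull N d hd))
    {n : ℕ} (hI : Defs.IgusaBound ℓ N n)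
    (hn : Module.finrank ↥ℚ⟮jFull N⟯ ↥(modularFunctionFieldFull N) ≤ n) :
    ChartRedOf.KerCond (OwFull N ℓ) (redwFull N ℓ) {s} := by
  intro x hx hxO hρx
  letI := ChartBase.algK0 N ℓ hsK
  haveI := ChartBase.isScalarTower_K0 N ℓ hsK
  haveI := hfr
  haveI := ChartBase.isIntegrallyClosed_adjoin_singleton N ℓ hst
  haveI : FiniteDimensional ↥ℚ⟮jFull N⟯ ↥(modularFunctionFieldFull N) :=
    (DegreeQ.finrank_full_le_of_algebra N).1
  obtain ⟨e, heG, hli⟩ := hI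
  have hl : algebraMap ↥(Algebra.adjoin ↥(GaloisRep.ratLocalizedAt ℓ) {s})
      ↥(modularFunctionFieldFull N)
      ((ℓ : ℕ) : ↥(Algebra.adjoin ↥(GaloisRep.ratLocalizedAt ℓ) {s})) =
        ((ℓ : ℕ) : ↥(modularFunctionFieldFull N)) := map_natCast _ _
  have hl0 : ((ℓ : ℕ) : ↥(Algebra.adjoin ↥(GaloisRep.ratLocalizedAt ℓ) {s})) ≠ 0 :=
    (ChartBase.prime_natCast_adjoin_singleton N ℓ hst).ne_zero
  have hA : ∀ a : ↥(Algebra.adjoin ↥(GaloisRep.ratLocalizedAt ℓ) {s}),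
      algebraMap ↥(Algebra.adjoin ↥(GaloisRep.ratLocalizedAt ℓ) {s})
        ↥(modularFunctionFieldFull N) a ∈ OwFull N ℓ := fun a => adjoin_mem_Ow s hsO a
  have hmax : ∀ x ∈ OwFull N ℓ, ¬ LDvd (OwFull N ℓ)
      (algebraMap ↥(Algebra.adjoin ↥(GaloisRep.ratLocalizedAt ℓ) {s})
        ↥(modularFunctionFieldFull N)
        ((ℓ : ℕ) : ↥(Algebra.adjoin ↥(GaloisRep.ratLocalizedAt ℓ) {s}))) x →
      x⁻¹ ∈ OwFull N ℓ := by
    rw [hl]; exact hmax_full N ℓ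
  have hsat : ∀ a : ↥(Algebra.adjoin ↥(GaloisRep.ratLocalizedAt ℓ) {s}),
      LDvd (OwFull N ℓ)
        (algebraMap ↥(Algebra.adjoin ↥(GaloisRep.ratLocalizedAt ℓ) {s})
          ↥(modularFunctionFieldFull N)
          ((ℓ : ℕ) : ↥(Algebra.adjoin ↥(GaloisRep.ratLocalizedAt ℓ) {s})))
        (algebraMap ↥(Algebra.adjoin ↥(GaloisRep.ratLocalizedAt ℓ) {s})
          ↥(modularFunctionFieldFull N) a) →
      ((ℓ : ℕ) : ↥(Algebra.adjoin ↥(GaloisRep.ratLocalizedAt ℓ) {s})) ∣ a := by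
    rw [hl]; exact fun a ha => sat_gen s hsO hrt a ha
  have hker : ∀ z : ↥(OwFull N ℓ), redwFull N ℓ z = 0 → LDvd (OwFull N ℓ)
      (algebraMap ↥(Algebra.adjoin ↥(GaloisRep.ratLocalizedAt ℓ) {s})
        ↥(modularFunctionFieldFull N)
        ((ℓ : ℕ) : ↥(Algebra.adjoin ↥(GaloisRep.ratLocalizedAt ℓ) {s})))
      (z : ↥(modularFunctionFieldFull N)) := by
    rw [hl]; exact hker_full N ℓ
  have hlρ : ∀ z : ↥(OwFull N ℓ), LDvd (OwFull N ℓ)
      (algebraMap ↥(Algebra.adjoin ↥(GaloisRep.ratLocalizedAt ℓ) {s})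
        ↥(modularFunctionFieldFull N)
        ((ℓ : ℕ) : ↥(Algebra.adjoin ↥(GaloisRep.ratLocalizedAt ℓ) {s})))
      (z : ↥(modularFunctionFieldFull N)) → redwFull N ℓ z = 0 := by
    rw [hl]; exact hlρ_full N ℓ
  have hk0 : ∀ (c : ↥ℚ⟮jFull N⟯)
      (h : algebraMap ↥ℚ⟮jFull N⟯ ↥(modularFunctionFieldFull N) c ∈ OwFull N ℓ),
      redwFull N ℓ ⟨_, h⟩ ∈ Subfield.closure {jqModC (ZMod ℓ)} := fun c h =>
    residue_mem_of_fraction (OwFull N ℓ)
      ((ℓ : ℕ) : ↥(Algebra.adjoin ↥(GaloisRep.ratLocalizedAt ℓ) {s})) (redwFull N ℓ)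
      hl0 hA hmax hsat hker hlρ (mult_gen s hst) (Subfield.closure {jqModC (ZMod ℓ)})
      (fun a => residue_adjoin_mem s hsO _ hrk a) c h
  obtain ⟨y, hy, hxy⟩ := exists_isIntegral_eq_mul_of_residue ↥ℚ⟮jFull N⟯ (OwFull N ℓ)
    ((ℓ : ℕ) : ↥(Algebra.adjoin ↥(GaloisRep.ratLocalizedAt ℓ) {s})) (redwFull N ℓ)
    hl0 hA hmax hsat hker hlρ (Subfield.closure {jqModC (ZMod ℓ)}) hk0
    (divisorExpansionsC (ZMod ℓ) N) (exists_integral_lift hint) e heG hli hn x hx hxO hρx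
  exact ⟨y, hy, by rw [hxy, hl]⟩

variable (N ℓ)

/-- the kernel condition of the finite chart `ℤ_(ℓ)[j]`. -/
theorem kerCond_fin
    (hint : ∀ (d : ℕ) [NeZero d] (hd : d ∣ N),
      IsIntegral ↥(Algebra.adjoin ℤ {jFull N}) (jdFull N d hd))
    {n : ℕ} (hI : Defs.IgusaBound ℓ N n)
    (hn : Module.finrank ↥ℚ⟮jFull N⟯ ↥(modularFunctionFieldFull N) ≤ n) :
    ChartRedOf.KerCond (OwFull N ℓ) (redwFull N ℓ) {jFull N} := by
  refine kerCond_gen (jFull N) (jFull_mem N ℓ) (ChartBase.subset_K0_fin N)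
    (ChartBase.transcendental_jFull N ℓ) (ChartBase.isFractionRing_fin N ℓ) ?_ ?_ hint hI hn
  · rw [redw_jFull]
    exact ThetaAdjoin.transcendental_jqModC (ZMod ℓ)
  · rw [redw_jFull]
    exact Subfield.subset_closure rfl

/-- the kernel condition of the chart at infinity `ℤ_(ℓ)[j⁻¹]`. -/
theorem kerCond_inf
    (hint : ∀ (d : ℕ) [NeZero d] (hd : d ∣ N),
      IsIntegral ↥(Algebra.adjoin ℤ {jFull N}) (jdFull N d hd))
    {n : ℕ} (hI : Defs.IgusaBound ℓ N n)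
    (hn : Module.finrank ↥ℚ⟮jFull N⟯ ↥(modularFunctionFieldFull N) ≤ n) :
    ChartRedOf.KerCond (OwFull N ℓ) (redwFull N ℓ) {(jFull N)⁻¹} := by
  refine kerCond_gen (jFull N)⁻¹ (jFull_inv_mem N ℓ) (ChartBase.subset_K0_inf N)
    (ChartBase.transcendental_jFull_inv N ℓ) (ChartBase.isFractionRing_inf N ℓ) ?_ ?_ hint hI hn
  · rw [redw_jFull_inv]
    intro h
    exact ThetaAdjoin.transcendental_jqModC (ZMod ℓ) (IsAlgebraic.inv_iff.mp h)
  · rw [redw_jFull_inv]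
    exact inv_mem (Subfield.subset_closure rfl)

/-- **(F-CK)**: the three chart reductions, from Igusa's bound (with any `n ≥ [F : ℚ(j)]`) and
the integrality of the `j(q^d)`, `d ∣ N`, over `ℤ[j]`. -/
theorem chartRed_all_of_le
    (hint : ∀ (d : ℕ) [NeZero d] (hd : d ∣ N),
      IsIntegral ↥(Algebra.adjoin ℤ {jFull N}) (jdFull N d hd))
    {n : ℕ} (hI : Defs.IgusaBound ℓ N n)
    (hn : Module.finrank ↥ℚ⟮jFull N⟯ ↥(modularFunctionFieldFull N) ≤ n) :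
    Defs.ChartRed N ℓ {jFull N} ∧ Defs.ChartRed N ℓ {(jFull N)⁻¹} ∧
      Defs.ChartRed N ℓ {jFull N, (jFull N)⁻¹} :=
  ChartRedOf.chartRed_all (OwFull N ℓ) (redwFull N ℓ) (hR_full N ℓ) (hρR_full N ℓ)
    (jFull_mem N ℓ) (jFull_inv_mem N ℓ) (kerCond_fin N ℓ hint hI hn) (kerCond_inf N ℓ hint hI hn)

/-- **(F-CK), final form**: the three chart reductions from `Defs.IgusaBound ℓ N (ψ(N))` and the
integrality of the `j(q^d)`, `d ∣ N`, over `ℤ[j]`. -/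
theorem chartRed_all
    (hint : ∀ (d : ℕ) [NeZero d] (hd : d ∣ N),
      IsIntegral ↥(Algebra.adjoin ℤ {jFull N}) (jdFull N d hd))
    (hI : Defs.IgusaBound ℓ N (dedekindPsi N)) :
    Defs.ChartRed N ℓ {jFull N} ∧ Defs.ChartRed N ℓ {(jFull N)⁻¹} ∧
      Defs.ChartRed N ℓ {jFull N, (jFull N)⁻¹} :=
  chartRed_all_of_le N ℓ hint hI (DegreeQ.finrank_full_le_of_algebra N).2

theorem jdFull_eq_jdF (d : ℕ) [NeZero d] (hd : d ∣ N) :
    jdFull N d hd = DegreeQ.jdF N ⟨d, hd⟩ :=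
  Subtype.ext (DegreeQ.jd_def N d hd).symm

/-- **(F-CK)**, with the integrality hypothesis in the spelling of `S28/DegreeQ` (`jdF`). -/
theorem chartRed_all_jdF
    (hint : ∀ d : {d : ℕ // d ∣ N},
      IsIntegral ↥(Algebra.adjoin ℤ {jFull N}) (DegreeQ.jdF N d))
    (hI : Defs.IgusaBound ℓ N (dedekindPsi N)) :
    Defs.ChartRed N ℓ {jFull N} ∧ Defs.ChartRed N ℓ {(jFull N)⁻¹} ∧
      Defs.ChartRed N ℓ {jFull N, (jFull N)⁻¹} :=
  chartRed_all N ℓ (fun d _ hd => by rw [jdFull_eq_jdF]; exact hint ⟨d, hd⟩) hI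

end KerCond

end Fermat.Agent.S28.ChartKernel
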