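/-
PROJECT F (S28, Igusa) - the last input of the chart reductions (helper17):
`j(q^d)` is integral over `ℤ[j]` inside `F = ℚ(j(q^d) : d ∣ N)`, for every `d ∣ N`.

Prime chain: `j(q^(d' p))` is a root of the monic `Φ_p(X, j(q^d'))` (the integral prime-level
relation of `S28/ModPolyPrime`, pushed through `q ↦ q^d'`), whose coefficients are integral over
`ℤ[j]` by induction.
-/
import Mathlib
import Fermat.Agent.S28.ModPolyPrime
import Fermat.Agent.S28.ModPolyIntRel
import Fermat.Agent.S28.StepCoprime
import Fermat.Agent.S28.ChartKernel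

set_option autoImplicit false
set_option linter.style.haveILetI false

noncomputable section

namespace Fermat.Agent.S28.HintF

open ModularCurve ModularCurve.IgusaScheme Polynomial

/-- Instance-free evaluation of an integer polynomial at `y`. -/
def ev {A : Type*} [CommRing A] (y : A) : ℤ[X] →+* A :=
  Polynomial.eval₂RingHom (Int.castRingHom A) y

theorem comp_ev {A B : Type*} [CommRing A] [CommRing B] (f : A →+* B) (y : A) :
    f.comp (ev y) = ev (f y) := by
  refine Polynomial.ringHom_ext' (RingHom.ext_int _ _) ?_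
  simp [ev]

theorem map_eval₂_ev {A B : Type*} [CommRing A] [CommRing B] (f : A →+* B) (Φ : ℤ[X][X])
    (y x : A) : f (Φ.eval₂ (ev y) x) = Φ.eval₂ (ev (f y)) (f x) := by
  rw [Polynomial.hom_eval₂, comp_ev]

theorem evalL_int_eq_ev (x : LaurentSeries ℤ) : ModPoly.evalL ℤ x = ev x := by
  refine Polynomial.ringHom_ext' (RingHom.ext_int _ _) ?_
  simp [ev, ModPoly.evalL]

/-- prime level: `j(q^p)` is a root of a monic polynomial over `ℤ[j]`, instance-free form. -/
theorem exists_rel (p : ℕ) [NeZero p] (hp : p.Prime) :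
    ∃ Φ : ℤ[X][X], Φ.Monic ∧ Φ.eval₂ (ev (jqModC ℤ)) (qExpand ℤ p (jqModC ℤ)) = 0 := by
  obtain ⟨Φ, hmonic, -, hΦ⟩ := ModPolyPrime.exists_PhiZ p hp
  refine ⟨Φ, hmonic, ?_⟩
  rw [← evalL_int_eq_ev, ← Polynomial.eval_map, hΦ, ModPolyIntRel.eval_rPoly_self]

/-- the relation transported to level `d`: `Φ(j(q^(d p)), j(q^d)) = 0` in `ℚ((q))`. -/
theorem rel_level (p : ℕ) [NeZero p] (d : ℕ) [NeZero d] (Φ : ℤ[X][X])
    (h : Φ.eval₂ (ev (jqModC ℤ)) (qExpand ℤ p (jqModC ℤ)) = 0) :
    Φ.eval₂ (ev (qExpand ℚ d jq)) (qExpand ℚ (d * p) jq) = 0 := by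
  have h1 := map_eval₂_ev ((qExpand ℚ d).comp (coeffMap (Int.castRingHom ℚ))) Φ
    (jqModC ℤ) (qExpand ℤ p (jqModC ℤ))
  rw [h, map_zero] at h1
  have e1 : ((qExpand ℚ d).comp (coeffMap (Int.castRingHom ℚ))) (jqModC ℤ) = qExpand ℚ d jq := by
    rw [RingHom.comp_apply, coeffMap_jqModC, jqModC_rat]
  have e2 : ((qExpand ℚ d).comp (coeffMap (Int.castRingHom ℚ))) (qExpand ℤ p (jqModC ℤ)) =
      qExpand ℚ (d * p) jq := by
    rw [RingHom.comp_apply, coeffMap_qExpand, coeffMap_jqModC, jqModC_rat, qExpand_qExpand]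
  rw [e1, e2] at h1
  exact h1.symm

variable (N : ℕ) [NeZero N]

theorem isIntegral_eval₂_intCast {R A : Type*} [CommRing R] [CommRing A] [Algebra R A] {y : A}
    (hy : IsIntegral R y) (q : ℤ[X]) : IsIntegral R (ev y q) := by
  rw [ev, Polynomial.coe_eval₂RingHom, Polynomial.eval₂_eq_sum_range]
  refine IsIntegral.sum _ fun i _ => IsIntegral.mul ?_ (hy.pow i)
  have : (Int.castRingHom A) (q.coeff i) = algebraMap R A ((q.coeff i : ℤ) : R) := by
    rw [map_intCast]; rfl
  rw [this]
  exact isIntegral_algebraMap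

/-- **`j(q^d)` is integral over `ℤ[j]`, inside `F`.** -/
theorem isIntegral_jdFull : ∀ (d : ℕ) [NeZero d] (hd : d ∣ N),
    IsIntegral ↥(Algebra.adjoin ℤ {jFull N}) (ChartKernel.jdFull N d hd) := by
  intro d
  induction d using Nat.strong_induction_on with
  | _ d ih =>
    intro hne hd
    have hd0 : 0 < d := Nat.pos_of_ne_zero (NeZero.ne d)
    rcases Nat.eq_or_lt_of_le (Nat.succ_le_of_lt hd0) with h1 | h1
    · -- d = 1
      have hd1 : d = 1 := h1.symm
      subst hd1
      have : ChartKernel.jdFull N 1 hd = algebraMap ↥(Algebra.adjoin ℤ {jFull N})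
          ↥(modularFunctionFieldFull N) ⟨jFull N, Algebra.subset_adjoin rfl⟩ := by
        rw [ChartKernel.jFull_eq_jdFull]
        rfl
      rw [this]
      exact isIntegral_algebraMap
    · have hd1 : d ≠ 1 := by omega
      set p := d.minFac with hp
      have hpp : p.Prime := Nat.minFac_prime hd1
      haveI : NeZero p := ⟨hpp.ne_zero⟩
      obtain ⟨d', hd'⟩ : p ∣ d := Nat.minFac_dvd d
      have hd'0 : 0 < d' := by
        rcases Nat.eq_zero_or_pos d' with h | h
        · rw [h, mul_zero] at hd'; omega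
        · exact h
      haveI : NeZero d' := ⟨hd'0.ne'⟩
      have hd'lt : d' < d := by
        rw [hd']
        have := hpp.two_le
        nlinarith
      have hd'N : d' ∣ N := Dvd.dvd.trans ⟨p, by rw [hd', mul_comm]⟩ hd
      have ih' := ih d' hd'lt hd'N
      obtain ⟨Φ, hmon, hrel⟩ := exists_rel p hpp
      have hrel' := rel_level p d' Φ hrel
      -- the polynomial over `F`
      let P : (↥(modularFunctionFieldFull N))[X] := Φ.map (ev (ChartKernel.jdFull N d' hd'N))
      have hP : P.Monic := hmon.map _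
      have hroot : P.eval (ChartKernel.jdFull N d hd) = 0 := by
        have hinj : Function.Injective ((modularFunctionFieldFull N).val :
            ↥(modularFunctionFieldFull N) →+* LaurentSeries ℚ) := Subtype.val_injective
        apply hinj
        rw [map_zero, Polynomial.eval_map, map_eval₂_ev]
        have e1 : ((modularFunctionFieldFull N).val : ↥(modularFunctionFieldFull N) →+*
            LaurentSeries ℚ) (ChartKernel.jdFull N d' hd'N) = qExpand ℚ d' jq := rfl
        have e2 : ((modularFunctionFieldFull N).val : ↥(modularFunctionFieldFull N) →+*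
            LaurentSeries ℚ) (ChartKernel.jdFull N d hd) = qExpand ℚ (d' * p) jq := by
          show qExpand ℚ d jq = _
          exact qExpand_congr (by rw [hd', mul_comm]) jq
        rw [e1, e2]
        exact hrel'
      refine StepCoprime.isIntegral_of_monic_root P hP (fun i => ?_) _ hroot
      rw [Polynomial.coeff_map]
      exact isIntegral_eval₂_intCast ih' _

end Fermat.Agent.S28.HintF
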