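import Mathlib
import Fermat.Prelude.Def_ModularCurve_IgusaScheme

set_option autoImplicit false

open AlgebraicGeometry CategoryTheory CategoryTheory.Limits TopologicalSpace TensorProduct
open ModularCurve ModularCurve.IgusaScheme

namespace Fermat.Agent.S28.SchemeGlue

universe u

/-- A scheme covered by integral open subschemes, all of which contain a common nonempty chart,
is integral. -/
theorem isIntegral_of_openCover_of_common {X : Scheme.{u}} (𝒰 : X.OpenCover)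
    (hint : ∀ i, IsIntegral (𝒰.X i)) (i₀ : 𝒰.I₀)
    (hsub : ∀ i, Set.range (𝒰.f i₀).base ⊆ Set.range (𝒰.f i).base) :
    IsIntegral X := by
  have : ∀ i, IsReduced (𝒰.X i) := fun i => inferInstance
  have : IsReduced X := IsReduced.of_openCover _ 𝒰
  have hirr : ∀ i, IsIrreducible (Set.range (𝒰.f i).base) := by
    intro i
    rw [← Set.image_univ]
    exact (IrreducibleSpace.isIrreducible_univ _).image _ (𝒰.f i).continuous.continuousOn
  have hopen : ∀ i, IsOpen (Set.range (𝒰.f i).base) := fun i =>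
    (𝒰.f i).isOpenEmbedding.isOpen_range
  obtain ⟨x₀⟩ : Nonempty (𝒰.X i₀) := inferInstance
  have : Nonempty X := ⟨(𝒰.f i₀).base x₀⟩
  have hpre : IsPreirreducible (Set.univ : Set X) := by
    rintro V W hV hW ⟨x, -, hxV⟩ ⟨y, -, hyW⟩
    have key : ∀ (V : Set X), IsOpen V → ∀ x ∈ V,
        (Set.range (𝒰.f i₀).base ∩ V).Nonempty := by
      intro V hV x hxV
      obtain ⟨i, z, rfl⟩ := 𝒰.exists_eq x
      have h1 : (Set.range (𝒰.f i).base ∩ V).Nonempty := ⟨_, ⟨z, rfl⟩, hxV⟩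
      have h2 : (Set.range (𝒰.f i).base ∩ Set.range (𝒰.f i₀).base).Nonempty :=
        ⟨(𝒰.f i₀).base x₀, hsub i ⟨x₀, rfl⟩, ⟨x₀, rfl⟩⟩
      obtain ⟨w, hw1, hw2, hw3⟩ := (hirr i).2 V _ hV (hopen i₀) h1 h2
      exact ⟨w, hw3, hw2⟩
    obtain ⟨w, hw1, hw2, hw3⟩ := (hirr i₀).2 V W hV hW (key V hV x hxV) (key W hW y hyW)
    exact ⟨w, Set.mem_univ _, hw2, hw3⟩
  have : PreirreducibleSpace X := ⟨hpre⟩
  have : IrreducibleSpace X := ⟨inferInstance⟩
  exact isIntegral_of_irreducibleSpace_of_isReduced X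

/-- Variant with an explicit family of open immersions. -/
theorem isIntegral_of_charts {X : Scheme.{u}} {ι : Type} (U : ι → Scheme.{u})
    (f : ∀ i, U i ⟶ X) [∀ i, IsOpenImmersion (f i)]
    (hcov : ∀ x : X, ∃ i, ∃ y : U i, (f i).base y = x)
    (hint : ∀ i, IsIntegral (U i)) (i₀ : ι)
    (hsub : ∀ i, Set.range (f i₀).base ⊆ Set.range (f i).base) :
    IsIntegral X :=
  isIntegral_of_openCover_of_common (Scheme.Cover.mkOfCovers ι U f hcov) hint i₀ hsub

/-- the three charts. -/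
inductive Chart : Type
  | fin | inf | mid

variable (N : ℕ) [NeZero N] (ℓ : ℕ) [Fact ℓ.Prime]


/-- the chart schemes -/
noncomputable def chartObj : Chart → Scheme.{0}
  | .fin => XFin N ℓ
  | .inf => XInf N ℓ
  | .mid => XMid N ℓ

/-- the chart maps -/
noncomputable def chartMap : (c : Chart) → (chartObj N ℓ c ⟶ ModularCurve.IgusaScheme N ℓ)
  | .fin => ιFin N ℓ
  | .inf => ιInf N ℓ
  | .mid => fFin N ℓ ≫ ιFin N ℓ

instance (c : Chart) : IsOpenImmersion (chartMap N ℓ c) := by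
  cases c
  · exact isOpenImmersion_ιFin N ℓ
  · exact isOpenImmersion_ιInf N ℓ
  · show IsOpenImmersion (fFin N ℓ ≫ ιFin N ℓ)
    infer_instance

/-- the three-chart open cover of the Igusa scheme. -/
noncomputable def cover : (ModularCurve.IgusaScheme N ℓ).OpenCover :=
  Scheme.Cover.mkOfCovers Chart (chartObj N ℓ) (chartMap N ℓ) (by
    intro x
    rcases mem_range_ιFin_or_mem_range_ιInf N ℓ x with ⟨y, hy⟩ | ⟨y, hy⟩
    · exact ⟨Chart.fin, y, hy⟩
    · exact ⟨Chart.inf, y, hy⟩)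

theorem chartMap_mid' : chartMap N ℓ Chart.mid = fInf N ℓ ≫ ιInf N ℓ :=
  glue_condition N ℓ

variable (K : Type) [Field K] [Algebra ↥(GaloisRep.ratLocalizedAt ℓ) K]

theorem isIntegral_piece (B : Type) [CommRing B] [Algebra ↥(GaloisRep.ratLocalizedAt ℓ) B]
    (a : Spec (CommRingCat.of B) ⟶ ModularCurve.IgusaScheme N ℓ)
    (ha : a ≫ igusaTo N ℓ = Spec.map (CommRingCat.ofHom (algebraMap ↥(GaloisRep.ratLocalizedAt ℓ) B)))
    [IsDomain (B ⊗[↥(GaloisRep.ratLocalizedAt ℓ)] K)] :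
    IsIntegral (pullback (a ≫ igusaTo N ℓ)
      (Spec.map (CommRingCat.ofHom (algebraMap ↥(GaloisRep.ratLocalizedAt ℓ) K)))) := by
  let e : pullback (a ≫ igusaTo N ℓ) (Spec.map (CommRingCat.ofHom (algebraMap ↥(GaloisRep.ratLocalizedAt ℓ) K))) ≅
      Spec (CommRingCat.of (B ⊗[↥(GaloisRep.ratLocalizedAt ℓ)] K)) :=
    pullback.congrHom ha rfl ≪≫ pullbackSpecIso ↥(GaloisRep.ratLocalizedAt ℓ) B K
  have : Nonempty ↥(pullback (a ≫ igusaTo N ℓ)
      (Spec.map (CommRingCat.ofHom (algebraMap ↥(GaloisRep.ratLocalizedAt ℓ) K)))) := by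
    obtain ⟨x⟩ : Nonempty ↥(Spec (CommRingCat.of (B ⊗[↥(GaloisRep.ratLocalizedAt ℓ)] K))) := inferInstance
    exact ⟨e.inv.base x⟩
  exact isIntegral_of_isOpenImmersion e.hom

theorem range_chartMap_mid_subset (c : Chart) :
    Set.range (chartMap N ℓ Chart.mid).base ⊆ Set.range (chartMap N ℓ c).base := by
  cases c
  · show Set.range (fFin N ℓ ≫ ιFin N ℓ).base ⊆ Set.range (ιFin N ℓ).base
    rintro _ ⟨y, rfl⟩
    exact ⟨(fFin N ℓ).base y, by simp⟩
  · rw [chartMap_mid']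
    show Set.range (fInf N ℓ ≫ ιInf N ℓ).base ⊆ Set.range (ιInf N ℓ).base
    rintro _ ⟨y, rfl⟩
    exact ⟨(fInf N ℓ).base y, by simp⟩
  · exact subset_rfl

theorem mid_igusaTo : (fFin N ℓ ≫ ιFin N ℓ) ≫ igusaTo N ℓ =
    Spec.map (CommRingCat.ofHom (algebraMap ↥(GaloisRep.ratLocalizedAt ℓ) (chartAlgMid N ℓ))) := by
  rw [Category.assoc, ιFin_igusaTo, ← Spec.map_comp, ← CommRingCat.ofHom_comp]
  congr 2

set_option maxHeartbeats 1000000 in
/-- **Scheme glue**: integrality of the base change of the Igusa scheme follows from the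
three chart algebras having domain base change. -/
theorem isIntegral_pullback_igusaTo
    (hFin : IsDomain ((chartAlgFin N ℓ) ⊗[↥(GaloisRep.ratLocalizedAt ℓ)] K))
    (hInf : IsDomain ((chartAlgInf N ℓ) ⊗[↥(GaloisRep.ratLocalizedAt ℓ)] K))
    (hMid : IsDomain ((chartAlgMid N ℓ) ⊗[↥(GaloisRep.ratLocalizedAt ℓ)] K)) :
    IsIntegral ↑(pullback (igusaTo N ℓ)
      (Spec.map (CommRingCat.ofHom (algebraMap ↥(GaloisRep.ratLocalizedAt ℓ) K)))) := by
  let g := Spec.map (CommRingCat.ofHom (algebraMap ↥(GaloisRep.ratLocalizedAt ℓ) K))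
  have hcov : ∀ x : ↑(pullback (igusaTo N ℓ) g), ∃ c : Chart,
      ∃ y : ↑(pullback (chartMap N ℓ c ≫ igusaTo N ℓ) g),
        (pullback.map (chartMap N ℓ c ≫ igusaTo N ℓ) g (igusaTo N ℓ) g
          (chartMap N ℓ c) (𝟙 _) (𝟙 _) (by simp) (by simp)).base y = x := by
    intro x
    obtain ⟨i, y, hy⟩ :=
      (Scheme.Pullback.openCoverOfLeft (cover N ℓ) (igusaTo N ℓ) g).exists_eq x
    exact ⟨i, y, hy⟩
  have hrange : ∀ c : Chart, Set.range (pullback.map (chartMap N ℓ c ≫ igusaTo N ℓ) g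
      (igusaTo N ℓ) g (chartMap N ℓ c) (𝟙 _) (𝟙 _) (by simp) (by simp)).base =
        (pullback.fst (igusaTo N ℓ) g).base ⁻¹' Set.range (chartMap N ℓ c).base := by
    intro c
    rw [Scheme.Pullback.range_map]
    simp
  have : ∀ c : Chart, IsOpenImmersion (pullback.map (chartMap N ℓ c ≫ igusaTo N ℓ) g
      (igusaTo N ℓ) g (chartMap N ℓ c) (𝟙 _) (𝟙 _) (by simp) (by simp)) := by
    intro c
    exact (Scheme.Pullback.openCoverOfLeft (cover N ℓ) (igusaTo N ℓ) g).map_prop c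
  refine isIntegral_of_charts (fun c : Chart => pullback (chartMap N ℓ c ≫ igusaTo N ℓ) g)
    (fun c => pullback.map (chartMap N ℓ c ≫ igusaTo N ℓ) g (igusaTo N ℓ) g
          (chartMap N ℓ c) (𝟙 _) (𝟙 _) (by simp) (by simp)) hcov ?_ Chart.mid ?_
  · intro c
    cases c
    · exact isIntegral_piece N ℓ K (chartAlgFin N ℓ) (ιFin N ℓ) (ιFin_igusaTo N ℓ)
    · exact isIntegral_piece N ℓ K (chartAlgInf N ℓ) (ιInf N ℓ) (ιInf_igusaTo N ℓ)
    · exact isIntegral_piece N ℓ K (chartAlgMid N ℓ) (fFin N ℓ ≫ ιFin N ℓ) (mid_igusaTo N ℓ)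
  · intro c
    rw [hrange, hrange]
    exact Set.preimage_mono (range_chartMap_mid_subset N ℓ c)

end Fermat.Agent.S28.SchemeGlue
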