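/-
PROJECT F (S28, Igusa) - TOP REDUCTION (architect file, helper17).

The frozen S28 conclusion from the three chart reductions `Defs.ChartRed N ℓ S`
(`S = {j}`, `{j⁻¹}`, `{j, j⁻¹}`): `RedZl.isDomain_tensor_charP` turns each into
`IsDomain (chartAlg N ℓ S ⊗ K)` and `SchemeGlue.isIntegral_pullback_igusaTo` glues.
-/
import Mathlib
import Fermat.Agent.S28.SchemeGlue
import Fermat.Agent.S28.Defs

set_option autoImplicit false

noncomputable section

namespace Fermat.Agent.S28.Top

open AlgebraicGeometry CategoryTheory CategoryTheory.Limits ModularCurve ModularCurve.IgusaScheme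
open TensorProduct

/-- A chart reduction makes the special fibre of the chart a domain, over any field `K` of
characteristic `ℓ`. -/
theorem isDomain_of_chartRed (N : ℕ) [NeZero N] (ℓ : ℕ) [Fact ℓ.Prime]
    (K : Type) [Field K] [CharP K ℓ] [Algebra ↥(GaloisRep.ratLocalizedAt ℓ) K]
    (S : Set ↥(modularFunctionFieldFull N)) (h : Defs.ChartRed N ℓ S) :
    IsDomain ((chartAlg N ℓ S) ⊗[↥(GaloisRep.ratLocalizedAt ℓ)] K) := by
  obtain ⟨ρ, h1, h2⟩ := h
  exact RedZl.isDomain_tensor_charP ℓ K ρ h1 h2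

/-- **The frozen S28 conclusion from the three chart reductions.** -/
theorem result_of_chartRed (N : ℕ) [NeZero N] (ℓ : ℕ) [Fact ℓ.Prime]
    (hFin : Defs.ChartRed N ℓ {jFull N})
    (hInf : Defs.ChartRed N ℓ {(jFull N)⁻¹})
    (hMid : Defs.ChartRed N ℓ {jFull N, (jFull N)⁻¹})
    (K : Type) [Field K] [CharP K ℓ] [Algebra ↥(GaloisRep.ratLocalizedAt ℓ) K] :
    IsIntegral ↑(pullback (igusaTo N ℓ)
      (Spec.map (CommRingCat.ofHom (algebraMap ↥(GaloisRep.ratLocalizedAt ℓ) K)))) :=
  SchemeGlue.isIntegral_pullback_igusaTo N ℓ K (isDomain_of_chartRed N ℓ K _ hFin)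
    (isDomain_of_chartRed N ℓ K _ hInf) (isDomain_of_chartRed N ℓ K _ hMid)

end Fermat.Agent.S28.Top
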