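import Mathlib
import Fermat.Agent.S28.ChartBase
import Fermat.Agent.S28.GaussVal
import Fermat.Agent.S28.Saturation

/-!
# S28 chart saturation: `ℤ_(ℓ)[s] ∩ ℓ·O_w = ℓ·ℤ_(ℓ)[s]` for `s = j, j⁻¹`

For `A = ↥(Algebra.adjoin ℤ_(ℓ) {s}) ⊆ F = ↥(modularFunctionFieldFull N)` and an `ℓ`-integral model
`σ : LaurentSeries ℤ_(ℓ)` of `s` (`GaussVal.incl ℓ σ = ↑s`) whose reduction `σ̄` is transcendental
over `𝔽_ℓ`:

* `coe_mem_Ol` (`A ⊆ Ol`), `red_aeval`, `dvd_of_red_eq_zero` (kernel of `red` on `A` is `(ℓ)`),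
  `red_mem_closure` (`red A ⊆ 𝔽_ℓ(σ̄)`);
* models: `jqModC ℤ_(ℓ)` for `j`, `jInvModC ℤ_(ℓ)` for `j⁻¹` (`jqModC_mul_jInvModC`);
* in the exact shape of `SaturationLift.exists_isIntegral_eq_mul_of_residue` /
  `residue_mem_of_fraction`, for `Ow := GaussVal.Ow hF`, `ρ := GaussVal.redw hF`:
  `hA_fin/inf`, `hsat_fin/inf`, `hAk_fin/inf`, `hmult_fin/inf`, `jFull_mem_Ow`, `jFull_inv_mem_Ow`,
  `redw_jFull`.
-/

set_option autoImplicit false
set_option linter.unusedSectionVars false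
set_option linter.style.haveILetI false

namespace Fermat.Agent.S28.ChartSat

open ModularCurve ModularCurve.IgusaScheme GaloisRep Polynomial

variable (N : ℕ) [NeZero N] (ℓ : ℕ) [hℓ : Fact ℓ.Prime]

set_option quotPrecheck false in
local notation "ℤℓ" => ↥(GaloisRep.ratLocalizedAt ℓ)

set_option quotPrecheck false in
local notation "F" => ↥(modularFunctionFieldFull N)

/-! ### Generic one-generator chart with an `ℓ`-integral model of the generator -/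

theorem incl_mem_Ol (g : LaurentSeries ℤℓ) : GaussVal.incl ℓ g ∈ GaussVal.Ol ℓ :=
  RingHom.mem_range.mpr ⟨g, rfl⟩

theorem red_congr {x y : LaurentSeries ℚ} (hxy : x = y) (hx : x ∈ GaussVal.Ol ℓ)
    (hy : y ∈ GaussVal.Ol ℓ) : GaussVal.red ℓ ⟨x, hx⟩ = GaussVal.red ℓ ⟨y, hy⟩ := by
  subst hxy; rfl

/-- `GaussVal.red` on an element of the range of `incl` is the coefficientwise reduction. -/
theorem red_incl (g : LaurentSeries ℤℓ) (h : GaussVal.incl ℓ g ∈ GaussVal.Ol ℓ) :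
    GaussVal.red ℓ ⟨GaussVal.incl ℓ g, h⟩ = coeffMap (GaussVal.resid ℓ) g := by
  have h1 : GaussVal.liftEquiv ℓ ⟨GaussVal.incl ℓ g, h⟩ = g :=
    GaussVal.incl_injective ℓ (GaussVal.incl_liftEquiv ℓ _)
  show (coeffMap (GaussVal.resid ℓ)) ((GaussVal.liftEquiv ℓ) ⟨GaussVal.incl ℓ g, h⟩) = _
  rw [h1]

/-- `aeval s P`, read in `ℚ((q))`, is the image of `P(σ) ∈ ℤ_(ℓ)((q))` for any integral model `σ`
of `s`. -/
theorem coe_aeval_eq_incl {s : F} {σ : LaurentSeries ℤℓ}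
    (hσ : GaussVal.incl ℓ σ = (s : LaurentSeries ℚ)) (P : ℤℓ[X]) :
    ((aeval s P : F) : LaurentSeries ℚ) =
      GaussVal.incl ℓ (eval₂ (HahnSeries.C : ℤℓ →+* LaurentSeries ℤℓ) σ P) := by
  rw [ChartBase.coe_aeval, ← hσ, aeval_def, eval₂_map, Polynomial.hom_eval₂]
  congr 1
  exact ZlBase.zl_ringHom_ext ℓ _ _

theorem coe_mem_Ol {s : F} {σ : LaurentSeries ℤℓ}
    (hσ : GaussVal.incl ℓ σ = (s : LaurentSeries ℚ)) {a : F}
    (ha : a ∈ Algebra.adjoin ℤℓ {s}) : (a : LaurentSeries ℚ) ∈ GaussVal.Ol ℓ := by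
  rw [Algebra.adjoin_singleton_eq_range_aeval] at ha
  obtain ⟨P, rfl⟩ := ha
  show ((aeval s P : F) : LaurentSeries ℚ) ∈ GaussVal.Ol ℓ
  rw [coe_aeval_eq_incl N ℓ hσ]
  exact incl_mem_Ol ℓ _

theorem red_aeval {s : F} {σ : LaurentSeries ℤℓ}
    (hσ : GaussVal.incl ℓ σ = (s : LaurentSeries ℚ)) (P : ℤℓ[X])
    (h : ((aeval s P : F) : LaurentSeries ℚ) ∈ GaussVal.Ol ℓ) :
    GaussVal.red ℓ ⟨((aeval s P : F) : LaurentSeries ℚ), h⟩ =
      aeval (coeffMap (GaussVal.resid ℓ) σ) (P.map (GaussVal.resid ℓ)) := by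
  rw [red_congr ℓ (coe_aeval_eq_incl N ℓ hσ P) h (incl_mem_Ol ℓ _), red_incl,
    Polynomial.hom_eval₂, aeval_def, eval₂_map]
  congr 1
  exact ZlBase.zl_ringHom_ext ℓ _ _

theorem resid_eq_red : GaussVal.resid ℓ = ZlBase.red ℓ := ZlBase.zl_ringHom_ext ℓ _ _

theorem exists_aeval_eq {s : F} (a : ↥(Algebra.adjoin ℤℓ {s})) :
    ∃ P : ℤℓ[X], aeval s P = (a : F) := by
  have ha : (a : F) ∈ (aeval s : ℤℓ[X] →ₐ[ℤℓ] F).range := by
    rw [← Algebra.adjoin_singleton_eq_range_aeval]; exact a.2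
  obtain ⟨P, hP⟩ := ha
  exact ⟨P, hP⟩

/-- **Saturation** `A ∩ ℓ·Ol = ℓ·A` for `A = ℤ_(ℓ)[s]`, when the reduction of `s` is transcendental
over `𝔽_ℓ`. -/
theorem dvd_of_red_eq_zero {s : F} {σ : LaurentSeries ℤℓ}
    (hσ : GaussVal.incl ℓ σ = (s : LaurentSeries ℚ))
    (hσt : Transcendental (ZMod ℓ) (coeffMap (GaussVal.resid ℓ) σ))
    (a : ↥(Algebra.adjoin ℤℓ {s})) (h : ((a : F) : LaurentSeries ℚ) ∈ GaussVal.Ol ℓ)
    (h0 : GaussVal.red ℓ ⟨((a : F) : LaurentSeries ℚ), h⟩ = 0) :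
    ((ℓ : ℕ) : ↥(Algebra.adjoin ℤℓ {s})) ∣ a := by
  obtain ⟨P, hP⟩ := exists_aeval_eq N ℓ a
  have hmem : ((aeval s P : F) : LaurentSeries ℚ) ∈ GaussVal.Ol ℓ := by rw [hP]; exact h
  rw [red_congr ℓ (congrArg (fun z : F => (z : LaurentSeries ℚ)) hP.symm) h hmem,
    red_aeval N ℓ hσ] at h0
  have h1 : P.map (GaussVal.resid ℓ) = 0 := transcendental_iff.mp hσt _ h0
  have h2 : C ((ℓ : ℕ) : ℤℓ) ∣ P := by
    rw [Polynomial.C_dvd_iff_dvd_coeff]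
    intro i
    have := congrArg (fun p : (ZMod ℓ)[X] => p.coeff i) h1
    simp only [coeff_map, coeff_zero] at this
    rw [resid_eq_red] at this
    exact (ZlBase.red_eq_zero_iff ℓ).mp this
  obtain ⟨Q, hQ⟩ := h2
  refine ⟨⟨aeval s Q, ?_⟩, Subtype.ext ?_⟩
  · rw [Algebra.adjoin_singleton_eq_range_aeval]; exact ⟨Q, rfl⟩
  · have e1 : algebraMap ℤℓ F ((ℓ : ℕ) : ℤℓ) = ((ℓ : ℕ) : F) := map_natCast _ _
    have e2 : ((((ℓ : ℕ) : ↥(Algebra.adjoin ℤℓ {s})) : F)) = ((ℓ : ℕ) : F) :=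
      map_natCast (Subalgebra.val (Algebra.adjoin ℤℓ {s})) ℓ
    have h3 : aeval s (C ((ℓ : ℕ) : ℤℓ) * Q) = ((ℓ : ℕ) : F) * aeval s Q := by
      rw [map_mul, aeval_C, e1]
    show (a : F) = ((((ℓ : ℕ) : ↥(Algebra.adjoin ℤℓ {s})) : F)) * aeval s Q
    rw [e2, ← hP, hQ, h3]

theorem aeval_mem_closure (x : LaurentSeries (ZMod ℓ)) (Q : (ZMod ℓ)[X]) :
    aeval x Q ∈ Subfield.closure {x} := by
  induction Q using Polynomial.induction_on' with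
  | add p q hp hq => rw [map_add]; exact add_mem hp hq
  | monomial n a =>
    rw [aeval_monomial]
    have hx : x ∈ Subfield.closure ({x} : Set (LaurentSeries (ZMod ℓ))) :=
      Subfield.subset_closure (Set.mem_singleton x)
    have h1 : algebraMap (ZMod ℓ) (LaurentSeries (ZMod ℓ)) a ∈
        Subfield.closure ({x} : Set (LaurentSeries (ZMod ℓ))) := by
      have : algebraMap (ZMod ℓ) (LaurentSeries (ZMod ℓ)) a =
          ((a.val : ℕ) : LaurentSeries (ZMod ℓ)) := by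
        rw [← map_natCast (algebraMap (ZMod ℓ) (LaurentSeries (ZMod ℓ))), ZMod.natCast_zmod_val]
      rw [this]
      exact natCast_mem _ _
    exact (Subfield.closure {x}).mul_mem h1 ((Subfield.closure {x}).pow_mem hx n)

/-- The reduction of `ℤ_(ℓ)[s]` lies in `𝔽_ℓ(σ̄)`. -/
theorem red_mem_closure {s : F} {σ : LaurentSeries ℤℓ}
    (hσ : GaussVal.incl ℓ σ = (s : LaurentSeries ℚ))
    (a : ↥(Algebra.adjoin ℤℓ {s})) (h : ((a : F) : LaurentSeries ℚ) ∈ GaussVal.Ol ℓ) :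
    GaussVal.red ℓ ⟨((a : F) : LaurentSeries ℚ), h⟩ ∈
      Subfield.closure {coeffMap (GaussVal.resid ℓ) σ} := by
  obtain ⟨P, hP⟩ := exists_aeval_eq N ℓ a
  have hmem : ((aeval s P : F) : LaurentSeries ℚ) ∈ GaussVal.Ol ℓ := by rw [hP]; exact h
  rw [red_congr ℓ (congrArg (fun z : F => (z : LaurentSeries ℚ)) hP.symm) h hmem,
    red_aeval N ℓ hσ]
  exact aeval_mem_closure ℓ _ _

/-! ### The two models: `j ↦ jqModC ℤ_(ℓ)` and `j⁻¹ ↦ jInvModC ℤ_(ℓ)` -/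

/-- The `q`-expansion of `1/j` over any commutative ring: `q · (jNum)⁻¹`. -/
noncomputable def jInvModC (R : Type*) [CommRing R] : LaurentSeries R :=
  HahnSeries.single (1 : ℤ) 1 *
    HahnSeries.ofPowerSeries ℤ R ((jNum.invOfUnit 1).map (Int.castRingHom R))

theorem jqModC_mul_jInvModC (R : Type*) [CommRing R] : jqModC R * jInvModC R = 1 := by
  have h1 : jNum * jNum.invOfUnit 1 = 1 :=
    PowerSeries.mul_invOfUnit jNum 1 (by rw [constantCoeff_jNum]; rfl)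
  rw [jqModC, jInvModC, mul_mul_mul_comm, HahnSeries.single_mul_single, ← map_mul, ← map_mul, h1,
    map_one, map_one, mul_one, neg_add_cancel, mul_one]
  rfl

theorem coeffMap_jInvModC {R S : Type*} [CommRing R] [CommRing S] (f : R →+* S) :
    coeffMap f (jInvModC R) = jInvModC S := by
  rw [jInvModC, map_mul, coeffMap_single, map_one, coeffMap_ofPowerSeries,
    ← RingHom.comp_apply (PowerSeries.map f) (PowerSeries.map (Int.castRingHom R)),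
    ← PowerSeries.map_comp, RingHom.ext_int (f.comp (Int.castRingHom R)) (Int.castRingHom S)]
  rfl

theorem incl_jqModC : GaussVal.incl ℓ (jqModC ℤℓ) = ((jFull N : F) : LaurentSeries ℚ) := by
  rw [coe_jFull, GaussVal.incl, coeffMap_jqModC, jqModC_rat]

theorem incl_jInvModC :
    GaussVal.incl ℓ (jInvModC ℤℓ) = (((jFull N)⁻¹ : F) : LaurentSeries ℚ) := by
  have h0 : (((jFull N)⁻¹ : F) : LaurentSeries ℚ) = jq⁻¹ := rfl
  rw [h0]
  have h1 : jq * GaussVal.incl ℓ (jInvModC ℤℓ) = 1 := by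
    rw [← coe_jFull N, ← incl_jqModC N ℓ, ← map_mul, jqModC_mul_jInvModC, map_one]
  exact eq_inv_of_mul_eq_one_right h1

theorem coeffMap_resid_jqModC :
    coeffMap (GaussVal.resid ℓ) (jqModC ℤℓ) = jqModC (ZMod ℓ) := coeffMap_jqModC _

theorem coeffMap_resid_jInvModC :
    coeffMap (GaussVal.resid ℓ) (jInvModC ℤℓ) = (jqModC (ZMod ℓ))⁻¹ := by
  have h1 : jqModC (ZMod ℓ) * coeffMap (GaussVal.resid ℓ) (jInvModC ℤℓ) = 1 := by
    rw [coeffMap_jInvModC, jqModC_mul_jInvModC]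
  exact eq_inv_of_mul_eq_one_right h1

theorem transcendental_jqModC_zmod : Transcendental (ZMod ℓ) (jqModC (ZMod ℓ)) :=
  Fermat.Agent.S24.LinDisjoint.transcendental_of_coeff_neg (jqModC (ZMod ℓ)) (n := -1)
    (by norm_num) (by rw [coeff_jqModC_neg_one]; exact one_ne_zero)

theorem transcendental_jqModC_zmod_inv : Transcendental (ZMod ℓ) (jqModC (ZMod ℓ))⁻¹ := by
  intro h
  exact transcendental_jqModC_zmod ℓ (IsAlgebraic.inv_iff.mp h)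

theorem closure_inv_le :
    Subfield.closure ({(jqModC (ZMod ℓ))⁻¹} : Set (LaurentSeries (ZMod ℓ))) ≤
      Subfield.closure {jqModC (ZMod ℓ)} := by
  rw [Subfield.closure_le, Set.singleton_subset_iff]
  exact (Subfield.closure _).inv_mem (Subfield.subset_closure (Set.mem_singleton _))

/-! ### The Fin and Inf charts: `ℓ`-integrality, saturation, residue field -/

theorem coe_mem_Ol_fin {a : F} (ha : a ∈ Algebra.adjoin ℤℓ {jFull N}) :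
    (a : LaurentSeries ℚ) ∈ GaussVal.Ol ℓ :=
  coe_mem_Ol N ℓ (incl_jqModC N ℓ) ha

theorem coe_mem_Ol_inf {a : F} (ha : a ∈ Algebra.adjoin ℤℓ {(jFull N)⁻¹}) :
    (a : LaurentSeries ℚ) ∈ GaussVal.Ol ℓ :=
  coe_mem_Ol N ℓ (incl_jInvModC N ℓ) ha

theorem dvd_of_red_eq_zero_fin (a : ↥(Algebra.adjoin ℤℓ {jFull N}))
    (h : ((a : F) : LaurentSeries ℚ) ∈ GaussVal.Ol ℓ)
    (h0 : GaussVal.red ℓ ⟨((a : F) : LaurentSeries ℚ), h⟩ = 0) :
    ((ℓ : ℕ) : ↥(Algebra.adjoin ℤℓ {jFull N})) ∣ a :=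
  dvd_of_red_eq_zero N ℓ (incl_jqModC N ℓ)
    (by rw [coeffMap_resid_jqModC]; exact transcendental_jqModC_zmod ℓ) a h h0

theorem dvd_of_red_eq_zero_inf (a : ↥(Algebra.adjoin ℤℓ {(jFull N)⁻¹}))
    (h : ((a : F) : LaurentSeries ℚ) ∈ GaussVal.Ol ℓ)
    (h0 : GaussVal.red ℓ ⟨((a : F) : LaurentSeries ℚ), h⟩ = 0) :
    ((ℓ : ℕ) : ↥(Algebra.adjoin ℤℓ {(jFull N)⁻¹})) ∣ a :=
  dvd_of_red_eq_zero N ℓ (incl_jInvModC N ℓ)
    (by rw [coeffMap_resid_jInvModC]; exact transcendental_jqModC_zmod_inv ℓ) a h h0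

theorem red_mem_closure_fin (a : ↥(Algebra.adjoin ℤℓ {jFull N}))
    (h : ((a : F) : LaurentSeries ℚ) ∈ GaussVal.Ol ℓ) :
    GaussVal.red ℓ ⟨((a : F) : LaurentSeries ℚ), h⟩ ∈
      Subfield.closure {jqModC (ZMod ℓ)} := by
  have := red_mem_closure N ℓ (incl_jqModC N ℓ) a h
  rwa [coeffMap_resid_jqModC] at this

theorem red_mem_closure_inf (a : ↥(Algebra.adjoin ℤℓ {(jFull N)⁻¹}))
    (h : ((a : F) : LaurentSeries ℚ) ∈ GaussVal.Ol ℓ) :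
    GaussVal.red ℓ ⟨((a : F) : LaurentSeries ℚ), h⟩ ∈
      Subfield.closure {jqModC (ZMod ℓ)} := by
  have := red_mem_closure N ℓ (incl_jInvModC N ℓ) a h
  rw [coeffMap_resid_jInvModC] at this
  exact closure_inv_le ℓ this

/-! ### The hypotheses of `SaturationLift.exists_isIntegral_eq_mul_of_residue` for the Fin/Inf
charts, for the valuation ring `GaussVal.Ow hF` and `ρ = GaussVal.redw hF` -/

section Ow

variable (hF : GaussVal.IsRatio ℓ (modularFunctionFieldFull N))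

/-- generic one-generator version of `hA`. -/
theorem mem_Ow_of_model {s : F} {σ : LaurentSeries ℤℓ}
    (hσ : GaussVal.incl ℓ σ = (s : LaurentSeries ℚ)) (a : ↥(Algebra.adjoin ℤℓ {s})) :
    algebraMap ↥(Algebra.adjoin ℤℓ {s}) F a ∈ GaussVal.Ow hF :=
  GaussVal.mem_Ow_of_mem_Ol hF (coe_mem_Ol N ℓ hσ a.2)

/-- generic one-generator version of `hsat`. -/
theorem hsat_of_model {s : F} {σ : LaurentSeries ℤℓ}
    (hσ : GaussVal.incl ℓ σ = (s : LaurentSeries ℚ))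
    (hσt : Transcendental (ZMod ℓ) (coeffMap (GaussVal.resid ℓ) σ))
    (a : ↥(Algebra.adjoin ℤℓ {s}))
    (h : Saturation.LDvd (GaussVal.Ow hF)
      (algebraMap ↥(Algebra.adjoin ℤℓ {s}) F ((ℓ : ℕ) : ↥(Algebra.adjoin ℤℓ {s})))
      (algebraMap ↥(Algebra.adjoin ℤℓ {s}) F a)) :
    ((ℓ : ℕ) : ↥(Algebra.adjoin ℤℓ {s})) ∣ a := by
  obtain ⟨z, hz, hzeq⟩ := h
  have hmem := coe_mem_Ol N ℓ hσ a.2
  have e2 : algebraMap ↥(Algebra.adjoin ℤℓ {s}) F ((ℓ : ℕ) : ↥(Algebra.adjoin ℤℓ {s})) =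
      ((ℓ : ℕ) : F) := map_natCast _ _
  rw [e2] at hzeq
  have h0 : GaussVal.redw hF ⟨(a : F), GaussVal.mem_Ow_of_mem_Ol hF hmem⟩ = 0 :=
    (GaussVal.redw_eq_zero_iff hF _).mpr ⟨z, hz, hzeq⟩
  rw [GaussVal.redw_of_mem_Ol hF hmem] at h0
  exact dvd_of_red_eq_zero N ℓ hσ hσt a hmem h0

/-- generic one-generator version of `hAk`. -/
theorem redw_mem_closure_of_model {s : F} {σ : LaurentSeries ℤℓ}
    (hσ : GaussVal.incl ℓ σ = (s : LaurentSeries ℚ)) (a : ↥(Algebra.adjoin ℤℓ {s})) :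
    GaussVal.redw hF ⟨algebraMap ↥(Algebra.adjoin ℤℓ {s}) F a, mem_Ow_of_model N ℓ hF hσ a⟩ ∈
      Subfield.closure {coeffMap (GaussVal.resid ℓ) σ} := by
  have hmem := coe_mem_Ol N ℓ hσ a.2
  have := red_mem_closure N ℓ hσ a hmem
  rwa [← GaussVal.redw_of_mem_Ol hF hmem] at this

theorem hA_fin (a : ↥(Algebra.adjoin ℤℓ {jFull N})) :
    algebraMap ↥(Algebra.adjoin ℤℓ {jFull N}) F a ∈ GaussVal.Ow hF :=
  mem_Ow_of_model N ℓ hF (incl_jqModC N ℓ) a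

theorem hA_inf (a : ↥(Algebra.adjoin ℤℓ {(jFull N)⁻¹})) :
    algebraMap ↥(Algebra.adjoin ℤℓ {(jFull N)⁻¹}) F a ∈ GaussVal.Ow hF :=
  mem_Ow_of_model N ℓ hF (incl_jInvModC N ℓ) a

theorem jFull_mem_Ow : jFull N ∈ GaussVal.Ow hF :=
  hA_fin N ℓ hF ⟨jFull N, Algebra.subset_adjoin rfl⟩

theorem jFull_inv_mem_Ow : (jFull N)⁻¹ ∈ GaussVal.Ow hF :=
  hA_inf N ℓ hF ⟨(jFull N)⁻¹, Algebra.subset_adjoin rfl⟩

theorem hsat_fin (a : ↥(Algebra.adjoin ℤℓ {jFull N}))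
    (h : Saturation.LDvd (GaussVal.Ow hF)
      (algebraMap ↥(Algebra.adjoin ℤℓ {jFull N}) F ((ℓ : ℕ) : ↥(Algebra.adjoin ℤℓ {jFull N})))
      (algebraMap ↥(Algebra.adjoin ℤℓ {jFull N}) F a)) :
    ((ℓ : ℕ) : ↥(Algebra.adjoin ℤℓ {jFull N})) ∣ a :=
  hsat_of_model N ℓ hF (incl_jqModC N ℓ)
    (by rw [coeffMap_resid_jqModC]; exact transcendental_jqModC_zmod ℓ) a h

theorem hsat_inf (a : ↥(Algebra.adjoin ℤℓ {(jFull N)⁻¹}))
    (h : Saturation.LDvd (GaussVal.Ow hF)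
      (algebraMap ↥(Algebra.adjoin ℤℓ {(jFull N)⁻¹}) F
        ((ℓ : ℕ) : ↥(Algebra.adjoin ℤℓ {(jFull N)⁻¹})))
      (algebraMap ↥(Algebra.adjoin ℤℓ {(jFull N)⁻¹}) F a)) :
    ((ℓ : ℕ) : ↥(Algebra.adjoin ℤℓ {(jFull N)⁻¹})) ∣ a :=
  hsat_of_model N ℓ hF (incl_jInvModC N ℓ)
    (by rw [coeffMap_resid_jInvModC]; exact transcendental_jqModC_zmod_inv ℓ) a h

theorem hAk_fin (a : ↥(Algebra.adjoin ℤℓ {jFull N})) :
    GaussVal.redw hF ⟨algebraMap ↥(Algebra.adjoin ℤℓ {jFull N}) F a, hA_fin N ℓ hF a⟩ ∈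
      Subfield.closure {jqModC (ZMod ℓ)} := by
  have := redw_mem_closure_of_model N ℓ hF (incl_jqModC N ℓ) a
  rwa [coeffMap_resid_jqModC] at this

theorem hAk_inf (a : ↥(Algebra.adjoin ℤℓ {(jFull N)⁻¹})) :
    GaussVal.redw hF ⟨algebraMap ↥(Algebra.adjoin ℤℓ {(jFull N)⁻¹}) F a, hA_inf N ℓ hF a⟩ ∈
      Subfield.closure {jqModC (ZMod ℓ)} := by
  have := redw_mem_closure_of_model N ℓ hF (incl_jInvModC N ℓ) a
  rw [coeffMap_resid_jInvModC] at this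
  exact closure_inv_le ℓ this

/-- `redw` of the generators. -/
theorem redw_jFull :
    GaussVal.redw hF ⟨jFull N, jFull_mem_Ow N ℓ hF⟩ = jqModC (ZMod ℓ) := by
  have hmem : ((jFull N : F) : LaurentSeries ℚ) ∈ GaussVal.Ol ℓ := by
    rw [← incl_jqModC N ℓ]; exact incl_mem_Ol ℓ _
  rw [GaussVal.redw_of_mem_Ol hF hmem,
    red_congr ℓ (incl_jqModC N ℓ).symm hmem (incl_mem_Ol ℓ _), red_incl, coeffMap_resid_jqModC]

end Ow

/-! ### `hmult`: every nonzero element is `ℓ^n · b'` with `ℓ ∤ b'` -/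

theorem hmult_of_transcendental {s : F} (hs : Transcendental ℤℓ s)
    (b : ↥(Algebra.adjoin ℤℓ {s})) (hb : b ≠ 0) :
    ∃ (n : ℕ) (b' : ↥(Algebra.adjoin ℤℓ {s})),
      ¬ ((ℓ : ℕ) : ↥(Algebra.adjoin ℤℓ {s})) ∣ b' ∧
        b = ((ℓ : ℕ) : ↥(Algebra.adjoin ℤℓ {s})) ^ n * b' := by
  haveI : UniqueFactorizationMonoid ↥(Algebra.adjoin ℤℓ {s}) :=
    (Polynomial.algEquivOfTranscendental ℤℓ s hs).toMulEquiv.uniqueFactorizationMonoid
      inferInstance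
  exact WfDvdMonoid.max_power_factor hb
    (ChartBase.prime_natCast_adjoin_singleton N ℓ hs).irreducible

theorem hmult_fin (b : ↥(Algebra.adjoin ℤℓ {jFull N})) (hb : b ≠ 0) :
    ∃ (n : ℕ) (b' : ↥(Algebra.adjoin ℤℓ {jFull N})),
      ¬ ((ℓ : ℕ) : ↥(Algebra.adjoin ℤℓ {jFull N})) ∣ b' ∧
        b = ((ℓ : ℕ) : ↥(Algebra.adjoin ℤℓ {jFull N})) ^ n * b' :=
  hmult_of_transcendental N ℓ (ChartBase.transcendental_jFull N ℓ) b hb

theorem hmult_inf (b : ↥(Algebra.adjoin ℤℓ {(jFull N)⁻¹})) (hb : b ≠ 0) :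
    ∃ (n : ℕ) (b' : ↥(Algebra.adjoin ℤℓ {(jFull N)⁻¹})),
      ¬ ((ℓ : ℕ) : ↥(Algebra.adjoin ℤℓ {(jFull N)⁻¹})) ∣ b' ∧
        b = ((ℓ : ℕ) : ↥(Algebra.adjoin ℤℓ {(jFull N)⁻¹})) ^ n * b' :=
  hmult_of_transcendental N ℓ (ChartBase.transcendental_jFull_inv N ℓ) b hb

end Fermat.Agent.S28.ChartSat
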