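import Mathlib

/-!
# S28 (Igusa), step (II-c): descent of integrality from the localisation at a prime element

Let `A` be an integrally closed domain with fraction field `K₀`, `l ∈ A` a prime element, `F/K₀` a
field extension.

* `isIntegral_of_smul_of_smul`: if `l • y` and `s • y` are integral over `A` with `l ∤ s`, then `y`
  is integral over `A` (the minimal polynomial of `y` over `K₀` has coefficients `c` with
  `c l^a ∈ A` and `c s^a ∈ A`).
* `isIntegral_of_isIntegral_localization`: if `y` is integral over the localisation `O` of `A` at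
  the prime `(l)` and `l • y` is integral over `A`, then `y` is integral over `A`
  (`isIntegral_of_isIntegral_of_isLocalization`: any submonoid `M` with `l ∤ s` for `s ∈ M`).
* `exists_mem_integralClosure_of_smul`: for `B = integralClosure A F`, `B' = integralClosure O F`:
  `B ∩ l B' = l B`, i.e. `B / l B → B' / l B'` is injective.
-/

set_option autoImplicit false

namespace Fermat.Agent.S28.Descent

open Polynomial

/-- An element `z` of the fraction field with `z l^a ∈ A` and `z s^a ∈ A`, `l` prime, `l ∤ s`,
lies in `A`. -/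
theorem mem_range_of_mul_pow {A K₀ : Type*} [CommRing A] [IsDomain A] [Field K₀] [Algebra A K₀]
    [IsFractionRing A K₀] (l s : A) (hl : Prime l) (hs : ¬ l ∣ s) (a : ℕ) (z : K₀)
    (h1 : z * algebraMap A K₀ l ^ a ∈ (algebraMap A K₀).range)
    (h2 : z * algebraMap A K₀ s ^ a ∈ (algebraMap A K₀).range) :
    z ∈ (algebraMap A K₀).range := by
  obtain ⟨c, hc⟩ := h1
  obtain ⟨d, hd⟩ := h2
  have hinj := IsFractionRing.injective A K₀
  have hl0 : algebraMap A K₀ l ≠ 0 := by
    rw [Ne, map_eq_zero_iff _ hinj]; exact hl.ne_zero
  have hcd : c * s ^ a = d * l ^ a := by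
    apply hinj
    rw [map_mul, map_mul, map_pow, map_pow, hc, hd]
    ring
  have hdvd : l ^ a ∣ c := by
    have hsa : ¬ l ∣ s ^ a := fun h => hs (hl.dvd_of_dvd_pow h)
    exact hl.pow_dvd_of_dvd_mul_right a hsa (hcd ▸ Dvd.intro_left d rfl)
  obtain ⟨c', rfl⟩ := hdvd
  refine ⟨c', ?_⟩
  have : z * algebraMap A K₀ l ^ a = algebraMap A K₀ c' * algebraMap A K₀ l ^ a := by
    rw [← hc, map_mul, map_pow]; ring
  exact (mul_right_cancel₀ (pow_ne_zero a hl0) this).symm

/-- **Descent**: if `l y` and `s y` are integral over the integrally closed domain `A`, `l` a prime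
element not dividing `s`, then `y` is integral over `A`. -/
theorem isIntegral_of_smul_of_smul {A : Type*} (K₀ : Type*) {F : Type*} [CommRing A] [IsDomain A]
    [IsIntegrallyClosed A] [Field K₀] [Algebra A K₀] [IsFractionRing A K₀]
    [Field F] [Algebra A F] [Algebra K₀ F] [IsScalarTower A K₀ F] (l s : A)
    (hl : Prime l) (hs : ¬ l ∣ s) (y : F)
    (h1 : IsIntegral A (l • y)) (h2 : IsIntegral A (s • y)) : IsIntegral A y := by
  have hinj := IsFractionRing.injective A K₀
  have hs0 : algebraMap A K₀ s ≠ 0 := by
    rw [Ne, map_eq_zero_iff _ hinj]; rintro rfl; exact hs (dvd_zero l)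
  -- `y` is integral over `K₀`
  have hyK : IsIntegral K₀ y := by
    have h : IsIntegral K₀ (s • y) := h2.tower_top
    have : y = (algebraMap A K₀ s)⁻¹ • (s • y) := by
      rw [← IsScalarTower.algebraMap_smul K₀ s y, smul_smul, inv_mul_cancel₀ hs0, one_smul]
    rw [this]
    exact h.smul _
  set μ := minpoly K₀ y with hμ
  have key : ∀ (c : A), c ≠ 0 → IsIntegral A (c • y) → ∀ i,
      μ.coeff i * algebraMap A K₀ c ^ (μ.natDegree - i) ∈ (algebraMap A K₀).range := by
    intro c hc0 hc i
    have hcK : algebraMap A K₀ c ≠ 0 := by rwa [Ne, map_eq_zero_iff _ hinj]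
    have e1 : minpoly K₀ (c • y) = (minpoly A (c • y)).map (algebraMap A K₀) :=
      minpoly.isIntegrallyClosed_eq_field_fractions K₀ F hc
    have e2 : minpoly K₀ (algebraMap A K₀ c • y) = μ.scaleRoots (algebraMap A K₀ c) :=
      IsIntegrallyClosed.minpoly_smul hcK hyK
    rw [IsScalarTower.algebraMap_smul] at e2
    have := congrArg (fun P => P.coeff i) (e1.symm.trans e2)
    simp only [coeff_map, coeff_scaleRoots] at this
    exact ⟨_, this⟩
  have hcoeff : ∀ i, μ.coeff i ∈ (algebraMap A K₀).range := fun i =>
    mem_range_of_mul_pow l s hl hs _ _ (key l hl.ne_zero h1 i)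
      (key s (by rintro rfl; exact hs (dvd_zero l)) h2 i)
  have hlifts : μ ∈ Polynomial.lifts (algebraMap A K₀) :=
    (Polynomial.lifts_iff_coeff_lifts μ).mpr hcoeff
  obtain ⟨P, hP, -, hPm⟩ := Polynomial.lifts_and_natDegree_eq_and_monic hlifts (minpoly.monic hyK)
  refine ⟨P, hPm, ?_⟩
  have : Polynomial.aeval y (P.map (algebraMap A K₀)) = 0 := by rw [hP]; exact minpoly.aeval K₀ y
  rwa [Polynomial.aeval_map_algebraMap] at this

/-- Variant with `K₀ := FractionRing A`: no fraction field needs to be supplied. -/
theorem isIntegral_of_smul_of_smul' {A F : Type*} [CommRing A] [IsDomain A]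
    [IsIntegrallyClosed A] [Field F] [Algebra A F] [FaithfulSMul A F] (l s : A)
    (hl : Prime l) (hs : ¬ l ∣ s) (y : F)
    (h1 : IsIntegral A (l • y)) (h2 : IsIntegral A (s • y)) : IsIntegral A y := by
  let _ := FractionRing.liftAlgebra A F
  exact isIntegral_of_smul_of_smul (FractionRing A) l s hl hs y h1 h2

/-- The ideal generated by a prime element is prime. -/
theorem span_isPrime {A : Type*} [CommRing A] [IsDomain A] {l : A} (hl : Prime l) :
    (Ideal.span {l}).IsPrime :=
  (Ideal.span_singleton_prime hl.ne_zero).mpr hl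

/-- **Descent from a localisation away from `l`**: if `y` is integral over a localisation `O` of
`A` at a submonoid `M` none of whose elements is divisible by the prime element `l`, and `l • y`
is integral over `A`, then `y` is integral over `A`. -/
theorem isIntegral_of_isIntegral_of_isLocalization {A F : Type*} [CommRing A] [IsDomain A]
    [IsIntegrallyClosed A] [Field F] [Algebra A F] [FaithfulSMul A F] (l : A) (hl : Prime l)
    (M : Submonoid A) (hM : ∀ s ∈ M, ¬ l ∣ s)
    (O : Type*) [CommRing O] [Algebra A O] [IsLocalization M O]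
    [Algebra O F] [IsScalarTower A O F] (y : F)
    (hy : IsIntegral O y) (hly : IsIntegral A (l • y)) : IsIntegral A y := by
  obtain ⟨⟨s, hs⟩, hsy⟩ := IsIntegral.exists_multiple_integral_of_isLocalization M y hy
  exact isIntegral_of_smul_of_smul' l s hl (hM s hs) y hly hsy

/-- **Descent from the localisation at `(l)`**: if `y` is integral over the localisation `O` of
`A` at the prime ideal `(l)` and `l • y` is integral over `A`, then `y` is integral over `A`. -/
theorem isIntegral_of_isIntegral_localization {A F : Type*} [CommRing A] [IsDomain A]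
    [IsIntegrallyClosed A] [Field F] [Algebra A F] [FaithfulSMul A F] (l : A) (hl : Prime l)
    (O : Type*) [CommRing O] [Algebra A O]
    [hO : @IsLocalization A _ (@Ideal.primeCompl A _ (Ideal.span {l}) (span_isPrime hl)) O _ _]
    [Algebra O F] [IsScalarTower A O F] (y : F)
    (hy : IsIntegral O y) (hly : IsIntegral A (l • y)) : IsIntegral A y := by
  have := span_isPrime hl
  exact isIntegral_of_isIntegral_of_isLocalization l hl (Ideal.span {l}).primeCompl
    (fun s hs h => hs (Ideal.mem_span_singleton.mpr h)) O y hy hly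

/-- **`B ∩ l B' = l B`**, submonoid form. -/
theorem exists_mem_integralClosure_of_smul' {A F : Type*} [CommRing A] [IsDomain A]
    [IsIntegrallyClosed A] [Field F] [Algebra A F] [FaithfulSMul A F] (l : A) (hl : Prime l)
    (M : Submonoid A) (hM : ∀ s ∈ M, ¬ l ∣ s)
    (O : Type*) [CommRing O] [Algebra A O] [IsLocalization M O]
    [Algebra O F] [IsScalarTower A O F] (x : F) (hx : x ∈ integralClosure A F)
    (y : F) (hy : y ∈ integralClosure O F) (hxy : x = l • y) : y ∈ integralClosure A F :=
  isIntegral_of_isIntegral_of_isLocalization l hl M hM O y hy (hxy ▸ hx)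

/-- **`B ∩ l B' = l B`**: for `B = integralClosure A F` and `B' = integralClosure O F` (`O` the
localisation of `A` at `(l)`), an element of `B` which is `l` times an element of `B'` is `l`
times an element of `B`. -/
theorem exists_mem_integralClosure_of_smul {A F : Type*} [CommRing A] [IsDomain A]
    [IsIntegrallyClosed A] [Field F] [Algebra A F] [FaithfulSMul A F] (l : A) (hl : Prime l)
    (O : Type*) [CommRing O] [Algebra A O]
    [hO : @IsLocalization A _ (@Ideal.primeCompl A _ (Ideal.span {l}) (span_isPrime hl)) O _ _]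
    [Algebra O F] [IsScalarTower A O F] (x : F) (hx : x ∈ integralClosure A F)
    (y : F) (hy : y ∈ integralClosure O F) (hxy : x = l • y) : y ∈ integralClosure A F :=
  isIntegral_of_isIntegral_localization l hl O y hy (hxy ▸ hx)

end Fermat.Agent.S28.Descent
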