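import Mathlib

/-!
# Polynomials in `j = q⁻¹ + ⋯` with coefficients in a subring

Let `S` be a commutative ring, `R ⊆ S` a subring and `j = q⁻¹ * g(q)` a Laurent series over `S`
with `g(0) = 1` and all coefficients in `R`.

* `coeffSubring R` : the subring of `LaurentSeries S` of series all of whose coefficients are in `R`.
* `coeff_aeval_neg` : for `P.natDegree ≤ n`, the coefficient of `q ^ (-n)` in `P(j)` is `P.coeff n`.
* `coeff_mem_of_aeval_mem` : if `P ∈ S[X]` and all coefficients of `P(j)` are in `R`, then all
  coefficients of `P` are in `R`.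
* `exists_map_eq_of_aeval` : ring-hom form: for injective `ι : R →+* S`, if `P(j)` has all its
  coefficients in the range of `ι`, then `P = P'.map ι`.
* `aeval_injective` : `P ↦ P(j)` is injective.
-/

set_option autoImplicit false

namespace Fermat.Agent.S28.PolyJInt

open HahnSeries

variable {S : Type*} [CommRing S]

/-- The Laurent series all of whose coefficients lie in the subring `R`. -/
def coeffSubring (R : Subring S) : Subring (LaurentSeries S) where
  carrier := {x | ∀ n, x.coeff n ∈ R}
  mul_mem' := by
    intro x y hx hy n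
    rw [HahnSeries.coeff_mul]
    exact Subring.sum_mem _ fun ij _ => Subring.mul_mem _ (hx _) (hy _)
  one_mem' := by
    intro n
    rw [HahnSeries.coeff_one]
    split_ifs
    · exact Subring.one_mem _
    · exact Subring.zero_mem _
  add_mem' := by
    intro x y hx hy n
    rw [HahnSeries.coeff_add]
    exact Subring.add_mem _ (hx _) (hy _)
  zero_mem' := by
    intro n
    rw [HahnSeries.coeff_zero]
    exact Subring.zero_mem _
  neg_mem' := by
    intro x hx n
    rw [HahnSeries.coeff_neg]
    exact Subring.neg_mem _ (hx _)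

theorem mem_coeffSubring {R : Subring S} {x : LaurentSeries S} :
    x ∈ coeffSubring R ↔ ∀ n, x.coeff n ∈ R := Iff.rfl

theorem C_mem_coeffSubring {R : Subring S} {a : S} (ha : a ∈ R) :
    (HahnSeries.C a : LaurentSeries S) ∈ coeffSubring R := by
  intro n
  rw [show (HahnSeries.C a : LaurentSeries S) = HahnSeries.single 0 a from rfl,
    HahnSeries.coeff_single]
  split_ifs
  · exact ha
  · exact Subring.zero_mem _

theorem algebraMap_eq_C (a : S) : algebraMap S (LaurentSeries S) a = HahnSeries.C a := by
  rw [HahnSeries.algebraMap_apply', show algebraMap S (PowerSeries S) a = PowerSeries.C a from rfl,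
    HahnSeries.ofPowerSeries_C]

theorem coeff_algebraMap_mul (a : S) (x : LaurentSeries S) (n : ℤ) :
    (algebraMap S (LaurentSeries S) a * x).coeff n = a * x.coeff n := by
  rw [algebraMap_eq_C,
    show (HahnSeries.C a : LaurentSeries S) = HahnSeries.single 0 a from rfl,
    HahnSeries.coeff_single_mul, sub_zero]

theorem ofPowerSeries_coeff_neg (f : PowerSeries S) {k : ℤ}
    (hk : k < 0) : (HahnSeries.ofPowerSeries ℤ S f).coeff k = 0 := by
  rw [HahnSeries.ofPowerSeries_apply]
  refine HahnSeries.embDomain_of_notMem_range ?_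
  rintro ⟨m, rfl⟩
  exact absurd hk (not_lt.mpr (Int.natCast_nonneg m))

section

variable (g : PowerSeries S)

/-- `(q⁻¹ g) ^ n = q ^ (-n) g ^ n`. -/
theorem qInv_mul_pow (n : ℕ) :
    (HahnSeries.single (-1 : ℤ) (1 : S) * HahnSeries.ofPowerSeries ℤ S g) ^ n
      = HahnSeries.single (-(n : ℤ)) 1 * HahnSeries.ofPowerSeries ℤ S (g ^ n) := by
  have h : n • (-1 : ℤ) = -(n : ℤ) := by simp
  rw [mul_pow, HahnSeries.single_pow, one_pow, h, ← map_pow]

theorem coeff_qInv_mul_pow_self (hg : PowerSeries.constantCoeff g = 1) (n : ℕ) :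
    ((HahnSeries.single (-1 : ℤ) (1 : S) * HahnSeries.ofPowerSeries ℤ S g) ^ n).coeff (-(n : ℤ))
      = 1 := by
  rw [qInv_mul_pow, HahnSeries.coeff_single_mul, one_mul, sub_neg_eq_add, neg_add_cancel,
    show (0 : ℤ) = ((0 : ℕ) : ℤ) from rfl, HahnSeries.ofPowerSeries_apply_coeff,
    PowerSeries.coeff_zero_eq_constantCoeff, map_pow, hg, one_pow]

theorem coeff_qInv_mul_pow_of_lt {n : ℕ} {m : ℤ} (hm : m < -(n : ℤ)) :
    ((HahnSeries.single (-1 : ℤ) (1 : S) * HahnSeries.ofPowerSeries ℤ S g) ^ n).coeff m = 0 := by
  rw [qInv_mul_pow, HahnSeries.coeff_single_mul, one_mul]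
  exact ofPowerSeries_coeff_neg _ (by omega)

/-- For `P.natDegree ≤ n`, the coefficient of `q ^ (-n)` in `P(j)` is `P.coeff n`. -/
theorem coeff_aeval_neg (hg : PowerSeries.constantCoeff g = 1) (P : Polynomial S) (n : ℕ)
    (hP : P.natDegree ≤ n) :
    (Polynomial.aeval (HahnSeries.single (-1 : ℤ) (1 : S) * HahnSeries.ofPowerSeries ℤ S g)
      P).coeff (-(n : ℤ)) = P.coeff n := by
  rw [Polynomial.aeval_eq_sum_range' (Nat.lt_succ_of_le hP), HahnSeries.coeff_sum,
    Finset.sum_range_succ]
  simp only [Algebra.smul_def]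
  rw [coeff_algebraMap_mul, coeff_qInv_mul_pow_self g hg,
    mul_one, add_eq_right]
  refine Finset.sum_eq_zero fun m hm => ?_
  have hm' : m < n := Finset.mem_range.mp hm
  rw [coeff_algebraMap_mul, coeff_qInv_mul_pow_of_lt g (by omega), mul_zero]

/-- **(J4)** If all coefficients of `P(j)` are in the subring `R` (and `j` has coefficients in
`R`), then all coefficients of `P` are in `R`. -/
theorem coeff_mem_of_aeval_mem (hg : PowerSeries.constantCoeff g = 1) (R : Subring S)
    (hj : HahnSeries.single (-1 : ℤ) (1 : S) * HahnSeries.ofPowerSeries ℤ S g ∈ coeffSubring R)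
    (P : Polynomial S)
    (hP : Polynomial.aeval
      (HahnSeries.single (-1 : ℤ) (1 : S) * HahnSeries.ofPowerSeries ℤ S g) P ∈ coeffSubring R) :
    ∀ m, P.coeff m ∈ R := by
  set j : LaurentSeries S :=
    HahnSeries.single (-1 : ℤ) (1 : S) * HahnSeries.ofPowerSeries ℤ S g with hjdef
  have key : ∀ n : ℕ, ∀ P : Polynomial S, P.natDegree ≤ n →
      Polynomial.aeval j P ∈ coeffSubring R → ∀ m, P.coeff m ∈ R := by
    intro n
    induction n with
    | zero =>
      intro P hdeg hP m
      have h0 : P.coeff 0 ∈ R := by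
        have := coeff_aeval_neg g hg P 0 hdeg
        rw [← this]
        exact hP _
      rcases Nat.eq_zero_or_pos m with rfl | hm
      · exact h0
      · rw [Polynomial.coeff_eq_zero_of_natDegree_lt (by omega)]
        exact Subring.zero_mem _
    | succ n ih =>
      intro P hdeg hP m
      have ha : P.coeff (n + 1) ∈ R := by
        have := coeff_aeval_neg g hg P (n + 1) hdeg
        rw [← this]
        exact hP _
      have hdeg' : (P.erase (n + 1)).natDegree ≤ n := by
        rw [Polynomial.natDegree_le_iff_coeff_eq_zero]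
        intro N hN
        rw [Polynomial.coeff_erase]
        split_ifs with h
        · rfl
        · exact Polynomial.coeff_eq_zero_of_natDegree_lt (by omega)
      have hsplit : Polynomial.aeval j (P.erase (n + 1))
          = Polynomial.aeval j P - HahnSeries.C (P.coeff (n + 1)) * j ^ (n + 1) := by
        have h := congrArg (Polynomial.aeval j) (Polynomial.monomial_add_erase P (n + 1))
        rw [map_add, Polynomial.aeval_monomial] at h
        rw [← h, algebraMap_eq_C]
        ring
      have hP' : Polynomial.aeval j (P.erase (n + 1)) ∈ coeffSubring R := by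
        rw [hsplit]
        exact Subring.sub_mem _ hP
          (Subring.mul_mem _ (C_mem_coeffSubring ha) (Subring.pow_mem _ hj _))
      have := ih (P.erase (n + 1)) hdeg' hP' m
      rw [Polynomial.coeff_erase] at this
      split_ifs at this with h
      · rw [h]; exact ha
      · exact this
  exact key P.natDegree P le_rfl hP

/-- `P ↦ P(j)` is injective. -/
theorem aeval_injective (hg : PowerSeries.constantCoeff g = 1) :
    Function.Injective (Polynomial.aeval
      (HahnSeries.single (-1 : ℤ) (1 : S) * HahnSeries.ofPowerSeries ℤ S g) :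
      Polynomial S → LaurentSeries S) := by
  rw [injective_iff_map_eq_zero]
  intro P hP
  have := coeff_aeval_neg g hg P P.natDegree le_rfl
  rw [hP, HahnSeries.coeff_zero] at this
  exact Polynomial.leadingCoeff_eq_zero.mp this.symm

end

/-- The coefficients of `q⁻¹ g`. -/
theorem coeff_qInv_mul (g : PowerSeries S) (n : ℤ) :
    (HahnSeries.single (-1 : ℤ) (1 : S) * HahnSeries.ofPowerSeries ℤ S g).coeff n
      = (HahnSeries.ofPowerSeries ℤ S g).coeff (n + 1) := by
  rw [HahnSeries.coeff_single_mul, one_mul, sub_neg_eq_add]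

/-- **(J4), ring-hom form.** Let `ι : R →+* S`, `g ∈ R⟦X⟧` with `g(0) = 1` and `j = q⁻¹ ι(g)`.
If `P ∈ S[X]` and all coefficients of `P(j)` are in the range of `ι`, then `P` is the image of a
polynomial over `R`. -/
theorem exists_map_eq_of_aeval {R : Type*} [CommRing R] (ι : R →+* S) (g : PowerSeries R)
    (hg : PowerSeries.constantCoeff g = 1) (P : Polynomial S)
    (hP : ∀ n, (Polynomial.aeval (HahnSeries.single (-1 : ℤ) (1 : S) *
      HahnSeries.ofPowerSeries ℤ S (g.map ι)) P).coeff n ∈ ι.range) :
    ∃ P' : Polynomial R, P'.map ι = P := by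
  have hg' : PowerSeries.constantCoeff (g.map ι) = 1 := by
    rw [← PowerSeries.coeff_zero_eq_constantCoeff_apply, PowerSeries.coeff_map,
      PowerSeries.coeff_zero_eq_constantCoeff_apply, hg, map_one]
  have hj : HahnSeries.single (-1 : ℤ) (1 : S) * HahnSeries.ofPowerSeries ℤ S (g.map ι)
      ∈ coeffSubring ι.range := by
    intro n
    rw [coeff_qInv_mul]
    rcases lt_or_ge (n + 1) 0 with h | h
    · rw [ofPowerSeries_coeff_neg _ h]
      exact Subring.zero_mem _
    · obtain ⟨m, hm⟩ := Int.eq_ofNat_of_zero_le h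
      rw [hm, HahnSeries.ofPowerSeries_apply_coeff, PowerSeries.coeff_map]
      exact ⟨_, rfl⟩
  have h := coeff_mem_of_aeval_mem (g.map ι) hg' ι.range hj P hP
  have hl : P ∈ Polynomial.lifts ι := by
    rw [Polynomial.lifts_iff_coeff_lifts]
    intro n
    exact h n
  exact (Polynomial.mem_lifts P).mp hl

end Fermat.Agent.S28.PolyJInt
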