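import Mathlib
import Fermat.Prelude.Def_ModularCurve_X0ModL
import Fermat.Prelude.Def_ModularCurve_IgusaScheme
import Fermat.Agent.S28.GaussVal
import Fermat.Agent.S28.PolyJInt
import Fermat.Agent.S28.RedZl
import Fermat.Agent.S28.Saturation

/-!
# S28 (Igusa), slice (II-a), part 2: the Gauss valuation ring of `ℚ(j(q^d) : d ∣ N)`

* integer polynomials in an `ℓ`-integral series `t` and their reduction (`redL_evZ`), content
  stripping (`exists_strip`);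
* the reduction of `ℚ(t) ∩ Ow` lies in `𝔽_ℓ(redL t)` when `redL t` is transcendental
  (`redwL_mem_closure`);
* the instance `F = modularFunctionFieldFull N`: `OwFull`, `redwFull`, the reductions of the
  generators `j(q^d)`, of constants, and of `ℚ(j) ∩ Ow`.
-/

set_option autoImplicit false

noncomputable section

namespace Fermat.Agent.S28.GaussFull

open HahnSeries ModularCurve
open Fermat.Agent.S28.GaussVal

variable (ℓ : ℕ) [Fact ℓ.Prime]

/-! ### Integer polynomials in an `ℓ`-integral series -/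

section Poly

open Polynomial

/-- Evaluation of an integer polynomial at an element of a commutative ring (no algebra
instances involved). -/
def evZ {E : Type*} [CommRing E] (t : E) : ℤ[X] →+* E :=
  Polynomial.eval₂RingHom (Int.castRingHom E) t

theorem evZ_apply {E : Type*} [CommRing E] (t : E) (P : ℤ[X]) :
    evZ t P = P.eval₂ (Int.castRingHom E) t := rfl

@[simp] theorem evZ_X {E : Type*} [CommRing E] (t : E) : evZ t X = t := by
  rw [evZ_apply, eval₂_X]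

@[simp] theorem evZ_C {E : Type*} [CommRing E] (t : E) (a : ℤ) : evZ t (Polynomial.C a) = (a : E) := by
  rw [evZ_apply, eval₂_C]
  rfl

/-- Naturality of `evZ`. -/
theorem map_evZ {E E' : Type*} [CommRing E] [CommRing E'] (f : E →+* E') (t : E) (P : ℤ[X]) :
    f (evZ t P) = evZ (f t) P := by
  rw [evZ_apply, evZ_apply, Polynomial.hom_eval₂]
  congr 1
  exact RingHom.ext_int _ _

/-- Integer polynomial expressions stay in a subring. -/
theorem evZ_mem {E : Type*} [CommRing E] (S : Subring E) {t : E} (ht : t ∈ S) (P : ℤ[X]) :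
    evZ t P ∈ S := by
  have h := map_evZ S.subtype (⟨t, ht⟩ : ↥S) P
  have h' : evZ t P = ((evZ (⟨t, ht⟩ : ↥S) P : ↥S) : E) := h.symm
  rw [h']
  exact Subtype.coe_prop _

/-- `evZ` over a `k`-algebra is `aeval` of the mapped polynomial. -/
theorem evZ_eq_aeval_map {k E : Type*} [CommRing k] [CommRing E] [Algebra k E] (t : E)
    (P : ℤ[X]) : evZ t P = aeval t (P.map (Int.castRingHom k)) := by
  rw [evZ_apply, aeval_def, eval₂_map]
  congr 1
  exact RingHom.ext_int _ _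

variable {ℓ}

theorem evZ_mem_Ol {t : LaurentSeries ℚ} (ht : t ∈ Ol ℓ) (P : ℤ[X]) : evZ t P ∈ Ol ℓ :=
  evZ_mem (Ol ℓ) ht P

/-- Reduction commutes with integer polynomial expressions. -/
theorem redL_evZ {t : LaurentSeries ℚ} (ht : t ∈ Ol ℓ) (P : ℤ[X]) :
    redL ℓ (evZ t P) = evZ (redL ℓ t) P := by
  have h1 : evZ t P = ((evZ (⟨t, ht⟩ : ↥(Ol ℓ)) P : ↥(Ol ℓ)) : LaurentSeries ℚ) :=
    (map_evZ (Ol ℓ).subtype (⟨t, ht⟩ : ↥(Ol ℓ)) P).symm
  have h2 : red ℓ (evZ (⟨t, ht⟩ : ↥(Ol ℓ)) P) = evZ (red ℓ ⟨t, ht⟩) P :=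
    map_evZ (red ℓ) (⟨t, ht⟩ : ↥(Ol ℓ)) P
  rw [redL_of_mem ℓ (evZ_mem_Ol ht P), redL_of_mem ℓ ht, ← h2]
  congr 1
  exact Subtype.ext h1

omit [Fact ℓ.Prime] in
/-- `ℓ` as a Laurent series is the natural number cast. -/
theorem lL_eq_natCast : lL ℓ = ((ℓ : ℕ) : LaurentSeries ℚ) := by
  rw [lL, map_natCast]

omit [Fact ℓ.Prime] in
theorem evZ_C_mul {t : LaurentSeries ℚ} (P : ℤ[X]) :
    evZ t (Polynomial.C (ℓ : ℤ) * P) = lL ℓ * evZ t P := by
  rw [map_mul, evZ_C, lL_eq_natCast]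
  congr 1

/-- If `redL t` is transcendental over `𝔽_ℓ` and `P(t) ∈ ℓ^r · Ol`, then `ℓ^r ∣ P`. -/
theorem pow_dvd_of_evZ {t : LaurentSeries ℚ} (ht : t ∈ Ol ℓ)
    (hT : Transcendental (ZMod ℓ) (redL ℓ t)) :
    ∀ (r : ℕ) (P : ℤ[X]) (g : LaurentSeries ℚ), g ∈ Ol ℓ → evZ t P = lL ℓ ^ r * g →
      ∃ P' : ℤ[X], P = Polynomial.C (ℓ : ℤ) ^ r * P' ∧ evZ t P' = g := by
  intro r
  induction r with
  | zero =>
    intro P g _ h
    exact ⟨P, by rw [pow_zero, one_mul], by rw [h, pow_zero, one_mul]⟩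
  | succ r ih =>
    intro P g hg h
    have hred : redL ℓ (evZ t P) = 0 := by
      rw [h, pow_succ, mul_comm (lL ℓ ^ r) (lL ℓ), mul_assoc]
      exact redL_lL_mul ℓ ((Ol ℓ).mul_mem (lL_pow_mem_Ol r) hg)
    rw [redL_evZ ht, evZ_eq_aeval_map (k := ZMod ℓ)] at hred
    have hmap : P.map (Int.castRingHom (ZMod ℓ)) = 0 := (transcendental_iff.mp hT) _ hred
    have hdvd : Polynomial.C (ℓ : ℤ) ∣ P := by
      rw [Polynomial.C_dvd_iff_dvd_coeff]
      intro i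
      have := congrArg (fun p => p.coeff i) hmap
      simp only [Polynomial.coeff_map, Polynomial.coeff_zero, eq_intCast] at this
      exact (ZMod.intCast_zmod_eq_zero_iff_dvd _ _).mp this
    obtain ⟨P1, rfl⟩ := hdvd
    have h2 : evZ t P1 = lL ℓ ^ r * g := by
      apply mul_left_cancel₀ (lL_ne_zero ℓ)
      rw [← evZ_C_mul, h, pow_succ]
      ring
    obtain ⟨P', hP', hP'g⟩ := ih P1 g hg h2
    exact ⟨P', by rw [hP', pow_succ]; ring, hP'g⟩

/-- Content stripping for integer polynomials in `t`. -/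
theorem exists_strip {t : LaurentSeries ℚ} (ht : t ∈ Ol ℓ)
    (hT : Transcendental (ZMod ℓ) (redL ℓ t)) (P : ℤ[X]) (hP : evZ t P ≠ 0) :
    ∃ (r : ℕ) (P' : ℤ[X]), evZ t P = lL ℓ ^ r * evZ t P' ∧ redL ℓ (evZ t P') ≠ 0 := by
  obtain ⟨r, g, hg, hfg, hred⟩ := exists_pow_mul ℓ (evZ_mem_Ol ht P) hP
  obtain ⟨P', -, hP'g⟩ := pow_dvd_of_evZ ht hT r P g hg hfg
  exact ⟨r, P', by rw [hP'g]; exact hfg, by rw [hP'g]; exact hred⟩

end Poly

/-! ### The reduction of `ℚ(t) ∩ Ow` -/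

section Simple

open Polynomial

variable {ℓ}

omit [Fact ℓ.Prime] in
/-- Elements of the `ℚ`-algebra generated by `t` are integer polynomials in `t` up to a positive
integer factor. -/
theorem exists_nat_mul_eq_evZ {t r : LaurentSeries ℚ} (hr : r ∈ Algebra.adjoin ℚ {t}) :
    ∃ (m : ℕ) (P : ℤ[X]), m ≠ 0 ∧ ((m : ℕ) : LaurentSeries ℚ) * r = evZ t P := by
  induction hr using Algebra.adjoin_induction with
  | mem x hx =>
    rw [Set.mem_singleton_iff] at hx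
    subst hx
    exact ⟨1, X, one_ne_zero, by rw [Nat.cast_one, one_mul, evZ_X]⟩
  | algebraMap c =>
    refine ⟨c.den, Polynomial.C c.num, c.den_ne_zero, ?_⟩
    rw [evZ_C, ← map_natCast (algebraMap ℚ (LaurentSeries ℚ)), ← map_mul,
      ← map_intCast (algebraMap ℚ (LaurentSeries ℚ))]
    congr 1
    rw [mul_comm]
    exact Rat.mul_den_eq_num c
  | add x y _ _ hx hy =>
    obtain ⟨m, P, hm, hmx⟩ := hx
    obtain ⟨n, Q, hn, hny⟩ := hy
    refine ⟨m * n, Polynomial.C (n : ℤ) * P + Polynomial.C (m : ℤ) * Q, mul_ne_zero hm hn, ?_⟩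
    rw [map_add, map_mul, map_mul, evZ_C, evZ_C, ← hmx, ← hny]
    push_cast
    ring
  | mul x y _ _ hx hy =>
    obtain ⟨m, P, hm, hmx⟩ := hx
    obtain ⟨n, Q, hn, hny⟩ := hy
    refine ⟨m * n, P * Q, mul_ne_zero hm hn, ?_⟩
    rw [map_mul, ← hmx, ← hny]
    push_cast
    ring

omit [Fact ℓ.Prime] in
/-- Elements of `ℚ(t)` are quotients of integer polynomials in `t`. -/
theorem exists_evZ_of_mem_adjoin {t x : LaurentSeries ℚ}
    (hx : x ∈ IntermediateField.adjoin ℚ {t}) :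
    ∃ P Q : ℤ[X], evZ t Q ≠ 0 ∧ x * evZ t Q = evZ t P := by
  rw [IntermediateField.mem_adjoin_iff_div] at hx
  obtain ⟨r, hr, s, hs, rfl⟩ := hx
  by_cases hs0 : s = 0
  · exact ⟨0, 1, by rw [map_one]; exact one_ne_zero, by rw [hs0, div_zero, zero_mul, map_zero]⟩
  obtain ⟨m, P, hm, hmr⟩ := exists_nat_mul_eq_evZ hr
  obtain ⟨n, Q, hn, hns⟩ := exists_nat_mul_eq_evZ hs
  refine ⟨Polynomial.C (n : ℤ) * P, Polynomial.C (m : ℤ) * Q, ?_, ?_⟩
  · rw [map_mul, evZ_C, ← hns]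
    exact mul_ne_zero (by exact_mod_cast natCast_ne_zero_LS hm)
      (mul_ne_zero (natCast_ne_zero_LS hn) hs0)
  · rw [map_mul, map_mul, evZ_C, evZ_C, ← hns, ← hmr]
    push_cast
    field_simp

variable {F : IntermediateField ℚ (LaurentSeries ℚ)}

/-- **The reduction of `ℚ(t) ∩ Ow` lies in `𝔽_ℓ(redL t)`**, for `t ∈ F` with `ℓ`-integral
coefficients whose reduction is transcendental over `𝔽_ℓ`. -/
theorem redwL_mem_closure {t : LaurentSeries ℚ} (htF : t ∈ F) (ht : t ∈ Ol ℓ)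
    (hT : Transcendental (ZMod ℓ) (redL ℓ t)) {x : LaurentSeries ℚ}
    (hx : x ∈ IntermediateField.adjoin ℚ {t}) (hxO : InOw ℓ F x) :
    redwL ℓ F x ∈ Subfield.closure ({redL ℓ t} : Set (LaurentSeries (ZMod ℓ))) := by
  set k0 := Subfield.closure ({redL ℓ t} : Set (LaurentSeries (ZMod ℓ))) with hk0
  by_cases hx0 : x = 0
  · rw [hx0, redwL_zero]
    exact k0.zero_mem
  obtain ⟨P, Q, hQ0, hPQ⟩ := exists_evZ_of_mem_adjoin hx
  have hP0 : evZ t P ≠ 0 := by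
    rw [← hPQ]
    exact mul_ne_zero hx0 hQ0
  obtain ⟨r, P', hP, hP'⟩ := exists_strip ht hT P hP0
  obtain ⟨s, Q', hQ, hQ'⟩ := exists_strip ht hT Q hQ0
  have hFsub : ∀ R : ℤ[X], evZ t R ∈ F := fun R =>
    evZ_mem F.toSubalgebra.toSubring (t := t) htF R
  have hk0mem : ∀ R : ℤ[X], redL ℓ (evZ t R) ∈ k0 := fun R => by
    rw [redL_evZ ht]
    exact evZ_mem k0.toSubring (t := redL ℓ t) (Subfield.subset_closure rfl) R
  set u := evZ t P' with hu
  set v := evZ t Q' with hv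
  have huO : u ∈ Ol ℓ := evZ_mem_Ol ht P'
  have hvO : v ∈ Ol ℓ := evZ_mem_Ol ht Q'
  have huF : u ∈ F := hFsub P'
  have hvF : v ∈ F := hFsub Q'
  have hl0 : lL ℓ ≠ 0 := lL_ne_zero ℓ
  have hrel : x * (lL ℓ ^ s * v) = lL ℓ ^ r * u := by rw [← hQ, ← hP, hPQ]
  rcases le_or_gt s r with hsr | hrs
  · obtain ⟨n, rfl⟩ := Nat.exists_eq_add_of_le hsr
    have hrel' : x * v = lL ℓ ^ n * u := by
      apply mul_left_cancel₀ (pow_ne_zero s hl0)
      rw [← mul_assoc, mul_comm (lL ℓ ^ s) x, mul_assoc, hrel, _root_.pow_add, mul_assoc]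
    rw [redwL_eq (a := lL ℓ ^ n * u) (b := v) ((Ol ℓ).mul_mem (lL_pow_mem_Ol n) huO) hvO
      (F.mul_mem (F.pow_mem (lL_mem_F ℓ F) n) huF) hvF hQ' hrel',
      redL_mul ℓ (lL_pow_mem_Ol n) huO, redL_pow ℓ (lL_mem_Ol ℓ), redL_lL]
    exact k0.div_mem (k0.mul_mem (k0.pow_mem k0.zero_mem n) (hk0mem P')) (hk0mem Q')
  · exfalso
    obtain ⟨n, rfl⟩ := Nat.exists_eq_add_of_le (Nat.succ_le_of_lt hrs)
    have hrel' : x * (lL ℓ * (lL ℓ ^ n * v)) = u := by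
      apply mul_left_cancel₀ (pow_ne_zero r hl0)
      rw [← hrel, Nat.succ_eq_add_one, _root_.pow_add, _root_.pow_add, pow_one]
      ring
    have hwO : lL ℓ * (lL ℓ ^ n * v) ∈ Ol ℓ :=
      (Ol ℓ).mul_mem (lL_mem_Ol ℓ) ((Ol ℓ).mul_mem (lL_pow_mem_Ol n) hvO)
    have hwF : lL ℓ * (lL ℓ ^ n * v) ∈ F :=
      F.mul_mem (lL_mem_F ℓ F) (F.mul_mem (F.pow_mem (lL_mem_F ℓ F) n) hvF)
    have h1 := redwL_mul hxO (inOw_of_mem hwF hwO)
    rw [hrel', redwL_of_mem huF huO, redwL_of_mem hwF hwO,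
      redL_lL_mul ℓ ((Ol ℓ).mul_mem (lL_pow_mem_Ol n) hvO), mul_zero] at h1
    exact hP' h1

end Simple

/-! ### The Igusa function field `F = ℚ(j(q^d) : d ∣ N)` -/

section Full

open ModularCurve.IgusaScheme Fermat.Agent.S28.Saturation

/-- `q ↦ q^d` preserves `ℓ`-integrality. -/
theorem qExpand_mem_Ol (d : ℕ) [NeZero d] {f : LaurentSeries ℚ} (hf : f ∈ Ol ℓ) :
    qExpand ℚ d f ∈ Ol ℓ := by
  rw [mem_Ol_iff] at hf ⊢
  intro k
  by_cases hk : (d : ℤ) ∣ k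
  · obtain ⟨m, rfl⟩ := hk
    rw [qExpand_coeff_mul]
    exact hf m
  · rw [qExpand_coeff_of_not_dvd d f hk]
    exact (Zl ℓ).zero_mem

/-- Reduction commutes with `q ↦ q^d`. -/
theorem redL_qExpand (d : ℕ) [NeZero d] {f : LaurentSeries ℚ} (hf : f ∈ Ol ℓ) :
    redL ℓ (qExpand ℚ d f) = qExpand (ZMod ℓ) d (redL ℓ f) := by
  ext k
  rw [redL_coeff ℓ (qExpand_mem_Ol ℓ d hf)]
  by_cases hk : (d : ℤ) ∣ k
  · obtain ⟨m, rfl⟩ := hk
    rw [qExpand_coeff_mul, qExpand_coeff_mul, redL_coeff ℓ hf]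
  · rw [qExpand_coeff_of_not_dvd d f hk, qExpand_coeff_of_not_dvd d _ hk, Rat.cast_zero]

/-- `j` has integer coefficients. -/
theorem jq_mem_Ol : jq ∈ Ol ℓ := by
  rw [mem_Ol_iff]
  intro k
  rw [← jqModC_rat, coeff_jqModC_eq_intCast]
  exact intCast_mem_Zl ℓ _

/-- The reduction of `j` is the `j`-series over `𝔽_ℓ`. -/
theorem redL_jq : redL ℓ jq = jqModC (ZMod ℓ) := by
  ext k
  rw [redL_coeff ℓ (jq_mem_Ol ℓ), ← jqModC_rat, coeff_jqModC_eq_intCast,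
    coeff_jqModC_eq_intCast (R := ZMod ℓ)]
  exact Rat.cast_intCast _

theorem jqd_mem_Ol (d : ℕ) [NeZero d] : qExpand ℚ d jq ∈ Ol ℓ :=
  qExpand_mem_Ol ℓ d (jq_mem_Ol ℓ)

theorem redL_jqd (d : ℕ) [NeZero d] :
    redL ℓ (qExpand ℚ d jq) = qExpand (ZMod ℓ) d (jqModC (ZMod ℓ)) := by
  rw [redL_qExpand ℓ d (jq_mem_Ol ℓ), redL_jq]

/-- `J` is transcendental over `𝔽_ℓ`. -/
theorem transcendental_J : Transcendental (ZMod ℓ) (jqModC (ZMod ℓ)) := by
  rw [transcendental_iff_injective]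
  have hg : PowerSeries.constantCoeff (jNum.map (Int.castRingHom (ZMod ℓ))) = 1 := by
    rw [← PowerSeries.coeff_zero_eq_constantCoeff, PowerSeries.coeff_map,
      PowerSeries.coeff_zero_eq_constantCoeff, constantCoeff_jNum]
    simp
  exact PolyJInt.aeval_injective _ hg

variable (N : ℕ) [NeZero N]

theorem divisorExpansions_subset_Ol :
    divisorExpansions N ⊆ (Ol ℓ : Set (LaurentSeries ℚ)) := by
  rintro x ⟨d, hd, -, rfl⟩
  exact jqd_mem_Ol ℓ d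

/-- The Igusa function field is a field of ratios of `ℓ`-integral series. -/
theorem isRatio_full : IsRatio ℓ (modularFunctionFieldFull N) :=
  isRatio_adjoin (divisorExpansions_subset_Ol ℓ N)

/-- **The Gauss valuation ring of the Igusa function field.** -/
def OwFull : ValuationSubring ↥(modularFunctionFieldFull N) := Ow (isRatio_full ℓ N)

/-- **The reduction map** `OwFull → 𝔽_ℓ((q))`. -/
def redwFull : ↥(OwFull ℓ N) →+* LaurentSeries (ZMod ℓ) := redw (isRatio_full ℓ N)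

theorem mem_OwFull_of_mem_Ol {x : ↥(modularFunctionFieldFull N)} (hx : (x : LaurentSeries ℚ) ∈ Ol ℓ) : x ∈ OwFull ℓ N :=
  mem_Ow_of_mem_Ol (isRatio_full ℓ N) hx

theorem redwFull_of_mem_Ol {x : ↥(modularFunctionFieldFull N)} (hx : (x : LaurentSeries ℚ) ∈ Ol ℓ) :
    redwFull ℓ N ⟨x, mem_OwFull_of_mem_Ol ℓ N hx⟩ = redL ℓ (x : LaurentSeries ℚ) := by
  rw [redL_of_mem ℓ hx]
  exact redw_of_mem_Ol (isRatio_full ℓ N) hx

/-- `hker` and `hlρ`: the kernel of `redwFull` is `ℓ · OwFull`. -/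
theorem redwFull_eq_zero_iff (z : ↥(OwFull ℓ N)) :
    redwFull ℓ N z = 0 ↔ LDvd (OwFull ℓ N) ((ℓ : ℕ) : ↥(modularFunctionFieldFull N)) (z : ↥(modularFunctionFieldFull N)) :=
  redw_eq_zero_iff (isRatio_full ℓ N) z

theorem hker (z : ↥(OwFull ℓ N)) (hz : redwFull ℓ N z = 0) :
    LDvd (OwFull ℓ N) ((ℓ : ℕ) : ↥(modularFunctionFieldFull N)) (z : ↥(modularFunctionFieldFull N)) :=
  (redwFull_eq_zero_iff ℓ N z).mp hz

theorem hlρ (z : ↥(OwFull ℓ N)) (hz : LDvd (OwFull ℓ N) ((ℓ : ℕ) : ↥(modularFunctionFieldFull N)) (z : ↥(modularFunctionFieldFull N))) :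
    redwFull ℓ N z = 0 :=
  (redwFull_eq_zero_iff ℓ N z).mpr hz

/-- `hmax`: elements of `OwFull` outside `ℓ · OwFull` are units. -/
theorem hmax (x : ↥(modularFunctionFieldFull N)) (hx : x ∈ OwFull ℓ N) (h : ¬ LDvd (OwFull ℓ N) ((ℓ : ℕ) : ↥(modularFunctionFieldFull N)) x) :
    x⁻¹ ∈ OwFull ℓ N :=
  inv_mem_of_redw_ne_zero (isRatio_full ℓ N) ⟨x, hx⟩
    (fun h0 => h ((redwFull_eq_zero_iff ℓ N ⟨x, hx⟩).mp h0))

theorem not_ldvd_one : ¬ LDvd (OwFull ℓ N) ((ℓ : ℕ) : ↥(modularFunctionFieldFull N)) 1 := by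
  intro h
  have h1 := hlρ ℓ N ⟨1, (OwFull ℓ N).one_mem⟩ h
  have h2 : redwFull ℓ N ⟨1, (OwFull ℓ N).one_mem⟩ = 1 := map_one (redwFull ℓ N)
  rw [h2] at h1
  exact one_ne_zero h1

/-! #### Constants -/

theorem algebraMap_zl_eq (r : ↥(GaloisRep.ratLocalizedAt ℓ)) :
    ((algebraMap ↥(GaloisRep.ratLocalizedAt ℓ) ↥(modularFunctionFieldFull N) r : ↥(modularFunctionFieldFull N)) : LaurentSeries ℚ) =
      algebraMap ℚ (LaurentSeries ℚ) (r : ℚ) := by
  have h : algebraMap ↥(GaloisRep.ratLocalizedAt ℓ) ↥(modularFunctionFieldFull N) r = algebraMap ℚ ↥(modularFunctionFieldFull N) (r : ℚ) := rfl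
  rw [h, coe_algebraMap_F]

/-- `hR`: the constants `ℤ_(ℓ)` lie in `OwFull`. -/
theorem hR (r : ↥(GaloisRep.ratLocalizedAt ℓ)) :
    algebraMap ↥(GaloisRep.ratLocalizedAt ℓ) ↥(modularFunctionFieldFull N) r ∈ OwFull ℓ N :=
  algebraMap_mem_Ow (isRatio_full ℓ N) r.2

/-- `hρR`: `redwFull` reduces the constants. -/
theorem hρR (r : ↥(GaloisRep.ratLocalizedAt ℓ)) :
    redwFull ℓ N ⟨algebraMap ↥(GaloisRep.ratLocalizedAt ℓ) ↥(modularFunctionFieldFull N) r, hR ℓ N r⟩ =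
      HahnSeries.C (RedZl.red ℓ r) :=
  redw_algebraMap (isRatio_full ℓ N) r.2

/-- The same, for any proof of membership. -/
theorem hconst (r : ↥(GaloisRep.ratLocalizedAt ℓ))
    (h : algebraMap ↥(GaloisRep.ratLocalizedAt ℓ) ↥(modularFunctionFieldFull N) r ∈ OwFull ℓ N) :
    redwFull ℓ N ⟨_, h⟩ = HahnSeries.C (RedZl.red ℓ r) :=
  hρR ℓ N r

/-! #### The generators -/

/-- `j(q^d) ∈ OwFull` for `d ∣ N`. -/
theorem jd_mem {d : ℕ} [NeZero d] (hd : d ∣ N) :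
    (⟨qExpand ℚ d jq, jqd_mem_full N hd⟩ : ↥(modularFunctionFieldFull N)) ∈ OwFull ℓ N :=
  mem_OwFull_of_mem_Ol ℓ N (jqd_mem_Ol ℓ d)

/-- `redwFull (j(q^d)) = J(q^d)`. -/
theorem redwFull_jd {d : ℕ} [NeZero d] (hd : d ∣ N) :
    redwFull ℓ N ⟨⟨qExpand ℚ d jq, jqd_mem_full N hd⟩, jd_mem ℓ N hd⟩ =
      qExpand (ZMod ℓ) d (jqModC (ZMod ℓ)) := by
  have h := redwFull_of_mem_Ol ℓ N (x := ⟨qExpand ℚ d jq, jqd_mem_full N hd⟩) (jqd_mem_Ol ℓ d)
  rw [← redL_jqd ℓ d]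
  exact h

/-- `hj`: `j ∈ OwFull`. -/
theorem hj : jFull N ∈ OwFull ℓ N :=
  mem_OwFull_of_mem_Ol ℓ N (x := jFull N) (jq_mem_Ol ℓ)

/-- `redwFull j = J`. -/
theorem redwFull_jFull : redwFull ℓ N ⟨jFull N, hj ℓ N⟩ = jqModC (ZMod ℓ) := by
  have h := redwFull_of_mem_Ol ℓ N (x := jFull N) (jq_mem_Ol ℓ)
  rw [← redL_jq ℓ]
  exact h

/-- `hj'`: `j⁻¹ ∈ OwFull`. -/
theorem hj' : (jFull N)⁻¹ ∈ OwFull ℓ N := by
  refine inv_mem_of_redw_ne_zero (isRatio_full ℓ N) ⟨jFull N, hj ℓ N⟩ ?_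
  have h : redw (isRatio_full ℓ N) ⟨jFull N, hj ℓ N⟩ = jqModC (ZMod ℓ) := redwFull_jFull ℓ N
  rw [h]
  exact jqModC_ne_zero_of_nontrivial (ZMod ℓ)

/-- `redwFull j⁻¹ = J⁻¹`. -/
theorem redwFull_jFull_inv : redwFull ℓ N ⟨(jFull N)⁻¹, hj' ℓ N⟩ = (jqModC (ZMod ℓ))⁻¹ := by
  have h1 : (⟨(jFull N)⁻¹, hj' ℓ N⟩ : ↥(OwFull ℓ N)) * ⟨jFull N, hj ℓ N⟩ = 1 :=
    Subtype.ext (inv_mul_cancel₀ (jFull_ne_zero N))
  have h2 := congrArg (redwFull ℓ N) h1
  rw [map_mul, map_one, redwFull_jFull] at h2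
  exact eq_inv_of_mul_eq_one_left h2

/-- `hG` without the integrality clause: every generator `J(q^d)` of the mod `ℓ` field is the
reduction of the generator `j(q^d)` of `F`. -/
theorem exists_lift_of_mem_divisorExpansionsC {g : LaurentSeries (ZMod ℓ)}
    (hg : g ∈ divisorExpansionsC (ZMod ℓ) N) :
    ∃ (d : ℕ) (_ : NeZero d) (hd : d ∣ N), g = qExpand (ZMod ℓ) d (jqModC (ZMod ℓ)) ∧
      redwFull ℓ N ⟨⟨qExpand ℚ d jq, jqd_mem_full N hd⟩, jd_mem ℓ N hd⟩ = g := by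
  obtain ⟨d, hne, hd, rfl⟩ := hg
  exact ⟨d, hne, hd, rfl, redwFull_jd ℓ N hd⟩

/-! #### The reduction of `ℚ(j) ∩ OwFull` -/

/-- Instance-free form: for `c ∈ F` lying in `ℚ(j) ⊆ ℚ((q))`. -/
theorem redwFull_mem_closure (c : ↥(modularFunctionFieldFull N)) (hc : (c : LaurentSeries ℚ) ∈ IntermediateField.adjoin ℚ {jq})
    (h : c ∈ OwFull ℓ N) :
    redwFull ℓ N ⟨c, h⟩ ∈ Subfield.closure ({jqModC (ZMod ℓ)} : Set (LaurentSeries (ZMod ℓ))) := by
  have hT : Transcendental (ZMod ℓ) (redL ℓ jq) := by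
    rw [redL_jq]
    exact transcendental_J ℓ
  have h1 := redwL_mem_closure (F := modularFunctionFieldFull N) (t := jq)
    (modularFunctionField_le_full N (jq_mem N)) (jq_mem_Ol ℓ) hT hc h
  rw [redL_jq] at h1
  exact h1

/-- Elements of `ℚ⟮jFull N⟯ ⊆ F` lie in `ℚ(j) ⊆ ℚ((q))` (for whichever `ℚ`-algebra structure on
`F` is in scope). -/
theorem coe_mem_adjoin_jq [inst : Algebra ℚ ↥(modularFunctionFieldFull N)] {c : ↥(modularFunctionFieldFull N)}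
    (hc : c ∈ @IntermediateField.adjoin ℚ _ ↥(modularFunctionFieldFull N) _ inst {jFull N}) :
    (c : LaurentSeries ℚ) ∈ IntermediateField.adjoin ℚ {jq} := by
  have key : ∀ r : ↥(modularFunctionFieldFull N), r ∈ @Algebra.adjoin ℚ ↥(modularFunctionFieldFull N) _ _ inst {jFull N} →
      (r : LaurentSeries ℚ) ∈ IntermediateField.adjoin ℚ {jq} := by
    intro r hr
    induction hr using Algebra.adjoin_induction with
    | mem x hx =>
      rw [Set.mem_singleton_iff] at hx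
      subst hx
      exact IntermediateField.subset_adjoin ℚ _ rfl
    | algebraMap a =>
      rw [coe_algebraMap_F]
      exact IntermediateField.algebraMap_mem _ a
    | add x y _ _ hx hy => exact add_mem hx hy
    | mul x y _ _ hx hy => exact mul_mem hx hy
  rw [IntermediateField.mem_adjoin_iff_div] at hc
  obtain ⟨r, hr, s, hs, rfl⟩ := hc
  have : ((r / s : ↥(modularFunctionFieldFull N)) : LaurentSeries ℚ) = (r : LaurentSeries ℚ) / (s : LaurentSeries ℚ) := rfl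
  rw [this]
  exact div_mem (key r hr) (key s hs)

/-- **`hk0`**, in the shape of `SaturationLift`/`ChartKernelGen` with `K0 := ℚ⟮jFull N⟯`. -/
theorem hk0 [inst : Algebra ℚ ↥(modularFunctionFieldFull N)]
    (c : ↥(@IntermediateField.adjoin ℚ _ ↥(modularFunctionFieldFull N) _ inst {jFull N}))
    (h : (c : ↥(modularFunctionFieldFull N)) ∈ OwFull ℓ N) :
    redwFull ℓ N ⟨(c : ↥(modularFunctionFieldFull N)), h⟩ ∈
      Subfield.closure ({jqModC (ZMod ℓ)} : Set (LaurentSeries (ZMod ℓ))) :=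
  redwFull_mem_closure ℓ N (c : ↥(modularFunctionFieldFull N)) (coe_mem_adjoin_jq N c.2) h

end Full

end Fermat.Agent.S28.GaussFull

end
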