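/-
PROJECT F (S28, Igusa), slice (F-IG), core (helper25): from the (STEP) conclusion
`Defs.PsiLeRelrank k N` over ANY field `k` of characteristic `ℓ` to Igusa's degree bound over the
prime field, `Defs.IgusaBound ℓ N (dedekindPsi N)`:

* `exists_linearIndependent_of_le_relrank` : a cardinal lower bound on `[E : K]` gives a linearly
  independent family;
* `exists_linearIndependent_descent` : descent `k₀ → k` of such families from `E_N(k)/k(J)` to
  `k₀(J(q^d) : d ∣ N)/k₀(J)` (via `FieldLemmas.exists_linearIndependent_of_compositum`);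
* `exists_linearIndependent_subring` : clearing denominators;
* `IgusaBoundRing ℓ N n` (the family lies in the `𝔽_ℓ`-ALGEBRA generated by the `J(q^d)`),
  `IgusaBound.ring`, `IgusaBound.mono`, `IgusaBoundRing.mono`;
* `igusaBound_of_psiLeRelrank`, `natCast_ne_zero_algClosure`.
The unconditional `igusaBound` (file `S28/IgusaDegree.lean`) plugs in `Step.psi_le_relrank`,
`ModPoly.hasModPoly` and `PrimeCase.primeNotMem` at `k := AlgebraicClosure (ZMod ℓ)`.
-/
import Fermat.Agent.S28.Defs
import Fermat.Agent.S28.FieldLemmas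

set_option autoImplicit false

noncomputable section

namespace Fermat.Agent.S28.IgusaCore

open ModularCurve HahnSeries IntermediateField Cardinal Fermat.Agent.S28.Defs

section General

variable {F L : Type*} [Field F] [Field L] [Algebra F L]

/-- From a lower bound on `[E : K]` (cardinal valued) to a linearly independent family. -/
theorem exists_linearIndependent_of_le_relrank (K E : IntermediateField F L) (hKE : K ≤ E) (n : ℕ)
    (h : (n : Cardinal) ≤ IntermediateField.relrank K E) :
    ∃ f : Fin n → L, (∀ i, f i ∈ E) ∧ LinearIndependent K f := by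
  classical
  rw [IntermediateField.relrank_eq_rank_of_le hKE] at h
  obtain ⟨s, hs, hli⟩ := le_rank_iff_exists_linearIndependent_finset.mp h
  have e0 : Fin n ≃ s := (Fintype.equivFinOfCardEq (by simpa using hs)).symm
  refine ⟨fun i => (((e0 i : s) : ↥(extendScalars hKE)) : L), fun i => ?_, ?_⟩
  · exact ((e0 i : s) : ↥(extendScalars hKE)).2
  · have h1 : LinearIndependent K (fun i : Fin n => ((e0 i : s) : ↥(extendScalars hKE))) :=
      hli.comp e0 e0.injective
    exact h1.map' (extendScalars hKE).val.toLinearMap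
      (LinearMap.ker_eq_bot.mpr (extendScalars hKE).val.injective)

end General

section Descent

variable {k₀ k : Type*} [Field k₀] [Field k]

/-- **Descent of the degree bound along a field extension `k₀ → k`** (degrees do not grow in a
compositum): a family of `E_N(k)` linearly independent over `k(J)` yields a family of the same
size in `k₀(J(q^d) : d ∣ N)` linearly independent over `k₀(J)` (subfields of `k₀((q))`). -/
theorem exists_linearIndependent_descent (i : k₀ →+* k) (N : ℕ) [NeZero N] (n : ℕ)
    (f : Fin n → LaurentSeries k) (hf : ∀ j, f j ∈ modularFunctionFieldFullC k N)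
    (hfi : LinearIndependent ↥(IntermediateField.adjoin k {jqModC k}) f) :
    ∃ e : Fin n → LaurentSeries k₀,
      (∀ j, e j ∈ Subfield.closure (divisorExpansionsC k₀ N)) ∧
        LinearIndependent ↥(Subfield.closure {jqModC k₀}) e := by
  have hJ : coeffMap i (jqModC k₀) = jqModC k := coeffMap_jqModC i
  refine FieldLemmas.exists_linearIndependent_of_compositum (coeffMap i)
    (Subfield.closure {jqModC k₀}) (Subfield.closure (divisorExpansionsC k₀ N)) ?_
    (IntermediateField.adjoin k {jqModC k}).toSubfield
    (modularFunctionFieldFullC k N).toSubfield ?_ ?_ n f hf hfi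
  · -- `k₀(J) ≤ k₀(J(q^d))`
    rw [Subfield.closure_le, Set.singleton_subset_iff]
    refine Subfield.subset_closure ?_
    have h1 : qExpand k₀ 1 (jqModC k₀) ∈ divisorExpansionsC k₀ N :=
      mem_divisorExpansionsC k₀ N (one_dvd N)
    rwa [qExpand_one_apply] at h1
  · -- `coeffMap` maps `k₀(J)` into `k(J)`
    have hle : Subfield.closure {jqModC k₀} ≤
        (IntermediateField.adjoin k {jqModC k}).toSubfield.comap (coeffMap i) := by
      rw [Subfield.closure_le, Set.singleton_subset_iff]
      show coeffMap i (jqModC k₀) ∈ IntermediateField.adjoin k {jqModC k}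
      rw [hJ]
      exact IntermediateField.subset_adjoin k _ (Set.mem_singleton _)
    exact fun a ha => hle ha
  · -- `E_N(k)` is generated by `k(J)` and the image of `k₀(J(q^d))`
    show (IntermediateField.adjoin k (divisorExpansionsC k N)).toSubfield ≤ _
    rw [IntermediateField.adjoin_toSubfield, Subfield.closure_le]
    rintro x (⟨c, rfl⟩ | ⟨d, hd, hdN, rfl⟩)
    · exact Subfield.subset_closure (Or.inl
        ((IntermediateField.adjoin k {jqModC k}).algebraMap_mem c))
    · refine Subfield.subset_closure (Or.inr ⟨qExpand k₀ d (jqModC k₀), ?_, ?_⟩)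
      · exact Subfield.subset_closure ⟨d, hd, hdN, rfl⟩
      · rw [coeffMap_qExpand, hJ]

end Descent

section Ring

variable {L : Type*} [Field L]

/-- Clearing denominators: a linearly independent family in the subfield generated by `s` can be
replaced by one in any subring containing `s`. -/
theorem exists_linearIndependent_subring (A₀ : Subfield L) (s : Set L) (R₀ : Subring L)
    (hs : s ⊆ R₀) (n : ℕ) (e : Fin n → L) (he : ∀ i, e i ∈ Subfield.closure s)
    (hli : LinearIndependent A₀ e) :
    ∃ e' : Fin n → L, (∀ i, e' i ∈ R₀) ∧ LinearIndependent A₀ e' := by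
  classical
  have hcl : Subring.closure s ≤ R₀ := Subring.closure_le.mpr hs
  have hrep : ∀ i, ∃ y ∈ Subring.closure s, ∃ z ∈ Subring.closure s, z ≠ 0 ∧ y = e i * z := by
    intro i
    obtain ⟨y, hy, z, hz, hyz⟩ := Subfield.mem_closure_iff.mp (he i)
    by_cases hz0 : z = 0
    · refine ⟨0, zero_mem _, 1, one_mem _, one_ne_zero, ?_⟩
      rw [← hyz, hz0, div_zero, zero_mul]
    · exact ⟨y, hy, z, hz, hz0, by rw [← hyz, div_mul_cancel₀ _ hz0]⟩
  choose y hy z hz hz0 hyz using hrep
  set D : L := ∏ i, z i with hD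
  have hD0 : D ≠ 0 := Finset.prod_ne_zero_iff.mpr fun i _ => hz0 i
  refine ⟨fun i => D * e i, fun i => ?_, ?_⟩
  · have : D * e i = y i * ∏ j ∈ Finset.univ.erase i, z j := by
      rw [hD, ← Finset.mul_prod_erase Finset.univ z (Finset.mem_univ i), hyz i]
      ring
    show D * e i ∈ R₀
    rw [this]
    exact hcl (mul_mem (hy i) (prod_mem fun j _ => hz j))
  · exact hli.map' (LinearMap.mulLeft A₀ D)
      (LinearMap.ker_eq_bot.mpr (mul_right_injective₀ hD0))

end Ring

section Main

variable (ℓ : ℕ) [Fact ℓ.Prime] (N : ℕ)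

/-- The ring version of `Defs.IgusaBound`: the family lies in the `𝔽_ℓ`-algebra generated by the
`J(q^d)`, `d ∣ N`. -/
def IgusaBoundRing (n : ℕ) : Prop :=
  ∃ e : Fin n → LaurentSeries (ZMod ℓ),
    (∀ i, e i ∈ Algebra.adjoin (ZMod ℓ) (divisorExpansionsC (ZMod ℓ) N)) ∧
      LinearIndependent ↥(Subfield.closure {jqModC (ZMod ℓ)}) e

variable {ℓ N}

theorem IgusaBound.mono {n n' : ℕ} (h : IgusaBound ℓ N n) (hn : n' ≤ n) : IgusaBound ℓ N n' := by
  obtain ⟨e, he, hli⟩ := h
  exact ⟨fun i => e (Fin.castLE hn i), fun i => he _,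
    hli.comp (Fin.castLE hn) (Fin.castLE_injective hn)⟩

theorem IgusaBoundRing.mono {n n' : ℕ} (h : IgusaBoundRing ℓ N n) (hn : n' ≤ n) :
    IgusaBoundRing ℓ N n' := by
  obtain ⟨e, he, hli⟩ := h
  exact ⟨fun i => e (Fin.castLE hn i), fun i => he _,
    hli.comp (Fin.castLE hn) (Fin.castLE_injective hn)⟩

theorem IgusaBound.ring {n : ℕ} (h : IgusaBound ℓ N n) : IgusaBoundRing ℓ N n := by
  obtain ⟨e, he, hli⟩ := h
  exact exists_linearIndependent_subring _ (divisorExpansionsC (ZMod ℓ) N)
    (Algebra.adjoin (ZMod ℓ) (divisorExpansionsC (ZMod ℓ) N)).toSubring Algebra.subset_adjoin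
    n e he hli

variable (ℓ N)

/-- **Igusa's bound from the (STEP) conclusion** over any field `k` of characteristic `ℓ`. -/
theorem igusaBound_of_psiLeRelrank [NeZero N] (k : Type*) [Field k] [Algebra (ZMod ℓ) k]
    (h : PsiLeRelrank k N) : IgusaBound ℓ N (dedekindPsi N) := by
  have hKE : IntermediateField.adjoin k {jqModC k} ≤ modularFunctionFieldFullC k N := by
    rw [IntermediateField.adjoin_le_iff, Set.singleton_subset_iff]
    exact jqModC_mem_full k N
  obtain ⟨f, hf, hfi⟩ := exists_linearIndependent_of_le_relrank _ _ hKE (dedekindPsi N) h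
  exact exists_linearIndependent_descent (algebraMap (ZMod ℓ) k) N _ f hf hfi

/-- `N ≠ 0` in the algebraic closure of `𝔽_ℓ` when `ℓ ∤ N`. -/
theorem natCast_ne_zero_algClosure (h : ¬ ℓ ∣ N) :
    ((N : ℕ) : AlgebraicClosure (ZMod ℓ)) ≠ 0 := by
  rw [Ne, CharP.cast_eq_zero_iff (AlgebraicClosure (ZMod ℓ)) ℓ]
  exact h

end Main

end Fermat.Agent.S28.IgusaCore
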