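/-
PROJECT F (S28) (helper27): wiring of the prime chain (`S28/IntegralChain`) to the prime-level
modular equation (`S28/ModPolyIntRel`, helper28): from the integer specialisations `hmod` of the
level-one norm (`S28/ModEqForm`, for every prime) to `j(q^d)` integral over `ℤ[j]`.
-/
import Mathlib
import Fermat.Agent.S28.IntegralChain
import Fermat.Agent.S28.ModPolyIntRel

set_option autoImplicit false

noncomputable section

namespace Fermat.Agent.S28.IntegralChainMod

open ModularCurve ModularCurve.IgusaScheme Fermat.Agent.S16.PowerSeriesNorm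
open Fermat.Agent.S28.IntegralChain Fermat.Agent.S28.DegreeQ

/-- the statement of `S28/ModEqForm.hmod` for the prime `p`. -/
def HMod (p : ℕ) [NeZero p] : Prop :=
  ∀ x : ℤ, ∃ P : Polynomial ℤ,
    Polynomial.aeval (jqModC ℤ) P =
      (HahnSeries.C x - qExpand ℤ p (jqModC ℤ)) *
        (HahnSeries.single (-1 : ℤ) (1 : ℤ) * HahnSeries.ofPowerSeries ℤ ℤ
          (normP p (PowerSeries.C x * PowerSeries.X - jNum)))

theorem hasIntRel_of_hmod (p : ℕ) [NeZero p] (hmod : HMod p) : HasIntRel p :=
  HasIntRel.of_aeval (ModPolyIntRel.exists_monic_eval₂_eq_zero p hmod)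

variable (hmod : ∀ p : ℕ, p.Prime → ∀ [NeZero p], HMod p)
include hmod

/-- **`j(q^d)` is integral over `ℤ[j]`** in `ℚ((q))`, for any `ℤ`-algebra structure on `ℚ((q))`
(= the hypothesis `hint` of `S28/ChartKernel`). -/
theorem isIntegral_jq_div [inst : Algebra ℤ (LaurentSeries ℚ)] (d : ℕ) [NeZero d] :
    IsIntegral (Algebra.adjoin ℤ ({jq} : Set (LaurentSeries ℚ))) (qExpand ℚ d jq) :=
  IntegralChain.isIntegral_jq_div (fun p hp _ => hasIntRel_of_hmod p (hmod p hp)) d

/-- **`j(q^d)`, `d ∣ N`, is integral over `ℤ[j]` inside `F`**, for any `ℤ`-algebra structure. -/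
theorem isIntegral_jdF (N : ℕ) [NeZero N] [inst : Algebra ℤ ↥(modularFunctionFieldFull N)]
    (d : {d : ℕ // d ∣ N}) :
    IsIntegral (Algebra.adjoin ℤ ({jFull N} : Set ↥(modularFunctionFieldFull N))) (jdF N d) :=
  IntegralChain.isIntegral_jdF (fun p hp _ => hasIntRel_of_hmod p (hmod p hp)) N d

/-- subring spelling. -/
theorem isIntegral_jdF_closure (N : ℕ) [NeZero N] (d : {d : ℕ // d ∣ N}) :
    IsIntegral (Subring.closure ({jFull N} : Set ↥(modularFunctionFieldFull N))) (jdF N d) :=
  IntegralChain.isIntegral_jdF_closure (fun p hp _ => hasIntRel_of_hmod p (hmod p hp)) N d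

end Fermat.Agent.S28.IntegralChainMod
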