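import Mathlib
import Fermat.Prelude.Def_ModularCurve_JqCoeff
import Fermat.Agent.S16.UB3.LevelOneMod3
import Fermat.Agent.S28.PolyJInt

/-!
# Level-one forms of weight `12 i` with integer `q`-expansion are `Δ ^ i • P(j)`, `P ∈ ℤ[X]`

* `exists_coeffs` : the power-series form (no division): the integer `q`-expansion `f` of a
  level-one form of weight `12 i` is `∑ m ≤ i, c m • Qz ^ (3 m) * DeltaZ ^ (i - m)`, `c m : ℤ`.
* `exists_poly` : generic target ring: for `φ : ℤ⟦X⟧ →+* A` and `jA : A` with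
  `jA * φ DeltaZ = φ (Qz ^ 3)`, we get `P : ℤ[X]` of degree `≤ i` with
  `φ f = φ DeltaZ ^ i * aeval jA P`.
* `coeff_aeval_jqModC`, `aeval_jqModC_injective`, `exists_map_eq_of_aeval_jqModC` : the
  statements of `Fermat.Agent.S28.PolyJInt` for the prelude series `ModularCurve.jqModC K`:
  the coefficient of `q ^ (-n)` in `P(j)` is `P.coeff n` when `deg P ≤ n`; `P ↦ P(j)` is
  injective; if all `q`-coefficients of `P(j)`, `P ∈ K'[X]`, come from `ι : K →+* K'`, then
  `P` comes from `K[X]`.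
-/

set_option autoImplicit false

open UpperHalfPlane ModularForm ModularFormClass MatrixGroups

namespace Fermat.Agent.S28.PolyJ

open PowerSeries Fermat.Agent.S16.WT Fermat.Agent.S16.UB3.LevelOneMod3

/-- **(J1)** Power-series form. -/
theorem exists_coeffs (i : ℕ) : ∀ {k : ℤ} (_ : k = 12 * (i : ℤ)) (F : ModularForm 𝒮ℒ k)
    (f : ℤ⟦X⟧) (_ : f.map (Int.castRingHom ℂ) = qExpansion 1 F),
    ∃ c : ℕ → ℤ, f = ∑ m ∈ Finset.range (i + 1), C (c m) * (Qz ^ (3 * m) * DeltaZ ^ (i - m)) := by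
  induction i with
  | zero =>
    intro k hk F f hf
    obtain ⟨H, h, hh, hfeq⟩ := exists_div_DeltaZ 0 0 (by simpa using hk) F f hf
    have hH : (H : ℍ → ℂ) = 0 :=
      ModularFormClass.levelOne_neg_weight_eq_zero (by subst hk; norm_num) H
    have h0 : h = 0 := eq_zero_of_coe_eq_zero H h hh hH
    refine ⟨fun _ => constantCoeff f, ?_⟩
    rw [hfeq, h0]
    simp
  | succ i ih =>
    intro k hk F f hf
    obtain ⟨H, h, hh, hfeq⟩ := exists_div_DeltaZ (3 * (i + 1)) 0
      (by subst hk; push_cast; ring) F f hf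
    obtain ⟨c, hc⟩ := ih (k := k - 12) (by subst hk; push_cast; ring) H h hh
    refine ⟨fun m => if m = i + 1 then constantCoeff f else c m, ?_⟩
    rw [Finset.sum_range_succ]
    beta_reduce
    rw [if_pos rfl, Nat.sub_self, pow_zero, mul_one]
    have hsum : ∑ m ∈ Finset.range (i + 1),
        C (if m = i + 1 then constantCoeff f else c m) * (Qz ^ (3 * m) * DeltaZ ^ (i + 1 - m))
        = DeltaZ * h := by
      rw [hc, Finset.mul_sum]
      refine Finset.sum_congr rfl fun m hm => ?_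
      have hm' : m < i + 1 := Finset.mem_range.mp hm
      rw [if_neg (by omega), show i + 1 - m = (i - m) + 1 by omega, pow_succ]
      ring
    rw [hsum]
    conv_lhs => rw [hfeq]
    rw [pow_zero, mul_one]
    ring

/-- **(J1')** The same with `(Qz ^ 3) ^ m`. -/
theorem exists_coeffs' (i : ℕ) {k : ℤ} (hk : k = 12 * (i : ℤ)) (F : ModularForm 𝒮ℒ k)
    (f : ℤ⟦X⟧) (hf : f.map (Int.castRingHom ℂ) = qExpansion 1 F) :
    ∃ c : ℕ → ℤ, f = ∑ m ∈ Finset.range (i + 1), C (c m) * ((Qz ^ 3) ^ m * DeltaZ ^ (i - m)) := by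
  obtain ⟨c, hc⟩ := exists_coeffs i hk F f hf
  refine ⟨c, hc.trans (Finset.sum_congr rfl fun m _ => ?_)⟩
  rw [pow_mul]

/-- **(J3)** Generic target ring: if `jA * φ Δ = φ (Q ^ 3)` then the image of the integer
`q`-expansion of a level-one form of weight `12 i` is `φ Δ ^ i * P(jA)` with `P ∈ ℤ[X]` of
degree `≤ i`. -/
theorem exists_poly {A : Type*} [CommRing A] (φ : ℤ⟦X⟧ →+* A) (jA : A)
    (hj : jA * φ DeltaZ = φ (Qz ^ 3)) (i : ℕ) {k : ℤ} (hk : k = 12 * (i : ℤ))
    (F : ModularForm 𝒮ℒ k) (f : ℤ⟦X⟧) (hf : f.map (Int.castRingHom ℂ) = qExpansion 1 F) :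
    ∃ P : Polynomial ℤ, P.natDegree ≤ i ∧ φ f = φ DeltaZ ^ i * Polynomial.aeval jA P := by
  obtain ⟨c, hc⟩ := exists_coeffs' i hk F f hf
  refine ⟨∑ m ∈ Finset.range (i + 1), Polynomial.C (c m) * Polynomial.X ^ m, ?_, ?_⟩
  · refine Polynomial.natDegree_sum_le_of_forall_le _ _ fun m hm => ?_
    have hm' : m < i + 1 := Finset.mem_range.mp hm
    exact (Polynomial.natDegree_C_mul_X_pow_le (c m) m).trans (by omega)
  · rw [hc, map_sum, map_sum, Finset.mul_sum]
    refine Finset.sum_congr rfl fun m hm => ?_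
    have hm' : m < i + 1 := Finset.mem_range.mp hm
    have hC : φ (C (c m)) = ((c m : ℤ) : A) := by
      rw [show (C (c m) : ℤ⟦X⟧) = ((c m : ℤ) : ℤ⟦X⟧) from (map_intCast (C (R := ℤ)) (c m)),
        map_intCast]
    rw [map_mul (f := φ), map_mul (f := φ), map_pow (f := φ) (Qz ^ 3), map_pow (f := φ) DeltaZ, hC,
      ← hj, map_mul, map_pow, Polynomial.aeval_C,
      Polynomial.aeval_X, algebraMap_int_eq, eq_intCast]
    have hpow : φ DeltaZ ^ i = φ DeltaZ ^ (i - m) * φ DeltaZ ^ m := by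
      rw [← pow_add]; congr 1; omega
    rw [hpow, mul_pow]
    ring

/-- **(J3')** The weight-`12 i` hypothesis spelled with `k := 12 * i` literally. -/
theorem exists_poly' {A : Type*} [CommRing A] (φ : ℤ⟦X⟧ →+* A) (jA : A)
    (hj : jA * φ DeltaZ = φ (Qz ^ 3)) (i : ℕ)
    (F : ModularForm 𝒮ℒ (12 * (i : ℤ))) (f : ℤ⟦X⟧)
    (hf : f.map (Int.castRingHom ℂ) = qExpansion 1 F) :
    ∃ P : Polynomial ℤ, P.natDegree ≤ i ∧ φ f = φ DeltaZ ^ i * Polynomial.aeval jA P :=
  exists_poly φ jA hj i rfl F f hf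

/-! ### Polynomials in the prelude series `jqModC` -/

section JqModC

open ModularCurve

theorem constantCoeff_jNum_map (K : Type*) [CommRing K] :
    constantCoeff (jNum.map (Int.castRingHom K)) = 1 := by
  rw [← coeff_zero_eq_constantCoeff_apply, coeff_map, coeff_zero_eq_constantCoeff_apply,
    constantCoeff_jNum, map_one]

theorem jNum_map_map {K K' : Type*} [CommRing K] [CommRing K'] (ι : K →+* K') :
    (jNum.map (Int.castRingHom K)).map ι = jNum.map (Int.castRingHom K') := by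
  ext n
  rw [coeff_map, coeff_map, coeff_map, eq_intCast, eq_intCast, map_intCast]

/-- For `P.natDegree ≤ n`, the coefficient of `q ^ (-n)` in `P(j)` is `P.coeff n`. -/
theorem coeff_aeval_jqModC (K : Type*) [CommRing K] (P : Polynomial K) (n : ℕ)
    (hP : P.natDegree ≤ n) :
    (Polynomial.aeval (jqModC K) P).coeff (-(n : ℤ)) = P.coeff n :=
  PolyJInt.coeff_aeval_neg _ (constantCoeff_jNum_map K) P n hP

/-- `P ↦ P(j)` is injective, over any commutative ring. -/
theorem aeval_jqModC_injective (K : Type*) [CommRing K] :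
    Function.Injective (Polynomial.aeval (jqModC K) : Polynomial K → LaurentSeries K) :=
  PolyJInt.aeval_injective _ (constantCoeff_jNum_map K)

/-- **(J4)** If `P ∈ K'[X]` and all `q`-coefficients of `P(j)` are in the range of
`ι : K →+* K'`, then `P` is the image of a polynomial over `K`. -/
theorem exists_map_eq_of_aeval_jqModC {K K' : Type*} [CommRing K] [CommRing K'] (ι : K →+* K')
    (P : Polynomial K')
    (hP : ∀ n, (Polynomial.aeval (jqModC K') P).coeff n ∈ ι.range) :
    ∃ P' : Polynomial K, P'.map ι = P := by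
  refine PolyJInt.exists_map_eq_of_aeval ι (jNum.map (Int.castRingHom K))
    (constantCoeff_jNum_map K) P ?_
  rw [jNum_map_map]
  exact hP

end JqModC

end Fermat.Agent.S28.PolyJ
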