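/-
PROJECT F (S28), modular input of the prime-level modular equation (helper8).

For a level-one form `G` of weight `12` with integer `q`-expansion `g`, the level-one norm of
`G(p·) ∈ M_12(Γ₀(p))`, rescaled by `p^(12 p)`, is a level-one form of weight `12 (p + 1)` with
`q`-expansion `expand p g * normP p g`  (`normP` = the formal norm of `S16/PowerSeriesNorm`).
-/
import Mathlib
import Fermat.Agent.S16.ConjExpansion
import Fermat.Agent.S16.WpLevelOne
import Fermat.Agent.S16.UB3.LevelOneMod3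
import Fermat.Agent.S28.PolyJ

set_option autoImplicit false
set_option linter.unusedSectionVars false

noncomputable section

namespace Fermat.Agent.S28.NormForm

open UpperHalfPlane SlashInvariantForm CongruenceSubgroup ModularGroup ModularForm
open Fermat.Agent.S20 Fermat.Agent.S16.Trace Fermat.Agent.S16.Conjugates
open Fermat.Agent.S23.QRing Fermat.Agent.S16.PowerSeriesNorm Fermat.Agent.S23.CharPoly
open Fermat.Agent.S16.ConjExpansion Fermat.Agent.S16.WpLevelOne
open Fermat.Agent.S24.LevelRaise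

open scoped ModularForm Manifold MatrixGroups

variable {p : ℕ} [hp : Fact p.Prime] {k : ℤ}

/-- The top elementary symmetric function (the norm) on `q`-expansions. -/
theorem qx_esymmForm_top (F : ModularForm (G0 p) k) :
    qx ⇑(esymmForm 𝒮ℒ F (p + 1)) = qx ⇑F * normP p (psiOf k p ⇑F) := by
  rw [qx_esymmForm F le_rfl, Nat.sub_self, Polynomial.mul_coeff_zero, Polynomial.coeff_sub,
    Polynomial.coeff_X_zero, Polynomial.coeff_C_zero, normP,
    Matrix.det_eq_sign_charpoly_coeff, Fintype.card_fin]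
  rw [pow_succ]
  ring

/-! ### The norm of a raised level-one form -/

theorem normP_C_mul (c : ℂ) (h : PowerSeries ℂ) :
    normP p (PowerSeries.C c * h) = (PowerSeries.C c) ^ p * normP p h := by
  have hp0 : p ≠ 0 := hp.out.ne_zero
  have h1 : (PowerSeries.C c : PowerSeries ℂ) = PowerSeries.expand p hp0 (PowerSeries.C c) := by
    rw [← PowerSeries.algebraMap_eq, AlgHom.commutes]
  rw [normP_mul p hp0]
  conv_lhs => rw [h1, normP_expand p hp0]

/-- `ψ` of a raised level-one form. -/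
theorem psiOf_raise (G : ModularForm 𝒮ℒ k) :
    psiOf k p ⇑(raise p p dvd_rfl G) = (((p : ℂ) ^ (-k)) * (-1) ^ k) • qx ⇑G := by
  have hpC : (p : ℂ) ≠ 0 := by exact_mod_cast hp.out.ne_zero
  rw [psiOf_eq (IsMF.coe (raise p p dvd_rfl G)), wp_raise, qx_smul _ (isQ_of_levelOne G), smul_smul]
  congr 1
  rw [← mul_assoc, ← zpow_neg_one, ← zpow_add₀ hpC]
  congr 2
  ring

/-- `q`-expansion of the norm of a raised level-one form. -/
theorem qx_norm_raise (G : ModularForm 𝒮ℒ k) :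
    qx ⇑(esymmForm 𝒮ℒ (raise p p dvd_rfl G) (p + 1))
      = PowerSeries.C ((((p : ℂ) ^ (-k)) * (-1) ^ k) ^ p) *
          (PowerSeries.expand p hp.out.ne_zero (qx ⇑G) * normP p (qx ⇑G)) := by
  rw [qx_esymmForm_top, psiOf_raise, PowerSeries.smul_eq_C_mul, normP_C_mul, ← map_pow]
  have h1 : qx ⇑(raise p p dvd_rfl G) = PowerSeries.expand p hp.out.ne_zero (qx ⇑G) :=
    qx_raise p G
  rw [h1]
  ring

/-- **(N1)** For a level-one form `G` of weight `12` with integer `q`-expansion `g`, there is a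
level-one form of weight `12 (p + 1)` with `q`-expansion `expand p g * normP p g`. -/
theorem exists_normForm (G : ModularForm 𝒮ℒ 12) (g : PowerSeries ℤ)
    (hg : g.map (Int.castRingHom ℂ) = qExpansion 1 ⇑G) :
    ∃ Nf : ModularForm 𝒮ℒ (12 * ((p + 1 : ℕ) : ℤ)),
      qExpansion 1 ⇑Nf =
        (PowerSeries.expand p hp.out.ne_zero g * normP p g).map (Int.castRingHom ℂ) := by
  have hpC : (p : ℂ) ≠ 0 := by exact_mod_cast hp.out.ne_zero
  refine ⟨((p : ℂ) ^ (12 * p)) • esymmForm 𝒮ℒ (raise p p dvd_rfl G) (p + 1), ?_⟩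
  have h0 : (⇑(((p : ℂ) ^ (12 * p)) • esymmForm 𝒮ℒ (raise p p dvd_rfl G) (p + 1)) : ℍ → ℂ)
      = ((p : ℂ) ^ (12 * p)) • ⇑(esymmForm 𝒮ℒ (raise p p dvd_rfl G) (p + 1)) := rfl
  have h1 := qx_norm_raise (p := p) G
  rw [qx] at h1
  rw [h0]
  have h2 := qx_smul ((p : ℂ) ^ (12 * p)) (isQ_of_levelOne (esymmForm 𝒮ℒ (raise p p dvd_rfl G) (p + 1)))
  rw [qx, qx] at h2
  rw [h2, h1, PowerSeries.smul_eq_C_mul, ← mul_assoc, ← map_mul]
  have h3 : (p : ℂ) ^ (12 * p) * (((p : ℂ) ^ (-(12 : ℤ))) * (-1) ^ (12 : ℤ)) ^ p = 1 := by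
    have : ((-1 : ℂ)) ^ (12 : ℤ) = 1 := by norm_num
    rw [this, mul_one, ← zpow_natCast ((p : ℂ) ^ (-(12 : ℤ))) p, ← zpow_mul,
      ← zpow_natCast (p : ℂ) (12 * p), ← zpow_add₀ hpC]
    have : ((12 * p : ℕ) : ℤ) + -(12 : ℤ) * (p : ℤ) = 0 := by push_cast; ring
    rw [this, zpow_zero]
  rw [h3, map_one, one_mul, map_mul, ← normP_map, PowerSeries.map_expand, hg]
  rfl

/-! ### (N2): the norm is an integer combination of `Q^(3m) Δ^(p+1-m)` -/

open Fermat.Agent.S16.WT Fermat.Agent.S16.UB3.LevelOneMod3 in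
/-- **(N2)** For a level-one form `G` of weight `12` with integer `q`-expansion `g`,
`expand p g * normP p g` is an integer combination of `Q^(3m) Δ^(p+1-m)`, `m ≤ p + 1`. -/
theorem norm_mem_span (G : ModularForm 𝒮ℒ 12) (g : PowerSeries ℤ)
    (hg : g.map (Int.castRingHom ℂ) = qExpansion 1 ⇑G) :
    ∃ c : ℕ → ℤ, PowerSeries.expand p hp.out.ne_zero g * normP p g =
      ∑ m ∈ Finset.range (p + 2),
        PowerSeries.C (c m) * (Qz ^ (3 * m) * DeltaZ ^ (p + 1 - m)) := by
  obtain ⟨Nf, hNf⟩ := exists_normForm (p := p) G g hg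
  exact Fermat.Agent.S28.PolyJ.exists_coeffs (p + 1) rfl Nf _ hNf.symm

/-! ### (N3): the two instances -/

section Instances

open Fermat.Agent.S16.WT Fermat.Agent.S16.UB3.LevelOneMod3

/-- The level-one form `x Δ - E₄³` of weight `12`. -/
def formX (x : ℤ) : ModularForm 𝒮ℒ 12 :=
  ((x : ℂ)) • Fermat.Agent.S24.LevelRaise.DeltaMF - Fermat.Agent.S24.LevelRaise.E4cube

theorem map_DeltaZ' :
    DeltaZ.map (Int.castRingHom ℂ) = qExpansion 1 ⇑Fermat.Agent.S24.LevelRaise.DeltaMF :=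
  map_DeltaZ

theorem map_Qz_cube :
    (Qz ^ 3).map (Int.castRingHom ℂ) = qExpansion 1 ⇑Fermat.Agent.S24.LevelRaise.E4cube := by
  have h : qExpansion 1 ⇑Fermat.Agent.S24.LevelRaise.E4cube = qExpansion 1 ⇑(E₄.pow 3) := rfl
  rw [h, ModularForm.qExpansion_pow one_pos one_mem_strictPeriods_SL, map_pow, map_Qz]

theorem map_formX (x : ℤ) :
    (PowerSeries.C x * DeltaZ - Qz ^ 3).map (Int.castRingHom ℂ) = qExpansion 1 ⇑(formX x) := by
  rw [formX, FunLike.coe_sub, ModularForm.qExpansion_sub one_pos one_mem_strictPeriods_SL,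
    FunLike.coe_smul, ModularForm.qExpansion_smul one_pos one_mem_strictPeriods_SL, map_sub,
    map_mul, map_DeltaZ', map_Qz_cube, PowerSeries.map_C, PowerSeries.smul_eq_C_mul, eq_intCast]

/-- **(N3a)** the norm of `x Δ - E₄³`, `x ∈ ℤ`. -/
theorem norm_formX_mem_span (x : ℤ) :
    ∃ c : ℕ → ℤ,
      PowerSeries.expand p hp.out.ne_zero (PowerSeries.C x * DeltaZ - Qz ^ 3) *
          normP p (PowerSeries.C x * DeltaZ - Qz ^ 3) =
        ∑ m ∈ Finset.range (p + 2),
          PowerSeries.C (c m) * (Qz ^ (3 * m) * DeltaZ ^ (p + 1 - m)) :=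
  norm_mem_span (formX x) _ (map_formX x)

/-- **(N3b)** the norm of `Δ`. -/
theorem norm_Delta_mem_span :
    ∃ c : ℕ → ℤ,
      PowerSeries.expand p hp.out.ne_zero DeltaZ * normP p DeltaZ =
        ∑ m ∈ Finset.range (p + 2),
          PowerSeries.C (c m) * (Qz ^ (3 * m) * DeltaZ ^ (p + 1 - m)) :=
  norm_mem_span Fermat.Agent.S24.LevelRaise.DeltaMF _ map_DeltaZ'

end Instances

end Fermat.Agent.S28.NormForm
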