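import Mathlib
import Fermat.Agent.S28.PolyJ

/-!
# Polynomials in `j = q⁻¹ + ⋯` : descent of divisibility

Let `S` be a commutative ring, `I` an ideal of `S` and `j = q⁻¹ * g(q)` a Laurent series over `S`
with `g(0) = 1`.

* `coeff_mem_ideal_of_aeval_mem` : if all coefficients of `P(j)` are in `I`, then all coefficients
  of `P` are in `I`.
* `exists_eq_C_mul_of_aeval` : if `P₀(j) = c • Y` then `P₀ = c • P` with `deg P ≤ deg P₀`, and
  `P(j) = Y` when `c` is a non-zero-divisor.
* `exists_eq_C_mul_of_aeval_jqModC`, `exists_eq_C_mul_of_aeval_jqModC_int` : the same for the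
  prelude series `ModularCurve.jqModC K` (resp. `K = ℤ`, `c ≠ 0`).
-/

set_option autoImplicit false

namespace Fermat.Agent.S28.PolyJIdeal

open HahnSeries Fermat.Agent.S28.PolyJInt

variable {S : Type*} [CommRing S]

theorem coeff_C_mul (a : S) (x : LaurentSeries S) (n : ℤ) :
    (HahnSeries.C a * x).coeff n = a * x.coeff n := by
  rw [← algebraMap_eq_C, coeff_algebraMap_mul]

section

variable (g : PowerSeries S)

/-- If all coefficients of `P(j)` are in the ideal `I`, then all coefficients of `P` are in `I`. -/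
theorem coeff_mem_ideal_of_aeval_mem (hg : PowerSeries.constantCoeff g = 1) (I : Ideal S)
    (P : Polynomial S)
    (hP : ∀ k, (Polynomial.aeval
      (HahnSeries.single (-1 : ℤ) (1 : S) * HahnSeries.ofPowerSeries ℤ S g) P).coeff k ∈ I) :
    ∀ m, P.coeff m ∈ I := by
  set j : LaurentSeries S :=
    HahnSeries.single (-1 : ℤ) (1 : S) * HahnSeries.ofPowerSeries ℤ S g with hjdef
  have key : ∀ n : ℕ, ∀ P : Polynomial S, P.natDegree ≤ n →
      (∀ k, (Polynomial.aeval j P).coeff k ∈ I) → ∀ m, P.coeff m ∈ I := by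
    intro n
    induction n with
    | zero =>
      intro P hdeg hP m
      have h0 : P.coeff 0 ∈ I := by
        have := coeff_aeval_neg g hg P 0 hdeg
        rw [← this]
        exact hP _
      rcases Nat.eq_zero_or_pos m with rfl | hm
      · exact h0
      · rw [Polynomial.coeff_eq_zero_of_natDegree_lt (by omega)]
        exact I.zero_mem
    | succ n ih =>
      intro P hdeg hP m
      have ha : P.coeff (n + 1) ∈ I := by
        have := coeff_aeval_neg g hg P (n + 1) hdeg
        rw [← this]
        exact hP _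
      have hdeg' : (P.erase (n + 1)).natDegree ≤ n := by
        rw [Polynomial.natDegree_le_iff_coeff_eq_zero]
        intro N hN
        rw [Polynomial.coeff_erase]
        split_ifs with h
        · rfl
        · exact Polynomial.coeff_eq_zero_of_natDegree_lt (by omega)
      have hsplit : Polynomial.aeval j (P.erase (n + 1))
          = Polynomial.aeval j P - HahnSeries.C (P.coeff (n + 1)) * j ^ (n + 1) := by
        have h := congrArg (Polynomial.aeval j) (Polynomial.monomial_add_erase P (n + 1))
        rw [map_add, Polynomial.aeval_monomial] at h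
        rw [← h, algebraMap_eq_C]
        ring
      have hP' : ∀ k, (Polynomial.aeval j (P.erase (n + 1))).coeff k ∈ I := by
        intro k
        rw [hsplit, HahnSeries.coeff_sub, coeff_C_mul]
        exact I.sub_mem (hP k) (I.mul_mem_right _ ha)
      have := ih (P.erase (n + 1)) hdeg' hP' m
      rw [Polynomial.coeff_erase] at this
      split_ifs at this with h
      · rw [h]; exact ha
      · exact this
  exact key P.natDegree P le_rfl hP

/-- If `P₀(j) = c • Y` then `P₀ = c • P` with `deg P ≤ deg P₀`; if moreover `c` is a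
non-zero-divisor then `P(j) = Y`. -/
theorem exists_eq_C_mul_of_aeval (hg : PowerSeries.constantCoeff g = 1) (c : S)
    (P₀ : Polynomial S) (Y : LaurentSeries S)
    (h : Polynomial.aeval
      (HahnSeries.single (-1 : ℤ) (1 : S) * HahnSeries.ofPowerSeries ℤ S g) P₀
        = HahnSeries.C c * Y) :
    ∃ P : Polynomial S, P₀ = Polynomial.C c * P ∧ P.natDegree ≤ P₀.natDegree ∧
      (c ∈ nonZeroDivisors S → Polynomial.aeval
        (HahnSeries.single (-1 : ℤ) (1 : S) * HahnSeries.ofPowerSeries ℤ S g) P = Y) := by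
  classical
  set j : LaurentSeries S :=
    HahnSeries.single (-1 : ℤ) (1 : S) * HahnSeries.ofPowerSeries ℤ S g with hjdef
  have hmem : ∀ m, P₀.coeff m ∈ Ideal.span {c} := by
    refine coeff_mem_ideal_of_aeval_mem g hg (Ideal.span {c}) P₀ fun k => ?_
    rw [h, coeff_C_mul]
    exact Ideal.mem_span_singleton.mpr (dvd_mul_right c _)
  have hdvd : ∀ m, ∃ b, P₀.coeff m = c * b := fun m =>
    Ideal.mem_span_singleton.mp (hmem m)
  choose b hb using hdvd
  set P : Polynomial S := ∑ m ∈ Finset.range (P₀.natDegree + 1), Polynomial.monomial m (b m)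
    with hPdef
  have hPP : P₀ = Polynomial.C c * P := by
    rw [hPdef, Finset.mul_sum]
    conv_lhs => rw [P₀.as_sum_range]
    refine Finset.sum_congr rfl fun m _ => ?_
    rw [Polynomial.C_mul_monomial, hb m]
  have hdeg : P.natDegree ≤ P₀.natDegree := by
    rw [hPdef]
    refine Polynomial.natDegree_sum_le_of_forall_le _ _ fun m hm => ?_
    have hm' : m < P₀.natDegree + 1 := Finset.mem_range.mp hm
    exact (Polynomial.natDegree_monomial_le _).trans (by omega)
  refine ⟨P, hPP, hdeg, fun hc => ?_⟩
  have h2 : HahnSeries.C c * Polynomial.aeval j P = HahnSeries.C c * Y := by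
    rw [← h, hPP, map_mul, Polynomial.aeval_C, algebraMap_eq_C]
  ext k
  have h3 := congrArg (fun x : LaurentSeries S => x.coeff k) h2
  simp only [coeff_C_mul] at h3
  have h4 : c * ((Polynomial.aeval j P).coeff k - Y.coeff k) = 0 := by
    rw [mul_sub, h3, sub_self]
  have := (mem_nonZeroDivisors_iff.mp hc).1 _ h4
  exact sub_eq_zero.mp this

end

/-- The statement for the prelude series `jqModC K`. -/
theorem exists_eq_C_mul_of_aeval_jqModC (K : Type*) [CommRing K] (c : K)
    (P₀ : Polynomial K) (Y : LaurentSeries K)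
    (h : Polynomial.aeval (ModularCurve.jqModC K) P₀ = HahnSeries.C c * Y) :
    ∃ P : Polynomial K, P₀ = Polynomial.C c * P ∧ P.natDegree ≤ P₀.natDegree ∧
      (c ∈ nonZeroDivisors K → Polynomial.aeval (ModularCurve.jqModC K) P = Y) :=
  exists_eq_C_mul_of_aeval _ (PolyJ.constantCoeff_jNum_map K) c P₀ Y h

/-- Over `ℤ`: if `P₀(j) = c • Y` with `c ≠ 0` then `P₀ = c • P` with `P(j) = Y`. -/
theorem exists_eq_C_mul_of_aeval_jqModC_int (c : ℤ) (hc : c ≠ 0)
    (P₀ : Polynomial ℤ) (Y : LaurentSeries ℤ)
    (h : Polynomial.aeval (ModularCurve.jqModC ℤ) P₀ = HahnSeries.C c * Y) :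
    ∃ P : Polynomial ℤ, P₀ = Polynomial.C c * P ∧ P.natDegree ≤ P₀.natDegree ∧
      Polynomial.aeval (ModularCurve.jqModC ℤ) P = Y := by
  obtain ⟨P, h1, h2, h3⟩ := exists_eq_C_mul_of_aeval_jqModC ℤ c P₀ Y h
  exact ⟨P, h1, h2, h3 (mem_nonZeroDivisors_of_ne_zero hc)⟩

end Fermat.Agent.S28.PolyJIdeal
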