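/-
PROJECT F (S28, Igusa), slice (I) helper lemma (helper25): a scheme covered by two open immersions
from integral schemes whose images meet is integral (reduced stalkwise; irreducible because two
irreducible open sets with nonempty intersection covering a space make it irreducible).
-/
import Mathlib

set_option autoImplicit false

namespace Fermat.Agent.S28.TwoCharts

open AlgebraicGeometry CategoryTheory TopologicalSpace

/-- A space covered by two preirreducible open sets with nonempty intersection is
preirreducible. -/
theorem isPreirreducible_univ_of_two {X : Type*} [TopologicalSpace X] {U V : Set X}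
    (hU : IsOpen U) (hV : IsOpen V) (hcov : U ∪ V = Set.univ) (hUi : IsPreirreducible U)
    (hVi : IsPreirreducible V) (hne : (U ∩ V).Nonempty) : IsPreirreducible (Set.univ : Set X) := by
  -- every nonempty open set meets `U ∩ V`
  have key : ∀ W : Set X, IsOpen W → W.Nonempty → (U ∩ (W ∩ V)).Nonempty := by
    intro W hW ⟨x, hx⟩
    have hxUV : x ∈ U ∪ V := by rw [hcov]; trivial
    rcases hxUV with hxU | hxV
    · exact hUi W V hW hV ⟨x, hxU, hx⟩ (by simpa using hne)
    · obtain ⟨y, hyV, hyW, hyU⟩ := hVi W U hW hU ⟨x, hxV, hx⟩
        (by rw [Set.inter_comm]; exact hne)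
      exact ⟨y, hyU, hyW, hyV⟩
  intro A B hA hB hAne hBne
  rw [Set.univ_inter] at hAne hBne ⊢
  obtain ⟨a, haU, haA, -⟩ := key A hA hAne
  obtain ⟨b, hbU, hbB, -⟩ := key B hB hBne
  obtain ⟨c, -, hc⟩ := hUi A B hA hB ⟨a, haU, haA⟩ ⟨b, hbU, hbB⟩
  exact ⟨c, hc⟩

universe u

/-- A scheme covered by two open immersions from integral schemes whose images meet is
integral. -/
theorem isIntegral_of_two_openImmersions {X Y Z : Scheme.{u}} (f : Y ⟶ X) (g : Z ⟶ X)
    [IsOpenImmersion f] [IsOpenImmersion g] [IsIntegral Y] [IsIntegral Z]
    (hcov : ∀ x : X, x ∈ Set.range f.base ∨ x ∈ Set.range g.base)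
    (hne : ∃ (y : Y) (z : Z), f.base y = g.base z) : IsIntegral X := by
  -- reduced: stalkwise
  have hred : ∀ x : X, _root_.IsReduced (X.presheaf.stalk x) := by
    intro x
    rcases hcov x with ⟨y, rfl⟩ | ⟨z, rfl⟩
    · exact isReduced_of_injective (f.stalkMap y).hom
        (asIso (f.stalkMap y)).commRingCatIsoToRingEquiv.injective
    · exact isReduced_of_injective (g.stalkMap z).hom
        (asIso (g.stalkMap z)).commRingCatIsoToRingEquiv.injective
  have : IsReduced X := isReduced_of_isReduced_stalk X
  -- irreducible
  have hU : IsOpen (Set.range f.base) := f.isOpenEmbedding.isOpen_range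
  have hV : IsOpen (Set.range g.base) := g.isOpenEmbedding.isOpen_range
  have hUi : IsPreirreducible (Set.range f.base) := by
    rw [← Set.image_univ]
    exact (PreirreducibleSpace.isPreirreducible_univ (X := Y)).image f.base
      f.base.hom.continuous.continuousOn
  have hVi : IsPreirreducible (Set.range g.base) := by
    rw [← Set.image_univ]
    exact (PreirreducibleSpace.isPreirreducible_univ (X := Z)).image g.base
      g.base.hom.continuous.continuousOn
  have hcov' : Set.range f.base ∪ Set.range g.base = Set.univ :=
    Set.eq_univ_of_forall hcov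
  obtain ⟨y, z, hyz⟩ := hne
  have hne' : (Set.range f.base ∩ Set.range g.base).Nonempty :=
    ⟨f.base y, ⟨y, rfl⟩, ⟨z, hyz.symm⟩⟩
  have : IrreducibleSpace X :=
    { toPreirreducibleSpace := ⟨isPreirreducible_univ_of_two hU hV hcov' hUi hVi hne'⟩
      toNonempty := ⟨f.base y⟩ }
  exact isIntegral_of_irreducibleSpace_of_isReduced X

end Fermat.Agent.S28.TwoCharts
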